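import Mathlib

/-!
# S18, block A: definitions for the two-chart theorem

`s18_Chart ϖ B` : a noetherian subring `B` of a field `F` with fraction field `F` in which `ϖ` is a
prime element and whose maximal ideals containing `ϖ` are locally generated by `ϖ` and one more
element ("the special fibre is regular at the closed point").

`s18_gauss ϖ B` : the Gauss valuation ring `B_(ϖ)` (as a set), `s18_loc B 𝔪` : the local ring `B_𝔪`.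

`s18_TwoChart π t B0 Binf` : two charts glued along `t`.
-/

set_option autoImplicit false

namespace Fermat.Agent.S18

/-- One chart: a noetherian subring `B` of the field `F` with fraction field `F`, in which `ϖ` is a
prime element, and such that every maximal ideal containing `ϖ` is locally generated by `ϖ` and one
more element. -/
structure s18_Chart {F : Type*} [Field F] (ϖ : F) (B : Subring F) : Prop where
  ϖ_mem : ϖ ∈ B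
  ϖ_ne : ϖ ≠ 0
  noeth : IsNoetherianRing B
  frac : ∀ x : F, ∃ a ∈ B, ∃ b ∈ B, b ≠ 0 ∧ x = a / b
  prime : ∀ x ∈ B, ∀ y ∈ B, ϖ⁻¹ * (x * y) ∈ B → ϖ⁻¹ * x ∈ B ∨ ϖ⁻¹ * y ∈ B
  nonunit : ϖ⁻¹ ∉ B
  reg : ∀ 𝔪 : Ideal B, 𝔪.IsMaximal → (⟨ϖ, ϖ_mem⟩ : B) ∈ 𝔪 →
    ∃ s ∈ 𝔪, ∀ x ∈ 𝔪, ∃ u, u ∉ 𝔪 ∧ u * x ∈ Ideal.span {(⟨ϖ, ϖ_mem⟩ : B), s}

/-- The Gauss valuation ring `B_(ϖ)` as a set. -/
def s18_gauss {F : Type*} [Field F] (ϖ : F) (B : Subring F) : Set F :=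
  {x | ∃ a ∈ B, ∃ b ∈ B, ϖ⁻¹ * b ∉ B ∧ x = a / b}

/-- The local ring `B_𝔪` as a set. -/
def s18_loc {F : Type*} [Field F] (B : Subring F) (𝔪 : Ideal B) : Set F :=
  {x | ∃ a b : B, b ∉ 𝔪 ∧ x = (a : F) / (b : F)}

/-- Two charts glued along `t`. -/
structure s18_TwoChart {A₀ F : Type*} [CommRing A₀] [Field F] [Algebra A₀ F] (π : A₀) (t : F)
    (B0 Binf : Subalgebra A₀ F) : Prop where
  chart0 : s18_Chart (algebraMap A₀ F π) B0.toSubring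
  chartInf : s18_Chart (algebraMap A₀ F π) Binf.toSubring
  t_ne : t ≠ 0
  t_mem : t ∈ B0
  tinv_mem : t⁻¹ ∈ Binf
  t_unit0 : (algebraMap A₀ F π)⁻¹ * t ∉ B0
  t_unitInf : (algebraMap A₀ F π)⁻¹ * t⁻¹ ∉ Binf
  glue0 : ∀ x ∈ B0, ∃ k : ℕ, t⁻¹ ^ k * x ∈ Binf
  glueInf : ∀ x ∈ Binf, ∃ k : ℕ, t ^ k * x ∈ B0
  h1 : ∃ c₁ : ℕ, ∀ c, c₁ ≤ c → ∀ x ∈ B0, ∀ k : ℕ,
    ∃ a ∈ B0, ∃ b ∈ Binf, t⁻¹ ^ k * x = a + t ^ c * b
  fin : ∀ c : ℕ, ∃ s : Finset F, ∀ x ∈ B0, t⁻¹ ^ c * x ∈ Binf →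
    x ∈ Submodule.span A₀ (s : Set F)

end Fermat.Agent.S18
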