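import Mathlib
import Fermat.Agent.S18.ChartDefs

/-!
# S18, block A (AS0): the Gauss ring and the local rings of a chart, as subrings

For `hB : s18_Chart ϖ B`:
* `s18_gaussRing hB : Subring F` with carrier `s18_gauss ϖ B` (the DVR `B_(ϖ)`);
* `s18_locRing B 𝔪 : Subring F` with carrier `s18_loc B 𝔪`;
* `B ≤ locRing ≤ gaussRing` (the latter if `ϖ ∈ 𝔪`), `ϖ`-saturation (`s18_gauss_cap`,
  `s18_loc_cap`), units (`s18_gauss_one_add_inv`, `s18_loc_one_add_inv`), `ϖ`-adic decomposition.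
-/

set_option autoImplicit false

namespace Fermat.Agent.S18

variable {F : Type*} [Field F] {ϖ : F} {B : Subring F}

theorem s18_Chart.not_dvd_mul (hB : s18_Chart ϖ B) {x y : F} (hx : x ∈ B) (hy : y ∈ B)
    (hx' : ϖ⁻¹ * x ∉ B) (hy' : ϖ⁻¹ * y ∉ B) : ϖ⁻¹ * (x * y) ∉ B := fun h =>
  (hB.prime x hx y hy h).elim hx' hy'

theorem s18_Chart.not_dvd_one (hB : s18_Chart ϖ B) : ϖ⁻¹ * 1 ∉ B := by
  rw [mul_one]; exact hB.nonunit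

theorem s18_ne_zero_of_not_dvd {x : F} (hx : ϖ⁻¹ * x ∉ B) : x ≠ 0 := by
  rintro rfl
  exact hx (by rw [mul_zero]; exact B.zero_mem)

theorem s18_Chart.not_dvd_pow (hB : s18_Chart ϖ B) {x : F} (hx : x ∈ B) (hx' : ϖ⁻¹ * x ∉ B)
    (n : ℕ) : ϖ⁻¹ * x ^ n ∉ B := by
  induction n with
  | zero => rw [pow_zero]; exact hB.not_dvd_one
  | succ n ih => rw [pow_succ]; exact hB.not_dvd_mul (B.pow_mem hx n) hx ih hx'

/-- The Gauss ring `B_(ϖ)` as a subring. -/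
def s18_gaussRing (hB : s18_Chart ϖ B) : Subring F where
  carrier := s18_gauss ϖ B
  mul_mem' := by
    rintro x y ⟨a, ha, b, hb, hb', rfl⟩ ⟨c, hc, d, hd, hd', rfl⟩
    exact ⟨a * c, B.mul_mem ha hc, b * d, B.mul_mem hb hd, hB.not_dvd_mul hb hd hb' hd', by
      rw [div_mul_div_comm]⟩
  one_mem' := ⟨1, B.one_mem, 1, B.one_mem, hB.not_dvd_one, by simp⟩
  add_mem' := by
    rintro x y ⟨a, ha, b, hb, hb', rfl⟩ ⟨c, hc, d, hd, hd', rfl⟩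
    refine ⟨a * d + b * c, B.add_mem (B.mul_mem ha hd) (B.mul_mem hb hc), b * d,
      B.mul_mem hb hd, hB.not_dvd_mul hb hd hb' hd', ?_⟩
    rw [div_add_div _ _ (s18_ne_zero_of_not_dvd hb') (s18_ne_zero_of_not_dvd hd')]
  zero_mem' := ⟨0, B.zero_mem, 1, B.one_mem, hB.not_dvd_one, by simp⟩
  neg_mem' := by
    rintro x ⟨a, ha, b, hb, hb', rfl⟩
    exact ⟨-a, B.neg_mem ha, b, hb, hb', by rw [neg_div]⟩

theorem s18_mem_gaussRing (hB : s18_Chart ϖ B) {x : F} :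
    x ∈ s18_gaussRing hB ↔ x ∈ s18_gauss ϖ B := Iff.rfl

theorem s18_le_gaussRing (hB : s18_Chart ϖ B) : B ≤ s18_gaussRing hB := fun x hx =>
  ⟨x, hx, 1, B.one_mem, hB.not_dvd_one, by simp⟩

theorem s18_mem_gauss_of_mem (hB : s18_Chart ϖ B) {x : F} (hx : x ∈ B) : x ∈ s18_gauss ϖ B :=
  s18_le_gaussRing hB hx

theorem s18_ϖ_inv_not_mem_gauss (hB : s18_Chart ϖ B) : ϖ⁻¹ ∉ s18_gauss ϖ B := by
  rintro ⟨a, ha, b, hb, hb', h⟩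
  apply hb'
  have hb0 := s18_ne_zero_of_not_dvd hb'
  have : ϖ⁻¹ * b = a := by
    rw [h]; field_simp
  rw [this]; exact ha

/-- `ϖ`-saturation of `B` in the Gauss ring. -/
theorem s18_gauss_cap (hB : s18_Chart ϖ B) {x : F} (hx : x ∈ B) (n : ℕ)
    (h : ϖ⁻¹ ^ n * x ∈ s18_gauss ϖ B) : ϖ⁻¹ ^ n * x ∈ B := by
  induction n with
  | zero => simpa using hx
  | succ n ih =>
    have h1 : ϖ⁻¹ ^ n * x ∈ s18_gauss ϖ B := by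
      have := (s18_gaussRing hB).mul_mem (s18_le_gaussRing hB hB.ϖ_mem) h
      have e : ϖ * (ϖ⁻¹ ^ (n + 1) * x) = ϖ⁻¹ ^ n * x := by
        rw [pow_succ]; field_simp [hB.ϖ_ne]
      rwa [e] at this
    have hy := ih h1
    obtain ⟨a, ha, b, hb, hb', hab⟩ := h
    have hb0 := s18_ne_zero_of_not_dvd hb'
    have e : ϖ⁻¹ * ((ϖ⁻¹ ^ n * x) * b) = a := by
      have : ϖ⁻¹ ^ (n + 1) * x * b = a := by rw [hab]; field_simp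
      rw [← this, pow_succ]; ring
    have := hB.prime _ hy _ hb (by rw [e]; exact ha)
    rcases this with h2 | h2
    · have e2 : ϖ⁻¹ ^ (n + 1) * x = ϖ⁻¹ * (ϖ⁻¹ ^ n * x) := by rw [pow_succ]; ring
      rw [e2]; exact h2
    · exact absurd h2 hb'

/-- Inverses of elements of the Gauss ring not divisible by `ϖ`. -/
theorem s18_gauss_inv_mem (hB : s18_Chart ϖ B) {x : F} (hx : x ∈ s18_gauss ϖ B)
    (hx' : ϖ⁻¹ * x ∉ s18_gauss ϖ B) : x⁻¹ ∈ s18_gauss ϖ B := by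
  obtain ⟨a, ha, b, hb, hb', rfl⟩ := hx
  have ha' : ϖ⁻¹ * a ∉ B := by
    intro h
    exact hx' ⟨ϖ⁻¹ * a, h, b, hb, hb', by rw [mul_div_assoc]⟩
  exact ⟨b, hb, a, ha, ha', by rw [inv_div]⟩

theorem s18_gauss_one_add_inv (hB : s18_Chart ϖ B) {x : F} (hx : x ∈ s18_gauss ϖ B) :
    (1 + ϖ * x)⁻¹ ∈ s18_gauss ϖ B := by
  have h1 : 1 + ϖ * x ∈ s18_gaussRing hB :=
    (s18_gaussRing hB).add_mem (s18_gaussRing hB).one_mem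
      ((s18_gaussRing hB).mul_mem (s18_le_gaussRing hB hB.ϖ_mem) hx)
  apply s18_gauss_inv_mem hB h1
  intro h
  apply s18_ϖ_inv_not_mem_gauss hB
  have e : ϖ⁻¹ = ϖ⁻¹ * (1 + ϖ * x) - x := by
    field_simp [hB.ϖ_ne]; ring
  rw [e]
  exact (s18_gaussRing hB).sub_mem h hx

/-- Every nonzero element of `B` is exactly divisible by some power of `ϖ`. -/
theorem s18_exists_pow_not_dvd (hB : s18_Chart ϖ B) {x : F} (hx : x ∈ B) (hx0 : x ≠ 0) :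
    ∃ n : ℕ, ϖ⁻¹ ^ n * x ∈ B ∧ ϖ⁻¹ * (ϖ⁻¹ ^ n * x) ∉ B := by
  have := hB.noeth
  by_contra hcon
  push Not at hcon
  have hall : ∀ n : ℕ, ϖ⁻¹ ^ n * x ∈ B := by
    intro n
    induction n with
    | zero => simpa using hx
    | succ n ih =>
      have := hcon n ih
      rw [pow_succ]
      have e : ϖ⁻¹ ^ n * ϖ⁻¹ * x = ϖ⁻¹ * (ϖ⁻¹ ^ n * x) := by ring
      rw [e]; exact this
  -- ascending chain of principal ideals
  let f : ℕ →o Ideal B := ⟨fun n => Ideal.span {(⟨ϖ⁻¹ ^ n * x, hall n⟩ : B)}, by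
    intro m n hmn
    obtain ⟨k, rfl⟩ := Nat.exists_eq_add_of_le hmn
    show Ideal.span {(⟨ϖ⁻¹ ^ m * x, hall m⟩ : B)} ≤ Ideal.span {(⟨ϖ⁻¹ ^ (m + k) * x, hall (m + k)⟩ : B)}
    rw [Ideal.span_singleton_le_span_singleton]
    refine ⟨⟨ϖ, hB.ϖ_mem⟩ ^ k, ?_⟩
    apply Subtype.ext
    simp only [Subring.coe_mul, Subring.coe_pow]
    rw [pow_add]
    have e : ϖ⁻¹ ^ k * ϖ ^ k = 1 := by rw [← mul_pow, inv_mul_cancel₀ hB.ϖ_ne, one_pow]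
    calc ϖ⁻¹ ^ m * x = ϖ⁻¹ ^ m * x * (ϖ⁻¹ ^ k * ϖ ^ k) := by rw [e, mul_one]
      _ = ϖ⁻¹ ^ m * ϖ⁻¹ ^ k * x * ϖ ^ k := by ring⟩
  obtain ⟨n, hn⟩ := (monotone_stabilizes_iff_noetherian.mpr inferInstance) f
  have h1 := hn (n + 1) (Nat.le_succ n)
  have h2 : (⟨ϖ⁻¹ ^ (n + 1) * x, hall (n + 1)⟩ : B) ∈ f n := by
    rw [h1]; exact Ideal.subset_span rfl
  obtain ⟨c, hc⟩ := Ideal.mem_span_singleton.mp h2
  have hc' : ϖ⁻¹ ^ (n + 1) * x = ϖ⁻¹ ^ n * x * (c : F) := by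
    have := congrArg Subtype.val hc
    simpa using this
  apply hB.nonunit
  have hne : ϖ⁻¹ ^ n * x ≠ 0 := mul_ne_zero (pow_ne_zero _ (inv_ne_zero hB.ϖ_ne)) hx0
  have : ϖ⁻¹ = (c : F) := by
    have h3 : ϖ⁻¹ ^ (n + 1) * x = ϖ⁻¹ * (ϖ⁻¹ ^ n * x) := by rw [pow_succ]; ring
    rw [h3, mul_comm (ϖ⁻¹ ^ n * x)] at hc'
    exact mul_right_cancel₀ hne hc'
  rw [this]; exact c.2

/-- `ϖ`-adic decomposition of a nonzero element of `F`. -/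
theorem s18_gauss_decomp (hB : s18_Chart ϖ B) {x : F} (hx0 : x ≠ 0) :
    ∃ (n : ℤ) (u : F), u ∈ s18_gauss ϖ B ∧ u⁻¹ ∈ s18_gauss ϖ B ∧ x = ϖ ^ n * u := by
  obtain ⟨a, ha, b, hb, hb0, rfl⟩ := hB.frac x
  have ha0 : a ≠ 0 := by rintro rfl; simp at hx0
  obtain ⟨i, hi, hi'⟩ := s18_exists_pow_not_dvd hB ha ha0
  obtain ⟨j, hj, hj'⟩ := s18_exists_pow_not_dvd hB hb hb0
  refine ⟨(i : ℤ) - j, (ϖ⁻¹ ^ i * a) / (ϖ⁻¹ ^ j * b), ⟨_, hi, _, hj, hj', rfl⟩,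
    ⟨_, hj, _, hi, hi', by rw [inv_div]⟩, ?_⟩
  rw [zpow_sub₀ hB.ϖ_ne, zpow_natCast, zpow_natCast, div_mul_div_comm]
  have e : ∀ (k : ℕ) (y : F), ϖ ^ k * (ϖ⁻¹ ^ k * y) = y := fun k y => by
    rw [← mul_assoc, ← mul_pow, mul_inv_cancel₀ hB.ϖ_ne, one_pow, one_mul]
  rw [e, e]

theorem s18_gauss_mem_or_inv_mem (hB : s18_Chart ϖ B) (x : F) :
    x ∈ s18_gauss ϖ B ∨ x⁻¹ ∈ s18_gauss ϖ B := by
  by_cases hx0 : x = 0
  · left; rw [hx0]; exact (s18_gaussRing hB).zero_mem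
  obtain ⟨n, u, hu, hu', rfl⟩ := s18_gauss_decomp hB hx0
  rcases le_or_gt 0 n with hn | hn
  · left
    obtain ⟨k, rfl⟩ := Int.eq_ofNat_of_zero_le hn
    rw [zpow_natCast]
    exact (s18_gaussRing hB).mul_mem
      ((s18_gaussRing hB).pow_mem (s18_le_gaussRing hB hB.ϖ_mem) k) hu
  · right
    obtain ⟨k, hk⟩ := Int.eq_ofNat_of_zero_le (show 0 ≤ -n by omega)
    rw [mul_inv, ← zpow_neg, hk, zpow_natCast]
    exact (s18_gaussRing hB).mul_mem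
      ((s18_gaussRing hB).pow_mem (s18_le_gaussRing hB hB.ϖ_mem) k) hu'

/-! ### The local rings -/

/-- The local ring `B_𝔪` as a subring of `F`. -/
def s18_locRing (B : Subring F) (𝔪 : Ideal B) [h𝔪 : 𝔪.IsPrime] : Subring F where
  carrier := s18_loc B 𝔪
  mul_mem' := by
    rintro x y ⟨a, b, hb, rfl⟩ ⟨c, d, hd, rfl⟩
    exact ⟨a * c, b * d, fun h => (h𝔪.mem_or_mem h).elim hb hd, by
      push_cast; rw [div_mul_div_comm]⟩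
  one_mem' := ⟨1, 1, fun h => h𝔪.ne_top ((Ideal.eq_top_iff_one _).mpr h), by simp⟩
  add_mem' := by
    rintro x y ⟨a, b, hb, rfl⟩ ⟨c, d, hd, rfl⟩
    have hb0 : (b : F) ≠ 0 := fun h => hb (by
      have : b = 0 := Subtype.ext h
      rw [this]; exact 𝔪.zero_mem)
    have hd0 : (d : F) ≠ 0 := fun h => hd (by
      have : d = 0 := Subtype.ext h
      rw [this]; exact 𝔪.zero_mem)
    exact ⟨a * d + b * c, b * d, fun h => (h𝔪.mem_or_mem h).elim hb hd, by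
      push_cast; rw [div_add_div _ _ hb0 hd0]⟩
  zero_mem' := ⟨0, 1, fun h => h𝔪.ne_top ((Ideal.eq_top_iff_one _).mpr h), by simp⟩
  neg_mem' := by
    rintro x ⟨a, b, hb, rfl⟩
    exact ⟨-a, b, hb, by push_cast; rw [neg_div]⟩

theorem s18_le_locRing (B : Subring F) (𝔪 : Ideal B) [h𝔪 : 𝔪.IsPrime] : B ≤ s18_locRing B 𝔪 :=
  fun x hx => ⟨⟨x, hx⟩, 1, fun h => h𝔪.ne_top ((Ideal.eq_top_iff_one _).mpr h), by simp⟩

theorem s18_not_dvd_of_not_mem (hB : s18_Chart ϖ B) {𝔪 : Ideal B}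
    (hϖ𝔪 : (⟨ϖ, hB.ϖ_mem⟩ : B) ∈ 𝔪) {b : B} (hb : b ∉ 𝔪) : ϖ⁻¹ * (b : F) ∉ B := by
  intro h
  apply hb
  have : b = ⟨ϖ, hB.ϖ_mem⟩ * ⟨ϖ⁻¹ * (b : F), h⟩ := by
    apply Subtype.ext
    simp only [Subring.coe_mul]
    field_simp [hB.ϖ_ne]
  rw [this]
  exact 𝔪.mul_mem_right _ hϖ𝔪

theorem s18_loc_subset_gauss (hB : s18_Chart ϖ B) {𝔪 : Ideal B}
    (hϖ𝔪 : (⟨ϖ, hB.ϖ_mem⟩ : B) ∈ 𝔪) : s18_loc B 𝔪 ⊆ s18_gauss ϖ B := by
  rintro x ⟨a, b, hb, rfl⟩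
  exact ⟨a, a.2, b, b.2, s18_not_dvd_of_not_mem hB hϖ𝔪 hb, rfl⟩

/-- `ϖ`-saturation of `B_𝔪` in the Gauss ring. -/
theorem s18_loc_cap (hB : s18_Chart ϖ B) {𝔪 : Ideal B} [h𝔪 : 𝔪.IsPrime]
    {x : F} (hx : x ∈ s18_loc B 𝔪) (n : ℕ)
    (h : ϖ⁻¹ ^ n * x ∈ s18_gauss ϖ B) : ϖ⁻¹ ^ n * x ∈ s18_loc B 𝔪 := by
  obtain ⟨a, b, hb, rfl⟩ := hx
  have hb0 : (b : F) ≠ 0 := fun h => hb (by
    have : b = 0 := Subtype.ext h
    rw [this]; exact 𝔪.zero_mem)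
  have h1 : ϖ⁻¹ ^ n * (a : F) ∈ s18_gauss ϖ B := by
    have := (s18_gaussRing hB).mul_mem (s18_le_gaussRing hB b.2) h
    have e : (b : F) * (ϖ⁻¹ ^ n * ((a : F) / (b : F))) = ϖ⁻¹ ^ n * (a : F) := by
      field_simp
    rwa [e] at this
  have h2 := s18_gauss_cap hB a.2 n h1
  exact ⟨⟨_, h2⟩, b, hb, by simp only; rw [mul_div_assoc]⟩

theorem s18_loc_inv_mem {𝔪 : Ideal B} {a b : B} (ha : a ∉ 𝔪) :
    ((a : F) / (b : F))⁻¹ ∈ s18_loc B 𝔪 := ⟨b, a, ha, by rw [inv_div]⟩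

theorem s18_loc_one_add_inv (hB : s18_Chart ϖ B) {𝔪 : Ideal B} [h𝔪 : 𝔪.IsPrime]
    (hϖ𝔪 : (⟨ϖ, hB.ϖ_mem⟩ : B) ∈ 𝔪) {x : F} (hx : x ∈ s18_loc B 𝔪) :
    (1 + ϖ * x)⁻¹ ∈ s18_loc B 𝔪 := by
  obtain ⟨a, b, hb, rfl⟩ := hx
  have hb0 : (b : F) ≠ 0 := fun h => hb (by
    have : b = 0 := Subtype.ext h
    rw [this]; exact 𝔪.zero_mem)
  refine ⟨b, b + ⟨ϖ, hB.ϖ_mem⟩ * a, ?_, ?_⟩
  · intro h
    apply hb
    have := 𝔪.sub_mem h (𝔪.mul_mem_right a hϖ𝔪)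
    simpa using this
  · simp only [Subring.coe_add, Subring.coe_mul]
    field_simp

end Fermat.Agent.S18
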