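import Mathlib
import Fermat.Agent.S18.ChartDefs
import Fermat.Agent.S18.Gauss

/-!
# S18, block A (AS2): normalisation of the local `p`-th root

At a maximal ideal `𝔪 ∋ ϖ` of a chart, `B_𝔪 / ϖ` has principal maximal ideal (generated by `s`), so
every element of `B` not divisible by `ϖ` is congruent modulo `ϖ` to `unit * s^k` for a unique `k`.
Hence if `g^p * w ≡ 1 mod ϖ` with `w` a unit of `B_𝔪`, then `g ≡ γ mod ϖ` for a unit `γ` of `B_𝔪`.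
-/

set_option autoImplicit false

namespace Fermat.Agent.S18

variable {F : Type*} [Field F] {ϖ : F} {B : Subring F}

/-- In a subring `R` of `F` containing `ϖ ≠ 0`: `ϖ^n ∣ x` iff `ϖ⁻¹^n * x ∈ R`. -/
theorem s18_subring_dvd_iff (R : Subring F) (hϖ : ϖ ∈ R) (hϖ0 : ϖ ≠ 0) (x : R) (n : ℕ) :
    (⟨ϖ, hϖ⟩ : R) ^ n ∣ x ↔ ϖ⁻¹ ^ n * (x : F) ∈ R := by
  have e : ∀ y : F, ϖ ^ n * (ϖ⁻¹ ^ n * y) = y := fun y => by
    rw [← mul_assoc, ← mul_pow, mul_inv_cancel₀ hϖ0, one_pow, one_mul]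
  have e' : ∀ y : F, ϖ⁻¹ ^ n * (ϖ ^ n * y) = y := fun y => by
    rw [← mul_assoc, ← mul_pow, inv_mul_cancel₀ hϖ0, one_pow, one_mul]
  constructor
  · rintro ⟨c, hc⟩
    have : (x : F) = ϖ ^ n * (c : F) := by
      have := congrArg Subtype.val hc
      simpa using this
    rw [this, e']
    exact c.2
  · intro h
    refine ⟨⟨_, h⟩, ?_⟩
    apply Subtype.ext
    simp only [Subring.coe_mul, Subring.coe_pow]
    rw [e]

theorem s18_subring_dvd_iff_one (R : Subring F) (hϖ : ϖ ∈ R) (hϖ0 : ϖ ≠ 0) (x : R) :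
    (⟨ϖ, hϖ⟩ : R) ∣ x ↔ ϖ⁻¹ * (x : F) ∈ R := by
  have := s18_subring_dvd_iff R hϖ hϖ0 x 1
  rwa [pow_one, pow_one] at this

/-- `ϖ` is a prime element of the chart ring. -/
theorem s18_Chart.prime_elt (hB : s18_Chart ϖ B) : Prime (⟨ϖ, hB.ϖ_mem⟩ : B) := by
  refine ⟨fun h0 => hB.ϖ_ne (congrArg Subtype.val h0), ?_, ?_⟩
  · intro hu
    obtain ⟨c, hc⟩ := hu.exists_right_inv
    apply hB.nonunit
    have : ϖ * (c : F) = 1 := by
      have := congrArg Subtype.val hc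
      simpa using this
    rw [← eq_inv_of_mul_eq_one_right this]
    exact c.2
  · intro x y hxy
    rw [s18_subring_dvd_iff_one B hB.ϖ_mem hB.ϖ_ne] at hxy ⊢
    rw [s18_subring_dvd_iff_one B hB.ϖ_mem hB.ϖ_ne]
    exact hB.prime _ x.2 _ y.2 (by simpa using hxy)

/-- The `s`-adic normal form modulo `ϖ` at a maximal ideal containing `ϖ`. -/
theorem s18_sadic (hB : s18_Chart ϖ B) (𝔪 : Ideal B) (h𝔪 : 𝔪.IsMaximal)
    (hϖ𝔪 : (⟨ϖ, hB.ϖ_mem⟩ : B) ∈ 𝔪) (s : B) (hsm : s ∈ 𝔪)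
    (hs : ∀ x ∈ 𝔪, ∃ u, u ∉ 𝔪 ∧ u * x ∈ Ideal.span {(⟨ϖ, hB.ϖ_mem⟩ : B), s}) :
    ∀ x : B, ¬ (⟨ϖ, hB.ϖ_mem⟩ : B) ∣ x →
      ∃ (k : ℕ) (c e : B), c ∉ 𝔪 ∧ e ∉ 𝔪 ∧ (⟨ϖ, hB.ϖ_mem⟩ : B) ∣ e * x - c * s ^ k := by
  classical
  haveI := hB.noeth
  haveI := h𝔪.isPrime
  set ϖB : B := ⟨ϖ, hB.ϖ_mem⟩ with hϖB
  have hprime : Prime ϖB := hB.prime_elt
  have hdvd𝔪 : ∀ z : B, ϖB ∣ z → z ∈ 𝔪 := fun z ⟨c, hc⟩ => by
    rw [hc]; exact 𝔪.mul_mem_right c hϖ𝔪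
  -- the ideal `K y = (ϖ, y) B_𝔪 ∩ B`
  let K : B → Ideal B := fun y =>
    { carrier := {z | ∃ e : B, e ∉ 𝔪 ∧ e * z ∈ Ideal.span {ϖB, y}}
      add_mem' := by
        rintro z₁ z₂ ⟨e₁, he₁, h₁⟩ ⟨e₂, he₂, h₂⟩
        refine ⟨e₁ * e₂, fun h => (h𝔪.isPrime.mem_or_mem h).elim he₁ he₂, ?_⟩
        have e : e₁ * e₂ * (z₁ + z₂) = e₂ * (e₁ * z₁) + e₁ * (e₂ * z₂) := by ring
        rw [e]
        exact Ideal.add_mem _ (Ideal.mul_mem_left _ _ h₁) (Ideal.mul_mem_left _ _ h₂)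
      zero_mem' := ⟨1, fun h => h𝔪.ne_top ((Ideal.eq_top_iff_one _).mpr h), by simp⟩
      smul_mem' := by
        rintro c z ⟨e, he, h₁⟩
        refine ⟨e, he, ?_⟩
        have e' : e * (c • z) = c * (e * z) := by simp only [smul_eq_mul]; ring
        rw [e']
        exact Ideal.mul_mem_left _ _ h₁ }
  have key : ∀ I : Ideal B, ∀ x : B, ¬ ϖB ∣ x → K x = I →
      ∃ (k : ℕ) (c e : B), c ∉ 𝔪 ∧ e ∉ 𝔪 ∧ ϖB ∣ e * x - c * s ^ k := by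
    intro I
    induction I using IsNoetherian.induction with
    | hgt I ih =>
      intro x hx hKx
      by_cases hxm : x ∈ 𝔪
      · obtain ⟨u, hu, hux⟩ := hs x hxm
        obtain ⟨α, β, hαβ⟩ := Ideal.mem_span_pair.mp hux
        -- `ϖ ∤ β`
        have hβ : ¬ ϖB ∣ β := by
          intro hβ
          have : ϖB ∣ u * x := by
            rw [← hαβ]
            exact dvd_add (Dvd.intro_left α rfl) (Dvd.dvd.mul_right hβ s)
          rcases hprime.dvd_or_dvd this with h1 | h1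
          · exact hu (hdvd𝔪 u h1)
          · exact hx h1
        -- `K x < K β`
        have hlt : I < K β := by
          rw [← hKx]
          refine lt_of_le_of_ne ?_ ?_
          · rintro z ⟨e, he, hz⟩
            obtain ⟨a₁, b₁, hab⟩ := Ideal.mem_span_pair.mp hz
            refine ⟨u * e, fun h => (h𝔪.isPrime.mem_or_mem h).elim hu he, ?_⟩
            rw [Ideal.mem_span_pair]
            refine ⟨u * a₁ + b₁ * α, b₁ * s, ?_⟩
            have : u * e * z = u * (a₁ * ϖB + b₁ * x) := by rw [hab]; ring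
            rw [this]
            have h2 : u * (a₁ * ϖB + b₁ * x) = u * a₁ * ϖB + b₁ * (u * x) := by ring
            rw [h2, ← hαβ]; ring
          · intro heq
            have hβK : β ∈ K β := ⟨1, fun h => h𝔪.ne_top ((Ideal.eq_top_iff_one _).mpr h), by
              rw [one_mul]; exact Ideal.subset_span (by simp)⟩
            rw [← heq] at hβK
            obtain ⟨e, he, hz⟩ := hβK
            obtain ⟨a₁, b₁, hab⟩ := Ideal.mem_span_pair.mp hz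
            -- `β (e u - b₁ s) ∈ ϖ B`
            have h3 : ϖB ∣ β * (e * u - b₁ * s) := by
              refine ⟨u * a₁ + b₁ * α, ?_⟩
              have : β * (e * u - b₁ * s) = u * (e * β) - b₁ * (β * s) := by ring
              rw [this, ← hab]
              have h4 : β * s = u * x - α * ϖB := by rw [← hαβ]; ring
              rw [h4]; ring
            rcases hprime.dvd_or_dvd h3 with h5 | h5
            · exact hβ h5
            · have h6 := hdvd𝔪 _ h5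
              have h7 : e * u ∈ 𝔪 := by
                have := 𝔪.add_mem h6 (𝔪.mul_mem_left b₁ hsm)
                simpa using this
              exact (h𝔪.isPrime.mem_or_mem h7).elim he hu
        obtain ⟨k, c, e, hc, he, hd⟩ := ih (K β) hlt β hβ rfl
        refine ⟨k + 1, c, e * u, hc, fun h => (h𝔪.isPrime.mem_or_mem h).elim he hu, ?_⟩
        obtain ⟨d, hd⟩ := hd
        refine ⟨e * α + d * s, ?_⟩
        have : e * u * x - c * s ^ (k + 1) = e * (u * x) - c * s ^ k * s := by ring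
        rw [this, ← hαβ]
        have h2 : e * (α * ϖB + β * s) - c * s ^ k * s = e * α * ϖB + (e * β - c * s ^ k) * s := by
          ring
        rw [h2, hd]; ring
      · exact ⟨0, x, 1, hxm, fun h => h𝔪.ne_top ((Ideal.eq_top_iff_one _).mpr h), by simp⟩
  intro x hx
  exact key (K x) x hx rfl

/-- Comparison of `s`-adic normal forms: the exponent is unique. -/
theorem s18_sadic_cmp (hB : s18_Chart ϖ B) (𝔪 : Ideal B)
    (hϖ𝔪 : (⟨ϖ, hB.ϖ_mem⟩ : B) ∈ 𝔪) (s : B) (hsm : s ∈ 𝔪)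
    (U₁ U₂ : B) (hU₁ : U₁ ∉ 𝔪) (i j : ℕ) (hij : i < j)
    (hi : ¬ (⟨ϖ, hB.ϖ_mem⟩ : B) ∣ s ^ i)
    (h : (⟨ϖ, hB.ϖ_mem⟩ : B) ∣ U₁ * s ^ i - U₂ * s ^ j) : False := by
  obtain ⟨d, rfl⟩ := Nat.exists_eq_add_of_lt hij
  have e : U₁ * s ^ i - U₂ * s ^ (i + d + 1) = s ^ i * (U₁ - U₂ * s ^ (d + 1)) := by ring
  rw [e] at h
  rcases hB.prime_elt.dvd_or_dvd h with h1 | h1
  · exact hi h1
  · obtain ⟨c, hc⟩ := h1
    apply hU₁
    have : U₁ = ⟨ϖ, hB.ϖ_mem⟩ * c + U₂ * s ^ (d + 1) := by rw [← hc]; ring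
    rw [this]
    exact 𝔪.add_mem (𝔪.mul_mem_right c hϖ𝔪)
      (𝔪.mul_mem_left _ (𝔪.pow_mem_of_mem hsm _ (Nat.succ_pos d)))

/-- (AS2) normalisation: if `g^p * w ≡ 1 mod ϖ` in the Gauss ring with `w` a unit of `B_𝔪`, then `g`
is congruent modulo `ϖ` to a unit `γ` of `B_𝔪`. -/
theorem s18_as_normalize (hB : s18_Chart ϖ B)
    (p : ℕ) (hp : 0 < p)
    (𝔪 : Ideal B) (h𝔪 : 𝔪.IsMaximal) (hϖ𝔪 : (⟨ϖ, hB.ϖ_mem⟩ : B) ∈ 𝔪)
    (g w : F) (hw : w ∈ s18_loc B 𝔪) (hw' : w⁻¹ ∈ s18_loc B 𝔪)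
    (hgw : ϖ⁻¹ * (g ^ p * w - 1) ∈ s18_gauss ϖ B) :
    ∃ γ : F, γ ∈ s18_loc B 𝔪 ∧ γ⁻¹ ∈ s18_loc B 𝔪 ∧ ϖ⁻¹ * (g * γ⁻¹ - 1) ∈ s18_gauss ϖ B := by
  classical
  have hmp := h𝔪.isPrime
  have hϖ0 := hB.ϖ_ne
  set V := s18_gaussRing hB with hV
  set ϖB : B := ⟨ϖ, hB.ϖ_mem⟩ with hϖB
  have hprime : Prime ϖB := hB.prime_elt
  have hdvd𝔪 : ∀ z : B, ϖB ∣ z → z ∈ 𝔪 := fun z ⟨c, hc⟩ => by
    rw [hc]; exact 𝔪.mul_mem_right c hϖ𝔪
  have hne : ∀ z : B, z ∉ 𝔪 → (z : F) ≠ 0 := fun z hz h0 => hz (by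
    have : z = 0 := Subtype.ext h0
    rw [this]; exact 𝔪.zero_mem)
  have hϖV : ϖ ∈ V := s18_le_gaussRing hB hB.ϖ_mem
  have hlocV : ∀ x, x ∈ s18_loc B 𝔪 → x ∈ V := fun x hx => s18_loc_subset_gauss hB hϖ𝔪 hx
  have hwV : w ∈ V := hlocV _ hw
  have hwV' : w⁻¹ ∈ V := hlocV _ hw'
  have hgwV : ϖ⁻¹ * (g ^ p * w - 1) ∈ V := hgw
  -- `w = w₁ / w₂` with `w₁, w₂ ∉ 𝔪`
  have hw0 : w ≠ 0 := by
    intro h0
    rw [h0] at hgwV
    apply s18_ϖ_inv_not_mem_gauss hB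
    have : ϖ⁻¹ = -(ϖ⁻¹ * (g ^ p * 0 - 1)) := by ring
    rw [this]; exact V.neg_mem hgwV
  obtain ⟨w₁, w₂, hw₂, hw12⟩ := hw
  obtain ⟨w₃, w₄, hw₄, hw34⟩ := hw'
  have hw₂0 := hne _ hw₂
  have hw₄0 := hne _ hw₄
  have hw₁ : w₁ ∉ 𝔪 := by
    intro h
    have e : w₁ * w₃ = w₂ * w₄ := by
      apply Subtype.ext
      push_cast
      have : (w₁ : F) / w₂ * ((w₃ : F) / w₄) = 1 := by
        rw [← hw12, ← hw34]; exact mul_inv_cancel₀ hw0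
      field_simp at this
      exact this
    have : w₂ * w₄ ∈ 𝔪 := by rw [← e]; exact 𝔪.mul_mem_right _ h
    exact (hmp.mem_or_mem this).elim hw₂ hw₄
  -- `g ^ p * w` is a unit of the Gauss ring
  set v := ϖ⁻¹ * (g ^ p * w - 1) with hv
  have hgpw : g ^ p * w = 1 + ϖ * v := by
    rw [hv, ← mul_assoc, mul_inv_cancel₀ hϖ0]; ring
  have h1 : (1 + ϖ * v)⁻¹ ∈ V := s18_gauss_one_add_inv hB hgw
  have h1' : (1 + ϖ * v) ∈ V := V.add_mem V.one_mem (V.mul_mem hϖV hgwV)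
  have hg0 : g ≠ 0 := by
    rintro rfl
    rw [zero_pow hp.ne', zero_mul] at hv
    apply s18_ϖ_inv_not_mem_gauss hB
    have : ϖ⁻¹ = -v := by rw [hv]; ring
    rw [this]; exact V.neg_mem hgwV
  have hgp : g ^ p ∈ V := by
    have : g ^ p = (1 + ϖ * v) * w⁻¹ := by rw [← hgpw]; field_simp
    rw [this]; exact V.mul_mem h1' hwV'
  have hgp' : (g ^ p)⁻¹ ∈ V := by
    have : (g ^ p)⁻¹ = (1 + ϖ * v)⁻¹ * w := by rw [← hgpw]; field_simp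
    rw [this]; exact V.mul_mem h1 hwV
  obtain ⟨p', rfl⟩ : ∃ p', p = p' + 1 := Nat.exists_eq_succ_of_ne_zero hp.ne'
  have hgV : g ∈ V ∧ g⁻¹ ∈ V := by
    rcases s18_gauss_mem_or_inv_mem hB g with h | h
    · refine ⟨h, ?_⟩
      have : g⁻¹ = g ^ p' * (g ^ (p' + 1))⁻¹ := by rw [pow_succ]; field_simp
      rw [this]; exact V.mul_mem (V.pow_mem h _) hgp'
    · refine ⟨?_, h⟩
      have : g = g⁻¹ ^ p' * g ^ (p' + 1) := by
        rw [pow_succ, ← mul_assoc, ← mul_pow, inv_mul_cancel₀ hg0, one_pow, one_mul]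
      rw [this]; exact V.mul_mem (V.pow_mem h _) hgp
  obtain ⟨a, ha, b, hb, hb', hgab⟩ := hgV.1
  have hb0 : b ≠ 0 := s18_ne_zero_of_not_dvd hb'
  have ha0 : a ≠ 0 := by rintro rfl; apply hg0; rw [hgab]; simp
  have ha' : ϖ⁻¹ * a ∉ B := by
    intro h
    apply s18_ϖ_inv_not_mem_gauss hB
    have e : ϖ⁻¹ = g⁻¹ * ((ϖ⁻¹ * a) / b) := by rw [hgab]; field_simp
    rw [e]
    exact V.mul_mem hgV.2 ⟨ϖ⁻¹ * a, h, b, hb, hb', rfl⟩
  have haB : ¬ ϖB ∣ (⟨a, ha⟩ : B) := by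
    rw [s18_subring_dvd_iff_one B hB.ϖ_mem hB.ϖ_ne]; exact ha'
  have hbB : ¬ ϖB ∣ (⟨b, hb⟩ : B) := by
    rw [s18_subring_dvd_iff_one B hB.ϖ_mem hB.ϖ_ne]; exact hb'
  -- `a^p w₁ ≡ b^p w₂ mod ϖ` in `B`
  have h3 : ϖB ∣ (⟨a, ha⟩ : B) ^ (p' + 1) * w₁ - (⟨b, hb⟩ : B) ^ (p' + 1) * w₂ := by
    rw [s18_subring_dvd_iff_one B hB.ϖ_mem hB.ϖ_ne]
    have := s18_gauss_cap hB ((⟨a, ha⟩ : B) ^ (p' + 1) * w₁ - (⟨b, hb⟩ : B) ^ (p' + 1) * w₂).2 1 ?_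
    · simpa using this
    · have e : ϖ⁻¹ ^ 1 * (((⟨a, ha⟩ : B) ^ (p' + 1) * w₁ - (⟨b, hb⟩ : B) ^ (p' + 1) * w₂ : B) : F)
          = v * (b ^ (p' + 1) * w₂) := by
        rw [hv, hgab, hw12]; push_cast
        rw [div_pow]; field_simp
      rw [e]
      exact V.mul_mem hgwV (s18_le_gaussRing hB (B.mul_mem (B.pow_mem hb _) w₂.2))
  obtain ⟨s, hsm, hs⟩ := hB.reg 𝔪 h𝔪 hϖ𝔪
  obtain ⟨ka, ca, ea, hca, hea, hda⟩ := s18_sadic hB 𝔪 h𝔪 hϖ𝔪 s hsm hs _ haB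
  obtain ⟨kb, cb, eb, hcb, heb, hdb⟩ := s18_sadic hB 𝔪 h𝔪 hϖ𝔪 s hsm hs _ hbB
  have hnd : ∀ (x c e : B) (k : ℕ), ¬ ϖB ∣ x → e ∉ 𝔪 → ϖB ∣ e * x - c * s ^ k →
      ¬ ϖB ∣ s ^ k := by
    intro x c e k hx he hd hsk
    have : ϖB ∣ e * x := by
      have := dvd_add hd (Dvd.dvd.mul_left hsk c)
      simpa using this
    rcases hprime.dvd_or_dvd this with h | h
    · exact he (hdvd𝔪 _ h)
    · exact hx h
  have hska := hnd _ ca ea ka haB hea hda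
  have hskb := hnd _ cb eb kb hbB heb hdb
  have hpow : ∀ k n : ℕ, ¬ ϖB ∣ s ^ k → ¬ ϖB ∣ s ^ (n * k) := by
    intro k n hk h
    rw [pow_mul'] at h
    exact hk (hprime.dvd_of_dvd_pow h)
  have hcmp : ϖB ∣ (eb ^ (p' + 1) * ca ^ (p' + 1) * w₁) * s ^ ((p' + 1) * ka) -
      (ea ^ (p' + 1) * cb ^ (p' + 1) * w₂) * s ^ ((p' + 1) * kb) := by
    have d1 : ϖB ∣ (ea * ⟨a, ha⟩) ^ (p' + 1) - (ca * s ^ ka) ^ (p' + 1) :=
      hda.trans (sub_dvd_pow_sub_pow _ _ _)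
    have d2 : ϖB ∣ (eb * ⟨b, hb⟩) ^ (p' + 1) - (cb * s ^ kb) ^ (p' + 1) :=
      hdb.trans (sub_dvd_pow_sub_pow _ _ _)
    have e : (eb ^ (p' + 1) * ca ^ (p' + 1) * w₁) * s ^ ((p' + 1) * ka) -
        (ea ^ (p' + 1) * cb ^ (p' + 1) * w₂) * s ^ ((p' + 1) * kb)
        = (ea * eb) ^ (p' + 1) * ((⟨a, ha⟩ : B) ^ (p' + 1) * w₁ - (⟨b, hb⟩ : B) ^ (p' + 1) * w₂)
          - eb ^ (p' + 1) * w₁ * ((ea * ⟨a, ha⟩) ^ (p' + 1) - (ca * s ^ ka) ^ (p' + 1))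
          + ea ^ (p' + 1) * w₂ * ((eb * ⟨b, hb⟩) ^ (p' + 1) - (cb * s ^ kb) ^ (p' + 1)) := by
      rw [pow_mul' s, pow_mul' s]
      ring
    rw [e]
    exact dvd_add (dvd_sub (Dvd.dvd.mul_left h3 _) (Dvd.dvd.mul_left d1 _))
      (Dvd.dvd.mul_left d2 _)
  have hU₁ : eb ^ (p' + 1) * ca ^ (p' + 1) * w₁ ∉ 𝔪 := by
    intro h
    rcases hmp.mem_or_mem h with h | h
    · rcases hmp.mem_or_mem h with h | h
      · exact heb (hmp.mem_of_pow_mem _ h)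
      · exact hca (hmp.mem_of_pow_mem _ h)
    · exact hw₁ h
  have hU₂ : ea ^ (p' + 1) * cb ^ (p' + 1) * w₂ ∉ 𝔪 := by
    intro h
    rcases hmp.mem_or_mem h with h | h
    · rcases hmp.mem_or_mem h with h | h
      · exact hea (hmp.mem_of_pow_mem _ h)
      · exact hcb (hmp.mem_of_pow_mem _ h)
    · exact hw₂ h
  have hk : ka = kb := by
    rcases lt_trichotomy ka kb with h | h | h
    · exact (s18_sadic_cmp hB 𝔪 hϖ𝔪 s hsm _ _ hU₁ _ _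
        (Nat.mul_lt_mul_of_pos_left h (Nat.succ_pos _)) (hpow _ _ hska) hcmp).elim
    · exact h
    · have hcmp' : ϖB ∣ (ea ^ (p' + 1) * cb ^ (p' + 1) * w₂) * s ^ ((p' + 1) * kb) -
          (eb ^ (p' + 1) * ca ^ (p' + 1) * w₁) * s ^ ((p' + 1) * ka) := by
        rw [← neg_sub]; exact (dvd_neg).mpr hcmp
      exact (s18_sadic_cmp hB 𝔪 hϖ𝔪 s hsm _ _ hU₂ _ _
        (Nat.mul_lt_mul_of_pos_left h (Nat.succ_pos _)) (hpow _ _ hskb) hcmp').elim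
  subst hk
  obtain ⟨α, hα⟩ := hda
  obtain ⟨β, hβ⟩ := hdb
  refine ⟨((ca * eb : B) : F) / ((cb * ea : B) : F),
    ⟨ca * eb, cb * ea, fun h => (hmp.mem_or_mem h).elim hcb hea, rfl⟩,
    s18_loc_inv_mem (fun h => (hmp.mem_or_mem h).elim hca heb), ?_⟩
  refine ⟨((cb * α - ca * β : B) : F), (cb * α - ca * β).2,
    (((⟨b, hb⟩ : B) * ca * eb : B) : F), ((⟨b, hb⟩ : B) * ca * eb).2, ?_, ?_⟩
  · rw [← s18_subring_dvd_iff_one B hB.ϖ_mem hB.ϖ_ne]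
    intro h
    rcases hprime.dvd_or_dvd h with h | h
    · rcases hprime.dvd_or_dvd h with h | h
      · exact hbB h
      · exact hca (hdvd𝔪 _ h)
    · exact heb (hdvd𝔪 _ h)
  · have hαF : (ea : F) * a - ca * (s : F) ^ ka = ϖ * α := by
      have := congrArg Subtype.val hα
      simpa using this
    have hβF : (eb : F) * b - cb * (s : F) ^ ka = ϖ * β := by
      have := congrArg Subtype.val hβ
      simpa using this
    have hca0 := hne _ hca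
    have hcb0 := hne _ hcb
    have hea0 := hne _ hea
    have heb0 := hne _ heb
    have e1 : a * cb * ea - b * ca * eb = ϖ * ((cb : F) * α - ca * β) := by
      linear_combination (cb : F) * hαF - (ca : F) * hβF
    have e2 : ϖ⁻¹ * (a / b * (((ca : F) * eb) / (cb * ea))⁻¹ - 1)
        = ϖ⁻¹ * (a * cb * ea - b * ca * eb) / (b * ca * eb) := by
      field_simp
    rw [hgab]
    push_cast
    rw [e2, e1]
    field_simp

end Fermat.Agent.S18
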