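import Fermat.Agent.S18.AsUfdCore
import Fermat.Agent.S18.Gauss

/-!
# S18, block AS1: local factorization `h = g ^ p * w` in the UFD `B_𝔪`

`s18_as_ufd` in the exact skeleton shape: for a chart `B` and a maximal ideal `𝔪 ∋ ϖ`, the local
ring `B_𝔪` is a UFD (`as1_ufd_of_regular`); an `h = a / b` (`a ≡ b mod ϖ`, `ϖ ∤ b`) all of whose
valuations at discrete valuation rings containing `B[1/ϖ]` are divisible by `p` is of the form
`g ^ p * w` with `w` a unit of `B_𝔪`, and `g` has no more denominators than `g ^ p`.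
-/

set_option autoImplicit false

namespace Fermat.Agent.S18

open IsLocalRing

theorem s18_Chart.dvd_iff {F : Type*} [Field F] {ϖ : F} {B : Subring F} (hB : s18_Chart ϖ B)
    (z : B) : (⟨ϖ, hB.ϖ_mem⟩ : B) ∣ z ↔ ϖ⁻¹ * (z : F) ∈ B := by
  constructor
  · rintro ⟨c, rfl⟩
    have : ϖ⁻¹ * ((⟨ϖ, hB.ϖ_mem⟩ * c : B) : F) = (c : F) := by
      simp only [Subring.coe_mul]
      rw [← mul_assoc, inv_mul_cancel₀ hB.ϖ_ne, one_mul]
    rw [this]; exact c.2
  · intro h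
    refine ⟨⟨_, h⟩, Subtype.ext ?_⟩
    simp only [Subring.coe_mul]
    rw [← mul_assoc, mul_inv_cancel₀ hB.ϖ_ne, one_mul]

theorem s18_Chart.prime_ϖ {F : Type*} [Field F] {ϖ : F} {B : Subring F} (hB : s18_Chart ϖ B) :
    Prime (⟨ϖ, hB.ϖ_mem⟩ : B) := by
  refine ⟨fun h => hB.ϖ_ne (congrArg Subtype.val h), ?_, ?_⟩
  · intro hu
    obtain ⟨z, hz⟩ := hu.exists_right_inv
    apply hB.nonunit
    have hz' : ϖ * (z : F) = 1 := congrArg Subtype.val hz
    have : ϖ⁻¹ = (z : F) := by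
      rw [← mul_one ϖ⁻¹, ← hz', inv_mul_cancel_left₀ hB.ϖ_ne]
    rw [this]; exact z.2
  · intro x y hxy
    rw [hB.dvd_iff] at hxy ⊢
    rw [hB.dvd_iff]
    exact hB.prime x x.2 y y.2 (by simpa using hxy)

/-- (AS1) `B_𝔪` is a UFD; `h = g^p * w` with `w` a unit of `B_𝔪`, and `g` has no more denominators
than `g^p`. -/
theorem s18_as_ufd {F : Type*} [Field F] {ϖ : F} {B : Subring F} (hB : s18_Chart ϖ B)
    (p : ℕ) (hp : 0 < p)
    (h a b : F) (ha : a ∈ B) (hb : b ∈ B) (hbϖ : ϖ⁻¹ * b ∉ B) (hab : ϖ⁻¹ * (a - b) ∈ B)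
    (hh : h = a / b)
    (hdiv : ∀ W : ValuationSubring F, IsDiscreteValuationRing W → B ≤ W.toSubring → ϖ⁻¹ ∈ W →
      ∃ g u : F, u ∈ W ∧ u⁻¹ ∈ W ∧ h = u * g ^ p)
    (𝔪 : Ideal B) (h𝔪 : 𝔪.IsMaximal) (hϖ𝔪 : (⟨ϖ, hB.ϖ_mem⟩ : B) ∈ 𝔪) :
    ∃ g w : F, h = g ^ p * w ∧ w ∈ s18_loc B 𝔪 ∧ w⁻¹ ∈ s18_loc B 𝔪 ∧
      (∀ M : F, M ∈ s18_loc B 𝔪 → M * g ^ p ∈ s18_loc B 𝔪 → M * g ∈ s18_loc B 𝔪) := by
  classical
  have hprime𝔪 : 𝔪.IsPrime := h𝔪.isPrime
  have hBnoeth := hB.noeth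
  have hfrac : IsFractionRing B F := by
    refine IsFractionRing.of_field B F fun z => ?_
    obtain ⟨x, hx, y, hy, hy0, rfl⟩ := hB.frac z
    exact ⟨⟨x, hx⟩, ⟨y, hy⟩, rfl⟩
  have hS : 𝔪.primeCompl ≤ nonZeroDivisors B := Ideal.primeCompl_le_nonZeroDivisors 𝔪
  let R : Subalgebra B F := Localization.subalgebra.ofField F 𝔪.primeCompl hS
  have hmemR : ∀ x : F, x ∈ R ↔ x ∈ s18_loc B 𝔪 := by
    intro x
    constructor
    · rintro ⟨a, s, hs, rfl⟩
      exact ⟨a, s, hs, by rw [div_eq_mul_inv]; rfl⟩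
    · rintro ⟨a, s, hs, rfl⟩
      exact ⟨a, s, hs, by rw [div_eq_mul_inv]; rfl⟩
  have hloc : IsLocalization.AtPrime R 𝔪 :=
    Localization.subalgebra.isLocalization_ofField F 𝔪.primeCompl hS
  have hRnoeth : IsNoetherianRing R := IsLocalization.isNoetherianRing 𝔪.primeCompl R hBnoeth
  have hRlocal : IsLocalRing R := IsLocalization.AtPrime.isLocalRing R 𝔪
  have hRfrac : IsFractionRing R F := Localization.subalgebra.isFractionRing_ofField F _ hS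
  let ι : B →+* R := algebraMap B R
  have hι : ∀ x : B, ((ι x : R) : F) = (x : F) := fun x => rfl
  set ϖB : B := ⟨ϖ, hB.ϖ_mem⟩ with hϖB
  have hϖBprime : Prime ϖB := hB.prime_ϖ
  -- `ϖ` is prime in `R`
  have hϖR : Prime (ι ϖB) := by
    have h1 : (Ideal.span {ϖB}).IsPrime := (Ideal.span_singleton_prime hϖBprime.ne_zero).mpr hϖBprime
    have hdisj : Disjoint (𝔪.primeCompl : Set B) (Ideal.span {ϖB} : Set B) := by
      rw [Set.disjoint_left]
      intro x hx hx'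
      exact hx ((Ideal.span_singleton_le_iff_mem 𝔪).mpr hϖ𝔪 hx')
    have h2 := IsLocalization.isPrime_of_isPrime_disjoint 𝔪.primeCompl R _ h1 hdisj
    rw [Ideal.map_span, Set.image_singleton] at h2
    have hne : ι ϖB ≠ 0 := by
      intro h0
      exact hB.ϖ_ne (congrArg Subtype.val h0)
    exact (Ideal.span_singleton_prime hne).mp h2
  -- the maximal ideal of `R`
  obtain ⟨s, hs𝔪, hreg⟩ := hB.reg 𝔪 h𝔪 hϖ𝔪
  have hmax : maximalIdeal R = Ideal.span {ι ϖB, ι s} := by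
    rw [← IsLocalization.AtPrime.map_eq_maximalIdeal 𝔪 R]
    apply le_antisymm
    · rw [Ideal.map_le_iff_le_comap]
      intro x hx
      obtain ⟨u, hu, hux⟩ := hreg x hx
      have h1 : ι (u * x) ∈ Ideal.map ι (Ideal.span {ϖB, s}) := Ideal.mem_map_of_mem ι hux
      rw [Ideal.map_span, Set.image_pair, map_mul] at h1
      have hunit : IsUnit (ι u) := IsLocalization.map_units R (⟨u, hu⟩ : 𝔪.primeCompl)
      exact (Ideal.unit_mul_mem_iff_mem _ hunit).mp h1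
    · rw [Ideal.span_le]
      rintro x (rfl | rfl)
      · exact Ideal.mem_map_of_mem _ hϖ𝔪
      · exact Ideal.mem_map_of_mem _ hs𝔪
  have hUFD : UniqueFactorizationMonoid R := as1_ufd_of_regular (ι ϖB) (ι s) hϖR hmax
  -- `a`, `b` in `R`
  have hb0 : b ≠ 0 := s18_ne_zero_of_not_dvd hbϖ
  have haϖ : ϖ⁻¹ * a ∉ B := by
    intro h1
    apply hbϖ
    have : ϖ⁻¹ * b = ϖ⁻¹ * a - ϖ⁻¹ * (a - b) := by ring
    rw [this]; exact B.sub_mem h1 hab
  have ha0 : a ≠ 0 := s18_ne_zero_of_not_dvd haϖ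
  let aR : R := ι ⟨a, ha⟩
  let bR : R := ι ⟨b, hb⟩
  have haR0 : aR ≠ 0 := fun h0 => ha0 (congrArg Subtype.val h0)
  have hbR0 : bR ≠ 0 := fun h0 => hb0 (congrArg Subtype.val h0)
  -- `ϖ` does not divide `a`, `b` in `R`
  have hnd : ∀ (c : F) (hc : c ∈ B), ϖ⁻¹ * c ∉ B → ¬ ι ϖB ∣ ι ⟨c, hc⟩ := by
    rintro c hc hcϖ ⟨d, hd⟩
    apply hcϖ
    have hd' : c = ϖ * (d : F) := congrArg Subtype.val hd
    have h1 : ϖ⁻¹ * c = (d : F) := by
      rw [hd', ← mul_assoc, inv_mul_cancel₀ hB.ϖ_ne, one_mul]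
    have h2 : ϖ⁻¹ ^ 1 * c ∈ s18_gauss ϖ B := by
      rw [pow_one, h1]
      exact s18_loc_subset_gauss hB hϖ𝔪 ((hmemR _).mp d.2)
    have := s18_gauss_cap hB hc 1 h2
    rwa [pow_one] at this
  have hmod : ∀ f : R, Prime f → multiplicity f aR ≡ multiplicity f bR [MOD p] := by
    intro f hf
    by_cases hfϖ : f ∣ ι ϖB
    · obtain ⟨c, hc⟩ := hfϖ
      have hcu : IsUnit c := (hϖR.irreducible.isUnit_or_isUnit hc).resolve_left hf.not_isUnit
      have hϖf : ι ϖB ∣ f := by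
        obtain ⟨u, rfl⟩ := hcu
        exact ⟨↑u⁻¹, by rw [hc, mul_assoc, Units.mul_inv, mul_one]⟩
      have h1 : ¬ f ∣ aR := fun h2 => hnd a ha haϖ (hϖf.trans h2)
      have h2 : ¬ f ∣ bR := fun h3 => hnd b hb hbϖ (hϖf.trans h3)
      rw [multiplicity_eq_zero.mpr h1, multiplicity_eq_zero.mpr h2]
    · have hBW : B ≤ (as1_primeVal (F := F) f hf).toSubring := by
        intro x hx
        exact as1_algebraMap_mem_primeVal hf (ι ⟨x, hx⟩)
      have hϖW : ϖ⁻¹ ∈ as1_primeVal (F := F) f hf := as1_inv_mem_primeVal hf hfϖ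
      obtain ⟨g, u, hu, hu', hgu⟩ := hdiv _ (as1_primeVal_isDVR hf) hBW hϖW
      refine as1_multiplicity_modEq hf p hp haR0 hbR0 (g := g) hu hu' ?_
      show a / b = u * g ^ p
      rw [← hh]; exact hgu
  obtain ⟨gp, gm, w, hgp0, hgm0, hrel, hM⟩ := as1_pow_factor p hp aR bR haR0 hbR0 hmod
  have hgpF : (gp : F) ≠ 0 := fun h0 => hgp0 (Subtype.ext h0)
  have hgmF : (gm : F) ≠ 0 := fun h0 => hgm0 (Subtype.ext h0)
  have hrelF : a * (gm : F) ^ p = ((w : R) : F) * b * (gp : F) ^ p := by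
    have := congrArg (Subtype.val : R → F) hrel
    exact this
  have hwinv : (((w⁻¹ : Rˣ) : R) : F) = (((w : R) : F))⁻¹ := by
    have h1 : ((w : R) : F) * (((w⁻¹ : Rˣ) : R) : F) = 1 := by
      have := congrArg (Subtype.val : R → F) (Units.mul_inv w)
      exact this
    exact eq_inv_of_mul_eq_one_right h1
  refine ⟨(gp : F) / (gm : F), ((w : R) : F), ?_, (hmemR _).mp (w : R).2, ?_, ?_⟩
  · rw [hh, div_pow, div_mul_eq_mul_div, div_eq_div_iff hb0 (pow_ne_zero p hgmF)]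
    linear_combination hrelF
  · rw [← hwinv]
    exact (hmemR _).mp ((w⁻¹ : Rˣ) : R).2
  · intro M hMloc hMg
    let M' : R := ⟨M, (hmemR M).mpr hMloc⟩
    let N' : R := ⟨M * ((gp : F) / (gm : F)) ^ p, (hmemR _).mpr hMg⟩
    have hdvd : gm ^ p ∣ M' * gp ^ p := by
      refine ⟨N', Subtype.ext ?_⟩
      show M * (gp : F) ^ p = (gm : F) ^ p * (M * ((gp : F) / (gm : F)) ^ p)
      rw [div_pow]
      field_simp
    obtain ⟨k, hk⟩ := hM M' hdvd
    have hk' : M = (gm : F) * (k : F) := congrArg Subtype.val hk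
    have : M * ((gp : F) / (gm : F)) = ((k * gp : R) : F) := by
      rw [hk']
      show (gm : F) * (k : F) * ((gp : F) / (gm : F)) = (k : F) * (gp : F)
      field_simp
    rw [this]
    exact (hmemR _).mp (k * gp : R).2

end Fermat.Agent.S18
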