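import Mathlib
import Fermat.Agent.S18.ChartDefs
import Fermat.Agent.S18.Gauss
import Fermat.Agent.S18.AsUfd
import Fermat.Agent.S18.AsNormalize

/-!
# S18, block A (AS1 + AS2): the local `p`-th root at a closed point of the special fibre

Combination of the UFD factorisation `h = g^p * w` (`s18_as_ufd`) with the normalisation
`g ≡ γ mod ϖ` (`s18_as_normalize`): after replacing `g` by `g / γ` and `w` by `w * γ^p` we get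
`g ≡ 1 mod ϖ` in the Gauss ring and `w ≡ 1 mod ϖ` in `B_𝔪`.
-/

set_option autoImplicit false

namespace Fermat.Agent.S18

theorem s18_as_local {F : Type*} [Field F] {ϖ : F} {B : Subring F} (hB : s18_Chart ϖ B)
    (p : ℕ) (hp : 0 < p)
    (h a b : F) (ha : a ∈ B) (hb : b ∈ B) (hbϖ : ϖ⁻¹ * b ∉ B) (hab : ϖ⁻¹ * (a - b) ∈ B)
    (hh : h = a / b)
    (hdiv : ∀ W : ValuationSubring F, IsDiscreteValuationRing W → B ≤ W.toSubring → ϖ⁻¹ ∈ W →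
      ∃ g u : F, u ∈ W ∧ u⁻¹ ∈ W ∧ h = u * g ^ p)
    (𝔪 : Ideal B) (h𝔪 : 𝔪.IsMaximal) (hϖ𝔪 : (⟨ϖ, hB.ϖ_mem⟩ : B) ∈ 𝔪) :
    ∃ g w : F, h = g ^ p * w ∧ w ∈ s18_loc B 𝔪 ∧ w⁻¹ ∈ s18_loc B 𝔪 ∧
      ϖ⁻¹ * (w - 1) ∈ s18_loc B 𝔪 ∧ g ∈ s18_gauss ϖ B ∧ ϖ⁻¹ * (g - 1) ∈ s18_gauss ϖ B ∧
      (∀ M : F, M ∈ s18_loc B 𝔪 → M * g ^ p ∈ s18_loc B 𝔪 → M * g ∈ s18_loc B 𝔪) := by
  classical
  haveI hmp := h𝔪.isPrime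
  have hϖ0 := hB.ϖ_ne
  set V := s18_gaussRing hB with hV
  set L := s18_locRing B 𝔪 with hL
  have hϖV : ϖ ∈ V := s18_le_gaussRing hB hB.ϖ_mem
  have hlocV : ∀ x, x ∈ L → x ∈ V := fun x hx => s18_loc_subset_gauss hB hϖ𝔪 hx
  have hb0 : b ≠ 0 := s18_ne_zero_of_not_dvd hbϖ
  obtain ⟨g₀, w₀, hh0, hw₀, hw₀', hM₀⟩ :=
    s18_as_ufd hB p hp h a b ha hb hbϖ hab hh hdiv 𝔪 h𝔪 hϖ𝔪
  -- `h ≡ 1 mod ϖ` in the Gauss ring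
  have hh1 : ϖ⁻¹ * (h - 1) ∈ V := by
    refine ⟨ϖ⁻¹ * (a - b), hab, b, hb, hbϖ, ?_⟩
    rw [hh]; field_simp
  have hgw : ϖ⁻¹ * (g₀ ^ p * w₀ - 1) ∈ s18_gauss ϖ B := by rw [← hh0]; exact hh1
  obtain ⟨γ, hγ, hγ', hγg⟩ := s18_as_normalize hB p hp 𝔪 h𝔪 hϖ𝔪 g₀ w₀ hw₀ hw₀' hgw
  have hγL : γ ∈ L := hγ
  have hγL' : γ⁻¹ ∈ L := hγ'
  have hw₀L : w₀ ∈ L := hw₀
  have hw₀L' : w₀⁻¹ ∈ L := hw₀'
  have hγgV : ϖ⁻¹ * (g₀ * γ⁻¹ - 1) ∈ V := hγg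
  have hγ0 : γ ≠ 0 := by
    rintro rfl
    apply s18_ϖ_inv_not_mem_gauss hB
    have : ϖ⁻¹ = -(ϖ⁻¹ * (g₀ * (0 : F)⁻¹ - 1)) := by rw [inv_zero]; ring
    rw [this]; exact V.neg_mem hγgV
  -- `g = g₀ / γ ≡ 1`
  have hgV : g₀ * γ⁻¹ ∈ V := by
    have e : g₀ * γ⁻¹ = 1 + ϖ * (ϖ⁻¹ * (g₀ * γ⁻¹ - 1)) := by
      rw [← mul_assoc, mul_inv_cancel₀ hϖ0]; ring
    rw [e]
    exact V.add_mem V.one_mem (V.mul_mem hϖV hγgV)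
  have hgV' : (g₀ * γ⁻¹)⁻¹ ∈ V := by
    have e : g₀ * γ⁻¹ = 1 + ϖ * (ϖ⁻¹ * (g₀ * γ⁻¹ - 1)) := by
      rw [← mul_assoc, mul_inv_cancel₀ hϖ0]; ring
    rw [e]
    exact s18_gauss_one_add_inv hB hγg
  have hg0 : g₀ * γ⁻¹ ≠ 0 := by
    intro h0
    apply s18_ϖ_inv_not_mem_gauss hB
    have : ϖ⁻¹ = -(ϖ⁻¹ * (g₀ * γ⁻¹ - 1)) := by rw [h0]; ring
    rw [this]; exact V.neg_mem hγgV
  have hwL : w₀ * γ ^ p ∈ L := L.mul_mem hw₀L (L.pow_mem hγL p)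
  have hwL' : (w₀ * γ ^ p)⁻¹ ∈ L := by
    rw [mul_inv, ← inv_pow]; exact L.mul_mem hw₀L' (L.pow_mem hγL' p)
  have hhgw : h = (g₀ * γ⁻¹) ^ p * (w₀ * γ ^ p) := by
    rw [hh0, mul_pow, inv_pow]; field_simp
  refine ⟨g₀ * γ⁻¹, w₀ * γ ^ p, hhgw, hwL, hwL', ?_, hgV, hγg, ?_⟩
  · -- `w ≡ 1 mod ϖ`
    have h1 : ϖ⁻¹ ^ 1 * (w₀ * γ ^ p - 1) ∈ s18_loc B 𝔪 := by
      apply s18_loc_cap hB (L.sub_mem hwL L.one_mem) 1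
      -- `w - 1 = (h - g^p) / g^p`
      have hgp1 : ϖ⁻¹ * ((g₀ * γ⁻¹) ^ p - 1) ∈ V := by
        have hgeom : (g₀ * γ⁻¹) ^ p - 1 =
            (g₀ * γ⁻¹ - 1) * ∑ i ∈ Finset.range p, (g₀ * γ⁻¹) ^ i := by
          rw [mul_comm (g₀ * γ⁻¹ - 1), geom_sum_mul]
        rw [hgeom, ← mul_assoc]
        exact V.mul_mem hγgV (Subring.sum_mem V (fun i _ => V.pow_mem hgV i))
      have key : ∀ G W : F, G ≠ 0 → ϖ⁻¹ ^ 1 * (W - 1) =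
          (ϖ⁻¹ * (G ^ p * W - 1) - ϖ⁻¹ * (G ^ p - 1)) * (G⁻¹) ^ p := by
        intro G W hG
        have hG' : G ^ p * (G⁻¹) ^ p = 1 := by rw [← mul_pow, mul_inv_cancel₀ hG, one_pow]
        rw [pow_one]
        linear_combination (-(ϖ⁻¹ * (W - 1))) * hG'
      have e : ϖ⁻¹ ^ 1 * (w₀ * γ ^ p - 1) =
          (ϖ⁻¹ * (h - 1) - ϖ⁻¹ * ((g₀ * γ⁻¹) ^ p - 1)) * ((g₀ * γ⁻¹)⁻¹) ^ p := by
        rw [key (g₀ * γ⁻¹) (w₀ * γ ^ p) hg0, ← hhgw]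
      rw [e]
      exact V.mul_mem (V.sub_mem hh1 hgp1) (V.pow_mem hgV' p)
    simpa using h1
  · intro M hM hMg
    have h1 : M * g₀ ^ p ∈ s18_loc B 𝔪 := by
      have e : M * g₀ ^ p = M * (g₀ * γ⁻¹) ^ p * γ ^ p := by
        rw [mul_pow, inv_pow]; field_simp
      rw [e]
      exact L.mul_mem hMg (L.pow_mem hγL p)
    have h2 := hM₀ M hM h1
    have e : M * (g₀ * γ⁻¹) = M * g₀ * γ⁻¹ := by ring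
    rw [e]
    exact L.mul_mem h2 hγL'

end Fermat.Agent.S18
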