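import Mathlib

/-!
# S18, block AS3: approximate `p`-th roots of `1`-units and their uniqueness

`R` a commutative ring, `I` an ideal, `p` a natural number invertible in `R`.
* every `h ≡ 1 mod I` has, for every `n`, a `p`-th root `u ≡ 1 mod I` modulo `I ^ n`
  (Newton iteration `u ↦ u - (u ^ p - h) / p`);
* two `p`-th roots `≡ 1 mod I` of the same element modulo `I ^ n` agree modulo `I ^ n`.
Principal versions (`I = (pi)`, stated with divisibility) are included.
-/

namespace Fermat.Agent.S18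

/-- `u ≡ 1 mod I` implies `u ^ m ≡ 1 mod I`. -/
theorem as3_pow_sub_one_mem {R : Type*} [CommRing R] (I : Ideal R) (u : R) (hu : u - 1 ∈ I)
    (m : ℕ) : u ^ m - 1 ∈ I := by
  obtain ⟨c, hc⟩ := sub_dvd_pow_sub_pow u 1 m
  rw [one_pow] at hc
  rw [hc]
  exact I.mul_mem_right c hu

/-- Existence of approximate `p`-th roots of elements `≡ 1 mod I`. -/
theorem as3_exists_root {R : Type*} [CommRing R] (I : Ideal R) (p : ℕ) (hp : IsUnit (p : R))
    (h : R) (hh : h - 1 ∈ I) (n : ℕ) : ∃ u : R, u - 1 ∈ I ∧ u ^ p - h ∈ I ^ n := by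
  obtain ⟨q, hq⟩ := hp.exists_right_inv
  induction n with
  | zero => exact ⟨1, by simp, by simp⟩
  | succ n ih =>
    obtain ⟨u, hu1, hun⟩ := ih
    rcases Nat.eq_zero_or_pos n with rfl | hn
    · refine ⟨1, by simp, ?_⟩
      rw [zero_add, pow_one, one_pow]
      have : (1 : R) - h = -(h - 1) := by ring
      rw [this]
      exact I.neg_mem hh
    · -- Newton step
      have heI : u ^ p - h ∈ I := Ideal.pow_le_self (Nat.pos_iff_ne_zero.mp hn) hun
      obtain ⟨k, hk⟩ := Polynomial.powAddExpansion u (-(q * (u ^ p - h))) p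
      refine ⟨u + -(q * (u ^ p - h)), ?_, ?_⟩
      · have : u + -(q * (u ^ p - h)) - 1 = (u - 1) - q * (u ^ p - h) := by ring
        rw [this]
        exact I.sub_mem hu1 (I.mul_mem_left q heI)
      · have hexp : (u + -(q * (u ^ p - h))) ^ p - h =
            (u ^ p - h) * (-(u ^ (p - 1) - 1)) * ((p : R) * q) +
              (u ^ p - h) * (1 - (p : R) * q) +
              k * q ^ 2 * ((u ^ p - h) * (u ^ p - h)) := by
          rw [hk]; ring
        rw [hexp, hq, sub_self, mul_zero, add_zero, mul_one]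
        refine Ideal.add_mem _ ?_ ?_
        · rw [pow_succ]
          exact Ideal.mul_mem_mul hun (I.neg_mem (as3_pow_sub_one_mem I u hu1 (p - 1)))
        · refine Ideal.mul_mem_left _ _ ?_
          have h2 : (u ^ p - h) * (u ^ p - h) ∈ I ^ n * I ^ n := Ideal.mul_mem_mul hun hun
          rw [← pow_add] at h2
          exact Ideal.pow_le_pow_right (by omega) h2

/-- Uniqueness of approximate `p`-th roots `≡ 1 mod I`. -/
theorem as3_root_unique {R : Type*} [CommRing R] (I : Ideal R) (p : ℕ) (hp : IsUnit (p : R))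
    (v w : R) (hv : v - 1 ∈ I) (hw : w - 1 ∈ I) (n : ℕ) (hvw : v ^ p - w ^ p ∈ I ^ n) :
    v - w ∈ I ^ n := by
  obtain ⟨q, hq⟩ := hp.exists_right_inv
  -- the cofactor `S = ∑ v^i w^(p-1-i) ≡ p mod I`
  have hS : (∑ i ∈ Finset.range p, v ^ i * w ^ (p - 1 - i)) - (p : R) ∈ I := by
    have : (∑ i ∈ Finset.range p, v ^ i * w ^ (p - 1 - i)) - (p : R) =
        ∑ i ∈ Finset.range p, (v ^ i * w ^ (p - 1 - i) - 1) := by
      rw [Finset.sum_sub_distrib]; simp
    rw [this]
    refine I.sum_mem fun i _ => ?_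
    have h1 := as3_pow_sub_one_mem I v hv i
    have h2 := as3_pow_sub_one_mem I w hw (p - 1 - i)
    have : v ^ i * w ^ (p - 1 - i) - 1 = (v ^ i - 1) * w ^ (p - 1 - i) + (w ^ (p - 1 - i) - 1) := by
      ring
    rw [this]
    exact I.add_mem (I.mul_mem_right _ h1) h2
  have hfac : (∑ i ∈ Finset.range p, v ^ i * w ^ (p - 1 - i)) * (v - w) = v ^ p - w ^ p :=
    geom_sum₂_mul v w p
  have key : ∀ k : ℕ, k ≤ n → v - w ∈ I ^ k := by
    intro k
    induction k with
    | zero => intro _; simp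
    | succ k ih =>
      intro hk
      have hk' := ih (by omega)
      have e : v - w = q * ((v ^ p - w ^ p) -
          ((∑ i ∈ Finset.range p, v ^ i * w ^ (p - 1 - i)) - (p : R)) * (v - w)) +
          (1 - (p : R) * q) * (v - w) := by
        rw [← hfac]; ring
      rw [e, hq, sub_self, zero_mul, add_zero]
      refine Ideal.mul_mem_left _ _ (Ideal.sub_mem _ (Ideal.pow_le_pow_right hk hvw) ?_)
      rw [pow_succ, mul_comm _ (v - w)]
      exact Ideal.mul_mem_mul hk' hS
  exact key n le_rfl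

/-- Principal version of `as3_exists_root`. -/
theorem as3_exists_root_principal {R : Type*} [CommRing R] (pi : R) (p : ℕ)
    (hp : IsUnit (p : R)) (h : R) (hh : pi ∣ h - 1) (n : ℕ) :
    ∃ u : R, pi ∣ u - 1 ∧ pi ^ n ∣ u ^ p - h := by
  obtain ⟨u, hu1, hun⟩ := as3_exists_root (Ideal.span {pi}) p hp h
    (Ideal.mem_span_singleton.mpr hh) n
  refine ⟨u, Ideal.mem_span_singleton.mp hu1, ?_⟩
  rw [Ideal.span_singleton_pow] at hun
  exact Ideal.mem_span_singleton.mp hun

/-- Principal version of `as3_root_unique`. -/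
theorem as3_root_unique_principal {R : Type*} [CommRing R] (pi : R) (p : ℕ)
    (hp : IsUnit (p : R)) (v w : R) (hv : pi ∣ v - 1) (hw : pi ∣ w - 1) (n : ℕ)
    (hvw : pi ^ n ∣ v ^ p - w ^ p) : pi ^ n ∣ v - w := by
  have := as3_root_unique (Ideal.span {pi}) p hp v w (Ideal.mem_span_singleton.mpr hv)
    (Ideal.mem_span_singleton.mpr hw) n
    (by rw [Ideal.span_singleton_pow]; exact Ideal.mem_span_singleton.mpr hvw)
  rw [Ideal.span_singleton_pow] at this
  exact Ideal.mem_span_singleton.mp this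

end Fermat.Agent.S18
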