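import Mathlib
import Fermat.Agent.S18.ChartDefs
import Fermat.Agent.S18.Gauss
import Fermat.Agent.S18.PthRoot
import Fermat.Agent.S18.AsLocal

/-!
# S18, block A (AS4 + AS5): approximation inside one chart

If `u ≡ 1` is a `p`-th root of `h` modulo `ϖ^n` in the Gauss ring and `M, M h ∈ B`, then `M u` is
congruent modulo `ϖ^n` (in the Gauss ring) to an element of `B`.  The ideal of denominators of
`M u` modulo `ϖ^n` is not contained in any maximal ideal: away from `ϖ` it contains `ϖ^n`, and at a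
maximal ideal containing `ϖ` the local factorization `h = g^p w` and the uniqueness of `p`-th roots
give `u ≡ g w_n` with `M g w_n ∈ B_𝔪`.
-/

set_option autoImplicit false

namespace Fermat.Agent.S18

variable {F : Type*} [Field F] {ϖ : F} {B : Subring F}

/-- (AS4 + AS5) approximation inside one chart. -/
theorem s18_as_chart_approx (hB : s18_Chart ϖ B)
    (p : ℕ) (hp : 0 < p) (hp0 : (p : F) ≠ 0) (hpu : ((p : F))⁻¹ ∈ B)
    (h a b : F) (ha : a ∈ B) (hb : b ∈ B) (hbϖ : ϖ⁻¹ * b ∉ B) (hab : ϖ⁻¹ * (a - b) ∈ B)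
    (hh : h = a / b)
    (hdiv : ∀ W : ValuationSubring F, IsDiscreteValuationRing W → B ≤ W.toSubring → ϖ⁻¹ ∈ W →
      ∃ g u : F, u ∈ W ∧ u⁻¹ ∈ W ∧ h = u * g ^ p)
    (M : F) (hM : M ∈ B) (hMh : M * h ∈ B)
    (n : ℕ) (u : F) (hu : ϖ⁻¹ * (u - 1) ∈ s18_gauss ϖ B)
    (hun : (ϖ⁻¹) ^ n * (u ^ p - h) ∈ s18_gauss ϖ B) :
    ∃ x ∈ B, (ϖ⁻¹) ^ n * (x - M * u) ∈ s18_gauss ϖ B := by
  classical
  have hϖ0 := hB.ϖ_ne
  have hϖV : ϖ ∈ s18_gaussRing hB := s18_le_gaussRing hB hB.ϖ_mem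
  have huV : u ∈ s18_gaussRing hB := by
    have e : u = 1 + ϖ * (ϖ⁻¹ * (u - 1)) := by
      rw [← mul_assoc, mul_inv_cancel₀ hϖ0]; ring
    rw [e]
    exact (s18_gaussRing hB).add_mem (s18_gaussRing hB).one_mem
      ((s18_gaussRing hB).mul_mem hϖV hu)
  have hMV : M ∈ s18_gaussRing hB := s18_le_gaussRing hB hM
  have hb0 : b ≠ 0 := s18_ne_zero_of_not_dvd hbϖ
  have ha0 : a ≠ 0 := by
    rintro rfl
    apply hbϖ
    have : ϖ⁻¹ * b = -(ϖ⁻¹ * (0 - b)) := by ring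
    rw [this]; exact B.neg_mem hab
  have hh0 : h ≠ 0 := by rw [hh]; exact div_ne_zero ha0 hb0
  -- the ideal of denominators
  let J : Ideal B :=
    { carrier := {s | ∃ x ∈ B, ϖ⁻¹ ^ n * ((s : F) * (M * u) - x) ∈ s18_gaussRing hB}
      add_mem' := by
        rintro s₁ s₂ ⟨x₁, hx₁, h₁⟩ ⟨x₂, hx₂, h₂⟩
        refine ⟨x₁ + x₂, B.add_mem hx₁ hx₂, ?_⟩
        have e : ϖ⁻¹ ^ n * (((s₁ + s₂ : B) : F) * (M * u) - (x₁ + x₂)) =
            ϖ⁻¹ ^ n * ((s₁ : F) * (M * u) - x₁) + ϖ⁻¹ ^ n * ((s₂ : F) * (M * u) - x₂) := by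
          push_cast; ring
        rw [e]; exact (s18_gaussRing hB).add_mem h₁ h₂
      zero_mem' := ⟨0, B.zero_mem, by simp [(s18_gaussRing hB).zero_mem]⟩
      smul_mem' := by
        rintro c s ⟨x, hx, h₁⟩
        refine ⟨c * x, B.mul_mem c.2 hx, ?_⟩
        have e : ϖ⁻¹ ^ n * (((c • s : B) : F) * (M * u) - c * x) =
            (c : F) * (ϖ⁻¹ ^ n * ((s : F) * (M * u) - x)) := by
          simp only [smul_eq_mul, Subring.coe_mul]; ring
        rw [e]; exact (s18_gaussRing hB).mul_mem (s18_le_gaussRing hB c.2) h₁ }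
  have hJ : J = ⊤ := by
    by_contra hne
    obtain ⟨𝔪, h𝔪, hJ𝔪⟩ := Ideal.exists_le_maximal J hne
    haveI := h𝔪.isPrime
    by_cases hϖ𝔪 : (⟨ϖ, hB.ϖ_mem⟩ : B) ∈ 𝔪
    · obtain ⟨g, w, hgw, hw, hw', hw1, hg, hg1, hMcl⟩ :=
        s18_as_local hB p hp h a b ha hb hbϖ hab hh hdiv 𝔪 h𝔪 hϖ𝔪
      have hϖO : ϖ ∈ s18_locRing B 𝔪 := s18_le_locRing B 𝔪 hB.ϖ_mem
      have hOV : ∀ y, y ∈ s18_locRing B 𝔪 → y ∈ s18_gaussRing hB :=
        fun y hy => s18_loc_subset_gauss hB hϖ𝔪 hy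
      have hw0 : w ≠ 0 := by
        rintro rfl
        exact hh0 (by rw [hgw, mul_zero])
      -- `p` is a unit in the local ring and in the Gauss ring
      have hpO : IsUnit ((p : ℕ) : s18_locRing B 𝔪) := by
        refine IsUnit.of_mul_eq_one (⟨(p : F)⁻¹, s18_le_locRing B 𝔪 hpu⟩ : s18_locRing B 𝔪) ?_
        apply Subtype.ext
        simp only [Subring.coe_mul, Subring.coe_natCast, Subring.coe_one]
        exact mul_inv_cancel₀ hp0
      have hpV : IsUnit ((p : ℕ) : s18_gaussRing hB) := by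
        refine IsUnit.of_mul_eq_one
          (⟨(p : F)⁻¹, s18_le_gaussRing hB hpu⟩ : s18_gaussRing hB) ?_
        apply Subtype.ext
        simp only [Subring.coe_mul, Subring.coe_natCast, Subring.coe_one]
        exact mul_inv_cancel₀ hp0
      -- Hensel in the local ring
      have hwd : (⟨ϖ, hϖO⟩ : s18_locRing B 𝔪) ∣ (⟨w, hw⟩ : s18_locRing B 𝔪) - 1 := by
        rw [s18_subring_dvd_iff_one _ hϖO hϖ0]
        exact hw1
      obtain ⟨wn, hwn1, hwnp⟩ := as3_exists_root_principal (⟨ϖ, hϖO⟩ : s18_locRing B 𝔪) p hpO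
        ⟨w, hw⟩ hwd n
      rw [s18_subring_dvd_iff_one _ hϖO hϖ0] at hwn1
      rw [s18_subring_dvd_iff _ hϖO hϖ0] at hwnp
      simp only [AddSubgroupClass.coe_sub, Subring.coe_one, Subring.coe_pow] at hwn1 hwnp
      have hwnV : (wn : F) ∈ s18_gaussRing hB := hOV _ wn.2
      have hgV : g ∈ s18_gaussRing hB := hg
      -- uniqueness in the Gauss ring
      have hyV : g * (wn : F) ∈ s18_gaussRing hB := (s18_gaussRing hB).mul_mem hgV hwnV
      have hu1 : (⟨ϖ, hϖV⟩ : s18_gaussRing hB) ∣ (⟨u, huV⟩ : s18_gaussRing hB) - 1 := by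
        rw [s18_subring_dvd_iff_one _ hϖV hϖ0]
        exact hu
      have hy1 : (⟨ϖ, hϖV⟩ : s18_gaussRing hB) ∣
          (⟨g * (wn : F), hyV⟩ : s18_gaussRing hB) - 1 := by
        rw [s18_subring_dvd_iff_one _ hϖV hϖ0]
        simp only [AddSubgroupClass.coe_sub, Subring.coe_one]
        have e : ϖ⁻¹ * (g * (wn : F) - 1) = ϖ⁻¹ * (g - 1) * (wn : F) + ϖ⁻¹ * ((wn : F) - 1) := by
          ring
        rw [e]
        exact (s18_gaussRing hB).add_mem ((s18_gaussRing hB).mul_mem hg1 hwnV) (hOV _ hwn1)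
      have huy : (⟨ϖ, hϖV⟩ : s18_gaussRing hB) ^ n ∣
          (⟨u, huV⟩ : s18_gaussRing hB) ^ p - (⟨g * (wn : F), hyV⟩ : s18_gaussRing hB) ^ p := by
        rw [s18_subring_dvd_iff _ hϖV hϖ0]
        simp only [AddSubgroupClass.coe_sub, Subring.coe_pow]
        have e : ϖ⁻¹ ^ n * (u ^ p - (g * (wn : F)) ^ p) =
            ϖ⁻¹ ^ n * (u ^ p - h) - g ^ p * (ϖ⁻¹ ^ n * ((wn : F) ^ p - w)) := by
          rw [hgw]; ring
        rw [e]
        exact (s18_gaussRing hB).sub_mem hun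
          ((s18_gaussRing hB).mul_mem ((s18_gaussRing hB).pow_mem hgV p) (hOV _ hwnp))
      have key := as3_root_unique_principal (⟨ϖ, hϖV⟩ : s18_gaussRing hB) p hpV _ _ hu1 hy1 n huy
      rw [s18_subring_dvd_iff _ hϖV hϖ0] at key
      simp only [AddSubgroupClass.coe_sub] at key
      -- `M g w_n` lies in the local ring
      have hMg : M * g ∈ s18_locRing B 𝔪 := by
        apply hMcl M (s18_le_locRing B 𝔪 hM)
        have e : M * g ^ p = M * h * w⁻¹ := by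
          rw [hgw]; field_simp
        rw [e]
        exact (s18_locRing B 𝔪).mul_mem (s18_le_locRing B 𝔪 hMh) hw'
      have ho : M * g * (wn : F) ∈ s18_locRing B 𝔪 := (s18_locRing B 𝔪).mul_mem hMg wn.2
      obtain ⟨a', s', hs', ho'⟩ := ho
      have hs0 : (s' : F) ≠ 0 := fun h0 => hs' (by
        have : s' = 0 := Subtype.ext h0
        rw [this]; exact 𝔪.zero_mem)
      have hsJ : s' ∈ J := by
        refine ⟨a', a'.2, ?_⟩
        have e : ϖ⁻¹ ^ n * ((s' : F) * (M * u) - a') =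
            (s' : F) * M * (ϖ⁻¹ ^ n * (u - g * (wn : F))) := by
          have ha' : (a' : F) = (s' : F) * (M * g * (wn : F)) := by
            rw [ho']; field_simp
          rw [ha']; ring
        rw [e]
        exact (s18_gaussRing hB).mul_mem
          ((s18_gaussRing hB).mul_mem (s18_le_gaussRing hB s'.2) hMV) key
      exact hs' (hJ𝔪 hsJ)
    · have hmem : (⟨ϖ, hB.ϖ_mem⟩ : B) ^ n ∈ J := by
        refine ⟨0, B.zero_mem, ?_⟩
        have e : ϖ⁻¹ ^ n * ((((⟨ϖ, hB.ϖ_mem⟩ : B) ^ n : B) : F) * (M * u) - 0) = M * u := by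
          simp only [Subring.coe_pow, sub_zero]
          rw [← mul_assoc, ← mul_pow, inv_mul_cancel₀ hϖ0, one_pow, one_mul]
        rw [e]
        exact (s18_gaussRing hB).mul_mem hMV huV
      exact hϖ𝔪 (h𝔪.isPrime.mem_of_pow_mem n (hJ𝔪 hmem))
  have h1 : (1 : B) ∈ J := by rw [hJ]; trivial
  obtain ⟨x, hx, hx'⟩ := h1
  refine ⟨x, hx, ?_⟩
  have e : ϖ⁻¹ ^ n * (x - M * u) = -(ϖ⁻¹ ^ n * (((1 : B) : F) * (M * u) - x)) := by
    simp only [Subring.coe_one]; ring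
  rw [e]
  exact (s18_gaussRing hB).neg_mem hx'

end Fermat.Agent.S18
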