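import Fermat.Agent.S18.ApproxNullstellensatz

/-!
# S18, block AS7b: exact `p`-th roots with `Ω`-coefficients from approximate ones

`A₀` a DVR with uniformizer `π`, `Λ₁`, `Λ₂` finitely generated `A₀`-submodules of a field `F ⊇ A₀`
with `Λ₁^p ⊆ Λ₂`, `y ∈ Λ₂`.  If for every `n` there is `x ∈ Λ₁` with `x^p ≡ y mod π^n Λ₂`, then
`y` becomes a `p`-th power of an `Ω`-linear combination of elements of `F`, in any ring `E`
receiving `F` and an algebraically closed field `Ω ⊇ A₀` compatibly.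

Proof: `Λ₁`, `Λ₂` are free; in coordinates the equation `x^p = y` is a polynomial system over
`A₀`, which has approximate solutions modulo all `π^n`, hence an exact solution over `Ω`
(`as7_exists_zero`).
-/

set_option autoImplicit false

namespace Fermat.Agent.S18

/-- Expansion of the `p`-th power of a finite sum, indexed by functions `Fin p → Fin r`. -/
theorem s18_sum_pow_fin {R : Type*} [CommSemiring R] {r : ℕ} (u : Fin r → R) (p : ℕ) :
    (∑ i, u i) ^ p = ∑ ν : Fin p → Fin r, ∏ k, u (ν k) := by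
  rw [Finset.sum_pow', Fintype.piFinset_univ]

/-- (AS7b) coordinates: approximate `p`-th roots in a finitely generated module give an exact
`p`-th root with coefficients in `Ω`. -/
theorem s18_as_exact {A₀ F : Type*} [CommRing A₀] [IsDomain A₀] [IsDiscreteValuationRing A₀]
    [Field F] [Algebra A₀ F] (hinj : Function.Injective (algebraMap A₀ F)) {π : A₀}
    (hπ : Irreducible π) (p : ℕ) (Λ₁ Λ₂ : Submodule A₀ F) (h₁ : Λ₁.FG) (h₂ : Λ₂.FG)
    (hmul : ∀ f : Fin p → F, (∀ i, f i ∈ Λ₁) → ∏ i, f i ∈ Λ₂)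
    (y : F) (hy : y ∈ Λ₂)
    (happrox : ∀ n : ℕ, ∃ x ∈ Λ₁, ∃ z ∈ Λ₂, x ^ p - y = algebraMap A₀ F π ^ n * z)
    {Ω E : Type*} [Field Ω] [IsAlgClosed Ω] [CommRing E] (φ : A₀ →+* Ω)
    (hφ : Function.Injective φ) (ιF : F →+* E) (ιΩ : Ω →+* E)
    (hc : ∀ x : A₀, ιΩ (φ x) = ιF (algebraMap A₀ F x)) :
    ∃ (n : ℕ) (ω : Fin n → Ω) (e : Fin n → F), (∑ i, ιΩ (ω i) * ιF (e i)) ^ p = ιF y := by
  classical
  have : Module.IsTorsionFree A₀ F := Module.isTorsionFree_iff_algebraMap_injective.mpr hinj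
  have : Module.Finite A₀ Λ₁ := Module.Finite.iff_fg.mpr h₁
  have : Module.Finite A₀ Λ₂ := Module.Finite.iff_fg.mpr h₂
  obtain ⟨r, b₁⟩ := Module.basisOfFiniteTypeTorsionFree' (R := A₀) (M := Λ₁)
  obtain ⟨s, b₂⟩ := Module.basisOfFiniteTypeTorsionFree' (R := A₀) (M := Λ₂)
  -- structure constants
  let m : (Fin p → Fin r) → Λ₂ := fun ν =>
    ⟨∏ k, ((b₁ (ν k) : Λ₁) : F), hmul _ fun k => (b₁ (ν k)).2⟩
  let c : (Fin p → Fin r) → Fin s → A₀ := fun ν j => b₂.repr (m ν) j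
  let yc : Fin s → A₀ := fun j => b₂.repr ⟨y, hy⟩ j
  have hm : ∀ ν, ∏ k, ((b₁ (ν k) : Λ₁) : F) = ∑ j, c ν j • ((b₂ j : Λ₂) : F) := by
    intro ν
    have h := congrArg (Subtype.val : Λ₂ → F) (b₂.sum_repr (m ν))
    rw [AddSubmonoidClass.coe_finsetSum] at h
    simp only [Submodule.coe_smul] at h
    exact h.symm
  have hyc : y = ∑ j, yc j • ((b₂ j : Λ₂) : F) := by
    have h := congrArg (Subtype.val : Λ₂ → F) (b₂.sum_repr ⟨y, hy⟩)
    rw [AddSubmonoidClass.coe_finsetSum] at h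
    simp only [Submodule.coe_smul] at h
    exact h.symm
  -- the polynomial system
  let G : Fin s → MvPolynomial (Fin r) A₀ := fun j =>
    (∑ ν : Fin p → Fin r, MvPolynomial.C (c ν j) * ∏ k, MvPolynomial.X (ν k)) -
      MvPolynomial.C (yc j)
  have hGeval : ∀ (a : Fin r → A₀) (j : Fin s), MvPolynomial.eval a (G j) =
      (∑ ν : Fin p → Fin r, c ν j * ∏ k, a (ν k)) - yc j := by
    intro a j
    simp only [G, map_sub, map_sum, map_mul, map_prod, MvPolynomial.eval_C, MvPolynomial.eval_X]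
  -- power of a combination of the basis of `Λ₁`
  have hpow : ∀ a : Fin r → A₀, (∑ i, a i • ((b₁ i : Λ₁) : F)) ^ p - y =
      ∑ j, MvPolynomial.eval a (G j) • ((b₂ j : Λ₂) : F) := by
    intro a
    rw [s18_sum_pow_fin]
    have h1 : ∀ ν : Fin p → Fin r, ∏ k, a (ν k) • ((b₁ (ν k) : Λ₁) : F) =
        ∑ j, (c ν j * ∏ k, a (ν k)) • ((b₂ j : Λ₂) : F) := by
      intro ν
      rw [Finset.prod_smul, hm ν, Finset.smul_sum]
      refine Finset.sum_congr rfl fun j _ => ?_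
      rw [smul_smul, mul_comm]
    rw [Finset.sum_congr rfl fun ν _ => h1 ν, Finset.sum_comm]
    conv_lhs => rw [hyc]
    rw [← Finset.sum_sub_distrib]
    refine Finset.sum_congr rfl fun j _ => ?_
    rw [hGeval, sub_smul, Finset.sum_smul]
  -- approximate solutions
  have hG : ∀ n : ℕ, ∃ a : Fin r → A₀, ∀ j, π ^ n ∣ MvPolynomial.eval a (G j) := by
    intro n
    obtain ⟨x, hx, z, hz, hxz⟩ := happrox n
    refine ⟨fun i => b₁.repr ⟨x, hx⟩ i, fun j => ⟨b₂.repr ⟨z, hz⟩ j, ?_⟩⟩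
    have hx' : x = ∑ i, (b₁.repr ⟨x, hx⟩ i) • ((b₁ i : Λ₁) : F) := by
      have h := congrArg (Subtype.val : Λ₁ → F) (b₁.sum_repr ⟨x, hx⟩)
      rw [AddSubmonoidClass.coe_finsetSum] at h
      simp only [Submodule.coe_smul] at h
      exact h.symm
    have h2 := hpow (fun i => b₁.repr ⟨x, hx⟩ i)
    rw [← hx', hxz] at h2
    -- compare coordinates in `Λ₂`
    have h3 : (π ^ n • (⟨z, hz⟩ : Λ₂)) =
        ∑ j, MvPolynomial.eval (fun i => b₁.repr ⟨x, hx⟩ i) (G j) • b₂ j := by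
      apply Subtype.ext
      rw [AddSubmonoidClass.coe_finsetSum]
      simp only [Submodule.coe_smul]
      rw [← h2, Algebra.smul_def, map_pow]
    have h4 := congrArg (fun w => b₂.repr w j) h3
    simp only [map_smul, Finsupp.smul_apply, smul_eq_mul, b₂.repr_sum_self] at h4
    exact h4.symm
  -- exact solution over `Ω`
  let _ : Algebra A₀ Ω := φ.toAlgebra
  have hpi : ∀ d : A₀, (∀ n : ℕ, π ^ n ∣ d) → d = 0 :=
    as7_separated_of_noetherian π hπ.not_isUnit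
  obtain ⟨ω, hω⟩ := as7_exists_zero π hpi (Ω := Ω) hφ G hG
  have hω' : ∀ j, (∑ ν : Fin p → Fin r, φ (c ν j) * ∏ k, ω (ν k)) = φ (yc j) := by
    intro j
    have h := hω j
    simp only [G, map_sub, map_sum, map_mul, map_prod, MvPolynomial.map_C, MvPolynomial.map_X,
      MvPolynomial.eval_C, MvPolynomial.eval_X] at h
    exact sub_eq_zero.mp h
  refine ⟨r, ω, fun i => ((b₁ i : Λ₁) : F), ?_⟩
  rw [s18_sum_pow_fin]
  have h5 : ∀ ν : Fin p → Fin r, ∏ k, (ιΩ (ω (ν k)) * ιF ((b₁ (ν k) : Λ₁) : F)) =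
      ∑ j, ιΩ (φ (c ν j) * ∏ k, ω (ν k)) * ιF ((b₂ j : Λ₂) : F) := by
    intro ν
    rw [Finset.prod_mul_distrib, ← map_prod ιF, hm ν, map_sum, Finset.mul_sum]
    refine Finset.sum_congr rfl fun j _ => ?_
    rw [Algebra.smul_def, map_mul, ← hc, map_mul, map_prod]
    ring
  rw [Finset.sum_congr rfl fun ν _ => h5 ν, Finset.sum_comm]
  conv_rhs => rw [hyc]
  rw [map_sum]
  refine Finset.sum_congr rfl fun j _ => ?_
  rw [← Finset.sum_mul, ← map_sum, hω' j, hc, Algebra.smul_def, map_mul]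

end Fermat.Agent.S18
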