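import Mathlib
import Fermat.Agent.S18.ChartDefs
import Fermat.Agent.S18.Gauss
import Fermat.Agent.S18.PthRoot
import Fermat.Agent.S18.AsChart
import Fermat.Agent.S18.AsExact

/-!
# S18, block A (AS6): the two-chart theorem

Gluing of the approximations in the two charts (via `h1`: `B₀₁ = B₀ + t^c B_∞`), then
`s18_as_exact`.
-/

set_option autoImplicit false

namespace Fermat.Agent.S18

section GaussCompare

variable {F : Type*} [Field F] {ϖ : F}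

/-- Comparison of the Gauss rings of two glued charts. -/
theorem s18_gauss_subset_of_glue {B B' : Subring F} (hB : s18_Chart ϖ B) (hB' : s18_Chart ϖ B')
    (s : F) (hs : s ∈ B) (hs' : s⁻¹ ∈ B') (hsϖ : ϖ⁻¹ * s⁻¹ ∉ B')
    (glue : ∀ x ∈ B', ∃ k : ℕ, s ^ k * x ∈ B) (glue' : ∀ x ∈ B, ∃ k : ℕ, s⁻¹ ^ k * x ∈ B') :
    s18_gauss ϖ B' ⊆ s18_gauss ϖ B := by
  rintro x ⟨a', ha', b', hb', hb'ϖ, rfl⟩
  have hs0 : s ≠ 0 := by
    rintro rfl
    apply hsϖ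
    simp [B'.zero_mem]
  obtain ⟨k₁, hk₁⟩ := glue a' ha'
  obtain ⟨k₂, hk₂⟩ := glue b' hb'
  have hup : ∀ (y : F) (k j : ℕ), s ^ k * y ∈ B → s ^ (k + j) * y ∈ B := by
    intro y k j h
    have e : s ^ (k + j) * y = s ^ j * (s ^ k * y) := by rw [pow_add]; ring
    rw [e]; exact B.mul_mem (B.pow_mem hs j) h
  have hup' : ∀ (y : F) (k j : ℕ), s⁻¹ ^ k * y ∈ B' → s⁻¹ ^ (k + j) * y ∈ B' := by
    intro y k j h
    have e : s⁻¹ ^ (k + j) * y = s⁻¹ ^ j * (s⁻¹ ^ k * y) := by rw [pow_add]; ring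
    rw [e]; exact B'.mul_mem (B'.pow_mem hs' j) h
  have hA := hup a' k₁ k₂ hk₁
  have hBb : s ^ (k₁ + k₂) * b' ∈ B := by
    rw [add_comm]; exact hup b' k₂ k₁ hk₂
  refine ⟨s ^ (k₁ + k₂) * a', hA, s ^ (k₁ + k₂) * b', hBb, ?_, ?_⟩
  · intro hc
    obtain ⟨m, hm⟩ := glue' _ hc
    have hm' := hup' _ m (k₁ + k₂) hm
    have e : s⁻¹ ^ (m + (k₁ + k₂)) * (ϖ⁻¹ * (s ^ (k₁ + k₂) * b')) = ϖ⁻¹ * (s⁻¹ ^ m * b') := by
      rw [pow_add]
      have : s⁻¹ ^ (k₁ + k₂) * s ^ (k₁ + k₂) = 1 := by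
        rw [← mul_pow, inv_mul_cancel₀ hs0, one_pow]
      calc s⁻¹ ^ m * s⁻¹ ^ (k₁ + k₂) * (ϖ⁻¹ * (s ^ (k₁ + k₂) * b'))
          = ϖ⁻¹ * (s⁻¹ ^ m * b') * (s⁻¹ ^ (k₁ + k₂) * s ^ (k₁ + k₂)) := by ring
        _ = ϖ⁻¹ * (s⁻¹ ^ m * b') := by rw [this, mul_one]
    rw [e] at hm'
    rcases hB'.prime _ (B'.pow_mem hs' m) _ hb' hm' with h1 | h1
    · exact hB'.not_dvd_pow hs' hsϖ m h1
    · exact hb'ϖ h1
  · have hb0 : b' ≠ 0 := s18_ne_zero_of_not_dvd hb'ϖ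
    have : s ^ (k₁ + k₂) ≠ 0 := pow_ne_zero _ hs0
    field_simp

end GaussCompare

/-- The module `Λ_c = B₀ ∩ t^c B_∞`. -/
def s18_lam {A₀ F : Type*} [CommRing A₀] [Field F] [Algebra A₀ F] (t : F)
    (B0 Binf : Subalgebra A₀ F) (c : ℕ) : Submodule A₀ F where
  carrier := {x | x ∈ B0 ∧ t⁻¹ ^ c * x ∈ Binf}
  add_mem' := by
    rintro x y ⟨hx, hx'⟩ ⟨hy, hy'⟩
    exact ⟨B0.add_mem hx hy, by rw [mul_add]; exact Binf.add_mem hx' hy'⟩
  zero_mem' := ⟨B0.zero_mem, by rw [mul_zero]; exact Binf.zero_mem⟩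
  smul_mem' := by
    rintro r x ⟨hx, hx'⟩
    exact ⟨B0.smul_mem hx r, by rw [mul_smul_comm]; exact Binf.smul_mem hx' r⟩

theorem s18_mem_lam {A₀ F : Type*} [CommRing A₀] [Field F] [Algebra A₀ F] {t : F}
    {B0 Binf : Subalgebra A₀ F} {c : ℕ} {x : F} :
    x ∈ s18_lam t B0 Binf c ↔ x ∈ B0 ∧ t⁻¹ ^ c * x ∈ Binf := Iff.rfl

/-- (AS) the two-chart theorem. -/
theorem s18_as_main {A₀ F : Type*} [CommRing A₀] [IsDomain A₀] [IsDiscreteValuationRing A₀]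
    [Field F] [Algebra A₀ F] (hinj : Function.Injective (algebraMap A₀ F)) {π : A₀}
    (hπ : Irreducible π) {t : F} {B0 Binf : Subalgebra A₀ F} (hT : s18_TwoChart π t B0 Binf)
    (p : ℕ) (hp : 0 < p) (hpu : IsUnit (p : A₀))
    (h a b : F) (ha : a ∈ B0) (hb : b ∈ B0) (hbπ : (algebraMap A₀ F π)⁻¹ * b ∉ B0)
    (hab : (algebraMap A₀ F π)⁻¹ * (a - b) ∈ B0) (hh : h = a / b)
    (hdiv : ∀ W : ValuationSubring F, IsDiscreteValuationRing W →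
      (∀ x : A₀, algebraMap A₀ F x ∈ W) → (algebraMap A₀ F π)⁻¹ ∈ W →
      ∃ g u : F, u ∈ W ∧ u⁻¹ ∈ W ∧ h = u * g ^ p)
    {Ω E : Type*} [Field Ω] [IsAlgClosed Ω] [CommRing E] (φ : A₀ →+* Ω)
    (hφ : Function.Injective φ) (ιF : F →+* E) (ιΩ : Ω →+* E)
    (hc : ∀ x : A₀, ιΩ (φ x) = ιF (algebraMap A₀ F x)) :
    ∃ (n : ℕ) (ω : Fin n → Ω) (e : Fin n → F) (M : F), M ≠ 0 ∧
      (∑ i, ιΩ (ω i) * ιF (e i)) ^ p = ιF (M ^ p * h) := by
  classical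
  set ϖ : F := algebraMap A₀ F π with hϖdef
  have hB0 : s18_Chart ϖ B0.toSubring := hT.chart0
  have hBi : s18_Chart ϖ Binf.toSubring := hT.chartInf
  have hϖ0 : ϖ ≠ 0 := hB0.ϖ_ne
  have ht0 : t ≠ 0 := hT.t_ne
  have hp1 : 1 ≤ p := hp
  -- `p` is invertible
  obtain ⟨q, hq⟩ := hpu.exists_right_inv
  have hpq : (p : F) * algebraMap A₀ F q = 1 := by
    have := congrArg (algebraMap A₀ F) hq
    simpa using this
  have hp0 : (p : F) ≠ 0 := left_ne_zero_of_mul_eq_one hpq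
  have hpinv : (p : F)⁻¹ = algebraMap A₀ F q := (eq_inv_of_mul_eq_one_right hpq).symm
  have hpu0 : (p : F)⁻¹ ∈ B0.toSubring := by rw [hpinv]; exact B0.algebraMap_mem q
  have hpui : (p : F)⁻¹ ∈ Binf.toSubring := by rw [hpinv]; exact Binf.algebraMap_mem q
  -- the two Gauss rings coincide
  have hV1 : s18_gauss ϖ Binf.toSubring ⊆ s18_gauss ϖ B0.toSubring :=
    s18_gauss_subset_of_glue hB0 hBi t hT.t_mem hT.tinv_mem hT.t_unitInf hT.glueInf hT.glue0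
  have hV2 : s18_gauss ϖ B0.toSubring ⊆ s18_gauss ϖ Binf.toSubring := by
    refine s18_gauss_subset_of_glue hBi hB0 t⁻¹ hT.tinv_mem (by rw [inv_inv]; exact hT.t_mem)
      (by rw [inv_inv]; exact hT.t_unit0) ?_ ?_
    · intro x hx
      exact hT.glue0 x hx
    · intro x hx
      obtain ⟨k, hk⟩ := hT.glueInf x hx
      exact ⟨k, by rw [inv_inv]; exact hk⟩
  -- lifting exponents
  have hup0 : ∀ (y : F) (k j : ℕ), t⁻¹ ^ k * y ∈ Binf → t⁻¹ ^ (k + j) * y ∈ Binf := by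
    intro y k j hy
    have e : t⁻¹ ^ (k + j) * y = t⁻¹ ^ j * (t⁻¹ ^ k * y) := by rw [pow_add]; ring
    rw [e]; exact Binf.mul_mem (Binf.pow_mem hT.tinv_mem j) hy
  have hb0 : b ≠ 0 := s18_ne_zero_of_not_dvd (B := B0.toSubring) hbπ
  -- `h` at infinity
  obtain ⟨ka, hka⟩ := hT.glue0 a ha
  obtain ⟨kb, hkb⟩ := hT.glue0 b hb
  obtain ⟨kd, hkd⟩ := hT.glue0 _ hab
  set k := ka + kb + kd with hk
  have hainf : t⁻¹ ^ k * a ∈ Binf := by
    have := hup0 a ka (kb + kd) hka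
    rwa [← add_assoc] at this
  have hbinf : t⁻¹ ^ k * b ∈ Binf := by
    have := hup0 b kb (ka + kd) hkb
    have e : kb + (ka + kd) = k := by omega
    rwa [e] at this
  have hdinf : t⁻¹ ^ k * (ϖ⁻¹ * (a - b)) ∈ Binf := by
    have := hup0 _ kd (ka + kb) hkd
    have e : kd + (ka + kb) = k := by omega
    rwa [e] at this
  have htk : ∀ (j : ℕ) (y : F), t ^ j * (t⁻¹ ^ j * y) = y := fun j y => by
    rw [← mul_assoc, ← mul_pow, mul_inv_cancel₀ ht0, one_pow, one_mul]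
  have htk' : ∀ (j : ℕ) (y : F), t⁻¹ ^ j * (t ^ j * y) = y := fun j y => by
    rw [← mul_assoc, ← mul_pow, inv_mul_cancel₀ ht0, one_pow, one_mul]
  have hbinfϖ : ϖ⁻¹ * (t⁻¹ ^ k * b) ∉ Binf.toSubring := by
    intro hcon
    apply hbπ
    have h1 : ϖ⁻¹ * (t⁻¹ ^ k * b) ∈ s18_gauss ϖ B0.toSubring :=
      hV1 (s18_mem_gauss_of_mem hBi hcon)
    have h2 : ϖ⁻¹ * b ∈ s18_gauss ϖ B0.toSubring := by
      have := (s18_gaussRing hB0).mul_mem
        ((s18_gaussRing hB0).pow_mem (s18_le_gaussRing hB0 hT.t_mem) k) h1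
      have e : t ^ k * (ϖ⁻¹ * (t⁻¹ ^ k * b)) = ϖ⁻¹ * b := by
        rw [mul_left_comm, htk]
      rwa [e] at this
    have := s18_gauss_cap hB0 (x := b) hb 1 (by rwa [pow_one])
    rwa [pow_one] at this
  have habinf : ϖ⁻¹ * (t⁻¹ ^ k * a - t⁻¹ ^ k * b) ∈ Binf.toSubring := by
    have e : ϖ⁻¹ * (t⁻¹ ^ k * a - t⁻¹ ^ k * b) = t⁻¹ ^ k * (ϖ⁻¹ * (a - b)) := by ring
    rw [e]; exact hdinf
  have hhinf : h = (t⁻¹ ^ k * a) / (t⁻¹ ^ k * b) := by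
    rw [hh, mul_div_mul_left _ _ (pow_ne_zero _ (inv_ne_zero ht0))]
  -- hdiv for the two charts
  have hdiv0 : ∀ W : ValuationSubring F, IsDiscreteValuationRing W → B0.toSubring ≤ W.toSubring →
      ϖ⁻¹ ∈ W → ∃ g u : F, u ∈ W ∧ u⁻¹ ∈ W ∧ h = u * g ^ p := fun W hW hBW hϖW =>
    hdiv W hW (fun x => hBW (B0.algebraMap_mem x)) hϖW
  have hdivi : ∀ W : ValuationSubring F, IsDiscreteValuationRing W →
      Binf.toSubring ≤ W.toSubring → ϖ⁻¹ ∈ W → ∃ g u : F, u ∈ W ∧ u⁻¹ ∈ W ∧ h = u * g ^ p :=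
    fun W hW hBW hϖW => hdiv W hW (fun x => hBW (Binf.algebraMap_mem x)) hϖW
  -- the constants `c`
  obtain ⟨c₁, hc₁⟩ := hT.h1
  set c := c₁ + k with hcdef
  -- `M = b`, `y = b^p h`
  have hMh : b * h = a := by rw [hh]; field_simp
  have hMhinf : t⁻¹ ^ k * b * h = t⁻¹ ^ k * a := by rw [mul_assoc, hMh]
  have hlam_mul : ∀ f : Fin p → F, (∀ i, f i ∈ s18_lam t B0 Binf c) →
      ∏ i, f i ∈ s18_lam t B0 Binf (p * c) := by
    intro f hf
    refine ⟨B0.prod_mem (fun i _ => (hf i).1), ?_⟩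
    have e : t⁻¹ ^ (p * c) * ∏ i, f i = ∏ i, (t⁻¹ ^ c * f i) := by
      rw [Finset.prod_mul_distrib, Finset.prod_const, Finset.card_univ, Fintype.card_fin,
        ← pow_mul, mul_comm c p]
    rw [e]
    exact Binf.prod_mem (fun i _ => (hf i).2)
  have hbc : t⁻¹ ^ c * b ∈ Binf := by
    have := hup0 b k c₁ hbinf
    rwa [add_comm] at this
  have hac : t⁻¹ ^ c * a ∈ Binf := by
    have := hup0 a k c₁ hainf
    rwa [add_comm] at this
  have hb_lam : b ∈ s18_lam t B0 Binf c := ⟨hb, hbc⟩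
  have ha_lam : a ∈ s18_lam t B0 Binf c := ⟨ha, hac⟩
  have hy_lam : b ^ p * h ∈ s18_lam t B0 Binf (p * c) := by
    have e : b ^ p * h = ∏ i : Fin p, (if (i : ℕ) = 0 then a else b) := by
      obtain ⟨p', rfl⟩ : ∃ p', p = p' + 1 := ⟨p - 1, by omega⟩
      rw [Fin.prod_univ_succ]
      simp only [Fin.val_zero, if_true, Fin.val_succ, Nat.succ_ne_zero, if_false,
        Finset.prod_const, Finset.card_univ, Fintype.card_fin]
      rw [pow_succ, mul_assoc, hMh, mul_comm]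
    rw [e]
    apply hlam_mul
    intro i
    split_ifs
    · exact ha_lam
    · exact hb_lam
  -- finite generation
  have hfg : ∀ c' : ℕ, (s18_lam t B0 Binf c').FG := by
    intro c'
    obtain ⟨s, hs⟩ := hT.fin c'
    have hle : s18_lam t B0 Binf c' ≤ Submodule.span A₀ (s : Set F) := fun x hx => hs x hx.1 hx.2
    haveI : IsNoetherian A₀ (Submodule.span A₀ (s : Set F)) :=
      isNoetherian_span_of_finite A₀ s.finite_toSet
    haveI : IsNoetherian A₀ (s18_lam t B0 Binf c') := isNoetherian_of_le hle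
    exact Module.Finite.iff_fg.mp inferInstance
  -- approximations
  have happrox : ∀ n : ℕ, ∃ x ∈ s18_lam t B0 Binf c, ∃ z ∈ s18_lam t B0 Binf (p * c),
      x ^ p - b ^ p * h = algebraMap A₀ F π ^ n * z := by
    intro n
    -- a `p`-th root of `h` modulo `ϖ^n` in the Gauss ring
    have hϖV : ϖ ∈ s18_gaussRing hB0 := s18_le_gaussRing hB0 hB0.ϖ_mem
    have hhV : h ∈ s18_gaussRing hB0 := ⟨a, ha, b, hb, hbπ, hh⟩
    have hpV : IsUnit ((p : ℕ) : s18_gaussRing hB0) := by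
      refine IsUnit.of_mul_eq_one
        (⟨(p : F)⁻¹, s18_le_gaussRing hB0 hpu0⟩ : s18_gaussRing hB0) ?_
      apply Subtype.ext
      simp only [Subring.coe_mul, Subring.coe_natCast, Subring.coe_one]
      exact mul_inv_cancel₀ hp0
    have hh1 : (⟨ϖ, hϖV⟩ : s18_gaussRing hB0) ∣ (⟨h, hhV⟩ : s18_gaussRing hB0) - 1 := by
      rw [s18_subring_dvd_iff_one _ hϖV hϖ0]
      simp only [AddSubgroupClass.coe_sub, Subring.coe_one]
      refine ⟨ϖ⁻¹ * (a - b), hab, b, hb, hbπ, ?_⟩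
      rw [hh]; field_simp
    obtain ⟨uV, hu1, hun⟩ := as3_exists_root_principal (⟨ϖ, hϖV⟩ : s18_gaussRing hB0) p hpV
      ⟨h, hhV⟩ hh1 n
    rw [s18_subring_dvd_iff_one _ hϖV hϖ0] at hu1
    rw [s18_subring_dvd_iff _ hϖV hϖ0] at hun
    simp only [AddSubgroupClass.coe_sub, Subring.coe_one, Subring.coe_pow] at hu1 hun
    set u : F := (uV : F) with hu
    have huV : u ∈ s18_gaussRing hB0 := uV.2
    -- chart approximations
    obtain ⟨x0, hx0, hx0'⟩ := s18_as_chart_approx hB0 p hp hp0 hpu0 h a b ha hb hbπ hab hh hdiv0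
      b hb (by rw [hMh]; exact ha) n u hu1 hun
    obtain ⟨xi, hxi, hxi'⟩ := s18_as_chart_approx hBi p hp hp0 hpui h (t⁻¹ ^ k * a) (t⁻¹ ^ k * b)
      hainf hbinf hbinfϖ habinf hhinf hdivi (t⁻¹ ^ k * b) hbinf (by rw [hMhinf]; exact hainf)
      n u (hV2 hu1) (hV2 hun)
    have hxi'' : ϖ⁻¹ ^ n * (xi - t⁻¹ ^ k * b * u) ∈ s18_gaussRing hB0 := hV1 hxi'
    -- the difference
    have htV : t ∈ s18_gaussRing hB0 := s18_le_gaussRing hB0 hT.t_mem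
    have hδV : ϖ⁻¹ ^ n * (x0 - t ^ k * xi) ∈ s18_gaussRing hB0 := by
      have e : ϖ⁻¹ ^ n * (x0 - t ^ k * xi) =
          ϖ⁻¹ ^ n * (x0 - b * u) - t ^ k * (ϖ⁻¹ ^ n * (xi - t⁻¹ ^ k * b * u)) := by
        have : t ^ k * (t⁻¹ ^ k * b * u) = b * u := by rw [mul_assoc, htk]
        calc ϖ⁻¹ ^ n * (x0 - t ^ k * xi)
            = ϖ⁻¹ ^ n * (x0 - b * u) - ϖ⁻¹ ^ n * (t ^ k * xi - b * u) := by ring
          _ = ϖ⁻¹ ^ n * (x0 - b * u) - ϖ⁻¹ ^ n * (t ^ k * xi - t ^ k * (t⁻¹ ^ k * b * u)) := by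
              rw [this]
          _ = _ := by ring
      rw [e]
      exact (s18_gaussRing hB0).sub_mem hx0'
        ((s18_gaussRing hB0).mul_mem ((s18_gaussRing hB0).pow_mem htV k) hxi'')
    obtain ⟨j, hj⟩ := hT.glueInf xi hxi
    have hyB : t ^ j * (x0 - t ^ k * xi) ∈ B0 := by
      have e : t ^ j * (x0 - t ^ k * xi) = t ^ j * x0 - t ^ k * (t ^ j * xi) := by ring
      rw [e]
      exact B0.sub_mem (B0.mul_mem (B0.pow_mem hT.t_mem j) hx0)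
        (B0.mul_mem (B0.pow_mem hT.t_mem k) hj)
    have hyB' : ϖ⁻¹ ^ n * (t ^ j * (x0 - t ^ k * xi)) ∈ B0 := by
      apply s18_gauss_cap hB0 hyB n
      have e : ϖ⁻¹ ^ n * (t ^ j * (x0 - t ^ k * xi)) = t ^ j * (ϖ⁻¹ ^ n * (x0 - t ^ k * xi)) := by
        ring
      rw [e]
      exact (s18_gaussRing hB0).mul_mem ((s18_gaussRing hB0).pow_mem htV j) hδV
    obtain ⟨α, hα, β, hβ, hαβ⟩ := hc₁ c (by omega) _ hyB' j
    have hδ : ϖ⁻¹ ^ n * (x0 - t ^ k * xi) = α + t ^ c * β := by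
      rw [← hαβ]
      have e : ϖ⁻¹ ^ n * (t ^ j * (x0 - t ^ k * xi)) = t ^ j * (ϖ⁻¹ ^ n * (x0 - t ^ k * xi)) := by
        ring
      rw [e, htk']
    have hϖn : ∀ y : F, ϖ ^ n * (ϖ⁻¹ ^ n * y) = y := fun y => by
      rw [← mul_assoc, ← mul_pow, mul_inv_cancel₀ hϖ0, one_pow, one_mul]
    have hϖn' : ∀ y : F, ϖ⁻¹ ^ n * (ϖ ^ n * y) = y := fun y => by
      rw [← mul_assoc, ← mul_pow, inv_mul_cancel₀ hϖ0, one_pow, one_mul]
    have hδ' : x0 - t ^ k * xi = ϖ ^ n * (α + t ^ c * β) := by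
      rw [← hδ, hϖn]
    -- the glued element
    set lam : F := x0 - ϖ ^ n * α with hlam
    have hϖB0 : ϖ ∈ B0 := B0.algebraMap_mem π
    have hϖBi : ϖ ∈ Binf := Binf.algebraMap_mem π
    have hlam0 : lam ∈ B0 := B0.sub_mem hx0 (B0.mul_mem (B0.pow_mem hϖB0 n) hα)
    have hlam_eq : lam = t ^ k * xi + ϖ ^ n * (t ^ c * β) := by
      have : x0 = t ^ k * xi + ϖ ^ n * (α + t ^ c * β) := by rw [← hδ']; ring
      rw [hlam, this]; ring
    have hlami : t⁻¹ ^ c * lam ∈ Binf := by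
      have e : t⁻¹ ^ c * lam = t⁻¹ ^ c₁ * xi + ϖ ^ n * β := by
        rw [hlam_eq, hcdef, pow_add]
        have h1 : t⁻¹ ^ c₁ * t⁻¹ ^ k * (t ^ k * xi) = t⁻¹ ^ c₁ * xi := by
          rw [mul_assoc, htk']
        have h2 : t⁻¹ ^ c₁ * t⁻¹ ^ k * (ϖ ^ n * (t ^ c * β)) = ϖ ^ n * β := by
          rw [hcdef]
          have : t⁻¹ ^ c₁ * t⁻¹ ^ k * (ϖ ^ n * (t ^ (c₁ + k) * β)) =
              ϖ ^ n * (t⁻¹ ^ (c₁ + k) * (t ^ (c₁ + k) * β)) := by rw [pow_add]; ring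
          rw [this, htk']
        rw [mul_add, h1, h2]
      rw [e]
      exact Binf.add_mem (Binf.mul_mem (Binf.pow_mem hT.tinv_mem c₁) hxi)
        (Binf.mul_mem (Binf.pow_mem hϖBi n) hβ)
    have hlam_mem : lam ∈ s18_lam t B0 Binf c := ⟨hlam0, hlami⟩
    have hαV : α ∈ s18_gaussRing hB0 := s18_le_gaussRing hB0 hα
    have hbV : b ∈ s18_gaussRing hB0 := s18_le_gaussRing hB0 hb
    have hlamu : ϖ⁻¹ ^ n * (lam - b * u) ∈ s18_gaussRing hB0 := by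
      have e : ϖ⁻¹ ^ n * (lam - b * u) = ϖ⁻¹ ^ n * (x0 - b * u) - α := by
        rw [hlam, sub_right_comm, mul_sub, hϖn']
      rw [e]
      exact (s18_gaussRing hB0).sub_mem hx0' hαV
    -- `lam^p ≡ b^p h`
    have hzV : ϖ⁻¹ ^ n * (lam ^ p - b ^ p * h) ∈ s18_gaussRing hB0 := by
      have hlamV : lam ∈ s18_gaussRing hB0 := s18_le_gaussRing hB0 hlam0
      have hbuV : b * u ∈ s18_gaussRing hB0 := (s18_gaussRing hB0).mul_mem hbV huV
      set d : F := ∑ i ∈ Finset.range p, lam ^ i * (b * u) ^ (p - 1 - i) with hd_def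
      have hd : lam ^ p - (b * u) ^ p = (lam - b * u) * d := by
        rw [mul_comm (lam - b * u) d]; exact ((Commute.all lam (b * u)).geom_sum₂_mul p).symm
      have hdV : d ∈ s18_gaussRing hB0 :=
        (s18_gaussRing hB0).sum_mem fun i _ =>
          (s18_gaussRing hB0).mul_mem ((s18_gaussRing hB0).pow_mem hlamV i)
            ((s18_gaussRing hB0).pow_mem hbuV _)
      have e : ϖ⁻¹ ^ n * (lam ^ p - b ^ p * h) =
          ϖ⁻¹ ^ n * (lam - b * u) * d + b ^ p * (ϖ⁻¹ ^ n * (u ^ p - h)) := by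
        have : lam ^ p - b ^ p * h = (lam ^ p - (b * u) ^ p) + b ^ p * (u ^ p - h) := by ring
        rw [this, hd]; ring
      rw [e]
      exact (s18_gaussRing hB0).add_mem ((s18_gaussRing hB0).mul_mem hlamu hdV)
        ((s18_gaussRing hB0).mul_mem ((s18_gaussRing hB0).pow_mem hbV p) hun)
    have hlamp : lam ^ p ∈ s18_lam t B0 Binf (p * c) := by
      have := hlam_mul (fun _ => lam) (fun _ => hlam_mem)
      rwa [Finset.prod_const, Finset.card_univ, Fintype.card_fin] at this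
    have hdiff : lam ^ p - b ^ p * h ∈ s18_lam t B0 Binf (p * c) :=
      (s18_lam t B0 Binf (p * c)).sub_mem hlamp hy_lam
    refine ⟨lam, hlam_mem, ϖ⁻¹ ^ n * (lam ^ p - b ^ p * h), ⟨?_, ?_⟩, ?_⟩
    · exact s18_gauss_cap hB0 hdiff.1 n hzV
    · have e : t⁻¹ ^ (p * c) * (ϖ⁻¹ ^ n * (lam ^ p - b ^ p * h)) =
          ϖ⁻¹ ^ n * (t⁻¹ ^ (p * c) * (lam ^ p - b ^ p * h)) := by ring
      rw [e]
      apply s18_gauss_cap hBi hdiff.2 n
      apply hV2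
      rw [← e]
      exact (s18_gaussRing hB0).mul_mem ((s18_gaussRing hB0).pow_mem
        (hV1 (s18_mem_gauss_of_mem hBi hT.tinv_mem)) _) hzV
    · rw [← hϖdef, hϖn]
  obtain ⟨n, ω, e, he⟩ := s18_as_exact hinj hπ p (s18_lam t B0 Binf c)
    (s18_lam t B0 Binf (p * c)) (hfg c) (hfg (p * c)) hlam_mul (b ^ p * h) hy_lam happrox
    φ hφ ιF ιΩ hc
  exact ⟨n, ω, e, b, hb0, he⟩

end Fermat.Agent.S18
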