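import Mathlib

/-!
# S18 block C, piece (Cf2): `G3`, finiteness of `H⁰(O(c))`

`B0 ∋ t` finitely generated over `A₀[t]`, `Binf ∋ t⁻¹` finitely generated over `A₀[t⁻¹]`, glued
along `t`.  Then for every `c` the elements `x ∈ B0` with `t⁻¹ ^ c * x ∈ Binf` lie in a finitely
generated `A₀`-submodule of `F`.
-/

set_option autoImplicit false

namespace Fermat.Agent.S18

open Polynomial

/-- A maximal `A₀[t]`-linearly independent subfamily `b` of a finite family `gen0`, together with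
a common denominator `D` expressing every element of `gen0` through `b`. -/
theorem s18_ch_fin_basis {A₀ F : Type*} [CommRing A₀] [IsDomain A₀] [Field F] [Algebra A₀ F]
    (t : F) (gen0 : Finset F) :
    ∃ b : Finset F, b ⊆ gen0 ∧
      (∀ f : F → A₀[X], ∑ β ∈ b, aeval t (f β) * β = 0 → ∀ β ∈ b, f β = 0) ∧
      ∃ (D : A₀[X]) (r : F → F → A₀[X]), D ≠ 0 ∧
        ∀ m ∈ gen0, aeval t D * m = ∑ β ∈ b, aeval t (r m β) * β := by
  classical
  let Ind : Finset F → Prop := fun b =>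
    ∀ f : F → A₀[X], ∑ β ∈ b, aeval t (f β) * β = 0 → ∀ β ∈ b, f β = 0
  have hne : (gen0.powerset.filter Ind).Nonempty :=
    ⟨∅, Finset.mem_filter.mpr ⟨Finset.empty_mem_powerset _, fun f _ β hβ => by simp at hβ⟩⟩
  obtain ⟨b, hb, hmax⟩ := Finset.exists_max_image _ Finset.card hne
  rw [Finset.mem_filter, Finset.mem_powerset] at hb
  obtain ⟨hbsub, hbind⟩ := hb
  refine ⟨b, hbsub, hbind, ?_⟩
  -- every generator has a nonzero multiple in the span of `b`
  have hm : ∀ m ∈ gen0, ∃ (d : A₀[X]) (ρ : F → A₀[X]), d ≠ 0 ∧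
      aeval t d * m = ∑ β ∈ b, aeval t (ρ β) * β := by
    intro m hm
    by_cases hmb : m ∈ b
    · refine ⟨1, fun β => if β = m then 1 else 0, one_ne_zero, ?_⟩
      rw [Finset.sum_eq_single m]
      · simp
      · intro β _ hβ
        simp [hβ]
      · intro h
        exact absurd hmb h
    · have hnot : ¬ Ind (insert m b) := by
        intro hI
        have h1 := hmax (insert m b) (Finset.mem_filter.mpr
          ⟨Finset.mem_powerset.mpr (Finset.insert_subset hm hbsub), hI⟩)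
        rw [Finset.card_insert_of_notMem hmb] at h1
        omega
      simp only [Ind] at hnot
      push Not at hnot
      obtain ⟨f, hf, β₀, hβ₀, hfβ₀⟩ := hnot
      rw [Finset.sum_insert hmb] at hf
      have hfm : f m ≠ 0 := by
        intro h0
        rw [h0, map_zero, zero_mul, zero_add] at hf
        rcases Finset.mem_insert.mp hβ₀ with rfl | hβ₀b
        · exact hfβ₀ h0
        · exact hfβ₀ (hbind f hf β₀ hβ₀b)
      refine ⟨f m, fun β => - f β, hfm, ?_⟩
      simp only [map_neg, neg_mul, Finset.sum_neg_distrib]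
      linear_combination hf
  choose! d ρ hd hρ using hm
  refine ⟨∏ m ∈ gen0, d m, fun m β => (∏ m' ∈ gen0.erase m, d m') * ρ m β,
    Finset.prod_ne_zero_iff.mpr hd, fun m hm => ?_⟩
  rw [← Finset.mul_prod_erase gen0 d hm, map_mul, mul_right_comm, hρ m hm, Finset.sum_mul]
  refine Finset.sum_congr rfl fun β _ => ?_
  rw [map_mul]
  ring

/-- Change of coordinates from the generators `gen0` to the family `b`. -/
theorem s18_ch_fin_coord {A₀ F : Type*} [CommRing A₀] [Field F] [Algebra A₀ F]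
    (t : F) (gen0 b : Finset F) (D : A₀[X]) (r : F → F → A₀[X])
    (hDr : ∀ m ∈ gen0, aeval t D * m = ∑ β ∈ b, aeval t (r m β) * β) (cf : F → A₀[X]) :
    aeval t D * ∑ m ∈ gen0, aeval t (cf m) * m
      = ∑ β ∈ b, aeval t (∑ m ∈ gen0, cf m * r m β) * β := by
  rw [Finset.mul_sum]
  calc ∑ m ∈ gen0, aeval t D * (aeval t (cf m) * m)
      = ∑ m ∈ gen0, ∑ β ∈ b, aeval t (cf m * r m β) * β := by
        refine Finset.sum_congr rfl fun m hm => ?_
        rw [mul_left_comm, hDr m hm, Finset.mul_sum]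
        refine Finset.sum_congr rfl fun β _ => ?_
        rw [map_mul, mul_assoc]
    _ = ∑ β ∈ b, ∑ m ∈ gen0, aeval t (cf m * r m β) * β := Finset.sum_comm
    _ = ∑ β ∈ b, aeval t (∑ m ∈ gen0, cf m * r m β) * β := by
        refine Finset.sum_congr rfl fun β _ => ?_
        rw [map_sum, Finset.sum_mul]

/-- Evaluating at `t⁻¹` versus evaluating the reflected polynomial at `t`. -/
theorem s18_ch_reflect {A₀ F : Type*} [CommRing A₀] [Field F] [Algebra A₀ F]
    (t : F) (ht : t ≠ 0) (n : ℕ) (f : A₀[X]) (hf : f.natDegree ≤ n) :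
    aeval t (reflect n f) = t ^ n * aeval t⁻¹ f := by
  let _ : Invertible t⁻¹ := invertibleOfNonzero (inv_ne_zero ht)
  have h := eval₂_reflect_mul_pow (algebraMap A₀ F) t⁻¹ n f hf
  rw [invOf_eq_inv, inv_inv] at h
  rw [aeval_def, aeval_def, ← h, mul_comm, mul_assoc, ← mul_pow, inv_mul_cancel₀ ht, one_pow,
    mul_one]

/-- (Cf2) `G3`. -/
theorem s18_ch_fin {A₀ F : Type*} [CommRing A₀] [IsDomain A₀] [IsNoetherianRing A₀] [Field F]
    [Algebra A₀ F] (hinj : Function.Injective (algebraMap A₀ F))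
    (t : F) (htr : ∀ P : A₀[X], aeval t P = 0 → P = 0)
    (B0 Binf : Subalgebra A₀ F) (ht0 : t ∈ B0) (hti : t⁻¹ ∈ Binf)
    (gen0 : Finset F) (hgen0 : ∀ m ∈ gen0, m ∈ B0)
    (hspan0 : ∀ x ∈ B0, ∃ c : F → A₀[X], x = ∑ m ∈ gen0, aeval t (c m) * m)
    (genInf : Finset F) (hgenInf : ∀ m ∈ genInf, m ∈ Binf)
    (hspanInf : ∀ x ∈ Binf, ∃ c : F → A₀[X], x = ∑ m ∈ genInf, aeval t⁻¹ (c m) * m)
    (glue0 : ∀ x ∈ B0, ∃ k : ℕ, t⁻¹ ^ k * x ∈ Binf)
    (glueInf : ∀ x ∈ Binf, ∃ k : ℕ, t ^ k * x ∈ B0) :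
    ∀ c : ℕ, ∃ s : Finset F, ∀ x ∈ B0, t⁻¹ ^ c * x ∈ Binf →
      x ∈ Submodule.span A₀ (s : Set F) := by
  classical
  intro c
  obtain ⟨b, -, hind, D, r, hD0, hDr⟩ := s18_ch_fin_basis (A₀ := A₀) t gen0
  have hevD : aeval t D ≠ 0 := fun h => hD0 (htr D h)
  have ht : t ≠ 0 := by
    intro h0
    exact X_ne_zero (htr X (by rw [aeval_X, h0]))
  have hcc : t ^ c * t⁻¹ ^ c = 1 := by rw [← mul_pow, mul_inv_cancel₀ ht, one_pow]
  -- uniqueness of coordinates with respect to `b`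
  have huniq : ∀ f g : F → A₀[X],
      ∑ β ∈ b, aeval t (f β) * β = ∑ β ∈ b, aeval t (g β) * β → ∀ β ∈ b, f β = g β := by
    intro f g h β hβ
    have h1 := hind (fun β => f β - g β) (by
      simp only [map_sub, sub_mul, Finset.sum_sub_distrib, h, sub_self]) β hβ
    exact sub_eq_zero.mp h1
  -- a uniform exponent moving the generators of `Binf` into `B0`
  have hmono : ∀ (m : F) (k k' : ℕ), k ≤ k' → t ^ k * m ∈ B0 → t ^ k' * m ∈ B0 := by
    intro m k k' hkk' hm
    obtain ⟨j, rfl⟩ := Nat.exists_eq_add_of_le hkk'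
    have : t ^ (k + j) * m = t ^ j * (t ^ k * m) := by ring
    rw [this]
    exact B0.mul_mem (B0.pow_mem ht0 j) hm
  choose! kf hkf using fun m (hm : m ∈ genInf) => glueInf m (hgenInf m hm)
  set k₁ := genInf.sup kf with hk₁def
  have hk₁ : ∀ m ∈ genInf, t ^ k₁ * m ∈ B0 := fun m hm =>
    hmono m (kf m) k₁ (Finset.le_sup hm) (hkf m hm)
  choose! a ha using fun m (hm : m ∈ genInf) => hspan0 _ (hk₁ m hm)
  set E₁ := genInf.sup (fun m' => gen0.sup (fun m => (a m' m).natDegree)) with hE₁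
  set E₂ := gen0.sup (fun m => b.sup (fun β => (r m β).natDegree)) with hE₂
  have hE₁le : ∀ m' ∈ genInf, ∀ m ∈ gen0, (a m' m).natDegree ≤ E₁ := fun m' hm' m hm =>
    (Finset.le_sup (f := fun m => (a m' m).natDegree) hm).trans
      (Finset.le_sup (f := fun m' => gen0.sup (fun m => (a m' m).natDegree)) hm')
  have hE₂le : ∀ m ∈ gen0, ∀ β ∈ b, (r m β).natDegree ≤ E₂ := fun m hm β hβ =>
    (Finset.le_sup (f := fun β => (r m β).natDegree) hβ).trans
      (Finset.le_sup (f := fun m => b.sup (fun β => (r m β).natDegree)) hm)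
  refine ⟨((Finset.range (c + E₁ + E₂ + 1)) ×ˢ b).image
    (fun ib => (aeval t D)⁻¹ * t ^ ib.1 * ib.2), ?_⟩
  intro x hx hxc
  obtain ⟨cf, hcf⟩ := hspan0 x hx
  obtain ⟨cf', hcf'⟩ := hspanInf _ hxc
  set n := genInf.sup (fun m' => (cf' m').natDegree) with hn
  have hnle : ∀ m' ∈ genInf, (cf' m').natDegree ≤ n := fun m' hm' =>
    Finset.le_sup (f := fun m' => (cf' m').natDegree) hm'
  -- coordinates of `D x`
  set pβ : F → A₀[X] := fun β => ∑ m ∈ gen0, cf m * r m β with hpβ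
  have hp : aeval t D * x = ∑ β ∈ b, aeval t (pβ β) * β := by
    conv_lhs => rw [hcf]
    exact s18_ch_fin_coord t gen0 b D r hDr cf
  -- coordinates of `D t^(n+k₁) y`, `y = t⁻¹ ^ c * x`
  set τ : F → A₀[X] := fun m => ∑ m' ∈ genInf, reflect n (cf' m') * a m' m with hτdef
  have hτ : t ^ (n + k₁) * (t⁻¹ ^ c * x) = ∑ m ∈ gen0, aeval t (τ m) * m := by
    rw [hcf', Finset.mul_sum]
    calc ∑ m' ∈ genInf, t ^ (n + k₁) * (aeval t⁻¹ (cf' m') * m')
        = ∑ m' ∈ genInf, ∑ m ∈ gen0, aeval t (reflect n (cf' m') * a m' m) * m := by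
          refine Finset.sum_congr rfl fun m' hm' => ?_
          have h1 : t ^ (n + k₁) * (aeval t⁻¹ (cf' m') * m')
              = (t ^ n * aeval t⁻¹ (cf' m')) * (t ^ k₁ * m') := by ring
          rw [h1, ← s18_ch_reflect t ht n (cf' m') (hnle m' hm'), ha m' hm', Finset.mul_sum]
          refine Finset.sum_congr rfl fun m _ => ?_
          rw [map_mul, mul_assoc]
      _ = ∑ m ∈ gen0, ∑ m' ∈ genInf, aeval t (reflect n (cf' m') * a m' m) * m :=
          Finset.sum_comm
      _ = ∑ m ∈ gen0, aeval t (τ m) * m := by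
          refine Finset.sum_congr rfl fun m _ => ?_
          rw [hτdef, map_sum, Finset.sum_mul]
  have hτdeg : ∀ m ∈ gen0, (τ m).natDegree ≤ n + E₁ := by
    intro m hm
    refine natDegree_sum_le_of_forall_le _ _ fun m' hm' => ?_
    refine natDegree_mul_le.trans (Nat.add_le_add ?_ (hE₁le m' hm' m hm))
    exact natDegree_reflect_le.trans (max_le le_rfl (hnle m' hm'))
  set σ : F → A₀[X] := fun β => ∑ m ∈ gen0, τ m * r m β with hσdef
  have hσ : aeval t D * (t ^ (n + k₁) * (t⁻¹ ^ c * x)) = ∑ β ∈ b, aeval t (σ β) * β := by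
    rw [hτ]
    exact s18_ch_fin_coord t gen0 b D r hDr τ
  have hσdeg : ∀ β ∈ b, (σ β).natDegree ≤ n + E₁ + E₂ := by
    intro β hβ
    refine natDegree_sum_le_of_forall_le _ _ fun m hm => ?_
    exact natDegree_mul_le.trans (Nat.add_le_add (hτdeg m hm) (hE₂le m hm β hβ))
  -- compare the two coordinate vectors
  have hcmp : ∀ β ∈ b, X ^ (n + k₁) * pβ β = X ^ c * σ β := by
    apply huniq
    simp only [map_mul, map_pow, aeval_X, mul_assoc]
    rw [← Finset.mul_sum, ← Finset.mul_sum, ← hp, ← hσ]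
    linear_combination (-(aeval t D * t ^ (n + k₁) * x)) * hcc
  have hpdeg : ∀ β ∈ b, (pβ β).natDegree ≤ c + E₁ + E₂ := by
    intro β hβ
    by_cases h0 : pβ β = 0
    · rw [h0, natDegree_zero]
      exact Nat.zero_le _
    · have hσ0 : σ β ≠ 0 := by
        intro h1
        have h2 := hcmp β hβ
        rw [h1, mul_zero] at h2
        exact h0 ((mul_eq_zero.mp h2).resolve_left (pow_ne_zero _ X_ne_zero))
      have h1 := congrArg natDegree (hcmp β hβ)
      rw [natDegree_X_pow_mul _ h0, natDegree_X_pow_mul _ hσ0] at h1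
      have h2 := hσdeg β hβ
      omega
  -- conclusion
  have hxeq : x = ∑ β ∈ b, ∑ i ∈ Finset.range (c + E₁ + E₂ + 1),
      (pβ β).coeff i • ((aeval t D)⁻¹ * t ^ i * β) := by
    have h1 : x = (aeval t D)⁻¹ * ∑ β ∈ b, aeval t (pβ β) * β := by
      rw [← hp, ← mul_assoc, inv_mul_cancel₀ hevD, one_mul]
    conv_lhs => rw [h1]
    rw [Finset.mul_sum]
    refine Finset.sum_congr rfl fun β hβ => ?_
    rw [aeval_eq_sum_range' (Nat.lt_succ_of_le (hpdeg β hβ)), Finset.sum_mul, Finset.mul_sum]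
    refine Finset.sum_congr rfl fun i _ => ?_
    rw [smul_mul_assoc, mul_smul_comm, mul_assoc]
  rw [hxeq]
  refine Submodule.sum_mem _ fun β hβ => Submodule.sum_mem _ fun i hi =>
    Submodule.smul_mem _ _ (Submodule.subset_span ?_)
  exact Finset.mem_coe.mpr (Finset.mem_image.mpr ⟨(i, β), Finset.mem_product.mpr ⟨hi, hβ⟩, rfl⟩)

end Fermat.Agent.S18
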