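import Mathlib

/-!
# S18 block C, piece (Cf1): `G2`, vanishing of `H¹(O(c))` for large `c`

`B0 ∋ t` finitely generated over `A₀[t]`, `Binf ∋ t⁻¹`, every element of `B0` becomes an element
of `Binf` after multiplication by a power of `t⁻¹`.  Then `B0[t⁻¹] = B0 + t^c Binf` for all large
`c`.
-/

set_option autoImplicit false

namespace Fermat.Agent.S18

open Polynomial

/-- The `A₀`-submodule `B0 + t^c Binf` of `F`. -/
def s18_ch_sumMod {A₀ F : Type*} [CommRing A₀] [Field F] [Algebra A₀ F]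
    (B0 Binf : Subalgebra A₀ F) (s : F) : Submodule A₀ F where
  carrier := {y | ∃ a ∈ B0, ∃ b ∈ Binf, y = a + s * b}
  add_mem' := by
    rintro y z ⟨a, ha, b, hb, rfl⟩ ⟨a', ha', b', hb', rfl⟩
    exact ⟨a + a', B0.add_mem ha ha', b + b', Binf.add_mem hb hb', by ring⟩
  zero_mem' := ⟨0, B0.zero_mem, 0, Binf.zero_mem, by ring⟩
  smul_mem' := by
    rintro r y ⟨a, ha, b, hb, rfl⟩
    exact ⟨r • a, B0.smul_mem ha r, r • b, Binf.smul_mem hb r, by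
      rw [smul_add, mul_smul_comm]⟩

theorem s18_ch_mem_sumMod {A₀ F : Type*} [CommRing A₀] [Field F] [Algebra A₀ F]
    (B0 Binf : Subalgebra A₀ F) (s y : F) :
    y ∈ s18_ch_sumMod B0 Binf s ↔ ∃ a ∈ B0, ∃ b ∈ Binf, y = a + s * b := Iff.rfl

/-- (Cf1) `G2`. -/
theorem s18_ch_h1 {A₀ F : Type*} [CommRing A₀] [IsNoetherianRing A₀] [Field F] [Algebra A₀ F]
    (t : F) (ht : t ≠ 0) (B0 Binf : Subalgebra A₀ F) (ht0 : t ∈ B0) (hti : t⁻¹ ∈ Binf)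
    (gen : Finset F) (hgen : ∀ m ∈ gen, m ∈ B0)
    (hspan : ∀ x ∈ B0, ∃ c : F → A₀[X], x = ∑ m ∈ gen, aeval t (c m) * m)
    (glue0 : ∀ x ∈ B0, ∃ k : ℕ, t⁻¹ ^ k * x ∈ Binf) :
    ∃ c₁ : ℕ, ∀ c, c₁ ≤ c → ∀ x ∈ B0, ∀ k : ℕ,
      ∃ a ∈ B0, ∃ b ∈ Binf, t⁻¹ ^ k * x = a + t ^ c * b := by
  classical
  -- a uniform exponent for the generators
  have hmono : ∀ (m : F) (k k' : ℕ), k ≤ k' → t⁻¹ ^ k * m ∈ Binf → t⁻¹ ^ k' * m ∈ Binf := by
    intro m k k' hkk' hm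
    obtain ⟨j, rfl⟩ := Nat.exists_eq_add_of_le hkk'
    have : t⁻¹ ^ (k + j) * m = t⁻¹ ^ j * (t⁻¹ ^ k * m) := by ring
    rw [this]
    exact Binf.mul_mem (Binf.pow_mem hti j) hm
  choose! kf hkf using fun m (hm : m ∈ gen) => glue0 m (hgen m hm)
  refine ⟨gen.sup kf, fun c hc x hx k => ?_⟩
  have hd : ∀ m ∈ gen, ∀ j : ℕ, t⁻¹ ^ (c + j) * m ∈ Binf := fun m hm j =>
    hmono m (kf m) (c + j) ((Finset.le_sup hm).trans (hc.trans (Nat.le_add_right c j))) (hkf m hm)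
  rw [← s18_ch_mem_sumMod]
  obtain ⟨cf, rfl⟩ := hspan x hx
  rw [Finset.mul_sum]
  refine Submodule.sum_mem _ fun m hm => ?_
  rw [aeval_eq_sum_range, Finset.sum_mul, Finset.mul_sum]
  refine Submodule.sum_mem _ fun i _ => ?_
  have hrew : t⁻¹ ^ k * ((cf m).coeff i • t ^ i * m) = (cf m).coeff i • (t⁻¹ ^ k * t ^ i * m) := by
    rw [smul_mul_assoc, mul_smul_comm, mul_assoc]
  rw [hrew]
  refine Submodule.smul_mem _ _ ?_
  rw [s18_ch_mem_sumMod]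
  rcases le_or_gt k i with hki | hki
  · obtain ⟨j, rfl⟩ := Nat.exists_eq_add_of_le hki
    refine ⟨t ^ j * m, B0.mul_mem (B0.pow_mem ht0 j) (hgen m hm), 0, Binf.zero_mem, ?_⟩
    rw [mul_zero, add_zero, pow_add, ← mul_assoc (t⁻¹ ^ k), ← mul_pow, inv_mul_cancel₀ ht, one_pow,
      one_mul]
  · obtain ⟨j, rfl⟩ := Nat.exists_eq_add_of_le hki.le
    refine ⟨0, B0.zero_mem, t⁻¹ ^ (c + j) * m, hd m hm j, ?_⟩
    rw [zero_add, pow_add, mul_comm (t⁻¹ ^ i), mul_assoc (t⁻¹ ^ j), ← mul_pow, inv_mul_cancel₀ ht,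
      one_pow, mul_one, pow_add, ← mul_assoc, ← mul_assoc, ← mul_pow, mul_inv_cancel₀ ht, one_pow,
      one_mul]

end Fermat.Agent.S18
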