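import Mathlib

/-!
# S18 block C, piece (Ce): separability inside Laurent series

`κ` perfect of characteristic `p`, `u ∈ κ((q))` of order prime to `p`, `x ∈ κ((q))` algebraic over
`κ(u)`.  Then `x` is a simple root of some `P ∈ κ[U][Y]` at `(u, x)`.
-/

set_option autoImplicit false

namespace Fermat.Agent.S18

open Polynomial

/-- A finite sum of Laurent series whose nonzero terms have pairwise distinct orders is nonzero. -/
theorem s18_ch_sum_ne_zero {κ : Type*} [Field κ] {ι : Type*} (s : Finset ι)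
    (f : ι → LaurentSeries κ) (hne : ∃ i ∈ s, f i ≠ 0)
    (hinj : ∀ i ∈ s, ∀ j ∈ s, f i ≠ 0 → f j ≠ 0 → (f i).order = (f j).order → i = j) :
    ∑ i ∈ s, f i ≠ 0 := by
  classical
  obtain ⟨i₀, hi₀, hmin⟩ := Finset.exists_min_image (s.filter fun i => f i ≠ 0)
    (fun i => (f i).order)
    (by obtain ⟨i, hi, hfi⟩ := hne; exact ⟨i, Finset.mem_filter.mpr ⟨hi, hfi⟩⟩)
  rw [Finset.mem_filter] at hi₀
  intro h0
  have hc : (∑ i ∈ s, f i).coeff (f i₀).order = (f i₀).coeff (f i₀).order := by
    rw [HahnSeries.coeff_sum]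
    refine Finset.sum_eq_single i₀ ?_ ?_
    · intro j hj hji
      by_cases hfj : f j = 0
      · simp [hfj]
      · have hle := hmin j (Finset.mem_filter.mpr ⟨hj, hfj⟩)
        have hne' : (f i₀).order ≠ (f j).order :=
          fun h => hji (hinj i₀ hi₀.1 j hj hi₀.2 hfj h).symm
        exact HahnSeries.coeff_eq_zero_of_lt_order (lt_of_le_of_ne hle hne')
    · intro h; exact absurd hi₀.1 h
  rw [h0] at hc
  exact hi₀.2 (HahnSeries.coeff_order_eq_zero.mp (by simpa using hc.symm))

/-- Order of a product of nonzero Laurent series over a field. -/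
theorem s18_ch_order_mul {κ : Type*} [Field κ] {a b : LaurentSeries κ} (ha : a ≠ 0) (hb : b ≠ 0) :
    (a * b).order = a.order + b.order :=
  HahnSeries.order_mul_of_ne_zero
    (mul_ne_zero (HahnSeries.leadingCoeff_ne_zero.mpr ha) (HahnSeries.leadingCoeff_ne_zero.mpr hb))

/-- `1, u, …, u^(p-1)` are linearly independent over the `p`-th powers when `p ∤ ord u`. -/
theorem s18_ch_pth_indep {κ : Type*} [Field κ] (p : ℕ) [Fact p.Prime]
    (u : LaurentSeries κ) (hu : ¬ (p : ℤ) ∣ u.order) (y : ℕ → LaurentSeries κ)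
    (h : ∑ r ∈ Finset.range p, u ^ r * y r ^ p = 0) : ∀ r ∈ Finset.range p, y r = 0 := by
  have hp : p.Prime := Fact.out
  have hu0 : u ≠ 0 := by
    rintro rfl
    exact hu (by simp)
  by_contra hcon
  push Not at hcon
  obtain ⟨r₀, hr₀, hy₀⟩ := hcon
  refine s18_ch_sum_ne_zero (Finset.range p) (fun r => u ^ r * y r ^ p)
    ⟨r₀, hr₀, mul_ne_zero (pow_ne_zero _ hu0) (pow_ne_zero _ hy₀)⟩ ?_ h
  intro i hi j hj hfi hfj hord
  have hyi : y i ≠ 0 := fun h0 => hfi (by simp [h0, hp.ne_zero])
  have hyj : y j ≠ 0 := fun h0 => hfj (by simp [h0, hp.ne_zero])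
  rw [s18_ch_order_mul (pow_ne_zero _ hu0) (pow_ne_zero _ hyi),
    s18_ch_order_mul (pow_ne_zero _ hu0) (pow_ne_zero _ hyj),
    HahnSeries.order_pow, HahnSeries.order_pow, HahnSeries.order_pow, HahnSeries.order_pow] at hord
  simp only [nsmul_eq_mul] at hord
  have hdvd : (p : ℤ) ∣ ((i : ℤ) - j) * u.order := by
    refine ⟨(y j).order - (y i).order, ?_⟩
    linear_combination hord
  have hpp : Prime (p : ℤ) := Nat.prime_iff_prime_int.mp hp
  rcases hpp.dvd_or_dvd hdvd with h1 | h1
  · rw [Finset.mem_range] at hi hj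
    have h2 : ((i : ℤ) - j) = 0 := by
      apply Int.eq_zero_of_abs_lt_dvd h1
      rw [abs_lt]
      constructor <;> omega
    omega
  · exact absurd h1 hu

/-- Over a perfect field of characteristic `p`, every polynomial is `∑_{r<p} X^r h_r^p`. -/
theorem s18_ch_decomp {κ : Type*} [Field κ] [PerfectField κ] (p : ℕ) [Fact p.Prime] [CharP κ p]
    (g : κ[X]) : ∃ h : ℕ → κ[X], g = ∑ r ∈ Finset.range p, X ^ r * h r ^ p := by
  classical
  have hp : p.Prime := Fact.out
  induction g using Polynomial.induction_on' with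
  | add g₁ g₂ h₁ h₂ =>
    obtain ⟨a, ha⟩ := h₁
    obtain ⟨b, hb⟩ := h₂
    refine ⟨fun r => a r + b r, ?_⟩
    conv_lhs => rw [ha, hb]
    rw [← Finset.sum_add_distrib]
    refine Finset.sum_congr rfl fun r _ => ?_
    rw [add_pow_char, mul_add]
  | monomial m c =>
    refine ⟨fun r => if r = m % p then monomial (m / p) ((frobeniusEquiv κ p).symm c) else 0, ?_⟩
    rw [Finset.sum_eq_single (m % p)]
    · beta_reduce
      rw [if_pos rfl, monomial_pow, frobeniusEquiv_symm_pow_p, X_pow_mul_monomial]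
      rw [add_comm, Nat.mod_add_div' m p]
    · intro r _ hr
      beta_reduce
      rw [if_neg hr, zero_pow hp.ne_zero, mul_zero]
    · intro hm
      exact absurd (Finset.mem_range.mpr (Nat.mod_lt m hp.pos)) hm

/-- `u` of nonzero order is transcendental over `κ`. -/
theorem s18_ch_transc {κ : Type*} [Field κ] (u : LaurentSeries κ) (hu : u.order ≠ 0)
    (c : κ[X]) (hc : c ≠ 0) :
    Polynomial.eval₂RingHom (HahnSeries.C : κ →+* LaurentSeries κ) u c ≠ 0 := by
  have hu0 : u ≠ 0 := by
    rintro rfl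
    exact hu (by simp)
  rw [Polynomial.coe_eval₂RingHom, eval₂_eq_sum, Polynomial.sum_def]
  have hterm : ∀ m ∈ c.support, (HahnSeries.C (c.coeff m) : LaurentSeries κ) * u ^ m ≠ 0 :=
    fun m hm => mul_ne_zero (HahnSeries.C_ne_zero (Polynomial.mem_support_iff.mp hm))
      (pow_ne_zero _ hu0)
  obtain ⟨m₀, hm₀⟩ : c.support.Nonempty := Polynomial.support_nonempty.mpr hc
  refine s18_ch_sum_ne_zero c.support _ ⟨m₀, hm₀, hterm m₀ hm₀⟩ ?_
  intro i hi j hj _ _ hord
  rw [s18_ch_order_mul (HahnSeries.C_ne_zero (Polynomial.mem_support_iff.mp hi))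
      (pow_ne_zero _ hu0),
    s18_ch_order_mul (HahnSeries.C_ne_zero (Polynomial.mem_support_iff.mp hj))
      (pow_ne_zero _ hu0),
    HahnSeries.order_C, HahnSeries.order_C, HahnSeries.order_pow, HahnSeries.order_pow,
    zero_add, zero_add, nsmul_eq_mul, nsmul_eq_mul] at hord
  exact_mod_cast mul_right_cancel₀ hu hord

/-- (Ce) `κ` perfect of characteristic `p`, `u ∈ κ((q))` of order prime to `p` (e.g. `±1`),
`x ∈ κ((q))` algebraic over `κ(u)` (root of a nonzero `Q ∈ κ[U][Y]` at `(u, x)`).  Then `x` is a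
simple root of some `P ∈ κ[U][Y]` at `(u, x)`. -/
theorem s18_ch_sep {κ : Type*} [Field κ] [PerfectField κ] (p : ℕ) [Fact p.Prime] [CharP κ p]
    (u x : LaurentSeries κ) (hu : ¬ (p : ℤ) ∣ u.order)
    (Q : κ[X][X]) (hQ : Q ≠ 0)
    (hroot : Q.eval₂ (Polynomial.eval₂RingHom (HahnSeries.C : κ →+* LaurentSeries κ) u) x = 0) :
    ∃ P : κ[X][X],
      P.eval₂ (Polynomial.eval₂RingHom (HahnSeries.C : κ →+* LaurentSeries κ) u) x = 0 ∧
      (derivative P).eval₂ (Polynomial.eval₂RingHom (HahnSeries.C : κ →+* LaurentSeries κ) u) x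
        ≠ 0 := by
  classical
  have hp : p.Prime := Fact.out
  have : CharP (LaurentSeries κ) p :=
    charP_of_injective_ringHom (HahnSeries.C_injective (Γ := ℤ) (R := κ)) p
  have hu' : u.order ≠ 0 := fun h0 => hu (by rw [h0]; exact dvd_zero _)
  set φ : κ[X] →+* LaurentSeries κ :=
    Polynomial.eval₂RingHom (HahnSeries.C : κ →+* LaurentSeries κ) u with hφ
  have hφX : φ X = u := by rw [hφ, Polynomial.coe_eval₂RingHom, eval₂_X]
  -- a nonzero polynomial of minimal `Y`-degree vanishing at `(u, x)`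
  have hS : ∃ n, ∃ P : κ[X][X], P ≠ 0 ∧ P.eval₂ φ x = 0 ∧ P.natDegree = n :=
    ⟨_, Q, hQ, hroot, rfl⟩
  obtain ⟨P, hP0, hPx, hPd⟩ := Nat.find_spec hS
  have hmin : ∀ P' : κ[X][X], P' ≠ 0 → P'.eval₂ φ x = 0 → P.natDegree ≤ P'.natDegree := by
    intro P' h0 hx
    rw [hPd]
    exact Nat.find_min' hS ⟨P', h0, hx, rfl⟩
  refine ⟨P, hPx, fun hder => ?_⟩
  -- the derivative vanishes identically
  have hd0 : derivative P = 0 := by
    by_contra hne
    have h1 := hmin _ hne hder
    by_cases hdeg : P.natDegree = 0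
    · rw [eq_C_of_natDegree_eq_zero hdeg, derivative_C] at hne
      exact hne rfl
    · exact absurd h1 (not_le.mpr (natDegree_derivative_lt hdeg))
  -- so `P = G(Y^p)`
  set G : κ[X][X] := contract p P with hG
  have hPG : expand κ[X] p G = P := expand_contract p hd0 hp.ne_zero
  have hdegP : P.natDegree = G.natDegree * p := by rw [← hPG, natDegree_expand]
  have hev : P.eval₂ φ x = G.eval₂ φ (x ^ p) := by
    rw [← hPG, expand_eq_comp_X_pow, eval₂_comp, eval₂_X_pow]
  -- decompose the coefficients of `G`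
  choose h hh using fun i : ℕ => s18_ch_decomp p (G.coeff i)
  set n := G.natDegree with hn
  let H : ℕ → κ[X][X] := fun r => ∑ i ∈ Finset.range (n + 1), monomial i (h i r)
  have hHev : ∀ r, (H r).eval₂ φ x = ∑ i ∈ Finset.range (n + 1), φ (h i r) * x ^ i := by
    intro r
    simp only [H]
    rw [eval₂_finsetSum]
    exact Finset.sum_congr rfl fun i _ => eval₂_monomial _ _
  have hsum : ∑ r ∈ Finset.range p, u ^ r * ((H r).eval₂ φ x) ^ p = 0 := by
    rw [← hPx, hev, eval₂_eq_sum_range]
    simp only [hHev]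
    have h1 : ∀ i ∈ Finset.range (n + 1), φ (G.coeff i) * (x ^ p) ^ i
        = ∑ r ∈ Finset.range p, u ^ r * (φ (h i r) * x ^ i) ^ p := by
      intro i _
      conv_lhs => rw [hh i]
      rw [map_sum, Finset.sum_mul]
      refine Finset.sum_congr rfl fun r _ => ?_
      rw [map_mul, map_pow, map_pow, hφX]
      ring
    rw [Finset.sum_congr rfl h1, Finset.sum_comm]
    refine Finset.sum_congr rfl fun r _ => ?_
    rw [sum_pow_char, Finset.mul_sum]
  have hHx : ∀ r ∈ Finset.range p, (H r).eval₂ φ x = 0 :=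
    s18_ch_pth_indep p u hu (fun r => (H r).eval₂ φ x) hsum
  have hHdeg : ∀ r, (H r).natDegree ≤ n := by
    intro r
    refine natDegree_sum_le_of_forall_le _ _ fun i hi => ?_
    exact (natDegree_monomial_le _).trans (Nat.lt_succ_iff.mp (Finset.mem_range.mp hi))
  by_cases hn0 : n = 0
  · -- `P` is a nonzero constant in `κ[U]`, impossible since `u` is transcendental
    have hdeg0 : P.natDegree = 0 := by rw [hdegP, hn0, zero_mul]
    rw [eq_C_of_natDegree_eq_zero hdeg0, eval₂_C] at hPx
    have hc : P.coeff 0 ≠ 0 := by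
      intro h0
      apply hP0
      rw [eq_C_of_natDegree_eq_zero hdeg0, h0, map_zero]
    exact s18_ch_transc u hu' (P.coeff 0) hc hPx
  · have hH0 : ∀ r ∈ Finset.range p, H r = 0 := by
      intro r hr
      by_contra hne
      have h1 := (hmin _ hne (hHx r hr)).trans (hHdeg r)
      rw [hdegP] at h1
      have h2 : n * 2 ≤ n * p := Nat.mul_le_mul_left n hp.two_le
      omega
    have hh0 : ∀ i ∈ Finset.range (n + 1), ∀ r ∈ Finset.range p, h i r = 0 := by
      intro i hi r hr
      have h1 := congrArg (fun f => f.coeff i) (hH0 r hr)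
      simp only [H, finsetSum_coeff, coeff_monomial, coeff_zero] at h1
      rw [Finset.sum_eq_single i (fun j _ hji => if_neg hji) (fun hi' => absurd hi hi'),
        if_pos rfl] at h1
      exact h1
    have hG0 : G = 0 := by
      refine Polynomial.ext fun i => ?_
      rw [coeff_zero]
      by_cases hi : i ∈ Finset.range (n + 1)
      · refine (hh i).trans (Finset.sum_eq_zero fun r hr => ?_)
        rw [hh0 i hi r hr, zero_pow hp.ne_zero, mul_zero]
      · have hi' : n < i := by
          rw [Finset.mem_range, not_lt] at hi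
          omega
        exact coeff_eq_zero_of_natDegree_lt (hn ▸ hi')
    apply hP0
    rw [← hPG, hG0, map_zero]

end Fermat.Agent.S18
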