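import Fermat.Agent.S18.ChConc
import Fermat.Agent.S18.ChSep
import Fermat.Agent.S18.ChH1
import Fermat.Agent.S18.ChFin
import Fermat.Agent.S18.ChartDefs

/-!
# S18, block C (Cd-5): the chart of a coordinate as a subalgebra of `K · F_N`

`s18_chAlg N ℓ A t`, the coordinate `s18_coord K t`, and the `A[X]`-algebra structure `X ↦ t`.
-/

set_option autoImplicit false
set_option synthInstance.maxHeartbeats 400000
set_option linter.unusedSectionVars false
set_option linter.unusedVariables false

open ModularCurve ModularCurve.IgusaScheme Fermat.Agent.S28 Polynomial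

noncomputable section

namespace Fermat.Agent.S18

section ChAlg

variable (N : ℕ) [NeZero N] (ℓ : ℕ) [Fact ℓ.Prime]
variable {K : Type*} [Field K] [Algebra ℚ K] (A : ValuationSubring K)

/-- `K · F_N` as an algebra over `A` (the SAME expression as `s18_algebraA1F1` of `Setup.lean`, so
that the two instances are definitionally equal in the concrete setup). -/
instance s18_algebraAF : Algebra A (laurentBaseChange K (modularFunctionFieldFull N)) :=
  ((algebraMap K (laurentBaseChange K (modularFunctionFieldFull N))).comp A.subtype).toAlgebra

/-- The chart of the coordinate `t` over `A`, as a subalgebra of the base-changed function field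
`K · F_N ⊆ K((q))`. -/
def s18_chAlg (t : modularFunctionFieldFull N) :
    Subalgebra A (laurentBaseChange K (modularFunctionFieldFull N)) where
  carrier := {x | (x : LaurentSeries K) ∈ s18_chRing N ℓ A t}
  mul_mem' {a b} ha hb := by
    show (a : LaurentSeries K) * (b : LaurentSeries K) ∈ s18_chRing N ℓ A t
    exact Subring.mul_mem _ ha hb
  add_mem' {a b} ha hb := by
    show (a : LaurentSeries K) + (b : LaurentSeries K) ∈ s18_chRing N ℓ A t
    exact Subring.add_mem _ ha hb
  algebraMap_mem' r := by
    show algebraMap K (LaurentSeries K) (r : K) ∈ s18_chRing N ℓ A t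
    rw [algebraMap_laurentSeries_eq_single, ← HahnSeries.C_apply]
    exact s18_const_mem_chSpan (ι₁ := A.subtype) r

variable {N ℓ A}

theorem s18_mem_chAlg {t : modularFunctionFieldFull N}
    {x : laurentBaseChange K (modularFunctionFieldFull N)} :
    x ∈ s18_chAlg N ℓ A t ↔ (x : LaurentSeries K) ∈ s18_chRing N ℓ A t := Iff.rfl

variable (K) in
/-- The coordinate in the base-changed function field. -/
def s18_coord (t : modularFunctionFieldFull N) : laurentBaseChange K (modularFunctionFieldFull N) :=
  ⟨coeffEmb K (t : LaurentSeries ℚ), coeffEmb_mem_laurentBaseChange K t.2⟩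

theorem s18_coord_mem (t : modularFunctionFieldFull N) : s18_coord K t ∈ s18_chAlg N ℓ A t :=
  s18_map_mem_chSpan (s18_coe_mem_czRing (subset_chartAlg N ℓ {t} (Set.mem_singleton t)))

variable (ℓ A) in
/-- The coordinate as an element of the chart. -/
def s18_coordB (t : modularFunctionFieldFull N) : s18_chAlg N ℓ A t :=
  ⟨s18_coord K t, s18_coord_mem t⟩

variable (ℓ A) in
/-- The chart as an `A[X]`-algebra, `X ↦ t`. -/
@[reducible] def s18_chPolyAlgebra (t : modularFunctionFieldFull N) :
    Algebra A[X] (s18_chAlg N ℓ A t) :=
  (Polynomial.aeval (s18_coordB ℓ A t)).toRingHom.toAlgebra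

end ChAlg

end Fermat.Agent.S18
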