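import Mathlib
import Fermat.Prelude.Def_ModularCurve_ReductionModL

/-!
# S18: the concrete setup of the assembly (helper15)

* `K₁` : a subfield of `Q̄` (finite Galois over `ℚ` in the applications);
* `s18_A1 A K₁ = A ∩ K₁` : the valuation ring of `K₁` under the valuation ring `A` of `Q̄`;
* `s18_F1 K₁ N' = K₁ · F(N') ⊆ K₁((q))` : the function field of level `N'` over `K₁`.

The `A₁`-algebra structure of `F1` is block C's instance `s18_algebraAF` (`ChAlg.lean`), the
extension of constants `F1 →+* F_bar(N')` is block D's `s18_baseIncl` (`UnramMod.lean`).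
-/

set_option autoImplicit false

noncomputable section

namespace Fermat.Agent.S18

open ModularCurve

variable (A : ValuationSubring (AlgebraicClosure ℚ))
  (K₁ : IntermediateField ℚ (AlgebraicClosure ℚ)) (N' : ℕ)

/-- The valuation ring `A₁ = A ∩ K₁` of `K₁`. -/
abbrev s18_A1 : ValuationSubring K₁ := A.comap (algebraMap K₁ (AlgebraicClosure ℚ))

/-- The function field `F1 = K₁ · F(N')` inside `K₁((q))`. -/
abbrev s18_F1 : IntermediateField K₁ (LaurentSeries K₁) :=
  laurentBaseChange K₁ (modularFunctionFieldFull N')

end Fermat.Agent.S18
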