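import Mathlib
import Fermat.Agent.S18.ChartDefs

/-!
# S18: interface between block C (charts), block SM and block A (helper15)

* `s18_PreChart ϖ B`   : a chart without the regularity field `reg`;
* `s18_SmHyp π t B`    : the hypotheses of the smoothness theorem `s18_sm` for the chart `B`, viewed
  as an algebra over `A₀[X]` via `X ↦ t` (all except the branch condition);
* `s18_Branch π t B`   : the branch condition (char-0 ramification of `B` over the `t`-line near the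
  special fibre is concentrated in one section `t = b` per residue disc);
* `s18_ChartPkg π t B0 Binf` : everything block C delivers for the two charts.
-/

set_option autoImplicit false

namespace Fermat.Agent.S18

open Polynomial

/-- A chart without the regularity condition. -/
structure s18_PreChart {F : Type*} [Field F] (ϖ : F) (B : Subring F) : Prop where
  ϖ_mem : ϖ ∈ B
  ϖ_ne : ϖ ≠ 0
  noeth : IsNoetherianRing B
  frac : ∀ x : F, ∃ a ∈ B, ∃ b ∈ B, b ≠ 0 ∧ x = a / b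
  prime : ∀ x ∈ B, ∀ y ∈ B, ϖ⁻¹ * (x * y) ∈ B → ϖ⁻¹ * x ∈ B ∨ ϖ⁻¹ * y ∈ B
  nonunit : ϖ⁻¹ ∉ B

/-- The hypotheses of the smoothness theorem for the chart `B` with coordinate `t`
(`B` is an `A₀[X]`-algebra via `X ↦ t`). -/
structure s18_SmHyp {A₀ F : Type*} [CommRing A₀] [Field F] [Algebra A₀ F] (π : A₀) (t : F)
    (B : Subalgebra A₀ F) : Prop where
  pre : s18_PreChart (algebraMap A₀ F π) B.toSubring
  t_mem : t ∈ B
  /-- `B` is a finite `A₀[t]`-module. -/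
  finite : ∃ gen : Finset F, (∀ m ∈ gen, m ∈ B) ∧
    ∀ x ∈ B, ∃ c : F → A₀[X], x = ∑ m ∈ gen, aeval t (c m) * m
  /-- `t` is transcendental over `A₀`. -/
  transc : ∀ P : A₀[X], aeval t P = 0 → P = 0
  /-- the residue extension is separable: every `x ∈ B` is, modulo `π`, a simple root of a
  polynomial over `A₀[t]`. -/
  sep : ∀ x ∈ B, ∃ P : A₀[X][X],
    (algebraMap A₀ F π)⁻¹ * P.eval₂ (aeval t : A₀[X] →ₐ[A₀] F).toRingHom x ∈ B ∧
    (algebraMap A₀ F π)⁻¹ * (derivative P).eval₂ (aeval t : A₀[X] →ₐ[A₀] F).toRingHom x ∉ B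
  /-- `B[1/π]` is integrally closed. -/
  normal : ∀ z : F, IsIntegral B z → ∃ k : ℕ, (algebraMap A₀ F π) ^ k * z ∈ B

/-- The branch condition for the chart `B` with coordinate `t`: for every maximal ideal `𝔫 ∋ π` of
`A₀[X]` there is a section `b` such that for every irreducible `g ∈ 𝔫` prime to `π` and not
associated to `X - b`, `g(t)` is a uniformizer of every discrete valuation ring `W ⊇ B[1/π]` of `F`
in which it is not a unit. -/
def s18_Branch {A₀ F : Type*} [CommRing A₀] [Field F] [Algebra A₀ F] (π : A₀) (t : F)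
    (B : Subalgebra A₀ F) : Prop :=
  ∀ 𝔫 : Ideal A₀[X], 𝔫.IsMaximal → C π ∈ 𝔫 → ∃ b : A₀, ∀ g : A₀[X], g ∈ 𝔫 → Irreducible g →
    ¬ C π ∣ g → ¬ Associated g (X - C b) →
    ∀ W : ValuationSubring F, IsDiscreteValuationRing W → (∀ x ∈ B, x ∈ W) →
      (algebraMap A₀ F π)⁻¹ ∈ W → (aeval t g)⁻¹ ∉ W →
      ∀ y ∈ W, y⁻¹ ∉ W → y / aeval t g ∈ W

/-- Everything block C delivers for the two charts `B0 ∋ t`, `Binf ∋ t⁻¹`. -/
structure s18_ChartPkg {A₀ F : Type*} [CommRing A₀] [Field F] [Algebra A₀ F] (π : A₀) (t : F)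
    (B0 Binf : Subalgebra A₀ F) : Prop where
  sm0 : s18_SmHyp π t B0
  smInf : s18_SmHyp π t⁻¹ Binf
  t_ne : t ≠ 0
  t_unit0 : (algebraMap A₀ F π)⁻¹ * t ∉ B0
  t_unitInf : (algebraMap A₀ F π)⁻¹ * t⁻¹ ∉ Binf
  glue0 : ∀ x ∈ B0, ∃ k : ℕ, t⁻¹ ^ k * x ∈ Binf
  glueInf : ∀ x ∈ Binf, ∃ k : ℕ, t ^ k * x ∈ B0
  h1 : ∃ c₁ : ℕ, ∀ c, c₁ ≤ c → ∀ x ∈ B0, ∀ k : ℕ,
    ∃ a ∈ B0, ∃ b ∈ Binf, t⁻¹ ^ k * x = a + t ^ c * b
  fin : ∀ c : ℕ, ∃ s : Finset F, ∀ x ∈ B0, t⁻¹ ^ c * x ∈ Binf →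
    x ∈ Submodule.span A₀ (s : Set F)

end Fermat.Agent.S18
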