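import Mathlib

/-!
# S18 (E1b): the local ring of a chart at a height-one prime is a discrete valuation ring

`B` a noetherian subring of a field `F` with fraction field `F`, `Q` a nonzero prime ideal of `B`
which is minimal among the nonzero primes, and such that `B` is "integrally closed at `Q`"
(every element of `F` integral over `B` has a denominator outside `Q`).  Then the local ring
`B_Q = {a / s : s ∉ Q}` is a discrete valuation ring, given as a `ValuationSubring` of `F`.
-/

set_option autoImplicit false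

namespace Fermat.Agent.S18

open IsLocalRing

theorem s18_e1_dvr_at_prime {F : Type*} [Field F] (B : Subring F) (hnoeth : IsNoetherianRing B)
    (hfrac : ∀ x : F, ∃ a ∈ B, ∃ b ∈ B, b ≠ 0 ∧ x = a / b) (Q : Ideal B) (hQ : Q.IsPrime)
    (hQ0 : Q ≠ ⊥) (hht : ∀ Q' : Ideal B, Q'.IsPrime → Q' ≠ ⊥ → Q' ≤ Q → Q' = Q)
    (hnorm : ∀ z : F, IsIntegral B z → ∃ s : B, s ∉ Q ∧ (s : F) * z ∈ B) :
    ∃ W : ValuationSubring F, IsDiscreteValuationRing W ∧
      ∀ x : F, x ∈ W ↔ ∃ a s : B, s ∉ Q ∧ x = (a : F) / (s : F) := by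
  classical
  have hfracI : IsFractionRing B F := by
    refine IsFractionRing.of_field B F fun z => ?_
    obtain ⟨x, hx, y, hy, hy0, rfl⟩ := hfrac z
    exact ⟨⟨x, hx⟩, ⟨y, hy⟩, rfl⟩
  have hS : Q.primeCompl ≤ nonZeroDivisors B := Ideal.primeCompl_le_nonZeroDivisors Q
  let R : Subalgebra B F := Localization.subalgebra.ofField F Q.primeCompl hS
  have hmemR : ∀ x : F, x ∈ R ↔ ∃ a s : B, s ∉ Q ∧ x = (a : F) / (s : F) := by
    intro x
    constructor
    · rintro ⟨a, s, hs, rfl⟩
      exact ⟨a, s, hs, by rw [div_eq_mul_inv]; rfl⟩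
    · rintro ⟨a, s, hs, rfl⟩
      exact ⟨a, s, hs, by rw [div_eq_mul_inv]; rfl⟩
  have hloc : IsLocalization.AtPrime R Q :=
    Localization.subalgebra.isLocalization_ofField F Q.primeCompl hS
  have hRnoeth : IsNoetherianRing R := IsLocalization.isNoetherianRing Q.primeCompl R hnoeth
  have hRlocal : IsLocalRing R := IsLocalization.AtPrime.isLocalRing R Q
  have hRfrac : IsFractionRing R F := Localization.subalgebra.isFractionRing_ofField F _ hS
  -- integrally closed
  have hic : IsIntegrallyClosed R := by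
    rw [isIntegrallyClosed_iff F]
    intro x hx
    obtain ⟨m, hm⟩ := IsIntegral.exists_multiple_integral_of_isLocalization Q.primeCompl x hx
    obtain ⟨s, hs, hsx⟩ := hnorm _ hm
    have hm0 : ((m : B) : F) ≠ 0 := by
      intro h0
      apply m.2
      have : (m : B) = 0 := Subtype.ext h0
      rw [this]; exact Q.zero_mem
    have hs0 : (s : F) ≠ 0 := by
      intro h0
      apply hs
      have : s = 0 := Subtype.ext h0
      rw [this]; exact Q.zero_mem
    refine ⟨⟨x, (hmemR x).mpr ⟨⟨_, hsx⟩, s * (m : B), ?_, ?_⟩⟩, rfl⟩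
    · exact fun h => (hQ.mem_or_mem h).elim hs m.2
    · have e : (m • x : F) = ((m : B) : F) * x := rfl
      simp only [e, Subring.coe_mul]
      field_simp
  -- unique nonzero prime
  have huniq : ∀ P : Ideal R, P ≠ ⊥ → P.IsPrime → P = maximalIdeal R := by
    intro P hP0 hPp
    have h1 := (IsLocalization.isPrime_iff_isPrime_disjoint Q.primeCompl R P).mp hPp
    have hle : P.under B ≤ Q := by
      intro x hx
      by_contra hxQ
      exact Set.disjoint_left.mp h1.2 hxQ hx
    have hne : P.under B ≠ ⊥ := by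
      intro h0
      apply hP0
      rw [← IsLocalization.map_under Q.primeCompl R P, h0, Ideal.map_bot]
    have h2 := hht _ h1.1 hne hle
    rw [← IsLocalization.map_under Q.primeCompl R P, h2,
      IsLocalization.AtPrime.map_eq_maximalIdeal Q R]
  -- not a field
  have hnf : maximalIdeal R ≠ ⊥ := by
    rw [← IsLocalization.AtPrime.map_eq_maximalIdeal Q R]
    intro h0
    apply hQ0
    rw [eq_bot_iff]
    intro x hx
    have h3 : algebraMap B R x ∈ Q.map (algebraMap B R) := Ideal.mem_map_of_mem _ hx
    rw [h0, Ideal.mem_bot] at h3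
    rw [Ideal.mem_bot]
    have h4 : ((algebraMap B R x : R) : F) = 0 := by rw [h3]; rfl
    exact Subtype.ext h4
  have h30 : (IsIntegrallyClosed R ∧ ∀ P : Ideal R, P ≠ ⊥ → P.IsPrime → P = maximalIdeal R) →
      IsPrincipalIdealRing R :=
    ((tfae_of_isNoetherianRing_of_isLocalRing_of_isDomain R).out 3 0).mp
  have hPIR : IsPrincipalIdealRing R := h30 ⟨hic, huniq⟩
  have hDVR : IsDiscreteValuationRing R := { hPIR, hRlocal with not_a_field' := hnf }
  let W : ValuationSubring F :=
    { R.toSubring with
      mem_or_inv_mem' := fun x => by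
        rcases ValuationRing.isInteger_or_isInteger R x with ⟨y, hy⟩ | ⟨y, hy⟩
        · left; rw [← hy]; exact y.2
        · right; rw [← hy]; exact y.2 }
  refine ⟨W, ?_, fun x => hmemR x⟩
  let e : R ≃+* W :=
    { toFun := fun x => ⟨x.1, x.2⟩
      invFun := fun x => ⟨x.1, x.2⟩
      left_inv := fun _ => rfl
      right_inv := fun _ => rfl
      map_mul' := fun _ _ => rfl
      map_add' := fun _ _ => rfl }
  exact IsDiscreteValuationRing.RingEquivClass.isDiscreteValuationRing e

end Fermat.Agent.S18
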