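import Mathlib

/-!
# S18 (E1a): primes of `A₀[X]` not containing the uniformizer

For a discrete valuation ring `A₀` with uniformizer `π`, a nonzero prime `q` of `A₀[X]` with
`C π ∉ q` is principal, generated by an irreducible polynomial `g` which stays irreducible over the
fraction field, and `q` has height one.
-/

set_option autoImplicit false

namespace Fermat.Agent.S18

open Polynomial

section

variable {A₀ : Type*} [CommRing A₀] [IsDomain A₀] [IsDiscreteValuationRing A₀]

/-- Over a DVR, a polynomial not divisible by the uniformizer is primitive. -/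
theorem s18_e1_isPrimitive {π : A₀} (hπ : Irreducible π) {g : A₀[X]} (hg : ¬ C π ∣ g) :
    g.IsPrimitive := by
  intro r hr
  by_contra hru
  have hmem : r ∈ IsLocalRing.maximalIdeal A₀ := (IsLocalRing.mem_maximalIdeal r).mpr hru
  rw [hπ.maximalIdeal_eq, Ideal.mem_span_singleton] at hmem
  exact hg ((map_dvd C hmem).trans hr)

/-- (iii) Gauss: an irreducible polynomial over a DVR, not divisible by the uniformizer, stays
irreducible over the fraction field. -/
theorem s18_e1_irreducible_map {π : A₀} (hπ : Irreducible π) {g : A₀[X]} (hg : Irreducible g)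
    (hπg : ¬ C π ∣ g) (K : Type*) [Field K] [Algebra A₀ K] [IsFractionRing A₀ K] :
    Irreducible (g.map (algebraMap A₀ K)) :=
  (s18_e1_isPrimitive hπ hπg).irreducible_iff_irreducible_map_fraction_map.mp hg

/-- (iii') ... hence separable in characteristic zero. -/
theorem s18_e1_separable_map {π : A₀} (hπ : Irreducible π) {g : A₀[X]} (hg : Irreducible g)
    (hπg : ¬ C π ∣ g) (K : Type*) [Field K] [CharZero K] [Algebra A₀ K] [IsFractionRing A₀ K] :
    (g.map (algebraMap A₀ K)).Separable :=
  (s18_e1_irreducible_map hπ hg hπg K).separable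

/-- A prime of `A₀[X]` not containing `C π` contains no nonzero constant. -/
theorem s18_e1_const_notMem {π : A₀} (hπ : Irreducible π) {q : Ideal A₀[X]} (hq : q.IsPrime)
    (hπq : C π ∉ q) {a : A₀} (ha : a ≠ 0) : C a ∉ q := by
  intro haq
  obtain ⟨n, u, rfl⟩ := IsDiscreteValuationRing.eq_unit_mul_pow_irreducible ha hπ
  rw [map_mul, map_pow] at haq
  rcases hq.mem_or_mem haq with h | h
  · exact hq.ne_top (Ideal.eq_top_of_isUnit_mem _ h (isUnit_C.mpr u.isUnit))
  · exact hπq (hq.mem_of_pow_mem n h)

omit [IsDomain A₀] [IsDiscreteValuationRing A₀] in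
/-- A prime element of `A₀[X]` lying in a prime `q ∌ C π` is not divisible by `C π`. -/
theorem s18_e1_not_dvd {π : A₀} {q : Ideal A₀[X]} (hπq : C π ∉ q) {g : A₀[X]}
    (hg : Irreducible g) (hgq : g ∈ q) (hπ : Irreducible π) : ¬ C π ∣ g := by
  rintro ⟨h, rfl⟩
  rcases hg.isUnit_or_isUnit rfl with hu | hu
  · exact hπ.not_isUnit (isUnit_C.mp hu)
  · obtain ⟨v, rfl⟩ := hu
    have : C π = C π * ↑v * ↑v⁻¹ := by rw [mul_assoc, Units.mul_inv, mul_one]
    exact hπq (this ▸ Ideal.mul_mem_right _ _ hgq)

/-- (i) + (ii): a nonzero prime `q` of `A₀[X]` with `C π ∉ q` is generated by an irreducible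
polynomial `g` (not divisible by `C π`), and every nonzero prime contained in `q` equals `q`. -/
theorem s18_e1_prime_principal (π : A₀) (hπ : Irreducible π) (q : Ideal A₀[X]) (hq : q.IsPrime)
    (hq0 : q ≠ ⊥) (hπq : C π ∉ q) :
    ∃ g : A₀[X], q = Ideal.span {g} ∧ Irreducible g ∧ ¬ C π ∣ g ∧
      (∀ p' : Ideal A₀[X], p'.IsPrime → p' ≠ ⊥ → p' ≤ q → p' = q) := by
  obtain ⟨g, hgq, hgp⟩ := hq.exists_mem_prime_of_ne_bot hq0
  have hgi : Irreducible g := hgp.irreducible
  have hπg : ¬ C π ∣ g := s18_e1_not_dvd hπq hgi hgq hπ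
  have hprim : g.IsPrimitive := s18_e1_isPrimitive hπ hπg
  have hle : q ≤ Ideal.span {g} := by
    intro h hh
    rw [Ideal.mem_span_singleton]
    apply hprim.dvd_of_fraction_map_dvd_fraction_map (K := FractionRing A₀)
    have hirr : Irreducible (g.map (algebraMap A₀ (FractionRing A₀))) :=
      s18_e1_irreducible_map hπ hgi hπg _
    rcases hirr.isCoprime_or_dvd (h.map (algebraMap A₀ (FractionRing A₀))) with hc | hd
    · exfalso
      obtain ⟨u, v, huv⟩ := hc
      obtain ⟨bu, hbu, hU⟩ := IsLocalization.integerNormalization_spec (nonZeroDivisors A₀) u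
      obtain ⟨bv, hbv, hV⟩ := IsLocalization.integerNormalization_spec (nonZeroDivisors A₀) v
      have hmem : C bv * IsLocalization.integerNormalization (nonZeroDivisors A₀) u * g +
          C bu * IsLocalization.integerNormalization (nonZeroDivisors A₀) v * h ∈ q :=
        add_mem (Ideal.mul_mem_left _ _ hgq) (Ideal.mul_mem_left _ _ hh)
      have heq : C bv * IsLocalization.integerNormalization (nonZeroDivisors A₀) u * g +
          C bu * IsLocalization.integerNormalization (nonZeroDivisors A₀) v * h = C (bu * bv) := by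
        apply Polynomial.map_injective (algebraMap A₀ (FractionRing A₀))
          (IsFractionRing.injective A₀ (FractionRing A₀))
        rw [Polynomial.map_add, Polynomial.map_mul, Polynomial.map_mul, Polynomial.map_mul,
          Polynomial.map_mul, hU, hV, Polynomial.map_C, Polynomial.map_C, Polynomial.map_C,
          Algebra.smul_def, Algebra.smul_def, Polynomial.algebraMap_apply, Polynomial.algebraMap_apply,
          map_mul, map_mul]
        linear_combination (C (algebraMap A₀ (FractionRing A₀) bu) *
          C (algebraMap A₀ (FractionRing A₀) bv)) * huv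
      rw [heq] at hmem
      exact s18_e1_const_notMem hπ hq hπq
        (mul_ne_zero (nonZeroDivisors.ne_zero hbu) (nonZeroDivisors.ne_zero hbv)) hmem
    · exact hd
  have hqg : q = Ideal.span {g} :=
    le_antisymm hle ((Ideal.span_singleton_le_iff_mem _).mpr hgq)
  refine ⟨g, hqg, hgi, hπg, ?_⟩
  intro p' hp' hp'0 hp'q
  obtain ⟨g', hg'p, hg'prime⟩ := hp'.exists_mem_prime_of_ne_bot hp'0
  have hg'q : g' ∈ Ideal.span {g} := hqg ▸ hp'q hg'p
  rw [Ideal.mem_span_singleton] at hg'q
  have hassoc : Associated g g' := hgi.associated_of_dvd hg'prime.irreducible hg'q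
  have hgp' : g ∈ p' := by
    obtain ⟨u, hu⟩ := hassoc.symm
    rw [← hu]
    exact Ideal.mul_mem_right _ _ hg'p
  exact le_antisymm hp'q (hqg ▸ (Ideal.span_singleton_le_iff_mem _).mpr hgp')

end

end Fermat.Agent.S18
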