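import Mathlib

/-!
# S18, block SM: local generators from a Dedekind localisation

* `sm_exists_gen_of_dedekind`: a nonzero prime `P` of a Dedekind domain is locally principal:
  there is `s ∈ P` such that every `x ∈ P` satisfies `u * x ∈ (s)` for some `u ∉ P`.
* `sm_isDedekindDomain_of_finite`: an integrally closed domain which is finite over a DVR is a
  Dedekind domain.
* `sm_local_gen_of_dedekind`: transfer of the local generator along a localisation-like map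
  `ψ : B → T` (`T` a Dedekind domain, "`T = S⁻¹ (B / ϖ)`") to `B`:
  `∃ s ∈ 𝔪, ∀ x ∈ 𝔪, ∃ u ∉ 𝔪, u * x ∈ (ϖ, s)`.
-/

set_option autoImplicit false

namespace Fermat.Agent.S18

/-- A prime ideal of a Dedekind domain is locally principal. -/
theorem sm_exists_gen_of_dedekind {T : Type*} [CommRing T] [IsDedekindDomain T] (P : Ideal T)
    [hPp : P.IsPrime] (hP : P ≠ ⊥) :
    ∃ s ∈ P, ∀ x ∈ P, ∃ u, u ∉ P ∧ u * x ∈ Ideal.span {s} := by
  have hne : ¬ P ≤ P * P := by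
    intro hle
    have h1 : P * P = P * ⊤ := by
      rw [Ideal.mul_top]
      exact le_antisymm Ideal.mul_le_left hle
    have h2 : P = ⊤ := mul_left_cancel₀ hP h1
    exact hPp.ne_top h2
  obtain ⟨s, hsP, hsPP⟩ := Set.not_subset.mp hne
  obtain ⟨I, hI⟩ := Ideal.dvd_span_singleton.mpr hsP
  have hIP : ¬ I ≤ P := by
    intro hle
    apply hsPP
    have : s ∈ Ideal.span {s} := Ideal.mem_span_singleton_self s
    rw [hI] at this
    exact Ideal.mul_mono_right hle this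
  obtain ⟨u, huI, huP⟩ := Set.not_subset.mp hIP
  refine ⟨s, hsP, fun x hx => ⟨u, huP, ?_⟩⟩
  rw [hI]
  exact Ideal.mul_mem_mul_rev hx huI

/-- An integrally closed domain which is finite over a DVR (or any noetherian domain of
dimension `≤ 1`) is a Dedekind domain. -/
theorem sm_isDedekindDomain_of_finite (O : Type*) [CommRing O] [IsDomain O] [IsNoetherianRing O]
    [Ring.DimensionLEOne O] (T : Type*) [CommRing T] [IsDomain T] [Algebra O T]
    [Module.Finite O T] [IsIntegrallyClosed T] : IsDedekindDomain T := by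
  have h1 : IsNoetherianRing T := IsNoetherianRing.of_finite O T
  have h2 : Ring.DimensionLEOne T := Ring.DimensionLEOne.of_isIntegral O T
  have h3 : IsDedekindRing T := (isDedekindRing_iff T (FractionRing T)).mpr
    ⟨h1, h2, fun {_} hx => (isIntegrallyClosed_iff (FractionRing T)).mp inferInstance hx⟩
  exact { toIsDomain := inferInstance
          toIsDedekindRing := h3 }

/-- Transfer of a local generator: `ψ : B → T` behaves like the localisation of `B / ϖ` at a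
multiplicative set disjoint from the prime `𝔪`, `T` is a Dedekind domain, and `P` is a prime of
`T` over `𝔪`.  Then `𝔪` is locally generated by `ϖ` and one more element. -/
theorem sm_local_gen_of_dedekind {B : Type*} [CommRing B] (𝔪 : Ideal B) [h𝔪 : 𝔪.IsPrime] (ϖ : B)
    {T : Type*} [CommRing T] [IsDedekindDomain T] (ψ : B →+* T)
    (hfrac : ∀ t : T, ∃ u y : B, u ∉ 𝔪 ∧ ψ u * t = ψ y)
    (hker : ∀ x : B, ψ x = 0 → ∃ u : B, u ∉ 𝔪 ∧ u * x ∈ Ideal.span {ϖ})
    (P : Ideal T) [hPp : P.IsPrime] (hP : P.comap ψ = 𝔪) :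
    ∃ s ∈ 𝔪, ∀ x ∈ 𝔪, ∃ u, u ∉ 𝔪 ∧ u * x ∈ Ideal.span {ϖ, s} := by
  have hmem : ∀ x : B, x ∈ 𝔪 ↔ ψ x ∈ P := by
    intro x
    rw [← hP, Ideal.mem_comap]
  by_cases hP0 : P = ⊥
  · -- degenerate case: `𝔪` is locally generated by `ϖ`
    refine ⟨0, 𝔪.zero_mem, fun x hx => ?_⟩
    have h1 : ψ x = 0 := by
      have := (hmem x).mp hx
      rw [hP0] at this
      exact (Submodule.mem_bot _).mp this
    obtain ⟨u, hu, hux⟩ := hker x h1
    refine ⟨u, hu, ?_⟩
    exact Ideal.span_mono (by simp) hux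
  obtain ⟨s', hs'P, hs'⟩ := sm_exists_gen_of_dedekind P hP0
  obtain ⟨u₀, s₀, hu₀, hs₀⟩ := hfrac s'
  have hs₀𝔪 : s₀ ∈ 𝔪 := by
    rw [hmem, ← hs₀]
    exact P.mul_mem_left _ hs'P
  refine ⟨s₀, hs₀𝔪, fun x hx => ?_⟩
  obtain ⟨u', hu'P, hu'x⟩ := hs' (ψ x) ((hmem x).mp hx)
  obtain ⟨t, ht⟩ := Ideal.mem_span_singleton'.mp hu'x
  obtain ⟨u₁, y₁, hu₁, hy₁⟩ := hfrac u'
  obtain ⟨u₂, y₂, hu₂, hy₂⟩ := hfrac t
  have hy₁𝔪 : y₁ ∉ 𝔪 := by
    rw [hmem, ← hy₁]
    intro h
    rcases hPp.mem_or_mem h with h | h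
    · exact hu₁ ((hmem u₁).mpr h)
    · exact hu'P h
  have hzero : ψ (u₀ * u₂ * y₁ * x - u₁ * s₀ * y₂) = 0 := by
    rw [map_sub, map_mul, map_mul, map_mul, map_mul, map_mul, ← hy₁, ← hs₀, ← hy₂]
    have : ψ u₀ * ψ u₂ * (ψ u₁ * u') * ψ x = ψ u₀ * ψ u₂ * ψ u₁ * (u' * ψ x) := by ring
    rw [this, ← ht]
    ring
  obtain ⟨v, hv, hvx⟩ := hker _ hzero
  refine ⟨v * (u₀ * u₂ * y₁), ?_, ?_⟩
  · intro h
    rcases h𝔪.mem_or_mem h with h | h
    · exact hv h
    · rcases h𝔪.mem_or_mem h with h | h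
      · rcases h𝔪.mem_or_mem h with h | h
        · exact hu₀ h
        · exact hu₂ h
      · exact hy₁𝔪 h
  · obtain ⟨w, hw⟩ := Ideal.mem_span_singleton'.mp hvx
    rw [Ideal.mem_span_pair]
    refine ⟨w, v * u₁ * y₂, ?_⟩
    have : v * (u₀ * u₂ * y₁) * x = v * (u₀ * u₂ * y₁ * x - u₁ * s₀ * y₂) + v * u₁ * y₂ * s₀ := by
      ring
    rw [this, ← hw]
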