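import Mathlib

/-!
# S18, block SM: a matrix lemma over a local ring

`sm_pow_dvd_det`: let `O` be a local ring whose maximal ideal is generated by `τ`, and let `M` be
a square matrix over `O`.  If the reduction of `M` modulo the maximal ideal kills a subspace of
dimension `s`, then `τ ^ s ∣ det M`.
-/

set_option autoImplicit false

namespace Fermat.Agent.S18

open Matrix IsLocalRing

attribute [local instance] Ideal.Quotient.field

/-- If all entries of the columns indexed by `T` are divisible by `τ`, then `τ ^ |T|` divides
the determinant. -/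
theorem sm_pow_dvd_det_of_cols {O : Type*} [CommRing O] {ι : Type*} [Fintype ι] [DecidableEq ι]
    (τ : O) (M : Matrix ι ι O) (T : Finset ι) (h : ∀ i, ∀ j ∈ T, τ ∣ M i j) :
    τ ^ T.card ∣ M.det := by
  classical
  choose q hq using fun (i : ι) (j : {j // j ∈ T}) => h i j.1 j.2
  let N : Matrix ι ι O := fun i j => if hj : j ∈ T then q i ⟨j, hj⟩ else M i j
  have hM : M = N * Matrix.diagonal (fun j => if j ∈ T then τ else 1) := by
    ext i j
    rw [Matrix.mul_diagonal]
    by_cases hj : j ∈ T
    · simp only [N, dif_pos hj, if_pos hj]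
      rw [hq i ⟨j, hj⟩, mul_comm]
    · simp only [N, dif_neg hj, if_neg hj, mul_one]
  have hprod : ∏ j : ι, (if j ∈ T then τ else 1) = τ ^ T.card := by
    rw [Finset.prod_ite_mem, Finset.univ_inter, Finset.prod_const]
  rw [hM, Matrix.det_mul, Matrix.det_diagonal, hprod]
  exact Dvd.intro_left _ rfl

/-- The vectors of a linearly independent family are part of its extension to a basis. -/
theorem sm_sumExtend_inl {K V ι : Type*} [DivisionRing K] [AddCommGroup V] [Module K V]
    {v : ι → V} (hv : LinearIndependent K v) (i : ι) :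
    Module.Basis.sumExtend hv (Sum.inl i) = v i := by
  simp only [Module.Basis.sumExtend, Equiv.Set.sumDiffSubset, Module.Basis.reindex_apply,
    Module.Basis.extend_apply_self]
  rfl

/-- The matrix lemma: if the reduction of `M` kills a subspace `W`, then `τ ^ dim W ∣ det M`. -/
theorem sm_pow_dvd_det {O : Type*} [CommRing O] [IsLocalRing O] (τ : O)
    (hτ : maximalIdeal O = Ideal.span {τ})
    {ι : Type*} [Fintype ι] [DecidableEq ι] (M : Matrix ι ι O)
    (W : Submodule (O ⧸ maximalIdeal O) (ι → O ⧸ maximalIdeal O))
    (hW : ∀ w ∈ W, (M.map (Ideal.Quotient.mk (maximalIdeal O))) *ᵥ w = 0) :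
    τ ^ Module.finrank (O ⧸ maximalIdeal O) W ∣ M.det := by
  classical
  set κ := O ⧸ maximalIdeal O with hκ
  set s := Module.finrank κ W with hs
  -- a basis of `W`, extended to a basis of `ι → κ`
  let bW : Module.Basis (Fin s) κ W := Module.finBasis κ W
  let v : Fin s → (ι → κ) := fun j => (bW j : ι → κ)
  have hv : LinearIndependent κ v := by
    have := bW.linearIndependent
    exact this.map' W.subtype (Submodule.ker_subtype W)
  let e0 := Module.Basis.sumExtend hv
  have : Finite (Fin s ⊕ Module.Basis.sumExtendIndex hv) :=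
    Module.Finite.finite_basis e0
  have : Fintype (Fin s ⊕ Module.Basis.sumExtendIndex hv) := Fintype.ofFinite _
  have hcard : Fintype.card (Fin s ⊕ Module.Basis.sumExtendIndex hv) = Fintype.card ι := by
    rw [← Module.finrank_eq_card_basis e0, Module.finrank_fintype_fun_eq_card]
  let ε : (Fin s ⊕ Module.Basis.sumExtendIndex hv) ≃ ι := Fintype.equivOfCardEq hcard
  let e : Module.Basis ι κ (ι → κ) := e0.reindex ε
  let Vbar : Matrix ι ι κ := fun i j => e j i
  have hVbar : IsUnit Vbar := by
    rw [← Matrix.linearIndependent_cols_iff_isUnit]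
    have : Vbar.col = e := by
      ext j i
      rfl
    rw [this]
    exact e.linearIndependent
  let T : Finset ι := Finset.univ.image (fun j : Fin s => ε (Sum.inl j))
  have hT : T.card = s := by
    rw [Finset.card_image_of_injective _ (fun a b hab => by
      have := ε.injective hab
      exact Sum.inl_injective this)]
    simp
  have hcolT : ∀ j ∈ T, (fun i => Vbar i j) ∈ W := by
    intro j hj
    obtain ⟨j', -, rfl⟩ := Finset.mem_image.mp hj
    have h1 : (fun i => Vbar i (ε (Sum.inl j'))) = v j' := by
      ext i
      simp only [Vbar, e, Module.Basis.reindex_apply, Equiv.symm_apply_apply]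
      rw [sm_sumExtend_inl]
    rw [h1]
    exact (bW j').2
  -- lift to `O`
  let V : Matrix ι ι O := fun i j => Function.surjInv Ideal.Quotient.mk_surjective (Vbar i j)
  have hV : V.map (Ideal.Quotient.mk (maximalIdeal O)) = Vbar := by
    ext i j
    exact Function.surjInv_eq Ideal.Quotient.mk_surjective (Vbar i j)
  have hdetV : IsUnit V.det := by
    have h1 : Ideal.Quotient.mk (maximalIdeal O) V.det = Vbar.det := by
      rw [RingHom.map_det, RingHom.mapMatrix_apply, hV]
    have h2 : IsUnit Vbar.det := (Matrix.isUnit_iff_isUnit_det _).mp hVbar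
    by_contra hnu
    have h3 : V.det ∈ maximalIdeal O := (mem_maximalIdeal _).mpr hnu
    have h4 : Ideal.Quotient.mk (maximalIdeal O) V.det = 0 :=
      Ideal.Quotient.eq_zero_iff_mem.mpr h3
    rw [h1] at h4
    rw [h4] at h2
    exact not_isUnit_zero h2
  have hcols : ∀ i, ∀ j ∈ T, τ ∣ (M * V) i j := by
    intro i j hj
    have h1 : ((M * V).map (Ideal.Quotient.mk (maximalIdeal O))) i j = 0 := by
      rw [Matrix.map_mul, hV]
      have := hW _ (hcolT j hj)
      have h2 := congrFun this i
      simpa [Matrix.mul_apply, Matrix.mulVec, dotProduct] using h2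
    have h2 : (M * V) i j ∈ maximalIdeal O := by
      rw [Matrix.map_apply] at h1
      exact Ideal.Quotient.eq_zero_iff_mem.mp h1
    rw [hτ] at h2
    exact Ideal.mem_span_singleton.mp h2
  have hdvd := sm_pow_dvd_det_of_cols τ (M * V) T hcols
  rw [hT, Matrix.det_mul] at hdvd
  exact (hdetV.dvd_mul_right).mp hdvd

end Fermat.Agent.S18
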