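import Mathlib
import Fermat.Agent.S18.SmMatrix

/-!
# S18, block SM: an order with small discriminant is maximal

`sm_surjective_of_discr`: let `O` be a local domain with principal maximal ideal `(τ)`, and let
`Λ ⊆ Λ'` be commutative `O`-algebras, both free of rank `n` as `O`-modules.  Suppose that
`Λ / rad(τ Λ)` is spanned by `r` elements over `O`, and that `τ ^ (a + 1)` does not divide the
discriminant of `Λ`, where `a + r ≤ n`.  Then `Λ = Λ'`.

`sm_isIntegrallyClosed_of_discr`: consequently, if `O` is a DVR and `Λ` is a domain, then `Λ` is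
integrally closed.
-/

set_option autoImplicit false

namespace Fermat.Agent.S18

open Matrix IsLocalRing

attribute [local instance] Ideal.Quotient.field

section Trace

variable {O : Type*} [CommRing O] [IsLocalRing O] (τ : O)
  {S : Type*} [CommRing S] [Algebra O S] {ι : Type*} [Fintype ι] [DecidableEq ι]

/-- The trace of an element which is nilpotent modulo `τ` is divisible by `τ`. -/
theorem sm_trace_dvd_of_pow (hτ : maximalIdeal O = Ideal.span {τ}) (b : Module.Basis ι O S)
    (w : S) (m : ℕ) (z : S) (hw : w ^ m = τ • z) : τ ∣ Algebra.trace O S w := by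
  rw [Algebra.trace_eq_matrix_trace b]
  set M := Algebra.leftMulMatrix b w with hM
  have h1 : M ^ m = τ • Algebra.leftMulMatrix b z := by
    rw [hM, ← map_pow, hw, map_smul]
  have h2 : (M.map (Ideal.Quotient.mk (maximalIdeal O))) ^ m = 0 := by
    have h3 : (M.map (Ideal.Quotient.mk (maximalIdeal O))) ^ m
        = (M ^ m).map (Ideal.Quotient.mk (maximalIdeal O)) := by
      have := map_pow (RingHom.mapMatrix (Ideal.Quotient.mk (maximalIdeal O)) (m := ι)) M m
      simpa [RingHom.mapMatrix_apply] using this.symm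
    rw [h3, h1]
    ext i j
    simp only [Matrix.map_apply, Matrix.smul_apply, smul_eq_mul, map_mul, Matrix.zero_apply]
    have : Ideal.Quotient.mk (maximalIdeal O) τ = 0 := by
      rw [Ideal.Quotient.eq_zero_iff_mem, hτ]
      exact Ideal.mem_span_singleton_self τ
    rw [this, zero_mul]
  have h4 : IsNilpotent (M.map (Ideal.Quotient.mk (maximalIdeal O))).trace :=
    Matrix.isNilpotent_trace_of_isNilpotent ⟨m, h2⟩
  have h5 : (M.map (Ideal.Quotient.mk (maximalIdeal O))).trace = 0 := h4.eq_zero
  have h6 : Ideal.Quotient.mk (maximalIdeal O) M.trace = 0 := by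
    rw [← h5]
    simp [Matrix.trace]
  rw [Ideal.Quotient.eq_zero_iff_mem, hτ] at h6
  exact Ideal.mem_span_singleton.mp h6

end Trace

section Compare

variable {O : Type*} [CommRing O] [IsDomain O]
  {Λ Λ' : Type*} [CommRing Λ] [CommRing Λ'] [Algebra O Λ] [Algebra O Λ']
  {ι : Type*} [Fintype ι] [DecidableEq ι] (b : Module.Basis ι O Λ) (b' : Module.Basis ι O Λ')
  (f : Λ →ₐ[O] Λ')

/-- The matrix of the inclusion of one order into another. -/
noncomputable def sm_inclMatrix : Matrix ι ι O := LinearMap.toMatrix b b' f.toLinearMap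

omit [IsDomain O] in
theorem sm_inclMatrix_mulVec_repr (x : Λ) :
    sm_inclMatrix b b' f *ᵥ (b.repr x) = b'.repr (f x) :=
  LinearMap.toMatrix_mulVec_repr b b' f.toLinearMap x

theorem sm_inclMatrix_det_ne_zero (hf : Function.Injective f) :
    (sm_inclMatrix b b' f).det ≠ 0 := by
  intro h0
  obtain ⟨v, hv, hv0⟩ := Matrix.exists_mulVec_eq_zero_iff.mpr h0
  apply hv
  have h1 := sm_inclMatrix_mulVec_repr b b' f (b.equivFun.symm v)
  have h2 : (b.repr (b.equivFun.symm v) : ι → O) = v := by
    rw [← Module.Basis.equivFun_apply]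
    exact b.equivFun.apply_symm_apply v
  rw [h2, hv0] at h1
  have h3 : f (b.equivFun.symm v) = 0 := by
    apply b'.repr.injective
    apply DFunLike.coe_injective
    rw [← h1]
    simp
  have h4 : b.equivFun.symm v = 0 := hf (by rw [h3, map_zero])
  have := congrArg b.equivFun h4
  rw [LinearEquiv.apply_symm_apply, map_zero] at this
  exact this

omit [IsDomain O] in
theorem sm_inclMatrix_mul_leftMul (x : Λ) :
    sm_inclMatrix b b' f * Algebra.leftMulMatrix b x
      = Algebra.leftMulMatrix b' (f x) * sm_inclMatrix b b' f := by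
  rw [sm_inclMatrix, Algebra.leftMulMatrix_apply, Algebra.leftMulMatrix_apply,
    ← LinearMap.toMatrix_comp, ← LinearMap.toMatrix_comp]
  congr 1
  ext y
  simp

include b b' in
/-- The trace of an element of `Λ` can be computed in `Λ'`. -/
theorem sm_trace_eq (hf : Function.Injective f) (x : Λ) :
    Algebra.trace O Λ' (f x) = Algebra.trace O Λ x := by
  rw [Algebra.trace_eq_matrix_trace b, Algebra.trace_eq_matrix_trace b']
  set P := sm_inclMatrix b b' f with hP
  have hdet := sm_inclMatrix_det_ne_zero b b' f hf
  have h1 := sm_inclMatrix_mul_leftMul b b' f x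
  apply mul_left_cancel₀ hdet
  have h2 : P.det * (Algebra.leftMulMatrix b' (f x)).trace
      = (Algebra.leftMulMatrix b' (f x) * P * P.adjugate).trace := by
    rw [Matrix.mul_assoc, Matrix.mul_adjugate, Matrix.mul_smul, Matrix.mul_one, Matrix.trace_smul,
      smul_eq_mul]
  have h3 : P.det * (Algebra.leftMulMatrix b x).trace
      = (P * Algebra.leftMulMatrix b x * P.adjugate).trace := by
    rw [Matrix.trace_mul_comm, ← Matrix.mul_assoc, Matrix.adjugate_mul, Matrix.smul_mul,
      Matrix.one_mul, Matrix.trace_smul, smul_eq_mul]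
  rw [h2, h3, h1]

/-- The discriminants of the two orders differ by the square of the determinant of the
inclusion. -/
theorem sm_discr_eq (hf : Function.Injective f) :
    Algebra.discr O b = (sm_inclMatrix b b' f).det ^ 2 * Algebra.discr O b' := by
  rw [← Algebra.discr_of_matrix_vecMul]
  have h1 : (b' : ι → Λ') ᵥ* (sm_inclMatrix b b' f).map (algebraMap O Λ') = fun j => f (b j) := by
    ext j
    have := b'.sum_toMatrix_smul_self (fun j => f (b j)) j
    rw [← this]
    simp only [Matrix.vecMul, dotProduct, Matrix.map_apply, sm_inclMatrix,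
      LinearMap.toMatrix_apply, Module.Basis.toMatrix_apply, AlgHom.toLinearMap_apply]
    apply Finset.sum_congr rfl
    intro i _
    rw [Algebra.smul_def, mul_comm]
  rw [h1, Algebra.discr_def, Algebra.discr_def]
  congr 1
  ext i j
  simp only [Algebra.traceMatrix_apply, Algebra.traceForm_apply]
  rw [← map_mul f (b i) (b j), sm_trace_eq b b' f hf]

end Compare

section Red

variable {O : Type*} [CommRing O] [IsLocalRing O]
  {Λ : Type*} [CommRing Λ] [Algebra O Λ]
  {ι : Type*} [Fintype ι] [DecidableEq ι] (b : Module.Basis ι O Λ)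

/-- Reduction of the coordinates of an element modulo the maximal ideal. -/
noncomputable def sm_red (x : Λ) : ι → O ⧸ maximalIdeal O :=
  fun i => Ideal.Quotient.mk (maximalIdeal O) (b.repr x i)

omit [Fintype ι] [DecidableEq ι] in
theorem sm_red_add (x y : Λ) : sm_red b (x + y) = sm_red b x + sm_red b y := by
  ext i
  simp [sm_red]

omit [Fintype ι] [DecidableEq ι] in
theorem sm_red_smul (g : O) (x : Λ) :
    sm_red b (g • x) = Ideal.Quotient.mk (maximalIdeal O) g • sm_red b x := by
  ext i
  simp [sm_red]

omit [Fintype ι] [DecidableEq ι] in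
theorem sm_red_sum {α : Type*} (s : Finset α) (x : α → Λ) :
    sm_red b (∑ i ∈ s, x i) = ∑ i ∈ s, sm_red b (x i) := by
  classical
  induction s using Finset.induction_on with
  | empty =>
    ext i
    simp [sm_red]
  | insert a s ha ih => rw [Finset.sum_insert ha, Finset.sum_insert ha, sm_red_add, ih]

omit [DecidableEq ι] in
theorem sm_red_surjective (v : ι → O ⧸ maximalIdeal O) : ∃ x : Λ, sm_red b x = v := by
  refine ⟨b.equivFun.symm (fun i => Function.surjInv Ideal.Quotient.mk_surjective (v i)), ?_⟩
  ext i
  have h : (b.repr (b.equivFun.symm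
      (fun i => Function.surjInv Ideal.Quotient.mk_surjective (v i))) : ι → O)
      = fun i => Function.surjInv Ideal.Quotient.mk_surjective (v i) := by
    rw [← Module.Basis.equivFun_apply]
    exact b.equivFun.apply_symm_apply _
  simp only [sm_red, h]
  exact Function.surjInv_eq Ideal.Quotient.mk_surjective (v i)

/-- The reduced Gram matrix kills the coordinates of elements which are nilpotent modulo `τ`. -/
theorem sm_gram_red (τ : O) (hτ : maximalIdeal O = Ideal.span {τ}) (z : Λ) (m : ℕ) (z₁ : Λ)
    (hz : z ^ m = τ • z₁) :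
    ((Algebra.traceMatrix O b).map (Ideal.Quotient.mk (maximalIdeal O))) *ᵥ sm_red b z = 0 := by
  ext i
  have h1 : (Algebra.traceMatrix O b *ᵥ (b.repr z)) i = Algebra.trace O Λ (b i * z) := by
    simp only [Matrix.mulVec, dotProduct, Algebra.traceMatrix_apply, Algebra.traceForm_apply]
    conv_rhs => rw [← b.sum_repr z, Finset.mul_sum, map_sum]
    apply Finset.sum_congr rfl
    intro j _
    rw [mul_smul_comm, map_smul, smul_eq_mul, mul_comm]
  have h2 : τ ∣ Algebra.trace O Λ (b i * z) :=
    sm_trace_dvd_of_pow τ hτ b (b i * z) m (b i ^ m * z₁) (by rw [mul_pow, hz, mul_smul_comm])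
  have h3 : ((Algebra.traceMatrix O b).map (Ideal.Quotient.mk (maximalIdeal O)) *ᵥ sm_red b z) i
      = Ideal.Quotient.mk (maximalIdeal O) ((Algebra.traceMatrix O b *ᵥ (b.repr z)) i) := by
    simp [Matrix.mulVec, dotProduct, sm_red, map_sum]
  rw [h3, h1, Pi.zero_apply, Ideal.Quotient.eq_zero_iff_mem, hτ]
  exact Ideal.mem_span_singleton.mpr h2

theorem sm_red_incl {Λ' : Type*} [CommRing Λ'] [Algebra O Λ'] (b' : Module.Basis ι O Λ')
    (f : Λ →ₐ[O] Λ') (x : Λ) :
    ((sm_inclMatrix b b' f).map (Ideal.Quotient.mk (maximalIdeal O))) *ᵥ sm_red b x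
      = sm_red b' (f x) := by
  ext i
  have h := congrFun (sm_inclMatrix_mulVec_repr b b' f x) i
  simp only [sm_red, ← h]
  simp [Matrix.mulVec, dotProduct, map_sum, sm_red]

end Red

section Main

variable {O : Type*} [CommRing O] [IsDomain O] [IsLocalRing O] (τ : O)
  {Λ Λ' : Type*} [CommRing Λ] [CommRing Λ'] [Algebra O Λ] [Algebra O Λ']
  {ι : Type*} [Fintype ι] [DecidableEq ι] (b : Module.Basis ι O Λ) (b' : Module.Basis ι O Λ')
  (f : Λ →ₐ[O] Λ')

omit [IsDomain O] [DecidableEq ι] in
/-- An element whose reduced coordinates vanish is divisible by `τ`. -/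
theorem sm_red_eq_zero (hτ : maximalIdeal O = Ideal.span {τ}) (w : Λ) (hw : sm_red b w = 0) :
    ∃ z : Λ, w = τ • z := by
  classical
  have h1 : ∀ i, ∃ q : O, b.repr w i = τ * q := by
    intro i
    have h2 : Ideal.Quotient.mk (maximalIdeal O) (b.repr w i) = 0 := congrFun hw i
    rw [Ideal.Quotient.eq_zero_iff_mem, hτ] at h2
    exact Ideal.mem_span_singleton.mp h2
  choose q hq using h1
  refine ⟨∑ i, q i • b i, ?_⟩
  apply b.repr.injective
  ext i
  rw [map_smul, map_sum]
  simp only [map_smul, Module.Basis.repr_self, Finsupp.smul_apply, Finsupp.coe_finsetSum,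
    Finset.sum_apply, Finsupp.single_apply, smul_eq_mul, mul_ite, mul_one, mul_zero,
    Finset.sum_ite_eq', Finset.mem_univ, if_true]
  exact hq i

/-- The span of the reduced coordinates of the elements which are nilpotent modulo `τ`. -/
noncomputable def sm_nilSpan : Submodule (O ⧸ maximalIdeal O) (ι → O ⧸ maximalIdeal O) :=
  Submodule.span (O ⧸ maximalIdeal O)
    {v | ∃ (z : Λ) (m : ℕ) (z₁ : Λ), z ^ m = τ • z₁ ∧ v = sm_red b z}

/-- The reduction of the inclusion of `Λ` into `Λ'`, in coordinates. -/
noncomputable def sm_inclRed :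
    (ι → O ⧸ maximalIdeal O) →ₗ[O ⧸ maximalIdeal O] (ι → O ⧸ maximalIdeal O) :=
  Matrix.mulVecLin ((sm_inclMatrix b b' f).map (Ideal.Quotient.mk (maximalIdeal O)))

omit [IsDomain O] in
theorem sm_inclRed_red (x : Λ) : sm_inclRed b b' f (sm_red b x) = sm_red b' (f x) :=
  sm_red_incl b b' f x

omit [IsDomain O] in
theorem sm_inclRed_nilSpan (w : ι → O ⧸ maximalIdeal O) (hw : w ∈ sm_nilSpan τ b) :
    sm_inclRed b b' f w ∈ sm_nilSpan τ b' := by
  have hle : sm_nilSpan τ b ≤ (sm_nilSpan τ b').comap (sm_inclRed b b' f) := by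
    apply Submodule.span_le.mpr
    rintro v ⟨z, m, z₁, hz, rfl⟩
    simp only [SetLike.mem_coe, Submodule.mem_comap]
    rw [sm_inclRed_red]
    apply Submodule.subset_span
    exact ⟨f z, m, f z₁, by rw [← map_pow, hz, map_smul], rfl⟩
  exact hle hw

/-- The core estimate: if the inclusion `Λ → Λ'` is not surjective, then its reduction has a
kernel of dimension `k ≥ 1`, and `τ ^ (2 k + dim W')` divides the discriminant of `Λ`, where `W'`
is the span of the nilpotent elements of `Λ' / τ`. -/
theorem sm_dvd_discr_of_not_surjective (hτ : maximalIdeal O = Ideal.span {τ})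
    (hf : Function.Injective f) (hns : ¬ Function.Surjective f) :
    1 ≤ Module.finrank (O ⧸ maximalIdeal O) (LinearMap.ker (sm_inclRed b b' f)) ∧
    τ ^ (Module.finrank (O ⧸ maximalIdeal O) (LinearMap.ker (sm_inclRed b b' f)) * 2
      + Module.finrank (O ⧸ maximalIdeal O) (sm_nilSpan τ b')) ∣ Algebra.discr O b := by
  classical
  set P := sm_inclMatrix b b' f with hP
  set φ := sm_inclRed b b' f with hφ
  set k := Module.finrank (O ⧸ maximalIdeal O) (LinearMap.ker φ) with hk
  have hkdvd : τ ^ k ∣ P.det :=
    sm_pow_dvd_det τ hτ P (LinearMap.ker φ) (fun w hw => by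
      have := LinearMap.mem_ker.mp hw
      simpa [φ, sm_inclRed] using this)
  have hW' : ∀ w ∈ sm_nilSpan τ b',
      ((Algebra.traceMatrix O b').map (Ideal.Quotient.mk (maximalIdeal O))) *ᵥ w = 0 := by
    intro w hw
    have hle : sm_nilSpan τ b' ≤ LinearMap.ker (Matrix.mulVecLin
        ((Algebra.traceMatrix O b').map (Ideal.Quotient.mk (maximalIdeal O)))) := by
      apply Submodule.span_le.mpr
      rintro v ⟨z, m, z₁, hz, rfl⟩
      simp only [SetLike.mem_coe, LinearMap.mem_ker, Matrix.mulVecLin_apply]
      exact sm_gram_red b' τ hτ z m z₁ hz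
    have := hle hw
    simpa using this
  have hd' : τ ^ Module.finrank (O ⧸ maximalIdeal O) (sm_nilSpan τ b') ∣ Algebra.discr O b' :=
    sm_pow_dvd_det τ hτ (Algebra.traceMatrix O b') (sm_nilSpan τ b') hW'
  have hk1 : 1 ≤ k := by
    by_contra hk0
    have hk0' : Module.finrank (O ⧸ maximalIdeal O) (LinearMap.ker φ) = 0 := by omega
    have hker : LinearMap.ker φ = ⊥ := Submodule.finrank_eq_zero.mp hk0'
    have hdet : (P.map (Ideal.Quotient.mk (maximalIdeal O))).det ≠ 0 := by
      intro h0
      obtain ⟨v, hv, hv0⟩ := Matrix.exists_mulVec_eq_zero_iff.mpr h0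
      apply hv
      have : v ∈ LinearMap.ker φ := LinearMap.mem_ker.mpr hv0
      rw [hker] at this
      exact (Submodule.mem_bot _).mp this
    have hdetunit : IsUnit P.det := by
      by_contra hnu
      have h3 : P.det ∈ maximalIdeal O := (mem_maximalIdeal _).mpr hnu
      apply hdet
      have h4 : Ideal.Quotient.mk (maximalIdeal O) P.det = 0 :=
        Ideal.Quotient.eq_zero_iff_mem.mpr h3
      rw [RingHom.map_det, RingHom.mapMatrix_apply] at h4
      exact h4
    apply hns
    intro y
    refine ⟨b.equivFun.symm (P⁻¹ *ᵥ (b'.repr y)), ?_⟩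
    apply b'.repr.injective
    apply DFunLike.coe_injective
    rw [← sm_inclMatrix_mulVec_repr b b' f, ← Module.Basis.equivFun_apply,
      LinearEquiv.apply_symm_apply, Matrix.mulVec_mulVec, ← hP, Matrix.mul_nonsing_inv P hdetunit,
      Matrix.one_mulVec]
  refine ⟨hk1, ?_⟩
  rw [sm_discr_eq b b' f hf, pow_add, pow_mul]
  exact mul_dvd_mul (pow_dvd_pow_of_dvd hkdvd 2) hd'

include b' in
/-- **An order with small discriminant has no proper overorder** (spanning form).  If
`Λ / rad(τ Λ)` is spanned by `r` elements, and `τ ^ (a + 1)` does not divide the discriminant of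
`Λ`, where `a + r ≤ n`, then every injective homomorphism from `Λ` to an `O`-algebra `Λ'` which is
free of the same rank `n` is surjective. -/
theorem sm_surjective_of_discr (hτ : maximalIdeal O = Ideal.span {τ})
    (hf : Function.Injective f) (a r : ℕ) (c : Fin r → Λ)
    (hc : ∀ x : Λ, ∃ (g : Fin r → O) (m : ℕ) (z : Λ), (x - ∑ i, g i • c i) ^ m = τ • z)
    (har : a + r ≤ Fintype.card ι)
    (hdisc : ¬ τ ^ (a + 1) ∣ Algebra.discr O b) :
    Function.Surjective f := by
  classical
  by_contra hns
  obtain ⟨hk1, hdvd⟩ := sm_dvd_discr_of_not_surjective τ b b' f hτ hf hns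
  set φ := sm_inclRed b b' f with hφ
  set k := Module.finrank (O ⧸ maximalIdeal O) (LinearMap.ker φ) with hk
  set W' := sm_nilSpan τ b' with hW'
  -- the count
  have hcount : Fintype.card ι ≤ Module.finrank (O ⧸ maximalIdeal O) W' + r + k := by
    obtain ⟨C, hC⟩ := Submodule.exists_isCompl (LinearMap.range φ)
    have h1 : Module.finrank (O ⧸ maximalIdeal O) (LinearMap.range φ) + k = Fintype.card ι := by
      have := LinearMap.finrank_range_add_finrank_ker φ
      rw [Module.finrank_fintype_fun_eq_card] at this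
      exact this
    have h2 : Module.finrank (O ⧸ maximalIdeal O) (LinearMap.range φ)
        + Module.finrank (O ⧸ maximalIdeal O) C = Fintype.card ι := by
      have := Submodule.finrank_add_eq_of_isCompl hC
      rw [Module.finrank_fintype_fun_eq_card] at this
      exact this
    let S : Submodule (O ⧸ maximalIdeal O) (ι → O ⧸ maximalIdeal O) :=
      Submodule.span (O ⧸ maximalIdeal O) (Set.range fun i : Fin r => sm_red b' (f (c i)))
    have hS : Module.finrank (O ⧸ maximalIdeal O) S ≤ r := by
      have := finrank_range_le_card (R := O ⧸ maximalIdeal O)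
        (fun i : Fin r => sm_red b' (f (c i)))
      rw [Fintype.card_fin] at this
      exact this
    have h3 : LinearMap.range φ ≤ W' ⊔ S := by
      rintro _ ⟨v, rfl⟩
      obtain ⟨x, rfl⟩ := sm_red_surjective b v
      obtain ⟨g, m, z, hz⟩ := hc x
      have hx : x = (x - ∑ i, g i • c i) + ∑ i, g i • c i := by ring
      rw [hφ, sm_inclRed_red, hx, map_add, sm_red_add]
      apply Submodule.add_mem_sup
      · apply Submodule.subset_span
        exact ⟨f (x - ∑ i, g i • c i), m, f z, by rw [← map_pow, hz, map_smul], rfl⟩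
      · rw [map_sum, sm_red_sum]
        apply Submodule.sum_mem
        intro i _
        rw [map_smul, sm_red_smul]
        apply Submodule.smul_mem
        exact Submodule.subset_span ⟨i, rfl⟩
    have h4 : (⊤ : Submodule (O ⧸ maximalIdeal O) (ι → O ⧸ maximalIdeal O)) ≤ (W' ⊔ S) ⊔ C := by
      rw [← hC.sup_eq_top]
      exact sup_le_sup_right h3 C
    have h5 : Fintype.card ι
        ≤ Module.finrank (O ⧸ maximalIdeal O) ((W' ⊔ S) ⊔ C : Submodule _ _) := by
      rw [top_le_iff.mp h4, finrank_top, Module.finrank_fintype_fun_eq_card]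
    have h6 := Submodule.finrank_add_le_finrank_add_finrank (W' ⊔ S) C
    have h7 := Submodule.finrank_add_le_finrank_add_finrank W' S
    omega
  apply hdisc
  have h1 : τ ^ (a + 1) ∣ τ ^ (k * 2 + Module.finrank (O ⧸ maximalIdeal O) W') :=
    pow_dvd_pow τ (by omega)
  exact h1.trans hdvd

include b' in
/-- **An order with small discriminant has no proper overorder** (independent form).  If `Λ`
contains `r` elements which are nilpotent modulo `τ` and linearly independent modulo `τ`, and
`τ ^ (r + 1)` does not divide the discriminant of `Λ`, then every injective homomorphism from `Λ`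
to an `O`-algebra `Λ'` which is free of the same rank is surjective. -/
theorem sm_surjective_of_discr_indep (hτ : maximalIdeal O = Ideal.span {τ})
    (hf : Function.Injective f) (r : ℕ) (x : Fin r → Λ)
    (hnil : ∀ j, ∃ (m : ℕ) (z : Λ), x j ^ m = τ • z)
    (hind : ∀ cf : Fin r → O, (∃ z : Λ, ∑ j, cf j • x j = τ • z) → ∀ j, τ ∣ cf j)
    (hdisc : ¬ τ ^ (r + 1) ∣ Algebra.discr O b) :
    Function.Surjective f := by
  classical
  by_contra hns
  obtain ⟨hk1, hdvd⟩ := sm_dvd_discr_of_not_surjective τ b b' f hτ hf hns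
  set φ := sm_inclRed b b' f with hφ
  set k := Module.finrank (O ⧸ maximalIdeal O) (LinearMap.ker φ) with hk
  set W' := sm_nilSpan τ b' with hW'
  have hcount : r ≤ Module.finrank (O ⧸ maximalIdeal O) W' + k := by
    let v : Fin r → (ι → O ⧸ maximalIdeal O) := fun j => sm_red b (x j)
    have hv : LinearIndependent (O ⧸ maximalIdeal O) v := by
      rw [Fintype.linearIndependent_iff]
      intro g hg j
      let cf : Fin r → O := fun j => Function.surjInv Ideal.Quotient.mk_surjective (g j)
      have hcf : ∀ j, Ideal.Quotient.mk (maximalIdeal O) (cf j) = g j :=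
        fun j => Function.surjInv_eq Ideal.Quotient.mk_surjective (g j)
      have h1 : sm_red b (∑ j, cf j • x j) = 0 := by
        rw [sm_red_sum, ← hg]
        apply Finset.sum_congr rfl
        intro j _
        rw [sm_red_smul, hcf]
      have h2 := hind cf (sm_red_eq_zero τ b hτ _ h1) j
      rw [← hcf j, Ideal.Quotient.eq_zero_iff_mem, hτ]
      exact Ideal.mem_span_singleton.mpr h2
    let X : Submodule (O ⧸ maximalIdeal O) (ι → O ⧸ maximalIdeal O) :=
      Submodule.span (O ⧸ maximalIdeal O) (Set.range v)
    have hX : Module.finrank (O ⧸ maximalIdeal O) X = r := by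
      have := finrank_span_eq_card hv
      rw [Fintype.card_fin] at this
      exact this
    let ψ : X →ₗ[O ⧸ maximalIdeal O] (ι → O ⧸ maximalIdeal O) := φ.domRestrict X
    have h1 := LinearMap.finrank_range_add_finrank_ker ψ
    have h2 : LinearMap.range ψ ≤ W' := by
      rintro _ ⟨y, rfl⟩
      have hle : X ≤ W'.comap φ := by
        apply Submodule.span_le.mpr
        rintro _ ⟨j, rfl⟩
        simp only [SetLike.mem_coe, Submodule.mem_comap]
        rw [hφ, sm_inclRed_red]
        apply Submodule.subset_span
        obtain ⟨m, z, hz⟩ := hnil j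
        exact ⟨f (x j), m, f z, by rw [← map_pow, hz, map_smul], rfl⟩
      exact hle y.2
    have h3 : Module.finrank (O ⧸ maximalIdeal O) (LinearMap.range ψ)
        ≤ Module.finrank (O ⧸ maximalIdeal O) W' := Submodule.finrank_mono h2
    have h4 : (LinearMap.ker ψ).map X.subtype ≤ LinearMap.ker φ := by
      rintro _ ⟨y, hy, rfl⟩
      exact LinearMap.mem_ker.mpr (LinearMap.mem_ker.mp hy)
    have h5 : Module.finrank (O ⧸ maximalIdeal O) (LinearMap.ker ψ) ≤ k := by
      rw [← Submodule.finrank_map_subtype_eq X (LinearMap.ker ψ)]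
      exact Submodule.finrank_mono h4
    omega
  apply hdisc
  have h1 : τ ^ (r + 1) ∣ τ ^ (k * 2 + Module.finrank (O ⧸ maximalIdeal O) W') :=
    pow_dvd_pow τ (by omega)
  exact h1.trans hdvd

end Main

section Closed

variable {O : Type*} [CommRing O] [IsDomain O] [IsDiscreteValuationRing O]
  {Λ : Type*} [CommRing Λ] [IsDomain Λ] [Algebra O Λ]
  {ι : Type*} [Fintype ι] [DecidableEq ι]

omit [DecidableEq ι] in
/-- If `Λ` is a domain, free of finite rank over the DVR `O`, and `Λ` has no proper overorder
inside its fraction field, then `Λ` is integrally closed. -/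
theorem sm_isIntegrallyClosed_of_forall_surjective (b : Module.Basis ι O Λ)
    (H : ∀ (Λ' : Subalgebra Λ (FractionRing Λ)) (_ : Module.Basis ι O Λ'),
      Function.Surjective (IsScalarTower.toAlgHom O Λ Λ')) :
    IsIntegrallyClosed Λ := by
  classical
  rw [isIntegrallyClosed_iff (FractionRing Λ)]
  intro x hx
  let Λ' : Subalgebra Λ (FractionRing Λ) := Algebra.adjoin Λ {x}
  have hfinΛ : Module.Finite Λ Λ' := Module.Finite.of_fg hx.fg_adjoin_singleton
  have hfinO : Module.Finite O Λ := Module.Finite.of_basis b
  have hfin : Module.Finite O Λ' := Module.Finite.trans Λ Λ'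
  have hfreeΛ : Module.Free O Λ := Module.Free.of_basis b
  have hOΛ : Function.Injective (algebraMap O Λ) := FaithfulSMul.algebraMap_injective O Λ
  have hΛL : Function.Injective (algebraMap Λ (FractionRing Λ)) :=
    IsFractionRing.injective Λ (FractionRing Λ)
  have hOL : Function.Injective (algebraMap O (FractionRing Λ)) := by
    rw [IsScalarTower.algebraMap_eq O Λ (FractionRing Λ)]
    exact hΛL.comp hOΛ
  have htf : Module.IsTorsionFree O Λ' := by
    apply Module.IsTorsionFree.of_smul_eq_zero
    intro g m hgm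
    have h1 : algebraMap O (FractionRing Λ) g * (m : FractionRing Λ) = 0 := by
      have := congrArg Subtype.val hgm
      rw [← Algebra.smul_def]
      exact this
    rcases mul_eq_zero.mp h1 with h | h
    · left
      exact hOL (by rw [h, map_zero])
    · right
      exact Subtype.ext h
  have hfree : Module.Free O Λ' := Module.free_of_finite_type_torsion_free'
  let f : Λ →ₐ[O] Λ' := IsScalarTower.toAlgHom O Λ Λ'
  have hfval : ∀ y : Λ, ((f y : Λ') : FractionRing Λ) = algebraMap Λ (FractionRing Λ) y :=
    fun y => rfl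
  have hf : Function.Injective f := by
    intro y₁ y₂ h
    apply hΛL
    rw [← hfval, ← hfval, h]
  have hrank : Module.finrank O Λ' = Fintype.card ι := by
    apply le_antisymm
    · -- a common denominator
      obtain ⟨s, hs⟩ := hx.fg_adjoin_singleton
      obtain ⟨d, hd⟩ := IsLocalization.exist_integer_multiples_of_finset (nonZeroDivisors Λ) s
      have hd0 : algebraMap Λ (FractionRing Λ) (d : Λ) ≠ 0 := by
        intro h0
        have := hΛL (h0.trans (map_zero _).symm)
        exact nonZeroDivisors.coe_ne_zero d this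
      have hint : ∀ z : Λ', ∃ y : Λ, algebraMap Λ (FractionRing Λ) y
          = algebraMap Λ (FractionRing Λ) (d : Λ) * (z : FractionRing Λ) := by
        intro z
        have hz : (z : FractionRing Λ) ∈ Submodule.span Λ (s : Set (FractionRing Λ)) := by
          rw [hs]
          exact z.2
        refine Submodule.span_induction (p := fun z _ => ∃ y : Λ,
          algebraMap Λ (FractionRing Λ) y = algebraMap Λ (FractionRing Λ) (d : Λ) * z)
          ?_ ?_ ?_ ?_ hz
        · intro a ha
          obtain ⟨y, hy⟩ := hd a ha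
          exact ⟨y, by rw [hy, Algebra.smul_def]⟩
        · exact ⟨0, by simp⟩
        · rintro a₁ a₂ _ _ ⟨y₁, h₁⟩ ⟨y₂, h₂⟩
          exact ⟨y₁ + y₂, by rw [map_add, h₁, h₂, mul_add]⟩
        · rintro t a _ ⟨y, h⟩
          exact ⟨t * y, by rw [map_mul, h, Algebra.smul_def]; ring⟩
      let h : Λ' →ₗ[O] FractionRing Λ :=
        { toFun := fun z => algebraMap Λ (FractionRing Λ) (d : Λ) * (z : FractionRing Λ)
          map_add' := fun z₁ z₂ => by
            rw [show ((z₁ + z₂ : Λ') : FractionRing Λ) = (z₁ : FractionRing Λ) + z₂ from rfl,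
              mul_add]
          map_smul' := fun g z => by
            rw [show ((g • z : Λ') : FractionRing Λ) = g • (z : FractionRing Λ) from rfl,
              mul_smul_comm, RingHom.id_apply] }
      have hinj : Function.Injective h := by
        intro z₁ z₂ hz
        apply Subtype.ext
        exact mul_left_cancel₀ hd0 hz
      let f' : Λ →ₗ[O] FractionRing Λ :=
        (IsScalarTower.toAlgHom O Λ (FractionRing Λ)).toLinearMap
      have hf' : Function.Injective f' := hΛL
      have hle : LinearMap.range h ≤ LinearMap.range f' := by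
        rintro _ ⟨z, rfl⟩
        obtain ⟨y, hy⟩ := hint z
        exact ⟨y, hy⟩
      have h1 := LinearMap.finrank_range_of_inj hinj
      have h2 := LinearMap.finrank_range_of_inj hf'
      have h3 := Submodule.finrank_mono hle
      rw [h1, h2, Module.finrank_eq_card_basis b] at h3
      exact h3
    · rw [← Module.finrank_eq_card_basis b]
      exact LinearMap.finrank_le_finrank_of_injective (f := f.toLinearMap) hf
  let b0 := Module.Free.chooseBasis O Λ'
  have hcard : Fintype.card (Module.Free.ChooseBasisIndex O Λ') = Fintype.card ι := by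
    rw [← Module.finrank_eq_card_chooseBasisIndex, hrank]
  let b' : Module.Basis ι O Λ' := b0.reindex (Fintype.equivOfCardEq hcard)
  obtain ⟨y, hy⟩ := H Λ' b' ⟨x, Algebra.self_mem_adjoin_singleton Λ x⟩
  refine ⟨y, ?_⟩
  rw [← hfval, hy]

/-- **An order with small discriminant is integrally closed** (spanning form).  Let `O` be a DVR
with uniformizer `τ` and `Λ` a domain which is a free `O`-module of rank `n`.  If `Λ / rad(τ Λ)` is
spanned by `r` elements, and `τ ^ (a + 1)` does not divide the discriminant of `Λ`, where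
`a + r ≤ n`, then `Λ` is integrally closed. -/
theorem sm_isIntegrallyClosed_of_discr (τ : O) (hτ : Irreducible τ) (b : Module.Basis ι O Λ)
    (a r : ℕ) (c : Fin r → Λ)
    (hc : ∀ x : Λ, ∃ (g : Fin r → O) (m : ℕ) (z : Λ), (x - ∑ i, g i • c i) ^ m = τ • z)
    (har : a + r ≤ Fintype.card ι)
    (hdisc : ¬ τ ^ (a + 1) ∣ Algebra.discr O b) :
    IsIntegrallyClosed Λ := by
  have hτmax : maximalIdeal O = Ideal.span {τ} :=
    (IsDiscreteValuationRing.irreducible_iff_uniformizer τ).mp hτ
  have hΛL : Function.Injective (algebraMap Λ (FractionRing Λ)) :=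
    IsFractionRing.injective Λ (FractionRing Λ)
  refine sm_isIntegrallyClosed_of_forall_surjective b (fun Λ' b' => ?_)
  refine sm_surjective_of_discr τ b b' (IsScalarTower.toAlgHom O Λ Λ') hτmax ?_ a r c hc har hdisc
  intro y₁ y₂ h
  exact hΛL (congrArg Subtype.val h)

/-- **An order with small discriminant is integrally closed** (independent form, `sm_charl`).
Let `O` be a DVR with uniformizer `τ` and `Λ` a domain which is a free `O`-module of finite rank.
If `Λ` contains `r` elements which are nilpotent modulo `τ` and linearly independent modulo `τ`,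
and `τ ^ (r + 1)` does not divide the discriminant of `Λ`, then `Λ` is integrally closed. -/
theorem sm_charl {O : Type*} [CommRing O] [IsDomain O] [IsDiscreteValuationRing O] {τ : O}
    (hτ : Irreducible τ) {Λ : Type*} [CommRing Λ] [IsDomain Λ] [Algebra O Λ] [Module.Finite O Λ]
    {n r : ℕ} (β : Module.Basis (Fin n) O Λ) (hd0 : Algebra.discr O β ≠ 0)
    (hd : ¬ τ ^ (r + 1) ∣ Algebra.discr O β) (x : Fin r → Λ)
    (hnil : ∀ j, ∃ N : ℕ, algebraMap O Λ τ ∣ x j ^ N)
    (hind : ∀ cf : Fin r → O, algebraMap O Λ τ ∣ ∑ j, cf j • x j → ∀ j, τ ∣ cf j) :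
    IsIntegrallyClosed Λ := by
  have _ := hd0
  have hτmax : maximalIdeal O = Ideal.span {τ} :=
    (IsDiscreteValuationRing.irreducible_iff_uniformizer τ).mp hτ
  have hΛL : Function.Injective (algebraMap Λ (FractionRing Λ)) :=
    IsFractionRing.injective Λ (FractionRing Λ)
  refine sm_isIntegrallyClosed_of_forall_surjective β (fun Λ' b' => ?_)
  refine sm_surjective_of_discr_indep τ β b' (IsScalarTower.toAlgHom O Λ Λ') hτmax ?_ r x ?_ ?_ hd
  · intro y₁ y₂ h
    exact hΛL (congrArg Subtype.val h)
  · intro j
    obtain ⟨N, z, hz⟩ := hnil j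
    exact ⟨N, z, by rw [hz, Algebra.smul_def]⟩
  · rintro cf ⟨z, hz⟩
    exact hind cf ⟨z, by rw [hz, Algebra.smul_def]⟩

end Closed

end Fermat.Agent.S18
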