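import Mathlib
import Fermat.Agent.S18.SmOrder
import Fermat.Agent.S18.SmLocal

/-!
# S18, block SM: local generators from a discriminant bound (abstract form of T9)

`sm_local_gen_of_pid`: `R̄` a PID, `Λ` a domain which is a free `R̄`-module with basis `β`,
`(γ)` a nonzero maximal ideal of `R̄`, `Λ / rad(γ Λ)` spanned by `ρ` elements, and `γ ^ (n - ρ + 1)`
not dividing the discriminant of `β`.  Then every prime `P` of `Λ` over `(γ)` is locally
principal: `∃ s ∈ P, ∀ x ∈ P, ∃ u ∉ P, u * x ∈ (s)`.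
-/

set_option autoImplicit false

namespace Fermat.Agent.S18

/-- Version of `sm_local_gen_of_pid` with arbitrary models `O`, `T` of the localisations. -/
theorem sm_local_gen_of_pid_aux {Rb : Type*} [CommRing Rb] [IsDomain Rb] [IsPrincipalIdealRing Rb]
    {Λ : Type*} [CommRing Λ] [IsDomain Λ] [Algebra Rb Λ] {n : ℕ} (β : Module.Basis (Fin n) Rb Λ)
    (γ : Rb) (hγ0 : γ ≠ 0) [hnbp : (Ideal.span {γ} : Ideal Rb).IsPrime]
    (O : Type*) [CommRing O] [Algebra Rb O] [IsLocalization.AtPrime O (Ideal.span {γ} : Ideal Rb)]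
    (T : Type*) [CommRing T] [Algebra Λ T] [Algebra O T] [Algebra Rb T] [IsScalarTower Rb O T]
    [IsScalarTower Rb Λ T]
    [IsLocalization (Algebra.algebraMapSubmonoid Λ (Ideal.span {γ} : Ideal Rb).primeCompl) T]
    (ρ : ℕ) (hρ : ρ ≤ n) (hdisc : ¬ γ ^ (n - ρ + 1) ∣ Algebra.discr Rb β)
    (c : Fin ρ → Λ)
    (hc : ∀ x : Λ, ∃ (a : Fin ρ → Rb) (N : ℕ), algebraMap Rb Λ γ ∣ (x - ∑ j, a j • c j) ^ N)
    (P : Ideal Λ) [hPp : P.IsPrime] (hP : P.comap (algebraMap Rb Λ) = Ideal.span {γ}) :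
    ∃ s ∈ P, ∀ x ∈ P, ∃ u, u ∉ P ∧ u * x ∈ Ideal.span {s} := by
  classical
  have hnb0 : (Ideal.span {γ} : Ideal Rb) ≠ ⊥ := by
    rw [Ne, Ideal.span_singleton_eq_bot]
    exact hγ0
  have hγp : Prime γ := (Ideal.span_singleton_prime hγ0).mp hnbp
  have hdomO : IsDomain O :=
    IsLocalization.isDomain_of_le_nonZeroDivisors O
      (Ideal.primeCompl_le_nonZeroDivisors (Ideal.span {γ} : Ideal Rb))
  have hDVR : IsDiscreteValuationRing O :=
    IsLocalization.AtPrime.isDiscreteValuationRing_of_dedekind_domain Rb hnb0 O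
  have hfree : Module.Free Rb Λ := Module.Free.of_basis β
  have hinj : Function.Injective (algebraMap Rb Λ) := FaithfulSMul.algebraMap_injective Rb Λ
  have hM : Algebra.algebraMapSubmonoid Λ (Ideal.span {γ} : Ideal Rb).primeCompl
      ≤ nonZeroDivisors Λ := by
    rintro x ⟨r, hr, rfl⟩
    apply mem_nonZeroDivisors_of_ne_zero
    rw [Ne, map_eq_zero_iff _ hinj]
    rintro rfl
    exact hr (Ideal.zero_mem _)
  have hdomT : IsDomain T := IsLocalization.isDomain_of_le_nonZeroDivisors T hM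
  let βT : Module.Basis (Fin n) O T :=
    β.localizationLocalization O (Ideal.span {γ} : Ideal Rb).primeCompl T
  have hdiscT : Algebra.discr O βT = algebraMap Rb O (Algebra.discr Rb β) :=
    Algebra.discr_localizationLocalization Rb (Ideal.span {γ} : Ideal Rb).primeCompl T β
  have hτmax : IsLocalRing.maximalIdeal O = Ideal.span {algebraMap Rb O γ} := by
    rw [← IsLocalization.AtPrime.map_eq_maximalIdeal (Ideal.span {γ} : Ideal Rb) O,
      Ideal.map_span, Set.image_singleton]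
  have hτ : Irreducible (algebraMap Rb O γ) :=
    (IsDiscreteValuationRing.irreducible_iff_uniformizer _).mpr hτmax
  have hcompat : ∀ r : Rb,
      algebraMap O T (algebraMap Rb O r) = algebraMap Λ T (algebraMap Rb Λ r) := by
    intro r
    rw [← IsScalarTower.algebraMap_apply Rb O T, ← IsScalarTower.algebraMap_apply Rb Λ T]
  have hIC : IsIntegrallyClosed T := by
    refine sm_isIntegrallyClosed_of_discr (algebraMap Rb O γ) hτ βT (n - ρ) ρ
      (fun j => algebraMap Λ T (c j)) ?_ ?_ ?_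
    · -- the spanning family
      intro x
      obtain ⟨⟨l, s⟩, hx⟩ := IsLocalization.surj
        (Algebra.algebraMapSubmonoid Λ (Ideal.span {γ} : Ideal Rb).primeCompl) x
      obtain ⟨r, hr, hrs⟩ := s.2
      obtain ⟨a, N, w, hw⟩ := hc l
      have hunit : IsUnit (algebraMap Rb O r) :=
        IsLocalization.map_units O (⟨r, hr⟩ : (Ideal.span {γ} : Ideal Rb).primeCompl)
      obtain ⟨ε, hε⟩ := hunit.exists_left_inv
      refine ⟨fun j => ε * algebraMap Rb O (a j), N, ε ^ N • algebraMap Λ T w, ?_⟩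
      have h1 : x = algebraMap O T ε * algebraMap Λ T l := by
        have h0 : algebraMap O T ε * (x * algebraMap Λ T (algebraMap Rb Λ r)) = x := by
          rw [← hcompat, mul_comm x, ← mul_assoc, ← map_mul, hε, map_one, one_mul]
        rw [← hx, ← hrs, h0]
      have h2 : x - ∑ j, (ε * algebraMap Rb O (a j)) • algebraMap Λ T (c j)
          = algebraMap O T ε * algebraMap Λ T (l - ∑ j, a j • c j) := by
        rw [h1, map_sub, mul_sub, map_sum, Finset.mul_sum]
        congr 1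
        apply Finset.sum_congr rfl
        intro j _
        rw [Algebra.smul_def, map_mul, hcompat, Algebra.smul_def, map_mul, mul_assoc]
      rw [h2, mul_pow, ← map_pow (algebraMap Λ T), hw, map_mul, ← hcompat, Algebra.smul_def,
        Algebra.smul_def, map_pow]
      ring
    · rw [Fintype.card_fin]
      omega
    · -- the discriminant
      rw [hdiscT]
      rintro ⟨q, hq⟩
      obtain ⟨⟨q₀, s⟩, hqs⟩ := IsLocalization.surj (Ideal.span {γ} : Ideal Rb).primeCompl q
      have h1 : algebraMap Rb O (Algebra.discr Rb β * s)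
          = algebraMap Rb O (γ ^ (n - ρ + 1) * q₀) := by
        rw [map_mul, hq, map_mul, map_pow, ← hqs]
        ring
      have h2 : Algebra.discr Rb β * s = γ ^ (n - ρ + 1) * q₀ :=
        IsLocalization.injective O
          (Ideal.primeCompl_le_nonZeroDivisors (Ideal.span {γ} : Ideal Rb)) h1
      have h3 : ¬ γ ∣ (s : Rb) := fun hdvd => s.2 (Ideal.mem_span_singleton.mpr hdvd)
      exact hdisc (hγp.pow_dvd_of_dvd_mul_right _ h3 ⟨q₀, h2⟩)
  have hfinT : Module.Finite O T := Module.Finite.of_basis βT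
  have hDed : IsDedekindDomain T := sm_isDedekindDomain_of_finite O T
  -- the prime of `T` over `P`
  have hdisj : Disjoint
      (Algebra.algebraMapSubmonoid Λ (Ideal.span {γ} : Ideal Rb).primeCompl : Set Λ)
      (P : Set Λ) := by
    rw [Set.disjoint_left]
    rintro x ⟨r, hr, rfl⟩ hxP
    apply hr
    rw [SetLike.mem_coe, ← hP]
    exact hxP
  have hPT : (Ideal.map (algebraMap Λ T) P).IsPrime :=
    IsLocalization.isPrime_of_isPrime_disjoint
      (Algebra.algebraMapSubmonoid Λ (Ideal.span {γ} : Ideal Rb).primeCompl) T P hPp hdisj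
  have hPTc : (Ideal.map (algebraMap Λ T) P).comap (algebraMap Λ T) = P :=
    IsLocalization.under_map_of_isPrime_disjoint
      (Algebra.algebraMapSubmonoid Λ (Ideal.span {γ} : Ideal Rb).primeCompl) T hPp hdisj
  have hfrac : ∀ t : T, ∃ u y : Λ, u ∉ P ∧ algebraMap Λ T u * t = algebraMap Λ T y := by
    intro t
    obtain ⟨⟨l, s⟩, hx⟩ := IsLocalization.surj
      (Algebra.algebraMapSubmonoid Λ (Ideal.span {γ} : Ideal Rb).primeCompl) t
    refine ⟨s, l, ?_, ?_⟩
    · exact fun h => Set.disjoint_left.mp hdisj s.2 h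
    · rw [← hx, mul_comm]
  have hker : ∀ x : Λ, algebraMap Λ T x = 0 → ∃ u : Λ, u ∉ P ∧ u * x ∈ Ideal.span {(0 : Λ)} := by
    intro x hx
    have h0 : x = 0 := by
      apply IsLocalization.injective T hM
      rw [hx, map_zero]
    refine ⟨1, ?_, ?_⟩
    · exact fun h => hPp.ne_top ((Ideal.eq_top_iff_one P).mpr h)
    · rw [h0, mul_zero]
      exact Ideal.mem_span_singleton_self 0
  obtain ⟨s, hs, hs'⟩ := sm_local_gen_of_dedekind P 0 (algebraMap Λ T) hfrac hker
    (Ideal.map (algebraMap Λ T) P) hPTc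
  refine ⟨s, hs, fun x hx => ?_⟩
  obtain ⟨u, hu, hux⟩ := hs' x hx
  refine ⟨u, hu, ?_⟩
  obtain ⟨p, q, hpq⟩ := Ideal.mem_span_pair.mp hux
  rw [Ideal.mem_span_singleton']
  exact ⟨q, by rw [← hpq]; ring⟩

/-- **Local generators from a discriminant bound.** -/
theorem sm_local_gen_of_pid {Rb : Type*} [CommRing Rb] [IsDomain Rb] [IsPrincipalIdealRing Rb]
    {Λ : Type*} [CommRing Λ] [IsDomain Λ] [Algebra Rb Λ] {n : ℕ} (β : Module.Basis (Fin n) Rb Λ)
    (γ : Rb) (hγ : (Ideal.span {γ} : Ideal Rb).IsPrime) (hγ0 : γ ≠ 0)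
    (ρ : ℕ) (hρ : ρ ≤ n) (hdisc : ¬ γ ^ (n - ρ + 1) ∣ Algebra.discr Rb β)
    (c : Fin ρ → Λ)
    (hc : ∀ x : Λ, ∃ (a : Fin ρ → Rb) (N : ℕ), algebraMap Rb Λ γ ∣ (x - ∑ j, a j • c j) ^ N)
    (P : Ideal Λ) [hPp : P.IsPrime] (hP : P.comap (algebraMap Rb Λ) = Ideal.span {γ}) :
    ∃ s ∈ P, ∀ x ∈ P, ∃ u, u ∉ P ∧ u * x ∈ Ideal.span {s} :=
  sm_local_gen_of_pid_aux β γ hγ0 (Localization.AtPrime (Ideal.span {γ} : Ideal Rb))
    (Localization (Algebra.algebraMapSubmonoid Λ (Ideal.span {γ} : Ideal Rb).primeCompl))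
    ρ hρ hdisc c hc P hP

end Fermat.Agent.S18
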