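import Mathlib

/-!
# S18, block SM: the special fibre `Λ = B/π` as an algebra over `R̄ = A₀[X]/π ≅ k₀[X]`

`A₀` is a local ring.  We use the ideal `smP A₀ = (maximalIdeal A₀).map C` of `A₀[X]`
(`= (C π)` when `π` generates the maximal ideal), the quotient `R̄ = A₀[X] ⧸ smP A₀` (a PID,
isomorphic to `k₀[X]`), and for an `A₀[X]`-algebra `B` the quotient
`Λ = B ⧸ (smP A₀).map (algebraMap A₀[X] B)`, which is an `R̄`-algebra by Mathlib's instance
`Ideal.Quotient.algebraQuotientMapQuotient`.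
-/

set_option autoImplicit false
set_option linter.unusedSectionVars false

namespace Fermat.Agent.S18

open Polynomial

section Lam

variable (A₀ : Type*) [CommRing A₀] [IsLocalRing A₀]

/-- The ideal `π A₀[X]` of `A₀[X]` (extension of the maximal ideal of `A₀`). -/
noncomputable abbrev smP : Ideal A₀[X] := (IsLocalRing.maximalIdeal A₀).map (C : A₀ →+* A₀[X])

/-- `A₀[X]/π ≃ k₀[X]`. -/
noncomputable def smRbarEquiv :
    (A₀ ⧸ IsLocalRing.maximalIdeal A₀)[X] ≃+* A₀[X] ⧸ smP A₀ :=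
  Ideal.polynomialQuotientEquivQuotientPolynomial (IsLocalRing.maximalIdeal A₀)

instance sm_rbar_isDomain : IsDomain (A₀[X] ⧸ smP A₀) := by
  let _ : Field (A₀ ⧸ IsLocalRing.maximalIdeal A₀) := Ideal.Quotient.field _
  exact (smRbarEquiv A₀).symm.toMulEquiv.isDomain _

instance sm_rbar_isPrincipalIdealRing : IsPrincipalIdealRing (A₀[X] ⧸ smP A₀) := by
  let _ : Field (A₀ ⧸ IsLocalRing.maximalIdeal A₀) := Ideal.Quotient.field _
  exact IsPrincipalIdealRing.of_surjective (smRbarEquiv A₀).toRingHom (smRbarEquiv A₀).surjective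

variable {A₀}

theorem sm_P_eq_span {π : A₀} (hπ : IsLocalRing.maximalIdeal A₀ = Ideal.span {π}) :
    smP A₀ = Ideal.span {C π} := by
  rw [smP, hπ, Ideal.map_span, Set.image_singleton]

theorem sm_mem_P_iff {π : A₀} (hπ : IsLocalRing.maximalIdeal A₀ = Ideal.span {π}) (r : A₀[X]) :
    r ∈ smP A₀ ↔ C π ∣ r := by
  rw [sm_P_eq_span hπ, Ideal.mem_span_singleton]

theorem sm_P_map_eq_span {π : A₀} (hπ : IsLocalRing.maximalIdeal A₀ = Ideal.span {π})
    (B : Type*) [CommRing B] [Algebra A₀[X] B] :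
    (smP A₀).map (algebraMap A₀[X] B) = Ideal.span {algebraMap A₀[X] B (C π)} := by
  rw [sm_P_eq_span hπ, Ideal.map_span, Set.image_singleton]

theorem sm_mem_P_map_iff {π : A₀} (hπ : IsLocalRing.maximalIdeal A₀ = Ideal.span {π})
    {B : Type*} [CommRing B] [Algebra A₀[X] B] (x : B) :
    x ∈ (smP A₀).map (algebraMap A₀[X] B) ↔ algebraMap A₀[X] B (C π) ∣ x := by
  rw [sm_P_map_eq_span hπ, Ideal.mem_span_singleton]

/-- Compatibility of the two quotient maps. -/
theorem sm_mk_algebraMap {B : Type*} [CommRing B] [Algebra A₀[X] B] (r : A₀[X]) :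
    Ideal.Quotient.mk ((smP A₀).map (algebraMap A₀[X] B)) (algebraMap A₀[X] B r) =
      algebraMap (A₀[X] ⧸ smP A₀) (B ⧸ (smP A₀).map (algebraMap A₀[X] B))
        (Ideal.Quotient.mk (smP A₀) r) := rfl

end Lam

end Fermat.Agent.S18
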