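import Fermat.Agent.S18.SmFrame
import Fermat.Agent.S18.SmLam

/-!
# S18, block SM, piece T2: frames exist and reduce to bases of the special fibre

`A₀` a DVR with uniformizer `π`, `B` a finite `A₀[X]`-algebra which is a domain.

* `sm_dvd_of_map_dvd`: `πB ∩ A₀[X] = π A₀[X]` (integrality).
* `sm_frame_exists` (T2a): if `π` is prime in `B`, a frame exists
  (`Λ = B/π` is finitely generated and torsion-free over the PID `R̄ = A₀[X]/π`, hence free;
  lift a basis; Nakayama gives `c`).
* `sm_lam_basis` (T2b): a frame reduces to a basis of `Λ` over `R̄`.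
* `sm_lam_discr` (T2c): the discriminant of that basis is the reduction of `d`.
-/

set_option autoImplicit false
set_option linter.unusedSectionVars false

namespace Fermat.Agent.S18

open Polynomial

section FrameDVR

variable {A₀ : Type*} [CommRing A₀] [IsDomain A₀] [IsDiscreteValuationRing A₀]
  {B : Type*} [CommRing B] [IsDomain B] [Algebra A₀[X] B] [Module.Finite A₀[X] B]
  {π : A₀} {n : ℕ} {e : Fin n → B} {c : A₀[X]}

/-- `πB ∩ A₀[X] = π A₀[X]`: if `π` divides the image of `r` in `B` then `π ∣ r` (integrality of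
`B` over `A₀[X]`). -/
theorem sm_dvd_of_map_dvd (hinj : Function.Injective (algebraMap A₀[X] B)) (hπ : Irreducible π)
    (r : A₀[X]) (h : algebraMap A₀[X] B (C π) ∣ algebraMap A₀[X] B r) : C π ∣ r := by
  obtain ⟨b, hb⟩ := h
  obtain ⟨P, hPm, hP⟩ : IsIntegral A₀[X] b := Algebra.IsIntegral.isIntegral b
  have h1 : eval₂ (algebraMap A₀[X] B) (algebraMap A₀[X] B (C π) * b) (scaleRoots P (C π)) = 0 :=
    scaleRoots_eval₂_eq_zero (algebraMap A₀[X] B) hP
  rw [← hb, eval₂_at_apply] at h1
  have h2 : (scaleRoots P (C π)).eval r = 0 := hinj (by rw [h1, map_zero])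
  rw [eval_eq_sum_range, natDegree_scaleRoots, Finset.sum_range_succ, coeff_scaleRoots,
    Nat.sub_self, pow_zero, mul_one, coeff_natDegree, hPm.leadingCoeff, one_mul] at h2
  have h3 : C π ∣ r ^ P.natDegree := by
    have h4 : r ^ P.natDegree = -∑ x ∈ Finset.range P.natDegree,
        (scaleRoots P (C π)).coeff x * r ^ x := by
      rw [eq_neg_iff_add_eq_zero, add_comm]; exact h2
    rw [h4, dvd_neg]
    refine Finset.dvd_sum fun i hi => ?_
    rw [coeff_scaleRoots]
    have hi' : i < P.natDegree := Finset.mem_range.mp hi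
    have : C π ∣ C π ^ (P.natDegree - i) := dvd_pow_self _ (Nat.sub_ne_zero_of_lt hi')
    exact Dvd.dvd.mul_right (Dvd.dvd.mul_left this _) _
  exact (sm_C_pi_prime hπ).dvd_of_dvd_pow h3

/-- The reduction of `c` is `1`. -/
theorem SmFrame.mk_c (h : SmFrame π e c) (hπ : Irreducible π) :
    Ideal.Quotient.mk (smP A₀) c = 1 := by
  have h1 := (sm_mem_P_iff hπ.maximalIdeal_eq (c - 1)).mpr h.hc
  rw [← Ideal.Quotient.eq_zero_iff_mem, map_sub, map_one, sub_eq_zero] at h1
  exact h1

/-- Reduction of a linear combination. -/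
theorem sm_mk_sum_smul (r : Fin n → A₀[X]) (e : Fin n → B) :
    Ideal.Quotient.mk ((smP A₀).map (algebraMap A₀[X] B)) (∑ i, r i • e i) =
      ∑ i, Ideal.Quotient.mk (smP A₀) (r i) •
        Ideal.Quotient.mk ((smP A₀).map (algebraMap A₀[X] B)) (e i) := by
  rw [map_sum]
  refine Finset.sum_congr rfl fun i _ => ?_
  rw [Algebra.smul_def, Algebra.smul_def, map_mul, sm_mk_algebraMap]

/-- T2a: existence of a frame. -/
theorem sm_frame_exists
    (hinj : Function.Injective (algebraMap A₀[X] B)) (π : A₀) (hπ : Irreducible π)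
    (hprime : Prime (algebraMap A₀[X] B (C π))) :
    ∃ (n : ℕ) (e : Fin n → B) (c : A₀[X]), SmFrame π e c := by
  classical
  have hmax : IsLocalRing.maximalIdeal A₀ = Ideal.span {π} := hπ.maximalIdeal_eq
  -- `Λ` is torsion-free over `R̄`
  have htf : Module.IsTorsionFree (A₀[X] ⧸ smP A₀)
      (B ⧸ (smP A₀).map (algebraMap A₀[X] B)) := by
    refine Module.IsTorsionFree.of_smul_eq_zero ?_
    intro r m hrm
    obtain ⟨r, rfl⟩ := Ideal.Quotient.mk_surjective r
    obtain ⟨x, rfl⟩ := Ideal.Quotient.mk_surjective m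
    have h1 : (Ideal.Quotient.mk (smP A₀) r) •
        (Ideal.Quotient.mk ((smP A₀).map (algebraMap A₀[X] B)) x)
        = Ideal.Quotient.mk _ (algebraMap A₀[X] B r * x) := by
      rw [Algebra.smul_def, ← sm_mk_algebraMap, ← map_mul]
    rw [h1, Ideal.Quotient.eq_zero_iff_mem, sm_mem_P_map_iff hmax] at hrm
    rcases hprime.dvd_or_dvd hrm with h2 | h2
    · left
      rw [Ideal.Quotient.eq_zero_iff_mem, sm_mem_P_iff hmax]
      exact sm_dvd_of_map_dvd hinj hπ r h2
    · right
      rw [Ideal.Quotient.eq_zero_iff_mem, sm_mem_P_map_iff hmax]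
      exact h2
  -- `Λ` is finite over `R̄`
  have hfin : Module.Finite (A₀[X] ⧸ smP A₀) (B ⧸ (smP A₀).map (algebraMap A₀[X] B)) :=
    Module.Finite.of_restrictScalars_finite A₀[X] _ _
  obtain ⟨n, β⟩ := Module.basisOfFiniteTypeTorsionFree' (R := A₀[X] ⧸ smP A₀)
    (M := B ⧸ (smP A₀).map (algebraMap A₀[X] B))
  choose e he using fun i => Ideal.Quotient.mk_surjective (β i)
  -- Nakayama for `B / span(e)`
  set E : Submodule A₀[X] B := Submodule.span A₀[X] (Set.range e) with hE
  have hin : (⊤ : Submodule A₀[X] (B ⧸ E)) ≤ (Ideal.span {C π} : Ideal A₀[X]) •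
      (⊤ : Submodule A₀[X] (B ⧸ E)) := by
    intro y _
    obtain ⟨x, rfl⟩ := Submodule.Quotient.mk_surjective E y
    choose r hr using fun i => Ideal.Quotient.mk_surjective
      (β.repr (Ideal.Quotient.mk ((smP A₀).map (algebraMap A₀[X] B)) x) i)
    have h1 : Ideal.Quotient.mk ((smP A₀).map (algebraMap A₀[X] B)) (x - ∑ i, r i • e i) = 0 := by
      rw [map_sub, sm_mk_sum_smul, sub_eq_zero]
      conv_lhs => rw [← β.sum_repr (Ideal.Quotient.mk ((smP A₀).map (algebraMap A₀[X] B)) x)]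
      refine Finset.sum_congr rfl fun i _ => ?_
      rw [hr i, he i]
    rw [Ideal.Quotient.eq_zero_iff_mem, sm_mem_P_map_iff hmax] at h1
    obtain ⟨b, hb⟩ := h1
    have h2 : Submodule.Quotient.mk (p := E) x = (C π : A₀[X]) • Submodule.Quotient.mk (p := E) b := by
      rw [← Submodule.Quotient.mk_smul, Submodule.Quotient.eq, Algebra.smul_def, ← hb,
        sub_sub_cancel]
      exact Submodule.sum_mem _ fun i _ =>
        Submodule.smul_mem _ _ (Submodule.subset_span ⟨i, rfl⟩)
    rw [h2]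
    exact Submodule.smul_mem_smul (Ideal.mem_span_singleton_self _) Submodule.mem_top
  obtain ⟨c, hc1, hc2⟩ := Submodule.exists_sub_one_mem_and_smul_eq_zero_of_fg_of_le_smul
    (Ideal.span {C π} : Ideal A₀[X]) (⊤ : Submodule A₀[X] (B ⧸ E)) Module.Finite.fg_top hin
  refine ⟨n, e, c, ⟨Ideal.mem_span_singleton.mp hc1, fun x => ?_, fun r hr => ?_⟩⟩
  · have h1 := hc2 (Submodule.Quotient.mk x) Submodule.mem_top
    rw [← Submodule.Quotient.mk_smul, Submodule.Quotient.mk_eq_zero] at h1
    obtain ⟨r, hr⟩ := (Submodule.mem_span_range_iff_exists_fun A₀[X]).mp h1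
    exact ⟨r, by rw [hr, Algebra.smul_def]⟩
  · have h1 : Ideal.Quotient.mk ((smP A₀).map (algebraMap A₀[X] B)) (∑ i, r i • e i) = 0 := by
      rw [Ideal.Quotient.eq_zero_iff_mem, sm_mem_P_map_iff hmax]; exact hr
    rw [sm_mk_sum_smul] at h1
    have h2 : ∑ i, Ideal.Quotient.mk (smP A₀) (r i) • β i = 0 := by
      rw [← h1]
      refine Finset.sum_congr rfl fun i _ => ?_
      rw [he i]
    intro i
    have h3 := Fintype.linearIndependent_iff.mp β.linearIndependent _ h2 i
    rw [Ideal.Quotient.eq_zero_iff_mem, sm_mem_P_iff hmax] at h3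
    exact h3

/-- T2b: a frame reduces to a basis of `Λ = B/π` over `R̄ = A₀[X]/π`. -/
theorem sm_lam_basis (h : SmFrame π e c) (hπ : Irreducible π) :
    ∃ β : Module.Basis (Fin n) (A₀[X] ⧸ smP A₀) (B ⧸ (smP A₀).map (algebraMap A₀[X] B)),
      ∀ i, β i = Ideal.Quotient.mk _ (e i) := by
  have hmax : IsLocalRing.maximalIdeal A₀ = Ideal.span {π} := hπ.maximalIdeal_eq
  have hli : LinearIndependent (A₀[X] ⧸ smP A₀)
      (fun i => Ideal.Quotient.mk ((smP A₀).map (algebraMap A₀[X] B)) (e i)) := by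
    rw [Fintype.linearIndependent_iff]
    intro g hg i
    choose r hr using fun i => Ideal.Quotient.mk_surjective (g i)
    have h1 : ∑ i, g i • Ideal.Quotient.mk ((smP A₀).map (algebraMap A₀[X] B)) (e i)
        = Ideal.Quotient.mk _ (∑ i, r i • e i) := by
      rw [sm_mk_sum_smul]
      refine Finset.sum_congr rfl fun i _ => ?_
      rw [hr i]
    rw [h1, Ideal.Quotient.eq_zero_iff_mem, sm_mem_P_map_iff hmax] at hg
    have h2 := h.indep r hg i
    rw [← hr i, Ideal.Quotient.eq_zero_iff_mem, sm_mem_P_iff hmax]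
    exact h2
  have hsp : ⊤ ≤ Submodule.span (A₀[X] ⧸ smP A₀)
      (Set.range fun i => Ideal.Quotient.mk ((smP A₀).map (algebraMap A₀[X] B)) (e i)) := by
    intro y _
    obtain ⟨x, rfl⟩ := Ideal.Quotient.mk_surjective y
    obtain ⟨r, hr⟩ := h.span x
    have h2 : Ideal.Quotient.mk ((smP A₀).map (algebraMap A₀[X] B)) x
        = ∑ i, Ideal.Quotient.mk (smP A₀) (r i) •
          Ideal.Quotient.mk ((smP A₀).map (algebraMap A₀[X] B)) (e i) := by
      have h3 := congrArg (Ideal.Quotient.mk ((smP A₀).map (algebraMap A₀[X] B))) hr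
      rw [map_mul, sm_mk_algebraMap, h.mk_c hπ, map_one, one_mul, sm_mk_sum_smul] at h3
      exact h3
    rw [h2]
    exact Submodule.sum_mem _ fun i _ =>
      Submodule.smul_mem _ _ (Submodule.subset_span ⟨i, rfl⟩)
  exact ⟨Module.Basis.mk hli hsp, fun i => by rw [Module.Basis.mk_apply]⟩

/-- T2c: its discriminant is the reduction of `d`. -/
theorem sm_lam_discr (h : SmFrame π e c) (hπ : Irreducible π)
    (β : Module.Basis (Fin n) (A₀[X] ⧸ smP A₀) (B ⧸ (smP A₀).map (algebraMap A₀[X] B)))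
    (hβ : ∀ i, β i = Ideal.Quotient.mk _ (e i)) :
    Algebra.discr (A₀[X] ⧸ smP A₀) β = Ideal.Quotient.mk (smP A₀) h.d := by
  have h1 := h.discr_baseChange (Ideal.Quotient.mk (smP A₀))
    (Ideal.Quotient.mk ((smP A₀).map (algebraMap A₀[X] B))) (fun r => sm_mk_algebraMap r) β hβ 1
    (by rw [one_mul, h.mk_c hπ])
  rw [h1, one_pow, one_mul]

end FrameDVR

end Fermat.Agent.S18
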