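import Mathlib
import Fermat.Agent.S18.SmLam
import Fermat.Agent.S18.SmLamBasis
import Fermat.Agent.S18.SmInstAbs

/-!
# S18, block SM, piece T9: the special fibre at `𝔫`

`sm_charl_inst_of_basis`: `Λ = B/π` is free over `R̄ = A₀[X]/π` with basis `β` whose discriminant
is the reduction of `d`; `𝔫 = (π, g)` maximal; `d mod π` is not divisible by `g ^ (n - ρ + 1)`;
`B / rad(π, g)` is spanned by `ρ` elements over `A₀[X]`.  Then every maximal ideal `𝔪` of `B` over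
`𝔫` is locally generated by `π` and one more element.
-/

set_option autoImplicit false

namespace Fermat.Agent.S18

open Polynomial

section Inst

variable {A₀ : Type*} [CommRing A₀] [IsDomain A₀] [IsDiscreteValuationRing A₀]
  {B : Type*} [CommRing B] [IsDomain B] [Algebra A₀[X] B]
  {π : A₀}

omit [IsDomain B] in
/-- T9 with the basis of `Λ = B/π` given explicitly. -/
theorem sm_charl_inst_of_basis (hπ : Irreducible π)
    (hprime : Prime (algebraMap A₀[X] B (C π)))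
    {n : ℕ} (β : Module.Basis (Fin n) (A₀[X] ⧸ smP A₀) (B ⧸ (smP A₀).map (algebraMap A₀[X] B)))
    (d : A₀[X]) (hβd : Algebra.discr (A₀[X] ⧸ smP A₀) β = Ideal.Quotient.mk (smP A₀) d)
    (𝔫 : Ideal A₀[X]) (h𝔫 : 𝔫.IsMaximal) (g : A₀[X]) (hg : 𝔫 = Ideal.span {C π, g})
    (ρ : ℕ) (hρ : ρ ≤ n) (hd : ∀ w : A₀[X], ¬ C π ∣ d - g ^ (n - ρ + 1) * w)
    (y : Fin ρ → B)
    (hy : ∀ z : B, ∃ (a : Fin ρ → A₀[X]) (N : ℕ), (z - ∑ j, a j • y j) ^ N ∈
      Ideal.span {algebraMap A₀[X] B (C π), algebraMap A₀[X] B g})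
    (𝔪 : Ideal B) (h𝔪 : 𝔪.IsMaximal) (h𝔪𝔫 : 𝔪.comap (algebraMap A₀[X] B) = 𝔫) :
    ∃ s ∈ 𝔪, ∀ x ∈ 𝔪, ∃ u, u ∉ 𝔪 ∧ u * x ∈ Ideal.span {algebraMap A₀[X] B (C π), s} := by
  classical
  have hπmax : IsLocalRing.maximalIdeal A₀ = Ideal.span {π} :=
    (IsDiscreteValuationRing.irreducible_iff_uniformizer π).mp hπ
  have hpBspan : (smP A₀).map (algebraMap A₀[X] B) = Ideal.span {algebraMap A₀[X] B (C π)} :=
    sm_P_map_eq_span hπmax B
  have hpBprime : ((smP A₀).map (algebraMap A₀[X] B)).IsPrime := by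
    rw [hpBspan]
    exact (Ideal.span_singleton_prime hprime.ne_zero).mpr hprime
  have hCπ𝔫 : C π ∈ 𝔫 := by
    rw [hg]
    exact Ideal.subset_span (by simp)
  have hPle𝔫 : smP A₀ ≤ 𝔫 := by
    rw [sm_P_eq_span hπmax, Ideal.span_le, Set.singleton_subset_iff]
    exact hCπ𝔫
  have hpBle : (smP A₀).map (algebraMap A₀[X] B) ≤ 𝔪 := by
    rw [Ideal.map_le_iff_le_comap, h𝔪𝔫]
    exact hPle𝔫
  have hmkCπ : Ideal.Quotient.mk (smP A₀) (C π) = 0 :=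
    Ideal.Quotient.eq_zero_iff_mem.mpr ((sm_mem_P_iff hπmax _).mpr dvd_rfl)
  have hmkBCπ : Ideal.Quotient.mk ((smP A₀).map (algebraMap A₀[X] B))
      (algebraMap A₀[X] B (C π)) = 0 :=
    Ideal.Quotient.eq_zero_iff_mem.mpr ((sm_mem_P_map_iff hπmax _).mpr dvd_rfl)
  -- the generator of `𝔫̄`
  have hmap : 𝔫.map (Ideal.Quotient.mk (smP A₀))
      = Ideal.span {Ideal.Quotient.mk (smP A₀) g} := by
    rw [hg, Ideal.map_span, Set.image_pair, hmkCπ]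
    apply le_antisymm
    · rw [Ideal.span_le]
      rintro x (rfl | rfl)
      · exact Ideal.zero_mem _
      · exact Ideal.mem_span_singleton_self _
    · exact Ideal.span_mono (by simp)
  have hγmax : (Ideal.span {Ideal.Quotient.mk (smP A₀) g} : Ideal (A₀[X] ⧸ smP A₀)).IsMaximal := by
    rw [← hmap]
    have hk : RingHom.ker (Ideal.Quotient.mk (smP A₀)) ≤ 𝔫 := by
      rw [Ideal.mk_ker]
      exact hPle𝔫
    exact Ideal.IsMaximal.map_of_surjective_of_ker_le Ideal.Quotient.mk_surjective hk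
  have hγ0 : Ideal.Quotient.mk (smP A₀) g ≠ 0 := by
    intro h0
    rw [h0, Ideal.span_singleton_eq_bot.mpr rfl] at hγmax
    have hfield : IsField (A₀[X] ⧸ smP A₀) := Ring.isField_iff_maximal_bot.mpr hγmax
    have hfield' : IsField (A₀ ⧸ IsLocalRing.maximalIdeal A₀)[X] :=
      (smRbarEquiv A₀).toMulEquiv.isField hfield
    exact Polynomial.not_isField _ hfield'
  -- the prime of `Λ`
  have hPp : (𝔪.map (Ideal.Quotient.mk ((smP A₀).map (algebraMap A₀[X] B)))).IsPrime :=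
    Ideal.map_isPrime_of_surjective Ideal.Quotient.mk_surjective (by
      rw [Ideal.mk_ker]
      exact hpBle)
  have hPmem : ∀ x : B, Ideal.Quotient.mk ((smP A₀).map (algebraMap A₀[X] B)) x
      ∈ 𝔪.map (Ideal.Quotient.mk ((smP A₀).map (algebraMap A₀[X] B))) ↔ x ∈ 𝔪 :=
    fun x => Ideal.mem_quotient_iff_mem hpBle
  have h𝔫mem : ∀ r : A₀[X], Ideal.Quotient.mk (smP A₀) r
      ∈ 𝔫.map (Ideal.Quotient.mk (smP A₀)) ↔ r ∈ 𝔫 :=
    fun r => Ideal.mem_quotient_iff_mem hPle𝔫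
  have hP : (𝔪.map (Ideal.Quotient.mk ((smP A₀).map (algebraMap A₀[X] B)))).comap
      (algebraMap (A₀[X] ⧸ smP A₀) (B ⧸ (smP A₀).map (algebraMap A₀[X] B)))
      = Ideal.span {Ideal.Quotient.mk (smP A₀) g} := by
    rw [← hmap]
    ext rb
    obtain ⟨r, rfl⟩ := Ideal.Quotient.mk_surjective rb
    rw [Ideal.mem_comap, ← sm_mk_algebraMap, hPmem, h𝔫mem, ← h𝔪𝔫, Ideal.mem_comap]
  -- the discriminant
  have hdisc : ¬ (Ideal.Quotient.mk (smP A₀) g) ^ (n - ρ + 1) ∣ Algebra.discr (A₀[X] ⧸ smP A₀) β := by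
    rw [hβd]
    rintro ⟨wb, hw⟩
    obtain ⟨w, rfl⟩ := Ideal.Quotient.mk_surjective wb
    apply hd w
    rw [← sm_mem_P_iff hπmax, ← Ideal.Quotient.eq_zero_iff_mem, map_sub, map_mul, map_pow, hw,
      sub_self]
  -- the spanning family
  have hc : ∀ x : B ⧸ (smP A₀).map (algebraMap A₀[X] B), ∃ (a : Fin ρ → A₀[X] ⧸ smP A₀) (N : ℕ),
      algebraMap (A₀[X] ⧸ smP A₀) (B ⧸ (smP A₀).map (algebraMap A₀[X] B))
        (Ideal.Quotient.mk (smP A₀) g) ∣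
      (x - ∑ j, a j • Ideal.Quotient.mk ((smP A₀).map (algebraMap A₀[X] B)) (y j)) ^ N := by
    intro x
    obtain ⟨z, rfl⟩ := Ideal.Quotient.mk_surjective x
    obtain ⟨a, N, haN⟩ := hy z
    refine ⟨fun j => Ideal.Quotient.mk (smP A₀) (a j), N, ?_⟩
    obtain ⟨p, q, hpq⟩ := Ideal.mem_span_pair.mp haN
    have h1 : Ideal.Quotient.mk ((smP A₀).map (algebraMap A₀[X] B)) z
        - ∑ j, Ideal.Quotient.mk (smP A₀) (a j)
          • Ideal.Quotient.mk ((smP A₀).map (algebraMap A₀[X] B)) (y j)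
        = Ideal.Quotient.mk ((smP A₀).map (algebraMap A₀[X] B)) (z - ∑ j, a j • y j) := by
      rw [map_sub, map_sum]
      congr 1
    rw [h1, ← map_pow, ← hpq, map_add, map_mul, map_mul, hmkBCπ, mul_zero, zero_add,
      ← sm_mk_algebraMap]
    exact Dvd.intro_left _ rfl
  obtain ⟨sb, hsb, H⟩ := sm_local_gen_of_pid β (Ideal.Quotient.mk (smP A₀) g) hγmax.isPrime hγ0
    ρ hρ hdisc (fun j => Ideal.Quotient.mk ((smP A₀).map (algebraMap A₀[X] B)) (y j)) hc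
    (𝔪.map (Ideal.Quotient.mk ((smP A₀).map (algebraMap A₀[X] B)))) hP
  obtain ⟨s, rfl⟩ := Ideal.Quotient.mk_surjective sb
  refine ⟨s, (hPmem s).mp hsb, fun x hx => ?_⟩
  obtain ⟨ub, hub, hux⟩ := H _ ((hPmem x).mpr hx)
  obtain ⟨u, rfl⟩ := Ideal.Quotient.mk_surjective ub
  refine ⟨u, fun hu => hub ((hPmem u).mpr hu), ?_⟩
  obtain ⟨tb, htb⟩ := Ideal.mem_span_singleton'.mp hux
  obtain ⟨t, rfl⟩ := Ideal.Quotient.mk_surjective tb
  have h2 : u * x - t * s ∈ (smP A₀).map (algebraMap A₀[X] B) := by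
    rw [← Ideal.Quotient.eq_zero_iff_mem, map_sub, map_mul, map_mul, htb, sub_self]
  rw [hpBspan] at h2
  obtain ⟨w, hw⟩ := Ideal.mem_span_singleton'.mp h2
  rw [Ideal.mem_span_pair]
  exact ⟨w, t, by rw [hw]; ring⟩

/-- T9: localise `Λ = B/π` (free over the PID `R̄`) at `𝔫`, apply
`sm_isIntegrallyClosed_of_discr` (with `a = n - ρ`, `r = ρ`, `c = y`), conclude by Dedekind. -/
theorem sm_charl_inst [Module.Finite A₀[X] B] {n : ℕ} {e : Fin n → B} {c : A₀[X]}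
    (h : SmFrame π e c)
    (hinj : Function.Injective (algebraMap A₀[X] B)) (hπ : Irreducible π)
    (hprime : Prime (algebraMap A₀[X] B (C π)))
    (𝔫 : Ideal A₀[X]) (h𝔫 : 𝔫.IsMaximal) (g : A₀[X]) (hg : 𝔫 = Ideal.span {C π, g})
    (ρ : ℕ) (hρ : ρ ≤ n) (hd : ∀ w : A₀[X], ¬ C π ∣ h.d - g ^ (n - ρ + 1) * w)
    (y : Fin ρ → B)
    (hy : ∀ z : B, ∃ (a : Fin ρ → A₀[X]) (N : ℕ), (z - ∑ j, a j • y j) ^ N ∈
      Ideal.span {algebraMap A₀[X] B (C π), algebraMap A₀[X] B g})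
    (𝔪 : Ideal B) (h𝔪 : 𝔪.IsMaximal) (h𝔪𝔫 : 𝔪.comap (algebraMap A₀[X] B) = 𝔫) :
    ∃ s ∈ 𝔪, ∀ x ∈ 𝔪, ∃ u, u ∉ 𝔪 ∧ u * x ∈ Ideal.span {algebraMap A₀[X] B (C π), s} := by
  have _ := hinj
  obtain ⟨β, hβ⟩ := sm_lam_basis h hπ
  exact sm_charl_inst_of_basis hπ hprime β h.d (sm_lam_discr h hπ β hβ) 𝔫 h𝔫 g hg ρ hρ hd y hy
    𝔪 h𝔪 h𝔪𝔫

end Inst

end Fermat.Agent.S18
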