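import Mathlib

/-!
# S18, block SM (smoothness from discriminants), piece T1: frames

`SmFrame π e c`: elements `e₁,…,eₙ ∈ B` and `c ≡ 1 mod π` in `A₀[X]` such that `c • B` is contained
in the `A₀[X]`-span of the `eᵢ`, and the `eᵢ` are independent modulo `π`.  We attach to a frame its
structure matrices `M x` (`c x eⱼ = ∑ᵢ (M x)ᵢⱼ eᵢ`), the scaled Gram matrix `G`, the scaled
discriminant `d = det G`, and prove the base change formulas for trace and discriminant.
-/

set_option autoImplicit false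
set_option linter.unusedSectionVars false

namespace Fermat.Agent.S18

open Polynomial

section Frame

variable {A₀ : Type*} [CommRing A₀] {B : Type*} [CommRing B] [Algebra A₀[X] B]

/-- A *frame*: `e₁,…,eₙ ∈ B` and `c ≡ 1 mod π` in `A₀[X]` with `c • B ⊆ ⊕ A₀[X] eᵢ` and the `eᵢ`
independent modulo `π`. -/
structure SmFrame (π : A₀) {n : ℕ} (e : Fin n → B) (c : A₀[X]) : Prop where
  hc : C π ∣ c - 1
  span : ∀ x : B, ∃ r : Fin n → A₀[X], algebraMap A₀[X] B c * x = ∑ i, r i • e i
  indep : ∀ r : Fin n → A₀[X], algebraMap A₀[X] B (C π) ∣ ∑ i, r i • e i → ∀ i, C π ∣ r i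

variable {π : A₀} {n : ℕ} {e : Fin n → B} {c : A₀[X]}

/-- The structure matrix of `c • x` in the frame. -/
noncomputable def SmFrame.M (h : SmFrame π e c) (x : B) : Matrix (Fin n) (Fin n) A₀[X] :=
  fun i j => Classical.choose (h.span (x * e j)) i

theorem SmFrame.M_spec (h : SmFrame π e c) (x : B) (j : Fin n) :
    algebraMap A₀[X] B c * (x * e j) = ∑ i, h.M x i j • e i :=
  Classical.choose_spec (h.span (x * e j))

/-- The (scaled) Gram matrix `c • Tr(eᵢ eⱼ)`. -/
noncomputable def SmFrame.G (h : SmFrame π e c) : Matrix (Fin n) (Fin n) A₀[X] :=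
  fun i j => (h.M (e i * e j)).trace

/-- The (scaled) discriminant `cⁿ • disc(e)`. -/
noncomputable def SmFrame.d (h : SmFrame π e c) : A₀[X] := h.G.det

theorem SmFrame.leftMulMatrix_baseChange (h : SmFrame π e c) {O T : Type*} [CommRing O]
    [CommRing T] [Algebra O T] (φ : A₀[X] →+* O) (ψ : B →+* T)
    (hcomp : ∀ r, ψ (algebraMap A₀[X] B r) = algebraMap O T (φ r))
    (β : Module.Basis (Fin n) O T) (hβ : ∀ i, β i = ψ (e i)) (u : O) (hu : u * φ c = 1) (x : B) :
    Algebra.leftMulMatrix β (ψ x) = u • (h.M x).map φ := by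
  ext i j
  rw [Algebra.leftMulMatrix_eq_repr_mul, hβ j, ← map_mul]
  have h1 : ψ (x * e j) = ∑ k, (u * φ (h.M x k j)) • β k := by
    have h2 := congrArg ψ (h.M_spec x j)
    rw [map_mul, hcomp, map_sum] at h2
    have h3 : ψ (x * e j) = algebraMap O T u * (algebraMap O T (φ c) * ψ (x * e j)) := by
      rw [← mul_assoc, ← map_mul, hu, map_one, one_mul]
    rw [h3, h2, Finset.mul_sum]
    refine Finset.sum_congr rfl (fun k _ => ?_)
    rw [Algebra.smul_def, map_mul, hcomp, hβ k, Algebra.smul_def, map_mul, mul_assoc]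
  rw [h1, map_sum]
  simp only [map_smul, Module.Basis.repr_self, Finsupp.coe_finsetSum, Finsupp.coe_smul,
    Finset.sum_apply, Pi.smul_apply, Finsupp.single_apply, smul_eq_mul, mul_ite, mul_one,
    mul_zero, Finset.sum_ite_eq', Finset.mem_univ, if_true, Matrix.smul_apply, Matrix.map_apply]

theorem SmFrame.trace_baseChange (h : SmFrame π e c) {O T : Type*} [CommRing O] [CommRing T]
    [Algebra O T] (φ : A₀[X] →+* O) (ψ : B →+* T)
    (hcomp : ∀ r, ψ (algebraMap A₀[X] B r) = algebraMap O T (φ r))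
    (β : Module.Basis (Fin n) O T) (hβ : ∀ i, β i = ψ (e i)) (u : O) (hu : u * φ c = 1) (x : B) :
    Algebra.trace O T (ψ x) = u * φ ((h.M x).trace) := by
  rw [Algebra.trace_eq_matrix_trace β, h.leftMulMatrix_baseChange φ ψ hcomp β hβ u hu x,
    Matrix.trace_smul, smul_eq_mul]
  congr 1
  simp only [Matrix.trace, Matrix.diag_apply, Matrix.map_apply, map_sum]

theorem SmFrame.discr_baseChange (h : SmFrame π e c) {O T : Type*} [CommRing O] [CommRing T]
    [Algebra O T] (φ : A₀[X] →+* O) (ψ : B →+* T)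
    (hcomp : ∀ r, ψ (algebraMap A₀[X] B r) = algebraMap O T (φ r))
    (β : Module.Basis (Fin n) O T) (hβ : ∀ i, β i = ψ (e i)) (u : O) (hu : u * φ c = 1) :
    Algebra.discr O β = u ^ n * φ h.d := by
  have h1 : Algebra.traceMatrix O β = u • h.G.map φ := by
    ext i j
    rw [Algebra.traceMatrix_apply, Algebra.traceForm_apply, hβ i, hβ j, ← map_mul,
      h.trace_baseChange φ ψ hcomp β hβ u hu]
    rfl
  rw [Algebra.discr_def, h1, Matrix.det_smul, Fintype.card_fin, SmFrame.d, RingHom.map_det]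
  rfl

end Frame

section FrameDVR

variable {A₀ : Type*} [CommRing A₀] [IsDomain A₀] [IsDiscreteValuationRing A₀]
  {B : Type*} [CommRing B] [IsDomain B] [Algebra A₀[X] B]
  {π : A₀} {n : ℕ} {e : Fin n → B} {c : A₀[X]}

theorem sm_C_pi_ne_zero (hπ : Irreducible π) : (C π : A₀[X]) ≠ 0 :=
  fun h0 => hπ.ne_zero (C_eq_zero.mp h0)

theorem sm_C_pi_not_isUnit (hπ : Irreducible π) : ¬ IsUnit (C π : A₀[X]) :=
  fun hu => hπ.not_isUnit (Polynomial.isUnit_C.mp hu)

theorem sm_C_pi_prime (hπ : Irreducible π) : Prime (C π : A₀[X]) :=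
  (Polynomial.prime_C_iff).mpr hπ.prime

/-- `c` is not divisible by `π`. -/
theorem SmFrame.not_dvd_c (h : SmFrame π e c) (hπ : Irreducible π) : ¬ C π ∣ c := by
  intro hdvd
  have h1 : C π ∣ (1 : A₀[X]) := by
    have := dvd_sub hdvd h.hc
    simpa using this
  exact sm_C_pi_not_isUnit hπ (isUnit_of_dvd_one h1)

theorem SmFrame.linearIndependent (h : SmFrame π e c)
    (hinj : Function.Injective (algebraMap A₀[X] B)) (hπ : Irreducible π) :
    LinearIndependent A₀[X] e := by
  have hϖ : algebraMap A₀[X] B (C π) ≠ 0 := by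
    rw [Ne, map_eq_zero_iff _ hinj]
    exact sm_C_pi_ne_zero hπ
  have key : ∀ k : ℕ, ∀ g : Fin n → A₀[X], ∑ i, g i • e i = 0 → ∀ i, (C π) ^ k ∣ g i := by
    intro k
    induction k with
    | zero => intro g _ i; simp
    | succ k ih =>
      intro g hg i
      have h1 : ∀ i, C π ∣ g i := h.indep g (by rw [hg]; exact dvd_zero _)
      choose g' hg' using h1
      have h2 : ∑ i, g' i • e i = 0 := by
        have h3 : algebraMap A₀[X] B (C π) * ∑ i, g' i • e i = 0 := by
          rw [Finset.mul_sum, ← hg]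
          refine Finset.sum_congr rfl (fun i _ => ?_)
          rw [hg' i, Algebra.smul_def, Algebra.smul_def, map_mul, mul_assoc]
        exact (mul_eq_zero.mp h3).resolve_left hϖ
      rw [hg' i, pow_succ']
      exact mul_dvd_mul_left _ (ih g' h2 i)
  rw [Fintype.linearIndependent_iff]
  intro g hg i
  by_contra hne
  have hfin : FiniteMultiplicity (C π) (g i) :=
    FiniteMultiplicity.of_not_isUnit (sm_C_pi_not_isUnit hπ) hne
  obtain ⟨k, hk⟩ := hfin
  exact hk (key (k + 1) g hg i)

end FrameDVR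

end Fermat.Agent.S18
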