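import Fermat.Agent.S18.SmTame
import Fermat.Agent.S18.SmFrame

/-!
# S18, block SM (smoothness from discriminants), pieces T5 and T6 (helper18)

* `sm_dvr_of_prime`: the localisation of a noetherian domain at a principal prime is a DVR.
* `sm_loc_isIntegrallyClosed`: localisations of an almost normal domain are integrally closed.
* `SmFrame.exists_basis_loc`: a frame becomes a basis after localising at a prime not containing
  `c`.
* `sm_locp_pow_not_dvd` (T5): the tame bound `sm_tame` at the localisation at a prime element `p`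
  gives `¬ p ^ (n - ρ + 1) ∣ d`.
* `sm_unr_not_dvd` (T6): unramified primes do not divide `d`.
-/

set_option autoImplicit false
set_option linter.unusedSectionVars false
set_option linter.style.haveILetI false

namespace Fermat.Agent.S18

open Polynomial

/-- The localisation of a noetherian domain at a principal prime is a DVR with uniformiser the
image of the generator. -/
theorem sm_dvr_of_prime {R : Type*} [CommRing R] [IsDomain R] [IsNoetherianRing R] (p : R)
    (hp : Prime p) (𝔭 : Ideal R) [h𝔭' : 𝔭.IsPrime] (h𝔭 : 𝔭 = Ideal.span {p})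
    (O : Type*) [CommRing O] [Algebra R O] [IsLocalization.AtPrime O 𝔭] [IsDomain O] :
    IsDiscreteValuationRing O ∧ Irreducible (algebraMap R O p) := by
  haveI : IsLocalRing O := IsLocalization.AtPrime.isLocalRing O 𝔭
  haveI : IsNoetherianRing O := IsLocalization.isNoetherianRing 𝔭.primeCompl O inferInstance
  have hinj : Function.Injective (algebraMap R O) :=
    IsLocalization.injective O (𝔭.primeCompl_le_nonZeroDivisors)
  have hmax : IsLocalRing.maximalIdeal O = Ideal.span {algebraMap R O p} := by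
    rw [← IsLocalization.AtPrime.map_eq_maximalIdeal 𝔭 O, h𝔭, Ideal.map_span, Set.image_singleton]
  have hp0 : algebraMap R O p ≠ 0 := by
    rw [Ne, map_eq_zero_iff _ hinj]
    exact hp.ne_zero
  have hnf : ¬ IsField O := by
    intro hf
    have h1 : IsLocalRing.maximalIdeal O = ⊥ := IsLocalRing.isField_iff_maximalIdeal_eq.mp hf
    rw [hmax, Ideal.span_singleton_eq_bot] at h1
    exact hp0 h1
  have hdvr : IsDiscreteValuationRing O := by
    refine ((IsDiscreteValuationRing.TFAE O hnf).out 0 4).mpr ?_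
    rw [hmax]
    exact ⟨⟨_, rfl⟩⟩
  refine ⟨hdvr, ?_⟩
  exact (IsDiscreteValuationRing.irreducible_iff_uniformizer _).mpr hmax

/-- A localisation of an "almost normal" domain (normal after inverting `ϖ`) at a submonoid
containing `ϖ` is integrally closed. -/
theorem sm_loc_isIntegrallyClosed {B : Type*} [CommRing B] [IsDomain B] (ϖ : B)
    (hnormal : ∀ z : FractionRing B, IsIntegral B z → ∃ (k : ℕ) (x : B),
        algebraMap B (FractionRing B) x = algebraMap B (FractionRing B) ϖ ^ k * z)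
    (M : Submonoid B) (hM : M ≤ nonZeroDivisors B) (hϖ : ϖ ∈ M)
    (T : Type*) [CommRing T] [Algebra B T] [IsLocalization M T] [IsDomain T] :
    IsIntegrallyClosed T := by
  have hunits : ∀ m : M, IsUnit (algebraMap B (FractionRing B) m) := fun m =>
    IsLocalization.map_units (FractionRing B) (⟨m, hM m.2⟩ : nonZeroDivisors B)
  letI : Algebra T (FractionRing B) :=
    (IsLocalization.lift (M := M) (S := T) (g := algebraMap B (FractionRing B)) hunits).toAlgebra
  haveI : IsScalarTower B T (FractionRing B) :=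
    IsScalarTower.of_algebraMap_eq (fun x => (IsLocalization.lift_eq hunits x).symm)
  haveI : IsFractionRing T (FractionRing B) :=
    IsFractionRing.isFractionRing_of_isDomain_of_isLocalization M T (FractionRing B)
  rw [isIntegrallyClosed_iff (FractionRing B)]
  intro x hx
  obtain ⟨m, hm⟩ := IsIntegral.exists_multiple_integral_of_isLocalization M x hx
  obtain ⟨k, b, hb⟩ := hnormal _ hm
  have hmem : ϖ ^ k * (m : B) ∈ M := M.mul_mem (M.pow_mem hϖ k) m.2
  refine ⟨IsLocalization.mk' T b (⟨ϖ ^ k * m, hmem⟩ : M), ?_⟩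
  have h1 : algebraMap T (FractionRing B) (IsLocalization.mk' T b (⟨ϖ ^ k * m, hmem⟩ : M))
      * algebraMap B (FractionRing B) (ϖ ^ k * m) = algebraMap B (FractionRing B) b := by
    rw [IsScalarTower.algebraMap_apply B T (FractionRing B), ← map_mul,
      IsScalarTower.algebraMap_apply B T (FractionRing B) b]
    congr 1
    exact IsLocalization.mk'_spec T b (⟨ϖ ^ k * m, hmem⟩ : M)
  have h2 : x * algebraMap B (FractionRing B) (ϖ ^ k * m) = algebraMap B (FractionRing B) b := by
    rw [hb, map_mul, map_pow, Submonoid.smul_def, Algebra.smul_def]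
    ring
  have h3 : IsUnit (algebraMap B (FractionRing B) (ϖ ^ k * m)) := hunits ⟨_, hmem⟩
  exact h3.mul_left_injective (h1.trans h2.symm)

section LocP

variable {A₀ : Type*} [CommRing A₀] [IsDomain A₀] [IsDiscreteValuationRing A₀]
  {B : Type*} [CommRing B] [IsDomain B] [Algebra A₀[X] B]
  {π : A₀} {n : ℕ} {e : Fin n → B} {c : A₀[X]}

/-- The frame becomes a basis after localising at a prime `𝔭 ∌ c`. -/
theorem SmFrame.exists_basis_loc (h : SmFrame π e c)
    (hinj : Function.Injective (algebraMap A₀[X] B)) (hπ : Irreducible π)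
    (𝔭 : Ideal A₀[X]) [𝔭.IsPrime] (hc𝔭 : c ∉ 𝔭)
    (O : Type*) [CommRing O] [Algebra A₀[X] O] [IsLocalization.AtPrime O 𝔭]
    (T : Type*) [CommRing T] [Algebra B T] [Algebra O T] [Algebra A₀[X] T]
    [IsScalarTower A₀[X] O T] [IsScalarTower A₀[X] B T]
    [IsLocalization (Algebra.algebraMapSubmonoid B 𝔭.primeCompl) T] :
    ∃ β : Module.Basis (Fin n) O T, ∀ i, β i = algebraMap B T (e i) := by
  have hcomp : ∀ r, algebraMap B T (algebraMap A₀[X] B r) = algebraMap O T (algebraMap A₀[X] O r) :=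
    fun r => by rw [← IsScalarTower.algebraMap_apply, ← IsScalarTower.algebraMap_apply]
  have hli : LinearIndependent O (algebraMap B T ∘ e) :=
    LinearIndependent.localization_localization O 𝔭.primeCompl T (h.linearIndependent hinj hπ)
  have hunit : ∀ s : A₀[X], s ∉ 𝔭 → ∃ u : O, u * algebraMap A₀[X] O s = 1 := by
    intro s hs
    obtain ⟨u, hu⟩ := (IsLocalization.map_units O (⟨s, hs⟩ : 𝔭.primeCompl)).exists_left_inv
    exact ⟨u, hu⟩
  have hsp : ⊤ ≤ Submodule.span O (Set.range (algebraMap B T ∘ e)) := by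
    intro x _
    obtain ⟨b, m, rfl⟩ := IsLocalization.exists_mk'_eq (Algebra.algebraMapSubmonoid B 𝔭.primeCompl) x
    obtain ⟨s, hs, hsm⟩ := m.2
    obtain ⟨r, hr⟩ := h.span b
    obtain ⟨us, hus⟩ := hunit s hs
    obtain ⟨uc, huc⟩ := hunit c hc𝔭
    have h1 : IsLocalization.mk' T b m * algebraMap B T (algebraMap A₀[X] B s) = algebraMap B T b := by
      rw [hsm]
      exact IsLocalization.mk'_spec T b m
    have h2 : IsLocalization.mk' T b m
        = (us * uc) • ∑ i, algebraMap A₀[X] O (r i) • (algebraMap B T ∘ e) i := by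
      have h3 : ∑ i, algebraMap A₀[X] O (r i) • (algebraMap B T ∘ e) i
          = algebraMap B T (algebraMap A₀[X] B c * b) := by
        rw [hr, map_sum]
        refine Finset.sum_congr rfl (fun i _ => ?_)
        rw [Algebra.smul_def, Algebra.smul_def, map_mul, hcomp, Function.comp_apply]
      rw [h3, map_mul, ← h1, hcomp, hcomp, Algebra.smul_def, map_mul]
      have h4 : algebraMap O T us * algebraMap O T (algebraMap A₀[X] O s) = 1 := by
        rw [← map_mul, hus, map_one]
      have h5 : algebraMap O T uc * algebraMap O T (algebraMap A₀[X] O c) = 1 := by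
        rw [← map_mul, huc, map_one]
      calc IsLocalization.mk' T b m
          = (algebraMap O T us * algebraMap O T (algebraMap A₀[X] O s))
            * (algebraMap O T uc * algebraMap O T (algebraMap A₀[X] O c))
            * IsLocalization.mk' T b m := by rw [h4, h5, one_mul, one_mul]
        _ = _ := by ring
    rw [h2]
    refine Submodule.smul_mem _ _ (Submodule.sum_mem _ fun i _ => Submodule.smul_mem _ _ ?_)
    exact Submodule.subset_span ⟨i, rfl⟩
  exact ⟨Module.Basis.mk hli hsp, fun i => by rw [Module.Basis.mk_apply]; rfl⟩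

/-- T5, abstract form (for arbitrary models of the localisations). -/
theorem sm_locp_abs [CharZero A₀] (h : SmFrame π e c)
    (hinj : Function.Injective (algebraMap A₀[X] B)) (hπ : Irreducible π)
    (hnormal : ∀ z : FractionRing B, IsIntegral B z → ∃ (k : ℕ) (x : B),
        algebraMap B (FractionRing B) x =
          algebraMap B (FractionRing B) (algebraMap A₀[X] B (C π)) ^ k * z)
    (p : A₀[X]) (hp : Prime p) (hpc : ¬ p ∣ c) (hpπ : ¬ p ∣ C π)
    {ρ : ℕ} (y : Fin ρ → B)
    (hy : ∀ a : Fin ρ → A₀[X], (∃ (N : ℕ) (s : A₀[X]), ¬ p ∣ s ∧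
        algebraMap A₀[X] B p ∣ algebraMap A₀[X] B s * (∑ j, a j • y j) ^ N) → ∀ j, p ∣ a j)
    (𝔭 : Ideal A₀[X]) [𝔭.IsPrime] (h𝔭 : 𝔭 = Ideal.span {p})
    (O : Type*) [CommRing O] [Algebra A₀[X] O] [IsLocalization.AtPrime O 𝔭]
    (T : Type*) [CommRing T] [Algebra B T] [Algebra O T] [Algebra A₀[X] T]
    [IsScalarTower A₀[X] O T] [IsScalarTower A₀[X] B T]
    [IsLocalization (Algebra.algebraMapSubmonoid B 𝔭.primeCompl) T] :
    ¬ p ^ (n - ρ + 1) ∣ h.d := by
  have hmem : ∀ s : A₀[X], s ∈ 𝔭 ↔ p ∣ s := fun s => by rw [h𝔭, Ideal.mem_span_singleton]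
  haveI : IsDomain O :=
    IsLocalization.isDomain_of_le_nonZeroDivisors O 𝔭.primeCompl_le_nonZeroDivisors
  obtain ⟨hdvr, hτ⟩ := sm_dvr_of_prime p hp 𝔭 h𝔭 O
  haveI := hdvr
  have hM : Algebra.algebraMapSubmonoid B 𝔭.primeCompl ≤ nonZeroDivisors B := by
    rintro _ ⟨s, hs, rfl⟩
    refine mem_nonZeroDivisors_of_ne_zero ?_
    rw [Ne, map_eq_zero_iff _ hinj]
    rintro rfl
    exact hs (Ideal.zero_mem _)
  haveI : IsDomain T := IsLocalization.isDomain_of_le_nonZeroDivisors T hM
  have hπ𝔭 : C π ∉ 𝔭 := by rw [hmem]; exact hpπ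
  haveI : IsIntegrallyClosed T :=
    sm_loc_isIntegrallyClosed (algebraMap A₀[X] B (C π)) hnormal _ hM ⟨C π, hπ𝔭, rfl⟩ T
  have hcomp : ∀ r, algebraMap B T (algebraMap A₀[X] B r)
      = algebraMap O T (algebraMap A₀[X] O r) :=
    fun r => by rw [← IsScalarTower.algebraMap_apply, ← IsScalarTower.algebraMap_apply]
  have hc𝔭 : c ∉ 𝔭 := by rw [hmem]; exact hpc
  obtain ⟨β, hβ⟩ := h.exists_basis_loc hinj hπ 𝔭 hc𝔭 O T
  have hψinj : Function.Injective (algebraMap B T) := IsLocalization.injective T hM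
  have hunit : ∀ s : A₀[X], ¬ p ∣ s → IsUnit (algebraMap A₀[X] O s) := fun s hs =>
    IsLocalization.map_units O (⟨s, by rw [Ideal.mem_primeCompl_iff, hmem]; exact hs⟩ :
      𝔭.primeCompl)
  -- residue characteristic zero
  have hchar : ∀ m : ℕ, m ≠ 0 → IsUnit (m : O) := by
    intro m hm
    have h1 : ¬ p ∣ ((m : A₀[X])) := by
      intro hdvd
      have hm0 : (m : A₀) ≠ 0 := Nat.cast_ne_zero.mpr hm
      obtain ⟨k, u, hu⟩ := IsDiscreteValuationRing.eq_unit_mul_pow_irreducible hm0 hπ
      have h2 : (m : A₀[X]) = C (u : A₀) * C π ^ k := by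
        rw [← C_pow, ← C_mul, ← hu]; simp
      rw [h2] at hdvd
      rcases hp.dvd_or_dvd hdvd with h3 | h3
      · exact hp.not_isUnit (isUnit_of_dvd_unit h3 (Polynomial.isUnit_C.mpr u.isUnit))
      · exact hpπ (hp.dvd_of_dvd_pow h3)
    have h4 := hunit _ h1
    simpa using h4
  -- transfer of the independence hypothesis
  have hy' : ∀ cf : Fin ρ → O,
      (∃ N : ℕ, algebraMap O T (algebraMap A₀[X] O p) ∣ (∑ j, cf j • algebraMap B T (y j)) ^ N) →
      ∀ j, algebraMap A₀[X] O p ∣ cf j := by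
    rintro cf ⟨N, w, hw⟩
    obtain ⟨s, hs⟩ := IsLocalization.exist_integer_multiples 𝔭.primeCompl
      (Finset.univ : Finset (Fin ρ)) cf
    choose a ha using fun j => hs j (Finset.mem_univ j)
    obtain ⟨b, m, rfl⟩ :=
      IsLocalization.exists_mk'_eq (Algebra.algebraMapSubmonoid B 𝔭.primeCompl) w
    obtain ⟨s', hs', hsm⟩ := m.2
    have e1 : ∀ j, algebraMap O T (algebraMap A₀[X] O (a j))
        = algebraMap O T (algebraMap A₀[X] O s) * algebraMap O T (cf j) := by
      intro j
      rw [ha j, Algebra.smul_def, map_mul]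
    have e2 : algebraMap B T (∑ j, a j • y j)
        = algebraMap O T (algebraMap A₀[X] O s) * ∑ j, cf j • algebraMap B T (y j) := by
      rw [map_sum, Finset.mul_sum]
      refine Finset.sum_congr rfl (fun j _ => ?_)
      rw [Algebra.smul_def, map_mul, hcomp, e1, Algebra.smul_def, mul_assoc]
    have e3 : IsLocalization.mk' T b m * algebraMap O T (algebraMap A₀[X] O s')
        = algebraMap B T b := by
      rw [← hcomp, hsm]
      exact IsLocalization.mk'_spec T b m
    have h1 : algebraMap B T (algebraMap A₀[X] B p * (algebraMap A₀[X] B (s ^ N) * b))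
        = algebraMap B T (algebraMap A₀[X] B s' * (∑ j, a j • y j) ^ N) := by
      simp only [map_mul, map_pow]
      rw [e2, mul_pow, hw, hcomp, hcomp, hcomp, ← e3]
      ring
    have h2 := hψinj h1
    have hs'p : ¬ p ∣ s' := by rw [← hmem]; exact hs'
    have h3 : ∀ j, p ∣ a j := hy a ⟨N, s', hs'p, ⟨_, h2.symm⟩⟩
    intro j
    obtain ⟨a', ha'⟩ := h3 j
    have h4 := ha j
    rw [ha', map_mul, Algebra.smul_def] at h4
    have hsu : IsUnit (algebraMap A₀[X] O (s : A₀[X])) := IsLocalization.map_units O s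
    exact (IsUnit.dvd_mul_left hsu).mp ⟨_, h4.symm⟩
  have hdiv := sm_tame hchar hτ β (fun j => algebraMap B T (y j)) hy'
  obtain ⟨u, hu⟩ := (hunit c hpc).exists_left_inv
  rw [h.discr_baseChange (algebraMap A₀[X] O) (algebraMap B T) hcomp β hβ u hu] at hdiv
  rintro ⟨q, hq⟩
  obtain ⟨v, hv⟩ := hdiv
  rw [hq, map_mul, map_pow, pow_succ] at hv
  have hτ0 : algebraMap A₀[X] O p ^ (n - ρ) ≠ 0 := pow_ne_zero _ hτ.ne_zero
  have h5 : algebraMap A₀[X] O p ^ (n - ρ) * 1
      = algebraMap A₀[X] O p ^ (n - ρ)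
        * (algebraMap A₀[X] O p * (u ^ n * algebraMap A₀[X] O q * v)) := by
    rw [mul_one]
    conv_lhs => rw [hv]
    ring
  have h6 := mul_left_cancel₀ hτ0 h5
  exact hτ.not_isUnit (IsUnit.of_mul_eq_one _ h6.symm)

/-- T5: localisation at a prime element `p` of `A₀[X]` + `sm_tame`. -/
theorem sm_locp_pow_not_dvd [CharZero A₀] (h : SmFrame π e c)
    (hinj : Function.Injective (algebraMap A₀[X] B)) (hπ : Irreducible π)
    (hnormal : ∀ z : FractionRing B, IsIntegral B z → ∃ (k : ℕ) (x : B),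
        algebraMap B (FractionRing B) x =
          algebraMap B (FractionRing B) (algebraMap A₀[X] B (C π)) ^ k * z)
    (p : A₀[X]) (hp : Prime p) (hpc : ¬ p ∣ c) (hpπ : ¬ p ∣ C π)
    {ρ : ℕ} (y : Fin ρ → B)
    (hy : ∀ a : Fin ρ → A₀[X], (∃ (N : ℕ) (s : A₀[X]), ¬ p ∣ s ∧
        algebraMap A₀[X] B p ∣ algebraMap A₀[X] B s * (∑ j, a j • y j) ^ N) → ∀ j, p ∣ a j) :
    ¬ p ^ (n - ρ + 1) ∣ h.d := by
  haveI h𝔭 : (Ideal.span {p} : Ideal A₀[X]).IsPrime :=
    (Ideal.span_singleton_prime hp.ne_zero).mpr hp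
  exact sm_locp_abs h hinj hπ hnormal p hp hpc hpπ y hy (Ideal.span {p}) rfl
    (Localization.AtPrime (Ideal.span {p} : Ideal A₀[X]))
    (Localization (Algebra.algebraMapSubmonoid B (Ideal.span {p} : Ideal A₀[X]).primeCompl))

/-- T6: unramified primes do not divide the discriminant. -/
theorem sm_unr_not_dvd [CharZero A₀] (h : SmFrame π e c)
    (hinj : Function.Injective (algebraMap A₀[X] B)) (hπ : Irreducible π)
    (hnormal : ∀ z : FractionRing B, IsIntegral B z → ∃ (k : ℕ) (x : B),
        algebraMap B (FractionRing B) x =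
          algebraMap B (FractionRing B) (algebraMap A₀[X] B (C π)) ^ k * z)
    (p : A₀[X]) (hp : Prime p) (hpc : ¬ p ∣ c) (hpπ : ¬ p ∣ C π)
    (hunr : ∀ Q : Ideal B, Q.IsPrime → Q.comap (algebraMap A₀[X] B) = Ideal.span {p} →
        ∀ x ∈ Q, ∃ s, s ∉ Q ∧ s * x ∈ (Ideal.span {p}).map (algebraMap A₀[X] B)) :
    ¬ p ∣ h.d := by
  have hmain := sm_locp_pow_not_dvd h hinj hπ hnormal p hp hpc hpπ (ρ := n) e ?_
  · simpa using hmain
  rintro a ⟨N, s, hs, hdvd⟩
  haveI h𝔭 : (Ideal.span {p} : Ideal A₀[X]).IsPrime :=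
    (Ideal.span_singleton_prime hp.ne_zero).mpr hp
  have hmapspan : (Ideal.span {p} : Ideal A₀[X]).map (algebraMap A₀[X] B)
      = Ideal.span {algebraMap A₀[X] B p} := by
    rw [Ideal.map_span, Set.image_singleton]
  -- Claim 1: `p ∣ s' z` for some `s' ∉ (p)`
  have claim1 : ∃ s' : A₀[X], ¬ p ∣ s' ∧
      algebraMap A₀[X] B p ∣ algebraMap A₀[X] B s' * ∑ j, a j • e j := by
    by_contra hcon
    push Not at hcon
    -- the colon ideal
    let 𝔞 : Ideal B := (Ideal.span {algebraMap A₀[X] B p}).colon {∑ j, a j • e j}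
    have h𝔞 : ∀ t : B, t ∈ 𝔞 ↔ algebraMap A₀[X] B p ∣ t * ∑ j, a j • e j := by
      intro t
      rw [Submodule.mem_colon_singleton, smul_eq_mul, Ideal.mem_span_singleton]
    have hdisj : Disjoint (𝔞 : Set B)
        (Algebra.algebraMapSubmonoid B (Ideal.span {p} : Ideal A₀[X]).primeCompl) := by
      rw [Set.disjoint_left]
      rintro _ ht ⟨s', hs', rfl⟩
      refine hcon s' ?_ ((h𝔞 _).mp ht)
      rw [← Ideal.mem_span_singleton]
      exact hs'
    obtain ⟨Q, hQ, h𝔞Q, hQdisj⟩ := Ideal.exists_le_prime_disjoint 𝔞 _ hdisj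
    have hpQ : algebraMap A₀[X] B p ∈ Q := h𝔞Q ((h𝔞 _).mpr (dvd_mul_right _ _))
    have hcomap : Q.comap (algebraMap A₀[X] B) = Ideal.span {p} := by
      apply le_antisymm
      · intro t ht
        by_contra htn
        exact Set.disjoint_left.mp hQdisj (Ideal.mem_comap.mp ht) ⟨t, htn, rfl⟩
      · rw [Ideal.span_le, Set.singleton_subset_iff]
        exact hpQ
    have hsQ : algebraMap A₀[X] B s ∉ Q := by
      intro hsQ
      refine Set.disjoint_left.mp hQdisj hsQ ⟨s, ?_, rfl⟩
      change s ∉ Ideal.span {p}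
      rw [Ideal.mem_span_singleton]
      exact hs
    have hzQ : ∑ j, a j • e j ∈ Q := by
      have h1 : algebraMap A₀[X] B s * (∑ j, a j • e j) ^ N ∈ Q := by
        obtain ⟨w, hw⟩ := hdvd
        rw [hw]
        exact Ideal.mul_mem_right _ _ hpQ
      exact hQ.mem_of_pow_mem N ((hQ.mem_or_mem h1).resolve_left hsQ)
    obtain ⟨t, htQ, ht⟩ := hunr Q hQ hcomap _ hzQ
    rw [hmapspan, Ideal.mem_span_singleton] at ht
    exact htQ (h𝔞Q ((h𝔞 t).mpr ht))
  obtain ⟨s', hs', w, hw⟩ := claim1
  obtain ⟨r, hr⟩ := h.span w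
  -- `c s' a_j = p r_j`
  have hli := h.linearIndependent hinj hπ
  rw [Fintype.linearIndependent_iff] at hli
  have h0 : ∑ j, (c * s' * a j - p * r j) • e j = 0 := by
    have h1 : ∑ j, (c * s' * a j - p * r j) • e j
        = algebraMap A₀[X] B c * (algebraMap A₀[X] B s' * ∑ j, a j • e j)
          - algebraMap A₀[X] B p * ∑ j, r j • e j := by
      rw [Finset.mul_sum, Finset.mul_sum, Finset.mul_sum, ← Finset.sum_sub_distrib]
      refine Finset.sum_congr rfl (fun j _ => ?_)
      rw [sub_smul, Algebra.smul_def, Algebra.smul_def, Algebra.smul_def, Algebra.smul_def,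
        map_mul, map_mul, map_mul]
      ring
    rw [h1, hw, ← hr]
    ring
  intro j
  have h2 := hli _ h0 j
  have h3 : p ∣ c * s' * a j := ⟨r j, sub_eq_zero.mp h2⟩
  rcases hp.dvd_or_dvd h3 with h4 | h4
  · rcases hp.dvd_or_dvd h4 with h5 | h5
    · exact absurd h5 hpc
    · exact absurd h5 hs'
  · exact h4

end LocP

end Fermat.Agent.S18
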