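import Fermat.Agent.S18.SmLamBasis

/-!
# S18, block SM, piece T7: separability of the special fibre gives `π ∤ d`

* `sm_discr_ne_zero_of_sep`: abstract statement.  `Λ` a domain, free of finite rank over a
  domain `Rb`, such that every element of `Λ` is a simple root of a polynomial over `Rb`.  Then the
  discriminant of any basis is non-zero (`Frac Λ / Frac Rb` is separable).
* `sm_d_not_dvd_pi` (T7).
-/

set_option autoImplicit false
set_option linter.unusedSectionVars false
set_option linter.unusedVariables false

namespace Fermat.Agent.S18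

open Polynomial

open scoped nonZeroDivisors

/-- An element of a field extension which is a simple root of some polynomial is separable. -/
theorem sm_isSeparable_of_simple_root {K L : Type*} [Field K] [Field L] [Algebra K L] (y : L)
    (P : K[X]) (h0 : aeval y P = 0) (h1 : aeval y (derivative P) ≠ 0) : IsSeparable K y := by
  have hP0 : P ≠ 0 := by
    rintro rfl
    simp at h1
  have hint : IsIntegral K y := (isAlgebraic_iff_isIntegral).mp ⟨P, hP0, h0⟩
  obtain ⟨g, hg⟩ := minpoly.dvd K y h0
  rw [IsSeparable, separable_iff_derivative_ne_zero (minpoly.irreducible hint)]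
  intro hd
  apply h1
  rw [hg, derivative_mul, hd, zero_mul, zero_add, map_mul, minpoly.aeval, zero_mul]

/-- Abstract form of T7: the discriminant of a basis of a finite free domain `Λ` over a domain
`Rb` is non-zero as soon as every element of `Λ` is a simple root of a polynomial over `Rb`. -/
theorem sm_discr_ne_zero_of_sep {Rb Λ : Type*} [CommRing Rb] [IsDomain Rb] [CommRing Λ]
    [IsDomain Λ] [Algebra Rb Λ] {n : ℕ} (β : Module.Basis (Fin n) Rb Λ)
    (hsep : ∀ x : Λ, ∃ P : Rb[X], aeval x P = 0 ∧ aeval x (derivative P) ≠ 0) :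
    Algebra.discr Rb β ≠ 0 := by
  classical
  -- the structure map is injective
  have hinj : Function.Injective (algebraMap Rb Λ) := by
    rw [injective_iff_map_eq_zero]
    intro r hr
    by_contra hr0
    have h1 : β.repr (r • (1 : Λ)) = 0 := by
      rw [Algebra.smul_def, mul_one, hr, map_zero]
    rw [map_smul, smul_eq_zero] at h1
    rcases h1 with h1 | h1
    · exact hr0 h1
    · exact one_ne_zero (β.repr.map_eq_zero_iff.mp h1)
  have : FaithfulSMul Rb Λ := (faithfulSMul_iff_algebraMap_injective Rb Λ).mpr hinj
  have : Module.Finite Rb Λ := Module.Finite.of_basis β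
  have : Algebra.IsAlgebraic Rb Λ := inferInstance
  have hinjL : Function.Injective (algebraMap Rb (FractionRing Λ)) := by
    rw [IsScalarTower.algebraMap_eq Rb Λ (FractionRing Λ)]
    exact (IsFractionRing.injective Λ (FractionRing Λ)).comp hinj
  have : FaithfulSMul Rb (FractionRing Λ) :=
    (faithfulSMul_iff_algebraMap_injective Rb (FractionRing Λ)).mpr hinjL
  let : Algebra (FractionRing Rb) (FractionRing Λ) := FractionRing.liftAlgebra Rb (FractionRing Λ)
  have : IsScalarTower Rb (FractionRing Rb) (FractionRing Λ) :=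
    FractionRing.isScalarTower_liftAlgebra Rb (FractionRing Λ)
  have : IsLocalization (Algebra.algebraMapSubmonoid Λ Rb⁰) (FractionRing Λ) := inferInstance
  set β' : Module.Basis (Fin n) (FractionRing Rb) (FractionRing Λ) :=
    β.localizationLocalization (FractionRing Rb) Rb⁰ (FractionRing Λ) with hβ'
  have hdisc : Algebra.discr (FractionRing Rb) β' =
      algebraMap Rb (FractionRing Rb) (Algebra.discr Rb β) :=
    Algebra.discr_localizationLocalization Rb Rb⁰ (FractionRing Λ) β
  have : Module.Finite (FractionRing Rb) (FractionRing Λ) := Module.Finite.of_basis β'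
  -- separability
  have hsepKL : Algebra.IsSeparable (FractionRing Rb) (FractionRing Λ) := by
    rw [← separableClosure.eq_top_iff, eq_top_iff]
    intro z _
    have hmem : ∀ x : Λ, algebraMap Λ (FractionRing Λ) x ∈
        separableClosure (FractionRing Rb) (FractionRing Λ) := by
      intro x
      obtain ⟨P, hP0, hP1⟩ := hsep x
      rw [mem_separableClosure_iff]
      refine sm_isSeparable_of_simple_root _ (P.map (algebraMap Rb (FractionRing Rb))) ?_ ?_
      · rw [aeval_map_algebraMap, aeval_algebraMap_apply, hP0, map_zero]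
      · rw [derivative_map, aeval_map_algebraMap, aeval_algebraMap_apply]
        exact fun h => hP1 ((IsFractionRing.injective Λ (FractionRing Λ)) (by rw [h, map_zero]))
    obtain ⟨a, b, -, rfl⟩ := IsFractionRing.div_surjective (A := Λ) z
    exact div_mem (hmem a) (hmem b)
  have hne := Algebra.discr_not_zero_of_basis (FractionRing Rb) β'
  rw [hdisc] at hne
  exact fun h => hne (by rw [h, map_zero])

section Glue

variable {A₀ : Type*} [CommRing A₀] [IsDomain A₀] [IsDiscreteValuationRing A₀]
  {B : Type*} [CommRing B] [IsDomain B] [Algebra A₀[X] B] [Module.Finite A₀[X] B]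
  {π : A₀} {n : ℕ} {e : Fin n → B} {c : A₀[X]}

/-- Reduction commutes with evaluation of polynomials. -/
theorem sm_aeval_mk (P : A₀[X][X]) (x : B) :
    aeval (Ideal.Quotient.mk ((smP A₀).map (algebraMap A₀[X] B)) x)
        (P.map (Ideal.Quotient.mk (smP A₀)))
      = Ideal.Quotient.mk ((smP A₀).map (algebraMap A₀[X] B)) (aeval x P) := by
  rw [aeval_def, aeval_def, eval₂_map, hom_eval₂]
  rfl

/-- T7: separability of the residue extension gives `π ∤ d`. -/
theorem sm_d_not_dvd_pi (h : SmFrame π e c)
    (hinj : Function.Injective (algebraMap A₀[X] B)) (hπ : Irreducible π)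
    (hprime : Prime (algebraMap A₀[X] B (C π)))
    (hsep : ∀ x : B, ∃ P : A₀[X][X], (algebraMap A₀[X] B (C π)) ∣ aeval x P ∧
        ¬ (algebraMap A₀[X] B (C π)) ∣ aeval x (derivative P)) :
    ¬ C π ∣ h.d := by
  have hmax : IsLocalRing.maximalIdeal A₀ = Ideal.span {π} := hπ.maximalIdeal_eq
  have hQ : ((smP A₀).map (algebraMap A₀[X] B)).IsPrime := by
    rw [sm_P_map_eq_span hmax]
    exact (Ideal.span_singleton_prime hprime.ne_zero).mpr hprime
  obtain ⟨β, hβ⟩ := sm_lam_basis h hπ
  have hne : Algebra.discr (A₀[X] ⧸ smP A₀) β ≠ 0 := by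
    refine sm_discr_ne_zero_of_sep β ?_
    intro y
    obtain ⟨x, rfl⟩ := Ideal.Quotient.mk_surjective y
    obtain ⟨P, hP0, hP1⟩ := hsep x
    refine ⟨P.map (Ideal.Quotient.mk (smP A₀)), ?_, ?_⟩
    · rw [sm_aeval_mk, Ideal.Quotient.eq_zero_iff_mem, sm_mem_P_map_iff hmax]
      exact hP0
    · rw [derivative_map, sm_aeval_mk, Ne, Ideal.Quotient.eq_zero_iff_mem,
        sm_mem_P_map_iff hmax]
      exact hP1
  rw [sm_lam_discr h hπ β hβ] at hne
  intro hdvd
  exact hne ((Ideal.Quotient.eq_zero_iff_mem).mpr ((sm_mem_P_iff hmax _).mpr hdvd))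

end Glue

end Fermat.Agent.S18
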