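import Mathlib
import Fermat.Agent.S18.SmFrame

/-!
# S18, block SM, piece T8: the fibre `D = B/(X - b)` and its nilradical

For a frame `(e, c)` of `B` over `A₀[X]`, the fibre `D = B / (X - b)` is a free `A₀`-module with
basis the frame.  Its nilradical is a saturated submodule, so the quotient is free; lifting a basis
of the quotient gives `y₁, …, y_ρ ∈ B` which span `B` modulo `rad (X - b)` and are independent
modulo `rad (X - b)`.
-/

set_option autoImplicit false

namespace Fermat.Agent.S18

open Polynomial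

section Split

variable {A₀ : Type*} [CommRing A₀] [IsDomain A₀] [IsDiscreteValuationRing A₀]
  {B : Type*} [CommRing B] [IsDomain B] [Algebra A₀[X] B]
  {π : A₀} {n : ℕ} {e : Fin n → B} {c : A₀[X]}

omit [IsDomain B] in
/-- `c(b)` is a unit of `A₀`. -/
theorem SmFrame.isUnit_eval_c (h : SmFrame π e c) (hπ : Irreducible π) (b : A₀) :
    IsUnit (c.eval b) := by
  obtain ⟨q, hq⟩ := h.hc
  have h1 : c.eval b + (-(π * q.eval b)) = 1 := by
    have := congrArg (Polynomial.eval b) hq
    simp only [eval_sub, eval_one, eval_mul, eval_C] at this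
    linear_combination this
  rcases IsLocalRing.isUnit_or_isUnit_of_add_one h1 with h2 | h2
  · exact h2
  · exfalso
    have h3 : IsUnit (π * q.eval b) := by
      have := h2.neg
      simpa using this
    exact hπ.not_isUnit (isUnit_of_mul_isUnit_left h3)

omit [IsDomain A₀] [IsDiscreteValuationRing A₀] [IsDomain B] in
/-- Every polynomial is congruent to its value at `b` modulo `X - b`. -/
theorem sm_sub_eval_mem (b : A₀) (r : A₀[X]) :
    algebraMap A₀[X] B r - algebraMap A₀[X] B (C (r.eval b))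
      ∈ Ideal.span {algebraMap A₀[X] B (X - C b)} := by
  rw [← map_sub, Ideal.mem_span_singleton]
  exact map_dvd _ (Polynomial.X_sub_C_dvd_sub_C_eval)

/-- The fibre `B/(X - b)` has no `A₀`-torsion. -/
theorem SmFrame.torsionFree_fibre (h : SmFrame π e c)
    (hinj : Function.Injective (algebraMap A₀[X] B)) (hπ : Irreducible π) (b : A₀)
    (σ : A₀) (hσ : σ ≠ 0) (t : B)
    (ht : algebraMap A₀[X] B (C σ) * t ∈ Ideal.span {algebraMap A₀[X] B (X - C b)}) :
    t ∈ Ideal.span {algebraMap A₀[X] B (X - C b)} := by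
  obtain ⟨r, hr⟩ := h.span t
  obtain ⟨t', ht'⟩ := Ideal.mem_span_singleton'.mp ht
  obtain ⟨r', hr'⟩ := h.span t'
  have hli := h.linearIndependent hinj hπ
  rw [Fintype.linearIndependent_iff] at hli
  have h0 : ∑ i, (C σ * r i - (X - C b) * r' i) • e i = 0 := by
    have h1 : ∑ i, (C σ * r i) • e i = algebraMap A₀[X] B (C σ) * (algebraMap A₀[X] B c * t) := by
      rw [hr, Finset.mul_sum]
      apply Finset.sum_congr rfl
      intro i _
      rw [mul_smul, Algebra.smul_def (C σ)]
    have h2 : ∑ i, ((X - C b) * r' i) • e i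
        = algebraMap A₀[X] B (X - C b) * (algebraMap A₀[X] B c * t') := by
      rw [hr', Finset.mul_sum]
      apply Finset.sum_congr rfl
      intro i _
      rw [mul_smul, Algebra.smul_def (X - C b)]
    simp only [sub_smul]
    rw [Finset.sum_sub_distrib, h1, h2]
    have : algebraMap A₀[X] B (X - C b) * (algebraMap A₀[X] B c * t')
        = algebraMap A₀[X] B c * (t' * algebraMap A₀[X] B (X - C b)) := by ring
    rw [this, ht']
    ring
  have h3 := hli _ h0
  have hprime : Prime (X - C b : A₀[X]) := Polynomial.prime_X_sub_C b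
  have hndvd : ¬ (X - C b : A₀[X]) ∣ C σ := by
    rw [Polynomial.dvd_iff_isRoot, IsRoot, eval_C]
    exact hσ
  have h4 : ∀ i, (X - C b : A₀[X]) ∣ r i := by
    intro i
    have h5 : (X - C b : A₀[X]) ∣ C σ * r i := ⟨r' i, by linear_combination h3 i⟩
    exact (hprime.dvd_or_dvd h5).resolve_left hndvd
  choose r'' hr'' using h4
  have h6 : algebraMap A₀[X] B c * t ∈ Ideal.span {algebraMap A₀[X] B (X - C b)} := by
    rw [hr, Ideal.mem_span_singleton]
    refine ⟨∑ i, r'' i • e i, ?_⟩
    rw [Finset.mul_sum]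
    apply Finset.sum_congr rfl
    intro i _
    rw [hr'' i, mul_smul, Algebra.smul_def (X - C b)]
  obtain ⟨u, hu⟩ := (h.isUnit_eval_c hπ b).exists_left_inv
  have h7 : algebraMap A₀[X] B (C u * c) - 1 ∈ Ideal.span {algebraMap A₀[X] B (X - C b)} := by
    have := sm_sub_eval_mem (B := B) b (C u * c)
    rw [eval_mul, eval_C, hu, map_one, map_one] at this
    exact this
  have h8 : t = algebraMap A₀[X] B (C u) * (algebraMap A₀[X] B c * t)
      - (algebraMap A₀[X] B (C u * c) - 1) * t := by
    rw [map_mul]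
    ring
  rw [h8]
  exact Ideal.sub_mem _ (Ideal.mul_mem_left _ _ h6) (Ideal.mul_mem_right _ _ h7)

/-- The combination of the frame with constant coefficients. -/
noncomputable def sm_comb (e : Fin n → B) (v : Fin n → A₀) : B :=
  ∑ i, algebraMap A₀[X] B (C (v i)) * e i

omit [IsDomain A₀] [IsDiscreteValuationRing A₀] [IsDomain B] in
theorem sm_comb_add (v w : Fin n → A₀) : sm_comb e (v + w) = sm_comb e v + sm_comb e w := by
  simp only [sm_comb, Pi.add_apply, map_add, add_mul, Finset.sum_add_distrib]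

omit [IsDomain A₀] [IsDiscreteValuationRing A₀] [IsDomain B] in
theorem sm_comb_zero : sm_comb e (0 : Fin n → A₀) = 0 := by
  simp [sm_comb]

omit [IsDomain A₀] [IsDiscreteValuationRing A₀] [IsDomain B] in
theorem sm_comb_smul (σ : A₀) (v : Fin n → A₀) :
    sm_comb e (σ • v) = algebraMap A₀[X] B (C σ) * sm_comb e v := by
  simp only [sm_comb, Pi.smul_apply, smul_eq_mul, map_mul, Finset.mul_sum, mul_assoc]

omit [IsDomain A₀] [IsDiscreteValuationRing A₀] [IsDomain B] in
theorem sm_comb_sum {ρ : ℕ} (α : Fin ρ → A₀) (vv : Fin ρ → Fin n → A₀) :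
    sm_comb e (∑ j, α j • vv j) = ∑ j, algebraMap A₀[X] B (C (α j)) * sm_comb e (vv j) := by
  classical
  have key : ∀ s : Finset (Fin ρ), sm_comb e (∑ j ∈ s, α j • vv j)
      = ∑ j ∈ s, algebraMap A₀[X] B (C (α j)) * sm_comb e (vv j) := by
    intro s
    induction s using Finset.induction_on with
    | empty => simp [sm_comb_zero]
    | insert a s ha ih => rw [Finset.sum_insert ha, Finset.sum_insert ha, sm_comb_add, ih,
        sm_comb_smul]
  exact key Finset.univ

omit [IsDomain A₀] [IsDiscreteValuationRing A₀] [IsDomain B] in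
theorem sm_comb_sub (v w : Fin n → A₀) : sm_comb e (v - w) = sm_comb e v - sm_comb e w := by
  simp only [sm_comb, Pi.sub_apply, map_sub, sub_mul, Finset.sum_sub_distrib]

/-- The vectors of coordinates of the nilpotent elements of the fibre. -/
noncomputable def sm_nilSub (e : Fin n → B) (b : A₀) : Submodule A₀ (Fin n → A₀) where
  carrier := {v | sm_comb e v ∈ (Ideal.span {algebraMap A₀[X] B (X - C b)}).radical}
  add_mem' := fun {v w} hv hw => by
    rw [Set.mem_ofPred_eq, sm_comb_add]
    exact Ideal.add_mem _ hv hw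
  zero_mem' := by
    rw [Set.mem_ofPred_eq, sm_comb_zero]
    exact Ideal.zero_mem _
  smul_mem' := fun σ v hv => by
    rw [Set.mem_ofPred_eq, sm_comb_smul]
    exact Ideal.mul_mem_left _ _ hv

omit [IsDomain A₀] [IsDiscreteValuationRing A₀] [IsDomain B] in
theorem sm_mem_nilSub (b : A₀) (v : Fin n → A₀) :
    v ∈ sm_nilSub e b ↔ sm_comb e v ∈ (Ideal.span {algebraMap A₀[X] B (X - C b)}).radical :=
  Iff.rfl

omit [IsDomain B] in
/-- Coordinates in the fibre. -/
theorem SmFrame.exists_coord (h : SmFrame π e c) (hπ : Irreducible π) (b : A₀) (z : B) :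
    ∃ v : Fin n → A₀, z - sm_comb e v ∈ Ideal.span {algebraMap A₀[X] B (X - C b)} := by
  obtain ⟨r, hr⟩ := h.span z
  obtain ⟨u, hu⟩ := (h.isUnit_eval_c hπ b).exists_left_inv
  refine ⟨fun i => u * (r i).eval b, ?_⟩
  have h7 : algebraMap A₀[X] B (C u * c) - 1 ∈ Ideal.span {algebraMap A₀[X] B (X - C b)} := by
    have := sm_sub_eval_mem (B := B) b (C u * c)
    rw [eval_mul, eval_C, hu, map_one, map_one] at this
    exact this
  have h1 : z - sm_comb e (fun i => u * (r i).eval b)
      = algebraMap A₀[X] B (C u) * ∑ i, (algebraMap A₀[X] B (r i)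
          - algebraMap A₀[X] B (C ((r i).eval b))) * e i
        - (algebraMap A₀[X] B (C u * c) - 1) * z := by
    have h2 : ∑ i, (algebraMap A₀[X] B (r i) - algebraMap A₀[X] B (C ((r i).eval b))) * e i
        = algebraMap A₀[X] B c * z - ∑ i, algebraMap A₀[X] B (C ((r i).eval b)) * e i := by
      rw [hr]
      simp only [sub_mul, Finset.sum_sub_distrib, Algebra.smul_def]
    have h3 : sm_comb e (fun i => u * (r i).eval b)
        = algebraMap A₀[X] B (C u) * ∑ i, algebraMap A₀[X] B (C ((r i).eval b)) * e i := by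
      simp only [sm_comb, map_mul, Finset.mul_sum, mul_assoc]
    rw [h2, h3, map_mul]
    ring
  rw [h1]
  refine Ideal.sub_mem _ (Ideal.mul_mem_left _ _ (Ideal.sum_mem _ fun i _ => ?_))
    (Ideal.mul_mem_right _ _ h7)
  exact Ideal.mul_mem_right _ _ (sm_sub_eval_mem b (r i))

/-- T8: `D = B/(X - b)` is free over `A₀` (basis = the frame), its nilradical is a saturated
submodule, hence the quotient is free; `y` = (lifts of) a basis of the quotient. -/
theorem sm_D_exists_split (h : SmFrame π e c)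
    (hinj : Function.Injective (algebraMap A₀[X] B)) (hπ : Irreducible π) (b : A₀) :
    ∃ (ρ : ℕ) (_ : ρ ≤ n) (y : Fin ρ → B),
      (∀ z : B, ∃ (a : Fin ρ → A₀[X]) (N : ℕ),
        algebraMap A₀[X] B (X - C b) ∣ (z - ∑ j, a j • y j) ^ N) ∧
      (∀ a : Fin ρ → A₀[X], (∃ (N : ℕ) (s : A₀[X]), ¬ (X - C b) ∣ s ∧
          algebraMap A₀[X] B (X - C b) ∣ algebraMap A₀[X] B s * (∑ j, a j • y j) ^ N) →
        ∀ j, (X - C b) ∣ a j) := by
  classical
  -- the quotient by the nilradical is torsion-free, hence free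
  have htf : Module.IsTorsionFree A₀ ((Fin n → A₀) ⧸ sm_nilSub e b) := by
    apply Module.IsTorsionFree.of_smul_eq_zero
    intro σ q hq
    by_cases hσ : σ = 0
    · exact Or.inl hσ
    right
    obtain ⟨v, rfl⟩ := Submodule.Quotient.mk_surjective _ q
    rw [← Submodule.Quotient.mk_smul, Submodule.Quotient.mk_eq_zero, sm_mem_nilSub,
      sm_comb_smul] at hq
    obtain ⟨N, hN⟩ := hq
    rw [Submodule.Quotient.mk_eq_zero, sm_mem_nilSub]
    refine ⟨N, ?_⟩
    rw [mul_pow, ← map_pow, ← C_pow] at hN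
    exact h.torsionFree_fibre hinj hπ b (σ ^ N) (pow_ne_zero N hσ) _ hN
  have hfree : Module.Free A₀ ((Fin n → A₀) ⧸ sm_nilSub e b) :=
    Module.free_of_finite_type_torsion_free'
  have hρ : Module.finrank A₀ ((Fin n → A₀) ⧸ sm_nilSub e b) ≤ n := by
    have := Submodule.finrank_quotient_le (sm_nilSub e b)
    rw [Module.finrank_fintype_fun_eq_card, Fintype.card_fin] at this
    exact this
  let bQ : Module.Basis (Fin (Module.finrank A₀ ((Fin n → A₀) ⧸ sm_nilSub e b))) A₀
      ((Fin n → A₀) ⧸ sm_nilSub e b) := Module.finBasis A₀ _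
  choose vv hvv using fun j => Submodule.Quotient.mk_surjective (sm_nilSub e b) (bQ j)
  refine ⟨Module.finrank A₀ ((Fin n → A₀) ⧸ sm_nilSub e b), hρ, fun j => sm_comb e (vv j), ?_, ?_⟩
  · intro z
    obtain ⟨v, hv⟩ := h.exists_coord hπ b z
    let α : Fin (Module.finrank A₀ ((Fin n → A₀) ⧸ sm_nilSub e b)) → A₀ :=
      fun j => bQ.repr (Submodule.Quotient.mk v) j
    have h1 : v - ∑ j, α j • vv j ∈ sm_nilSub e b := by
      rw [← Submodule.Quotient.mk_eq_zero, ← Submodule.mkQ_apply, map_sub, map_sum]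
      simp only [map_smul, Submodule.mkQ_apply, hvv]
      rw [sub_eq_zero]
      exact (bQ.sum_repr _).symm
    rw [sm_mem_nilSub, sm_comb_sub, sm_comb_sum] at h1
    have h2 : z - ∑ j, (C (α j)) • sm_comb e (vv j)
        ∈ (Ideal.span {algebraMap A₀[X] B (X - C b)}).radical := by
      have h3 : z - ∑ j, (C (α j)) • sm_comb e (vv j) = (z - sm_comb e v)
          + (sm_comb e v - ∑ j, algebraMap A₀[X] B (C (α j)) * sm_comb e (vv j)) := by
        simp only [Algebra.smul_def]
        ring
      rw [h3]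
      exact Ideal.add_mem _ (Ideal.le_radical hv) h1
    obtain ⟨N, hN⟩ := h2
    exact ⟨fun j => C (α j), N, Ideal.mem_span_singleton.mp hN⟩
  · rintro a ⟨N, s, hs, hdvd⟩ j
    let α : Fin (Module.finrank A₀ ((Fin n → A₀) ⧸ sm_nilSub e b)) → A₀ := fun j => (a j).eval b
    let w : Fin n → A₀ := ∑ j, α j • vv j
    have hσ : s.eval b ≠ 0 := fun h0 => hs (Polynomial.dvd_iff_isRoot.mpr h0)
    have hcw : sm_comb e w = ∑ j, algebraMap A₀[X] B (C (α j)) * sm_comb e (vv j) :=
      sm_comb_sum α vv
    have h1 : (∑ j, a j • sm_comb e (vv j)) - sm_comb e w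
        ∈ Ideal.span {algebraMap A₀[X] B (X - C b)} := by
      rw [hcw, ← Finset.sum_sub_distrib]
      refine Ideal.sum_mem _ fun j _ => ?_
      rw [Algebra.smul_def, ← sub_mul]
      exact Ideal.mul_mem_right _ _ (sm_sub_eval_mem b (a j))
    have h2 : (∑ j, a j • sm_comb e (vv j)) ^ N - sm_comb e w ^ N
        ∈ Ideal.span {algebraMap A₀[X] B (X - C b)} := by
      obtain ⟨q, hq⟩ := sub_dvd_pow_sub_pow (∑ j, a j • sm_comb e (vv j)) (sm_comb e w) N
      rw [hq]
      exact Ideal.mul_mem_right _ _ h1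
    have h3 : algebraMap A₀[X] B (C (s.eval b)) * sm_comb e w ^ N
        ∈ Ideal.span {algebraMap A₀[X] B (X - C b)} := by
      have h4 : algebraMap A₀[X] B (C (s.eval b)) * sm_comb e w ^ N
          = algebraMap A₀[X] B s * (∑ j, a j • sm_comb e (vv j)) ^ N
            - (algebraMap A₀[X] B s - algebraMap A₀[X] B (C (s.eval b)))
              * (∑ j, a j • sm_comb e (vv j)) ^ N
            - algebraMap A₀[X] B (C (s.eval b))
              * ((∑ j, a j • sm_comb e (vv j)) ^ N - sm_comb e w ^ N) := by ring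
      rw [h4]
      exact Ideal.sub_mem _ (Ideal.sub_mem _ (Ideal.mem_span_singleton.mpr hdvd)
        (Ideal.mul_mem_right _ _ (sm_sub_eval_mem b s))) (Ideal.mul_mem_left _ _ h2)
    have h5 : sm_comb e w ^ N ∈ Ideal.span {algebraMap A₀[X] B (X - C b)} :=
      h.torsionFree_fibre hinj hπ b _ hσ _ h3
    have h6 : w ∈ sm_nilSub e b := (sm_mem_nilSub b w).mpr ⟨N, h5⟩
    have h7 : ∑ j, α j • bQ j = 0 := by
      have h8 := (Submodule.Quotient.mk_eq_zero _).mpr h6
      rw [← Submodule.mkQ_apply, map_sum] at h8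
      simpa only [map_smul, Submodule.mkQ_apply, hvv] using h8
    have h9 := (Fintype.linearIndependent_iff.mp bQ.linearIndependent) α h7 j
    exact Polynomial.dvd_iff_isRoot.mpr h9

end Split

end Fermat.Agent.S18
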