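import Fermat.Agent.S18.SmLamBasis
import Fermat.Agent.S18.SmSep
import Fermat.Agent.S18.SmSplit
import Fermat.Agent.S18.SmLocP
import Fermat.Agent.S18.SmInst

/-!
# S18, block SM (smoothness from discriminants): the assembly `s18_sm` (helper18)

`A₀` a DVR of characteristic zero with uniformizer `π`; `B` a domain, finite over `A₀[X]`, in which
`π` is prime, with separable residue extension, `B[1/π]` integrally closed; `𝔫` a maximal ideal of
`A₀[X]` containing `π` such that every height-one prime `q ≠ (π)` inside `𝔫` is unramified in `B`,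
except possibly `q = (X - b)`.  Then every maximal ideal `𝔪` of `B` over `𝔫` is locally generated
by `π` and one more element.

Pieces: `SmFrame` (frames, T1), `SmLamBasis` (T2), `SmTame` (T3), `SmOrder` (T4), `SmLocP`
(T5, T6), `SmSep` (T7), `SmSplit` (T8), `SmInst` (T9).
-/

set_option autoImplicit false
set_option linter.unusedSectionVars false

namespace Fermat.Agent.S18

open Polynomial

/-- In a UFD, a non-zero element of a prime ideal has a prime factor in it. -/
theorem sm_exists_prime_factor_mem {R : Type*} [CommRing R] [IsDomain R]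
    [UniqueFactorizationMonoid R] (I : Ideal R) (hI : I.IsPrime) (x : R) (hx0 : x ≠ 0)
    (hx : x ∈ I) : ∃ p : R, Prime p ∧ p ∣ x ∧ p ∈ I := by
  obtain ⟨f, hf, hfx⟩ := UniqueFactorizationMonoid.exists_prime_factors x hx0
  have h1 : f.prod ∈ I := by
    obtain ⟨u, hu⟩ := hfx.symm
    rw [← hu]
    exact Ideal.mul_mem_right _ _ hx
  obtain ⟨p, hpf, hpI⟩ := (hI.multiset_prod_mem_iff_exists_mem f).mp h1
  exact ⟨p, hf p hpf, (Multiset.dvd_prod hpf).trans hfx.dvd, hpI⟩

/-- T10a: an ideal of `A₀[X]` containing `π` is `(π, g)`. -/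
theorem sm_exists_gen {A₀ : Type*} [CommRing A₀] [IsDomain A₀] [IsDiscreteValuationRing A₀]
    {π : A₀} (hπ : Irreducible π) (𝔫 : Ideal A₀[X]) (hπ𝔫 : C π ∈ 𝔫) :
    ∃ g : A₀[X], 𝔫 = Ideal.span {C π, g} := by
  have hπmax : IsLocalRing.maximalIdeal A₀ = Ideal.span {π} := hπ.maximalIdeal_eq
  obtain ⟨gbar, hgbar⟩ :=
    (IsPrincipalIdealRing.principal (𝔫.map (Ideal.Quotient.mk (smP A₀)))).principal
  obtain ⟨g, rfl⟩ := Ideal.Quotient.mk_surjective gbar
  refine ⟨g, le_antisymm ?_ ?_⟩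
  · intro x hx
    have h1 : Ideal.Quotient.mk (smP A₀) x ∈ Ideal.span {Ideal.Quotient.mk (smP A₀) g} := by
      rw [← Ideal.submodule_span_eq, ← hgbar]
      exact Ideal.mem_map_of_mem _ hx
    obtain ⟨tbar, ht⟩ := Ideal.mem_span_singleton.mp h1
    obtain ⟨t, rfl⟩ := Ideal.Quotient.mk_surjective tbar
    rw [← map_mul, Ideal.Quotient.eq, sm_mem_P_iff hπmax] at ht
    obtain ⟨w, hw⟩ := ht
    have h2 : x = C π * w + g * t := by linear_combination hw
    rw [h2]
    exact Ideal.add_mem _ (Ideal.mul_mem_right _ _ (Ideal.subset_span (by simp)))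
      (Ideal.mul_mem_right _ _ (Ideal.subset_span (by simp)))
  · rw [Ideal.span_le]
    rintro x (rfl | rfl)
    · exact hπ𝔫
    · have h1 : Ideal.Quotient.mk (smP A₀) x ∈ 𝔫.map (Ideal.Quotient.mk (smP A₀)) := by
        rw [hgbar]
        exact Submodule.mem_span_singleton_self _
      obtain ⟨x', hx', hxg⟩ :=
        (Ideal.mem_map_iff_of_surjective _ Ideal.Quotient.mk_surjective).mp h1
      rw [Ideal.Quotient.eq, sm_mem_P_iff hπmax] at hxg
      obtain ⟨w, hw⟩ := hxg
      have h2 : x = x' - C π * w := by linear_combination -hw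
      rw [h2]
      exact Ideal.sub_mem _ hx' (Ideal.mul_mem_right _ _ hπ𝔫)

/-- (SM) smoothness of the special fibre from discriminants. -/
theorem s18_sm {A₀ : Type*} [CommRing A₀] [IsDomain A₀] [IsDiscreteValuationRing A₀] [CharZero A₀]
    {B : Type*} [CommRing B] [IsDomain B] [Algebra A₀[X] B] [Module.Finite A₀[X] B]
    (hinj : Function.Injective (algebraMap A₀[X] B))
    (π : A₀) (hπ : Irreducible π)
    (hprime : Prime (algebraMap A₀[X] B (C π)))
    (hsep : ∀ x : B, ∃ P : A₀[X][X], (algebraMap A₀[X] B (C π)) ∣ aeval x P ∧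
        ¬ (algebraMap A₀[X] B (C π)) ∣ aeval x (derivative P))
    (hnormal : ∀ z : FractionRing B, IsIntegral B z → ∃ (k : ℕ) (x : B),
        algebraMap B (FractionRing B) x =
          algebraMap B (FractionRing B) (algebraMap A₀[X] B (C π)) ^ k * z)
    (𝔫 : Ideal A₀[X]) (h𝔫 : 𝔫.IsMaximal) (hπ𝔫 : C π ∈ 𝔫) (b : A₀)
    (hunr : ∀ q : Ideal A₀[X], q.IsPrime → q ≠ ⊥ → q ≤ 𝔫 → C π ∉ q → q ≠ Ideal.span {X - C b} →
      ∀ Q : Ideal B, Q.IsPrime → Q.comap (algebraMap A₀[X] B) = q →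
        ∀ x ∈ Q, ∃ s, s ∉ Q ∧ s * x ∈ q.map (algebraMap A₀[X] B))
    (𝔪 : Ideal B) (h𝔪 : 𝔪.IsMaximal) (h𝔪𝔫 : 𝔪.comap (algebraMap A₀[X] B) = 𝔫) :
    ∃ s ∈ 𝔪, ∀ x ∈ 𝔪, ∃ u, u ∉ 𝔪 ∧ u * x ∈ Ideal.span {algebraMap A₀[X] B (C π), s} := by
  classical
  obtain ⟨n, e, c, h⟩ := sm_frame_exists hinj π hπ hprime
  obtain ⟨β, hβ⟩ := sm_lam_basis h hπ
  have hβd := sm_lam_discr h hπ β hβ
  have hdπ : ¬ C π ∣ h.d := sm_d_not_dvd_pi h hinj hπ hprime hsep
  have hd0 : h.d ≠ 0 := fun h0 => hdπ (h0 ▸ dvd_zero _)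
  have h𝔫prime : 𝔫.IsPrime := h𝔫.isPrime
  have hc𝔫 : c ∉ 𝔫 := by
    intro hc
    obtain ⟨w, hw⟩ := h.hc
    have h1 : (1 : A₀[X]) ∈ 𝔫 := by
      have h2 : (1 : A₀[X]) = c - C π * w := by linear_combination -hw
      rw [h2]
      exact Ideal.sub_mem _ hc (Ideal.mul_mem_right _ _ hπ𝔫)
    exact h𝔫.ne_top ((Ideal.eq_top_iff_one _).mpr h1)
  -- a prime factor of `d` inside `𝔫` is associated to `X - b`
  have hL2 : ∀ p : A₀[X], Prime p → p ∈ 𝔫 → p ∣ h.d → Associated p (X - C b) := by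
    intro p hp hp𝔫 hpd
    by_contra hass
    have hpπ : ¬ p ∣ C π := by
      intro hdvd
      have hass' : Associated p (C π) := hp.associated_of_dvd (sm_C_pi_prime hπ) hdvd
      exact hdπ (hass'.symm.dvd.trans hpd)
    have hpc : ¬ p ∣ c := by
      rintro ⟨w, rfl⟩
      exact hc𝔫 (Ideal.mul_mem_right _ _ hp𝔫)
    have hq : (Ideal.span {p} : Ideal A₀[X]).IsPrime :=
      (Ideal.span_singleton_prime hp.ne_zero).mpr hp
    refine sm_unr_not_dvd h hinj hπ hnormal p hp hpc hpπ ?_ hpd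
    refine hunr (Ideal.span {p}) hq ?_ ?_ ?_ ?_
    · rw [Ne, Ideal.span_singleton_eq_bot]
      exact hp.ne_zero
    · rw [Ideal.span_le, Set.singleton_subset_iff]
      exact hp𝔫
    · rw [Ideal.mem_span_singleton]
      exact hpπ
    · rw [Ne, Ideal.span_singleton_eq_span_singleton]
      exact hass
  by_cases hb𝔫 : X - C b ∈ 𝔫
  · -- Case A: `𝔫 = (π, X - b)`
    have hg : 𝔫 = Ideal.span {C π, X - C b} := by
      apply le_antisymm
      · intro f hf
        have h1 : f = (X - C b) * (f /ₘ (X - C b)) + C (f.eval b) := by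
          have h0 := Polynomial.modByMonic_add_div f (X - C b)
          rw [modByMonic_X_sub_C_eq_C_eval] at h0
          linear_combination -h0
        have h2 : C (f.eval b) ∈ 𝔫 := by
          have h0 : C (f.eval b) = f - (X - C b) * (f /ₘ (X - C b)) := by
            linear_combination -h1
          rw [h0]
          exact Ideal.sub_mem _ hf (Ideal.mul_mem_right _ _ hb𝔫)
        have h3 : ¬ IsUnit (f.eval b) := by
          intro hu
          exact h𝔫.ne_top (Ideal.eq_top_of_isUnit_mem _ h2 (Polynomial.isUnit_C.mpr hu))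
        have h4 : f.eval b ∈ IsLocalRing.maximalIdeal A₀ := (IsLocalRing.mem_maximalIdeal _).mpr h3
        rw [hπ.maximalIdeal_eq, Ideal.mem_span_singleton] at h4
        obtain ⟨t, ht⟩ := h4
        rw [h1, ht, C_mul]
        exact Ideal.add_mem _ (Ideal.mul_mem_right _ _ (Ideal.subset_span (by simp)))
          (Ideal.mul_mem_right _ _ (Ideal.subset_span (by simp)))
      · rw [Ideal.span_le]
        rintro x (rfl | rfl)
        · exact hπ𝔫
        · exact hb𝔫
    obtain ⟨ρ, hρ, y, hy1, hy2⟩ := sm_D_exists_split h hinj hπ b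
    have hgprime : Prime (X - C b : A₀[X]) := Polynomial.prime_X_sub_C b
    have hgc : ¬ (X - C b) ∣ c := by
      rintro ⟨w, rfl⟩
      exact hc𝔫 (Ideal.mul_mem_right _ _ hb𝔫)
    have hgπ : ¬ (X - C b) ∣ C π := by
      rw [Polynomial.dvd_iff_isRoot, IsRoot.def, eval_C]
      exact hπ.ne_zero
    have hT5 : ¬ (X - C b) ^ (n - ρ + 1) ∣ h.d :=
      sm_locp_pow_not_dvd h hinj hπ hnormal (X - C b) hgprime hgc hgπ y hy2
    have hfin : FiniteMultiplicity (X - C b) h.d :=
      FiniteMultiplicity.of_not_isUnit hgprime.not_isUnit hd0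
    obtain ⟨a, d', hd', hgd'⟩ : ∃ (a : ℕ) (d' : A₀[X]),
        h.d = (X - C b) ^ a * d' ∧ ¬ (X - C b) ∣ d' :=
      ⟨_, hfin.exists_eq_pow_mul_and_not_dvd⟩
    have ha : a ≤ n - ρ := by
      by_contra hlt
      push Not at hlt
      apply hT5
      rw [hd']
      exact (pow_dvd_pow _ (by omega)).trans (dvd_mul_right _ _)
    have hd'𝔫 : d' ∉ 𝔫 := by
      intro hmem
      have hd'0 : d' ≠ 0 := by
        rintro rfl
        exact hd0 (by rw [hd', mul_zero])
      obtain ⟨p, hp, hpd, hp𝔫⟩ := sm_exists_prime_factor_mem 𝔫 h𝔫prime d' hd'0 hmem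
      have hass := hL2 p hp hp𝔫 (hpd.trans (hd' ▸ dvd_mul_left _ _))
      exact hgd' (hass.symm.dvd.trans hpd)
    refine sm_charl_inst_of_basis hπ hprime β h.d hβd 𝔫 h𝔫 (X - C b) hg ρ hρ ?_ y ?_ 𝔪 h𝔪 h𝔪𝔫
    · intro w hdvd
      have h1 : h.d - (X - C b) ^ (n - ρ + 1) * w
          = (X - C b) ^ a * (d' - (X - C b) ^ (n - ρ + 1 - a) * w) := by
        have h2 : (X - C b : A₀[X]) ^ (n - ρ + 1)
            = (X - C b) ^ a * (X - C b) ^ (n - ρ + 1 - a) := by
          rw [← pow_add]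
          congr 1
          omega
        rw [h2]
        conv_lhs => rw [hd']
        ring
      rw [h1] at hdvd
      have hCπg : ¬ C π ∣ (X - C b : A₀[X]) := by
        rw [Polynomial.C_dvd_iff_dvd_coeff]
        intro hall
        have h0 := hall 1
        simp at h0
        exact hπ.not_isUnit (isUnit_of_dvd_one h0)
      have h3 : C π ∣ d' - (X - C b) ^ (n - ρ + 1 - a) * w := by
        rcases (sm_C_pi_prime hπ).dvd_or_dvd hdvd with h4 | h4
        · exact absurd ((sm_C_pi_prime hπ).dvd_of_dvd_pow h4) hCπg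
        · exact h4
      obtain ⟨v, hv⟩ := h3
      apply hd'𝔫
      have h5 : d' = C π * v + (X - C b) * ((X - C b) ^ (n - ρ - a) * w) := by
        have h6 : (X - C b : A₀[X]) ^ (n - ρ + 1 - a)
            = (X - C b) * (X - C b) ^ (n - ρ - a) := by
          rw [← pow_succ']
          congr 1
          omega
        rw [h6] at hv
        linear_combination hv
      rw [h5]
      exact Ideal.add_mem _ (Ideal.mul_mem_right _ _ hπ𝔫) (Ideal.mul_mem_right _ _ hb𝔫)
    · intro z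
      obtain ⟨a', N, hN⟩ := hy1 z
      refine ⟨a', N, ?_⟩
      obtain ⟨w, hw⟩ := hN
      rw [hw]
      exact Ideal.mul_mem_right _ _ (Ideal.subset_span (by simp))
  · -- Case B: `d ∉ 𝔫`
    have hd𝔫 : h.d ∉ 𝔫 := by
      intro hd
      obtain ⟨p, hp, hpd, hp𝔫⟩ := sm_exists_prime_factor_mem 𝔫 h𝔫prime h.d hd0 hd
      obtain ⟨u, hu⟩ := hL2 p hp hp𝔫 hpd
      exact hb𝔫 (hu ▸ Ideal.mul_mem_right _ _ hp𝔫)
    obtain ⟨g, hg⟩ := sm_exists_gen hπ 𝔫 hπ𝔫
    refine sm_charl_inst_of_basis hπ hprime β h.d hβd 𝔫 h𝔫 g hg n le_rfl ?_ e ?_ 𝔪 h𝔪 h𝔪𝔫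
    · intro w hdvd
      obtain ⟨v, hv⟩ := hdvd
      apply hd𝔫
      have h1 : h.d = C π * v + g ^ (n - n + 1) * w := by linear_combination hv
      rw [h1, Nat.sub_self, zero_add, pow_one]
      have hg𝔫 : g ∈ 𝔫 := by
        rw [hg]
        exact Ideal.subset_span (by simp)
      exact Ideal.add_mem _ (Ideal.mul_mem_right _ _ hπ𝔫) (Ideal.mul_mem_right _ _ hg𝔫)
    · intro z
      obtain ⟨r, hr⟩ := h.span z
      obtain ⟨c', hc'⟩ := h.hc
      refine ⟨r, 1, ?_⟩
      rw [pow_one, ← hr]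
      have h1 : z - algebraMap A₀[X] B c * z
          = algebraMap A₀[X] B (C π) * (-(algebraMap A₀[X] B c') * z) := by
        have h2 : c = 1 + C π * c' := by linear_combination hc'
        rw [h2]
        simp only [map_add, map_mul, map_one]
        ring
      rw [h1]
      exact Ideal.mul_mem_right _ _ (Ideal.subset_span (by simp))

end Fermat.Agent.S18
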