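import Mathlib
import Fermat.Agent.S18.ChartPre
import Fermat.Agent.S18.PolyPrime
import Fermat.Agent.S18.DvrAtPrime
import Fermat.Agent.S18.Sm

/-!
# S18: the bridge from the chart hypotheses to the regularity of a chart

`s18_reg_of_smHyp`: a chart `B` (a subalgebra of `F`) satisfying the hypotheses `s18_SmHyp π t B`
of the smoothness theorem and the branch condition `s18_Branch π t B` is regular at every maximal
ideal containing `π`: this is `s18_sm` applied to `↥B` viewed as an `A₀[X]`-algebra via `X ↦ t`.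
-/

set_option autoImplicit false

namespace Fermat.Agent.S18

open Polynomial

section Bridge

/-- Divisibility by `ϖ` in a subring of a field. -/
theorem s18_br_dvd_iff {F : Type*} [Field F] (S : Subring F) (ϖ : F) (hϖ : ϖ ∈ S) (h0 : ϖ ≠ 0)
    (x : S) : (⟨ϖ, hϖ⟩ : S) ∣ x ↔ ϖ⁻¹ * (x : F) ∈ S := by
  constructor
  · rintro ⟨z, rfl⟩
    have h1 : ϖ⁻¹ * (((⟨ϖ, hϖ⟩ : S) * z : S) : F) = z := by
      rw [Subring.coe_mul, ← mul_assoc, inv_mul_cancel₀ h0, one_mul]
    rw [h1]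
    exact z.2
  · intro h
    refine ⟨⟨ϖ⁻¹ * x, h⟩, Subtype.ext ?_⟩
    rw [Subring.coe_mul, ← mul_assoc, mul_inv_cancel₀ h0, one_mul]

/-- `ϖ` is a prime element of a (pre)chart. -/
theorem s18_br_prime {F : Type*} [Field F] {ϖ : F} {S : Subring F} (h : s18_PreChart ϖ S) :
    Prime (⟨ϖ, h.ϖ_mem⟩ : S) := by
  refine ⟨?_, ?_, ?_⟩
  · intro h0
    exact h.ϖ_ne (congrArg Subtype.val h0)
  · intro hu
    obtain ⟨u, hu⟩ := hu.exists_right_inv
    apply h.nonunit
    have h1 : ϖ * (u : F) = 1 := congrArg Subtype.val hu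
    have h2 : ϖ⁻¹ = (u : F) := by
      rw [← mul_one ϖ⁻¹, ← h1, ← mul_assoc, inv_mul_cancel₀ h.ϖ_ne, one_mul]
    rw [h2]
    exact u.2
  · intro x y hxy
    rw [s18_br_dvd_iff _ _ _ h.ϖ_ne] at hxy ⊢
    rw [s18_br_dvd_iff _ _ _ h.ϖ_ne]
    rw [Subring.coe_mul] at hxy
    exact h.prime x x.2 y y.2 hxy

variable {A₀ F : Type*} [CommRing A₀] [Field F] [Algebra A₀ F]

/-- The ring homomorphism `A₀[X] → B`, `X ↦ t`. -/
noncomputable def s18_brHom (B : Subalgebra A₀ F) (t : F) (ht : t ∈ B) : A₀[X] →+* B.toSubring :=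
  ((aeval t : A₀[X] →ₐ[A₀] F).toRingHom).codRestrict B.toSubring (fun P => by
    have h1 : aeval t P = ((aeval (⟨t, ht⟩ : B) P : B) : F) :=
      (Polynomial.aeval_subalgebra_coe P B ⟨t, ht⟩).symm
    show aeval t P ∈ B
    rw [h1]
    exact (aeval (⟨t, ht⟩ : B) P).2)

theorem s18_brHom_coe (B : Subalgebra A₀ F) (t : F) (ht : t ∈ B) (P : A₀[X]) :
    ((s18_brHom B t ht P : B.toSubring) : F) = aeval t P := rfl

/-- **The bridge**: a chart satisfying the hypotheses of the smoothness theorem and the branch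
condition is regular at every maximal ideal containing `π`. -/
theorem s18_reg_of_smHyp {A₀ F : Type*} [CommRing A₀] [IsDomain A₀] [IsDiscreteValuationRing A₀]
    [CharZero A₀] [Field F] [Algebra A₀ F] {π : A₀} (hπ : Irreducible π) {t : F}
    {B : Subalgebra A₀ F} (hS : s18_SmHyp π t B) (hBr : s18_Branch π t B)
    (𝔪 : Ideal B.toSubring) (h𝔪 : 𝔪.IsMaximal)
    (hϖ𝔪 : (⟨algebraMap A₀ F π, hS.pre.ϖ_mem⟩ : B.toSubring) ∈ 𝔪) :
    ∃ s ∈ 𝔪, ∀ x ∈ 𝔪, ∃ u, u ∉ 𝔪 ∧
      u * x ∈ Ideal.span {(⟨algebraMap A₀ F π, hS.pre.ϖ_mem⟩ : B.toSubring), s} := by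
  classical
  let alg : Algebra A₀[X] B.toSubring := (s18_brHom B t hS.t_mem).toAlgebra
  have halg : ∀ P : A₀[X], ((algebraMap A₀[X] B.toSubring P : B.toSubring) : F) = aeval t P :=
    fun P => rfl
  have hCπ : algebraMap A₀[X] B.toSubring (C π) = ⟨algebraMap A₀ F π, hS.pre.ϖ_mem⟩ :=
    Subtype.ext (by rw [halg, aeval_C])
  -- finiteness
  have hfin : Module.Finite A₀[X] B.toSubring := by
    obtain ⟨gen, hgen, hspan⟩ := hS.finite
    refine ⟨⟨gen.attach.image (fun m => (⟨m.1, hgen m.1 m.2⟩ : B.toSubring)), ?_⟩⟩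
    rw [eq_top_iff]
    rintro x -
    obtain ⟨c, hc⟩ := hspan x x.2
    have hx : x = ∑ m ∈ gen.attach, c m.1 • (⟨m.1, hgen m.1 m.2⟩ : B.toSubring) := by
      apply Subtype.ext
      rw [hc, ← Finset.sum_attach, AddSubmonoidClass.coe_finsetSum]
      apply Finset.sum_congr rfl
      intro m _
      rw [Algebra.smul_def]
      rfl
    rw [hx]
    refine Submodule.sum_mem _ fun m hm => Submodule.smul_mem _ _ (Submodule.subset_span ?_)
    exact Finset.mem_coe.mpr (Finset.mem_image_of_mem _ hm)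
  -- injectivity
  have hinj : Function.Injective (algebraMap A₀[X] B.toSubring) := by
    rw [injective_iff_map_eq_zero]
    intro P hP
    exact hS.transc P (by rw [← halg, hP]; rfl)
  have hprime : Prime (algebraMap A₀[X] B.toSubring (C π)) := by
    rw [hCπ]
    exact s18_br_prime hS.pre
  -- separability
  have hsep : ∀ x : B.toSubring, ∃ P : A₀[X][X],
      (algebraMap A₀[X] B.toSubring (C π)) ∣ aeval x P ∧
        ¬ (algebraMap A₀[X] B.toSubring (C π)) ∣ aeval x (derivative P) := by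
    intro x
    obtain ⟨P, h1, h2⟩ := hS.sep x x.2
    have hev : ∀ Q : A₀[X][X], ((aeval x Q : B.toSubring) : F)
        = Q.eval₂ (aeval t : A₀[X] →ₐ[A₀] F).toRingHom (x : F) := by
      intro Q
      rw [aeval_def]
      exact Polynomial.hom_eval₂ Q (algebraMap A₀[X] B.toSubring) B.toSubring.subtype x
    refine ⟨P, ?_, ?_⟩
    · rw [hCπ, s18_br_dvd_iff _ _ _ hS.pre.ϖ_ne, hev]
      exact h1
    · rw [hCπ, s18_br_dvd_iff _ _ _ hS.pre.ϖ_ne, hev]
      exact h2
  -- normality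
  have hfr : IsFractionRing B.toSubring F := by
    refine IsFractionRing.of_field B.toSubring F fun z => ?_
    obtain ⟨x, hx, y, hy, hy0, rfl⟩ := hS.pre.frac z
    exact ⟨⟨x, hx⟩, ⟨y, hy⟩, rfl⟩
  have hnormal : ∀ z : FractionRing B.toSubring, IsIntegral B.toSubring z →
      ∃ (k : ℕ) (x : B.toSubring), algebraMap B.toSubring (FractionRing B.toSubring) x =
        algebraMap B.toSubring (FractionRing B.toSubring)
          (algebraMap A₀[X] B.toSubring (C π)) ^ k * z := by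
    intro z hz
    have hz' : IsIntegral B.toSubring (FractionRing.algEquiv B.toSubring F z) :=
      hz.map (FractionRing.algEquiv B.toSubring F)
    obtain ⟨k, hk⟩ := hS.normal _ hz'
    refine ⟨k, ⟨_, hk⟩, ?_⟩
    apply (FractionRing.algEquiv B.toSubring F).injective
    rw [AlgEquiv.commutes, map_mul, map_pow, AlgEquiv.commutes, hCπ]
    rfl
  -- the maximal ideal of `A₀[X]`
  have h𝔫 : (𝔪.comap (algebraMap A₀[X] B.toSubring)).IsMaximal :=
    Ideal.isMaximal_comap_of_isIntegral_of_isMaximal 𝔪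
  have hπ𝔫 : C π ∈ 𝔪.comap (algebraMap A₀[X] B.toSubring) := by
    rw [Ideal.mem_comap, hCπ]
    exact hϖ𝔪
  obtain ⟨b, hb⟩ := hBr _ h𝔫 hπ𝔫
  -- unramifiedness
  have hunr : ∀ q : Ideal A₀[X], q.IsPrime → q ≠ ⊥ →
      q ≤ 𝔪.comap (algebraMap A₀[X] B.toSubring) → C π ∉ q → q ≠ Ideal.span {X - C b} →
      ∀ Q : Ideal B.toSubring, Q.IsPrime → Q.comap (algebraMap A₀[X] B.toSubring) = q →
        ∀ x ∈ Q, ∃ s, s ∉ Q ∧ s * x ∈ q.map (algebraMap A₀[X] B.toSubring) := by
    intro q hq hq0 hq𝔫 hπq hqb Q hQ hQq x hxQ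
    obtain ⟨g, hqg, hgirr, hπg, hh1⟩ := s18_e1_prime_principal π hπ q hq hq0 hπq
    have hgq : g ∈ q := by
      rw [hqg]
      exact Ideal.mem_span_singleton_self g
    have hgQ : algebraMap A₀[X] B.toSubring g ∈ Q := by
      rw [← Ideal.mem_comap, hQq]
      exact hgq
    have hgassoc : ¬ Associated g (X - C b) := by
      intro ha
      apply hqb
      rw [hqg]
      exact Ideal.span_singleton_eq_span_singleton.mpr ha
    have hQ0 : Q ≠ ⊥ := by
      rintro rfl
      apply hq0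
      rw [← hQq, ← RingHom.ker_eq_comap_bot]
      exact (RingHom.injective_iff_ker_eq_bot _).mp hinj
    have hone : (1 : B.toSubring) ∉ Q := fun h => hQ.ne_top ((Ideal.eq_top_iff_one Q).mpr h)
    have hϖQ : (⟨algebraMap A₀ F π, hS.pre.ϖ_mem⟩ : B.toSubring) ∉ Q := by
      rw [← hCπ, ← Ideal.mem_comap, hQq]
      exact hπq
    have hht : ∀ Q' : Ideal B.toSubring, Q'.IsPrime → Q' ≠ ⊥ → Q' ≤ Q → Q' = Q := by
      intro Q' hQ' hQ'0 hle
      have hc0 : Q'.comap (algebraMap A₀[X] B.toSubring) ≠ ⊥ :=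
        fun h0 => hQ'0 (Ideal.eq_bot_of_comap_eq_bot h0)
      have hcq : Q'.comap (algebraMap A₀[X] B.toSubring) = q :=
        hh1 _ (Ideal.comap_isPrime _ _) hc0 (by rw [← hQq]; exact Ideal.comap_mono hle)
      by_contra hne
      obtain ⟨y, hyQ, hyQ'⟩ := SetLike.exists_of_lt (lt_of_le_of_ne hle hne)
      have hlt := Ideal.comap_lt_comap_of_integral_mem_sdiff hle ⟨hyQ, hyQ'⟩
        (Algebra.IsIntegral.isIntegral (R := A₀[X]) y)
      rw [hcq, hQq] at hlt
      exact lt_irrefl _ hlt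
    have hnorm : ∀ z : F, IsIntegral B.toSubring z →
        ∃ s : B.toSubring, s ∉ Q ∧ (s : F) * z ∈ B.toSubring := by
      intro z hz
      obtain ⟨k, hk⟩ := hS.normal z hz
      exact ⟨⟨algebraMap A₀ F π, hS.pre.ϖ_mem⟩ ^ k, fun h => hϖQ (hQ.mem_of_pow_mem k h), hk⟩
    obtain ⟨W, hWdvr, hW⟩ :=
      s18_e1_dvr_at_prime B.toSubring hS.pre.noeth hS.pre.frac Q hQ hQ0 hht hnorm
    have hBW : ∀ x ∈ B, x ∈ W := fun x hx =>
      (hW x).mpr ⟨⟨x, hx⟩, 1, hone, by simp⟩
    have hπW : (algebraMap A₀ F π)⁻¹ ∈ W :=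
      (hW _).mpr ⟨1, ⟨algebraMap A₀ F π, hS.pre.ϖ_mem⟩, hϖQ, by simp⟩
    have hmem_of_inv : ∀ y : B.toSubring, y ∈ Q → y ≠ 0 → (y : F)⁻¹ ∉ W := by
      intro y hyQ hy0 h
      obtain ⟨a, s, hs, has⟩ := (hW _).mp h
      apply hs
      have hs0 : (s : F) ≠ 0 := by
        intro h0
        apply hs
        have : s = 0 := Subtype.ext h0
        rw [this]
        exact Q.zero_mem
      have hy0' : (y : F) ≠ 0 := fun h0 => hy0 (Subtype.ext h0)
      have h1 : s = a * y := by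
        apply Subtype.ext
        rw [Subring.coe_mul]
        field_simp at has
        linear_combination has
      rw [h1]
      exact Q.mul_mem_left _ hyQ
    have hg0 : algebraMap A₀[X] B.toSubring g ≠ 0 := by
      rw [Ne, map_eq_zero_iff _ hinj]
      exact hgirr.ne_zero
    have hgW : (aeval t g)⁻¹ ∉ W := hmem_of_inv _ hgQ hg0
    have key := hb g (hq𝔫 hgq) hgirr hπg hgassoc W hWdvr hBW hπW hgW
    by_cases hx0 : x = 0
    · exact ⟨1, hone, by rw [hx0, mul_zero]; exact Ideal.zero_mem _⟩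
    have hxW : (x : F) ∈ W := hBW x x.2
    obtain ⟨a, s, hs, has⟩ := (hW _).mp (key x hxW (hmem_of_inv x hxQ hx0))
    refine ⟨s, hs, ?_⟩
    have hs0 : (s : F) ≠ 0 := by
      intro h0
      apply hs
      have : s = 0 := Subtype.ext h0
      rw [this]
      exact Q.zero_mem
    have hg0' : aeval t g ≠ 0 := fun h0 => hg0 (Subtype.ext h0)
    have h1 : s * x = a * algebraMap A₀[X] B.toSubring g := by
      apply Subtype.ext
      rw [Subring.coe_mul, Subring.coe_mul, halg]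
      field_simp at has
      linear_combination has
    rw [h1]
    exact Ideal.mul_mem_left _ _ (Ideal.mem_map_of_mem _ hgq)
  obtain ⟨s, hs, H⟩ := s18_sm hinj π hπ hprime hsep hnormal _ h𝔫 hπ𝔫 b hunr 𝔪 h𝔪 rfl
  refine ⟨s, hs, fun x hx => ?_⟩
  obtain ⟨u, hu, hux⟩ := H x hx
  exact ⟨u, hu, by rw [← hCπ]; exact hux⟩

/-- A chart satisfying the hypotheses of the smoothness theorem and the branch condition is a
chart in the sense of block A. -/
theorem s18_chart_of_smHyp {A₀ F : Type*} [CommRing A₀] [IsDomain A₀] [IsDiscreteValuationRing A₀]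
    [CharZero A₀] [Field F] [Algebra A₀ F] {π : A₀} (hπ : Irreducible π) {t : F}
    {B : Subalgebra A₀ F} (hS : s18_SmHyp π t B) (hBr : s18_Branch π t B) :
    s18_Chart (algebraMap A₀ F π) B.toSubring :=
  { ϖ_mem := hS.pre.ϖ_mem
    ϖ_ne := hS.pre.ϖ_ne
    noeth := hS.pre.noeth
    frac := hS.pre.frac
    prime := hS.pre.prime
    nonunit := hS.pre.nonunit
    reg := fun 𝔪 h𝔪 hϖ => s18_reg_of_smHyp hπ hS hBr 𝔪 h𝔪 hϖ }

/-- The two-chart structure of block A from the chart package of block C and the branch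
conditions of the two charts. -/
theorem s18_twoChart_of_pkg {A₀ F : Type*} [CommRing A₀] [IsDomain A₀]
    [IsDiscreteValuationRing A₀] [CharZero A₀] [Field F] [Algebra A₀ F] {π : A₀}
    (hπ : Irreducible π) {t : F} {B0 Binf : Subalgebra A₀ F} (hP : s18_ChartPkg π t B0 Binf)
    (hBr0 : s18_Branch π t B0) (hBrInf : s18_Branch π t⁻¹ Binf) :
    s18_TwoChart π t B0 Binf :=
  { chart0 := s18_chart_of_smHyp hπ hP.sm0 hBr0
    chartInf := s18_chart_of_smHyp hπ hP.smInf hBrInf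
    t_ne := hP.t_ne
    t_mem := hP.sm0.t_mem
    tinv_mem := hP.smInf.t_mem
    t_unit0 := hP.t_unit0
    t_unitInf := hP.t_unitInf
    glue0 := hP.glue0
    glueInf := hP.glueInf
    h1 := hP.h1
    fin := hP.fin }

end Bridge

end Fermat.Agent.S18
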