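import Fermat.Agent.S18.Unram
import Fermat.Agent.S24

/-!
# S18, block D3 (helper24): places of `Q̄ · F_N` over discrete valuation rings of `K · F_N`

For a field `K` with `ℚ → K → Q̄` (e.g. a number field inside `Q̄`), `F1 := laurentBaseChange K F_N`
maps into `modularFunctionFieldBar N` by `s18_baseIncl` (`coeffMap` of the inclusion of constants).

* `s18_d3` : every discrete valuation subring `W` of `F1` containing the constants `K` is
  dominated by a place `P` of `modularFunctionFieldBar N` at which the uniformizers of `W` have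
  order one (constant field extensions are unramified).
* `s18_d3_hdiv` : a function of `F1` whose divisor on `modularFunctionFieldBar N` is divisible by
  `m` is, at each such `W`, a unit times an `m`-th power (the `hdiv` hypothesis of `s18_as_main`).
-/

set_option autoImplicit false
set_option synthInstance.maxHeartbeats 400000
set_option linter.unusedSectionVars false

open ModularCurve AlgebraicCurve IntermediateField Polynomial

noncomputable section

namespace Fermat.Agent.S18

section Dominate

variable {K1 Ω F1 Fb : Type*} [Field K1] [Field Ω] [Field F1] [Field Fb]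
  [Algebra K1 Ω] [Algebra K1 F1] [Algebra Ω Fb]

/-- Domination gives equivalences. -/
theorem s18_dominate_iff (ι : F1 →+* Fb) (W : ValuationSubring F1) (V : ValuationSubring Fb)
    (hWV : ∀ x ∈ W, ι x ∈ V) (hnon : ∀ x ∈ W.nonunits, ι x ∈ V.nonunits) :
    (∀ x : F1, x ∈ W ↔ ι x ∈ V) ∧ (∀ x : F1, x ∈ W.nonunits ↔ ι x ∈ V.nonunits) := by
  refine ⟨fun x => ⟨hWV x, fun hx => ?_⟩, fun x => ⟨hnon x, fun hx => ?_⟩⟩
  · by_contra hxW
    have hx0 : x ≠ 0 := fun h0 => hxW (h0 ▸ W.zero_mem)
    have h1 : x⁻¹ ∈ W.nonunits := W.inv_mem_nonunits_iff.mpr (Or.inr hxW)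
    have h2 := hnon _ h1
    rw [map_inv₀, V.inv_mem_nonunits_iff] at h2
    rcases h2 with h2 | h2
    · exact hx0 ((map_eq_zero ι).mp h2)
    · exact h2 hx
  · by_contra hxW
    rw [W.mem_nonunits_iff_or, not_or, not_not] at hxW
    obtain ⟨hx0, hxi⟩ := hxW
    have h2 := hWV _ hxi
    rw [V.mem_nonunits_iff_or] at hx
    rcases hx with hx | hx
    · exact hx0 ((map_eq_zero ι).mp hx)
    · rw [map_inv₀] at h2
      exact hx h2

/-- A place of `Fb / Ω` over any nontrivial valuation subring `W` of `F1` containing `K1`. -/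
theorem s18_exists_place_over [Algebra.IsAlgebraic K1 Ω] [IsAlgClosed Ω]
    (ι : F1 →+* Fb) (hι : ∀ c : K1, ι (algebraMap K1 F1 c) = algebraMap Ω Fb (algebraMap K1 Ω c))
    (j : Fb) [FiniteDimensional Ω⟮j⟯ Fb]
    (W : ValuationSubring F1) (hK : ∀ c : K1, algebraMap K1 F1 c ∈ W) (hW : W ≠ ⊤) :
    ∃ P : Place Ω Fb, (∀ x : F1, x ∈ W ↔ ι x ∈ P.toValuationSubring) ∧
      (∀ x : F1, x ∈ W.nonunits ↔ ι x ∈ P.toValuationSubring.nonunits) := by
  obtain ⟨V, hWV, hnon⟩ := s18_exists_dominating ι W
  have hΩ : ∀ c : Ω, algebraMap Ω Fb c ∈ V :=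
    s18_algebraMap_mem_of_isAlgebraic ι hι V (fun c => hWV _ (hK c))
  obtain ⟨x, hx⟩ : ∃ x : F1, x ∉ W := by
    by_contra hall
    push Not at hall
    exact hW (eq_top_iff.mpr fun x _ => hall x)
  have hx0 : x ≠ 0 := fun h0 => hx (h0 ▸ W.zero_mem)
  have h1 : x⁻¹ ∈ W.nonunits := W.inv_mem_nonunits_iff.mpr (Or.inr hx)
  have h2 : (ι x)⁻¹ ∈ V.nonunits := by
    rw [← map_inv₀]
    exact hnon _ h1
  have hVtop : V ≠ ⊤ := by
    intro htop
    rw [V.inv_mem_nonunits_iff] at h2
    rcases h2 with h2 | h2
    · exact hx0 ((map_eq_zero ι).mp h2)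
    · exact h2 (by rw [htop]; trivial)
  obtain ⟨P, hP⟩ := s18_exists_place_of_valuationSubring j V hΩ hVtop
  subst hP
  exact ⟨P, s18_dominate_iff ι W _ hWV hnon⟩

end Dominate

section UnramMod

variable (K : Type*) [Field K] [Algebra ℚ K] [Algebra K (AlgebraicClosure ℚ)]

theorem s18_coeffMap_coeffEmb_bar (z : LaurentSeries ℚ) :
    coeffMap (algebraMap K (AlgebraicClosure ℚ)) (coeffEmb K z) =
      coeffEmb (AlgebraicClosure ℚ) z := by
  rw [coeffEmb, coeffMap_coeffMap]
  exact coeffMap_congr (RingHom.ext_rat _ _) z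

theorem s18_coeffMap_algebraMap_bar (c : K) :
    coeffMap (algebraMap K (AlgebraicClosure ℚ)) (algebraMap K (LaurentSeries K) c) =
      algebraMap (AlgebraicClosure ℚ) (LaurentSeries (AlgebraicClosure ℚ))
        (algebraMap K (AlgebraicClosure ℚ) c) := by
  rw [algebraMap_laurentSeries_eq_single, algebraMap_laurentSeries_eq_single, coeffMap_single]

variable (N : ℕ) [NeZero N]

theorem s18_coeffMap_mem_bar {x : LaurentSeries K}
    (hx : x ∈ laurentBaseChange K (modularFunctionFieldFull N)) :
    coeffMap (algebraMap K (AlgebraicClosure ℚ)) x ∈ modularFunctionFieldBar N := by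
  rw [mem_laurentBaseChange_iff] at hx
  induction hx using Subfield.closure_induction with
  | mem y hy =>
      rcases hy with ⟨a, rfl⟩ | ⟨z, hz, rfl⟩
      · rw [s18_coeffMap_algebraMap_bar]
        exact (modularFunctionFieldBar N).algebraMap_mem _
      · rw [s18_coeffMap_coeffEmb_bar]
        exact coeffEmb_mem_laurentBaseChange (AlgebraicClosure ℚ) hz
  | one => simp
  | add x y _ _ hx hy => simpa using add_mem hx hy
  | neg x _ hx => simpa using neg_mem hx
  | inv x _ hx => simpa using inv_mem hx
  | mul x y _ _ hx hy => simpa using mul_mem hx hy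

/-- The inclusion `K · F_N → Q̄ · F_N` (extension of constants). -/
def s18_baseIncl :
    laurentBaseChange K (modularFunctionFieldFull N) →+* modularFunctionFieldBar N where
  toFun x := ⟨coeffMap (algebraMap K (AlgebraicClosure ℚ)) x, s18_coeffMap_mem_bar K N x.2⟩
  map_one' := Subtype.ext (map_one _)
  map_mul' _ _ := Subtype.ext (map_mul _ _ _)
  map_zero' := Subtype.ext (map_zero _)
  map_add' _ _ := Subtype.ext (map_add _ _ _)

@[simp] theorem s18_baseIncl_coe (x : laurentBaseChange K (modularFunctionFieldFull N)) :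
    ((s18_baseIncl K N x : modularFunctionFieldBar N) : LaurentSeries (AlgebraicClosure ℚ)) =
      coeffMap (algebraMap K (AlgebraicClosure ℚ)) (x : LaurentSeries K) := rfl

theorem s18_baseIncl_algebraMap (c : K) :
    s18_baseIncl K N (algebraMap K (laurentBaseChange K (modularFunctionFieldFull N)) c) =
      algebraMap (AlgebraicClosure ℚ) (modularFunctionFieldBar N)
        (algebraMap K (AlgebraicClosure ℚ) c) :=
  Subtype.ext (s18_coeffMap_algebraMap_bar K c)

/-- `Q̄ · F_N` is generated, as a field, by `Q̄` and the image of `K · F_N`: every element is a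
quotient of `Q̄`-linear combinations of elements of the image. -/
theorem s18_baseIncl_gen (y : modularFunctionFieldBar N) :
    ∃ a b : modularFunctionFieldBar N,
      a ∈ Submodule.span (AlgebraicClosure ℚ) (Set.range (s18_baseIncl K N)) ∧
      b ∈ Submodule.span (AlgebraicClosure ℚ) (Set.range (s18_baseIncl K N)) ∧ b ≠ 0 ∧
      y = a / b := by
  have htop : ∀ y : modularFunctionFieldBar N,
      y ∈ IntermediateField.adjoin (AlgebraicClosure ℚ) (Set.range (s18_baseIncl K N)) := by
    intro y
    have hle : (modularFunctionFieldBar N) ≤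
        (IntermediateField.adjoin (AlgebraicClosure ℚ) (Set.range (s18_baseIncl K N))).map
          (modularFunctionFieldBar N).val := by
      show IntermediateField.adjoin (AlgebraicClosure ℚ)
        (⇑(coeffEmb (AlgebraicClosure ℚ)) '' (modularFunctionFieldFull N : Set (LaurentSeries ℚ))) ≤ _
      rw [IntermediateField.adjoin_le_iff]
      rintro x ⟨z, hz, rfl⟩
      rw [SetLike.mem_coe, IntermediateField.mem_map]
      exact ⟨s18_baseIncl K N ⟨coeffEmb K z, coeffEmb_mem_laurentBaseChange K hz⟩,
        IntermediateField.subset_adjoin _ _ ⟨_, rfl⟩, s18_coeffMap_coeffEmb_bar K z⟩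
    have hmem := hle y.2
    rw [IntermediateField.mem_map] at hmem
    obtain ⟨y', hy', hyy⟩ := hmem
    have : y' = y := Subtype.ext hyy
    rw [← this]
    exact hy'
  have hspan : ∀ r ∈ Algebra.adjoin (AlgebraicClosure ℚ) (Set.range (s18_baseIncl K N)),
      r ∈ Submodule.span (AlgebraicClosure ℚ) (Set.range (s18_baseIncl K N)) := by
    intro r hr
    have h1 := Algebra.adjoin_eq_span (R := AlgebraicClosure ℚ)
      (s := Set.range (s18_baseIncl K N))
    have hcl : ((Submonoid.closure (Set.range (s18_baseIncl K N)) :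
        Submonoid (modularFunctionFieldBar N)) : Set (modularFunctionFieldBar N)) =
        Set.range (s18_baseIncl K N) := by
      have h2 : Set.range (s18_baseIncl K N) =
          (((s18_baseIncl K N).rangeS.toSubmonoid : Submonoid (modularFunctionFieldBar N)) :
            Set (modularFunctionFieldBar N)) := rfl
      rw [h2, Submonoid.closure_eq]
    rw [← hcl, ← h1]
    exact hr
  obtain ⟨r, hr, s, hs, hrs⟩ := IntermediateField.mem_adjoin_iff_div.mp (htop y)
  by_cases hs0 : s = 0
  · refine ⟨0, 1, zero_mem _, Submodule.subset_span ⟨1, map_one _⟩, one_ne_zero, ?_⟩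
    rw [hrs, hs0, div_zero, zero_div]
  · exact ⟨r, s, hspan r hr, hspan s hs, hs0, hrs⟩

theorem s18_isAlgebraic_bar : Algebra.IsAlgebraic K (AlgebraicClosure ℚ) := by
  have h1 : IsScalarTower ℚ K (AlgebraicClosure ℚ) :=
    IsScalarTower.of_algebraMap_eq' (RingHom.ext_rat _ _)
  have h2 : Algebra.IsAlgebraic ℚ (AlgebraicClosure ℚ) := AlgebraicClosure.isAlgebraic ℚ
  exact Algebra.IsAlgebraic.tower_top (K := ℚ) K

/-- **D3.** Every discrete valuation subring `W` of `K · F_N` containing the constants is dominated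
by a place of `Q̄ · F_N` at which uniformizers of `W` have order one. -/
theorem s18_d3 (W : ValuationSubring (laurentBaseChange K (modularFunctionFieldFull N)))
    [IsDiscreteValuationRing W]
    (hK : ∀ c : K, algebraMap K (laurentBaseChange K (modularFunctionFieldFull N)) c ∈ W) :
    ∃ P : Place (AlgebraicClosure ℚ) (modularFunctionFieldBar N),
      (∀ x ∈ W, s18_baseIncl K N x ∈ P.toValuationSubring) ∧
      (∀ x ∈ W.nonunits, s18_baseIncl K N x ∈ P.toValuationSubring.nonunits) ∧
      ∀ w : W, Irreducible w → P.ord (s18_baseIncl K N w) = 1 := by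
  have := (Fermat.Agent.S24.asm_generic N).1
  have : CharZero K := algebraRat.charZero K
  have := s18_isAlgebraic_bar K
  exact s18_unram_const_ext (s18_baseIncl K N) (s18_baseIncl_algebraMap K N)
    (s18_baseIncl_gen K N) (Fermat.Agent.S24.jF N) W hK

/-- **D3, `hdiv` form.** A nonzero function `h` of `K · F_N` all of whose orders at the places of
`Q̄ · F_N` are divisible by `m` is, at every discrete valuation subring `W` of `K · F_N` containing
the constants, a unit times an `m`-th power. -/
theorem s18_d3_hdiv (m : ℕ) (h : laurentBaseChange K (modularFunctionFieldFull N)) (hh : h ≠ 0)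
    (hdvd : ∀ P : Place (AlgebraicClosure ℚ) (modularFunctionFieldBar N),
      (m : ℤ) ∣ P.ord (s18_baseIncl K N h))
    (W : ValuationSubring (laurentBaseChange K (modularFunctionFieldFull N)))
    (hW : IsDiscreteValuationRing W)
    (hK : ∀ c : K, algebraMap K (laurentBaseChange K (modularFunctionFieldFull N)) c ∈ W) :
    ∃ g u : laurentBaseChange K (modularFunctionFieldFull N), u ∈ W ∧ u⁻¹ ∈ W ∧ h = u * g ^ m := by
  have := (Fermat.Agent.S24.asm_generic N).1
  have : CharZero K := algebraRat.charZero K
  have := s18_isAlgebraic_bar K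
  exact s18_unram_hdiv (s18_baseIncl K N) (s18_baseIncl_algebraMap K N)
    (s18_baseIncl_gen K N) (Fermat.Agent.S24.jF N) m h hh hdvd W hW hK

/-- **D3a.** A place of `Q̄ · F_N` over any nontrivial valuation subring of `K · F_N` containing
the constants. -/
theorem s18_d3_place_over (W : ValuationSubring (laurentBaseChange K (modularFunctionFieldFull N)))
    (hK : ∀ c : K, algebraMap K (laurentBaseChange K (modularFunctionFieldFull N)) c ∈ W)
    (hW : W ≠ ⊤) :
    ∃ P : Place (AlgebraicClosure ℚ) (modularFunctionFieldBar N),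
      (∀ x, x ∈ W ↔ s18_baseIncl K N x ∈ P.toValuationSubring) ∧
      (∀ x, x ∈ W.nonunits ↔ s18_baseIncl K N x ∈ P.toValuationSubring.nonunits) := by
  have := (Fermat.Agent.S24.asm_generic N).1
  have := s18_isAlgebraic_bar K
  exact s18_exists_place_over (s18_baseIncl K N) (s18_baseIncl_algebraMap K N)
    (Fermat.Agent.S24.jF N) W hK hW

/-- **D3, full form.** For a discrete valuation subring `W` of `K · F_N` containing the constants
there is a place `P` of `Q̄ · F_N` with `W = ι⁻¹(O_P)`, `𝔪_W = ι⁻¹(𝔪_P)` and `ord_P (ι w) = 1` for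
every uniformizer `w` of `W`. -/
theorem s18_d3_full (W : ValuationSubring (laurentBaseChange K (modularFunctionFieldFull N)))
    [IsDiscreteValuationRing W]
    (hK : ∀ c : K, algebraMap K (laurentBaseChange K (modularFunctionFieldFull N)) c ∈ W) :
    ∃ P : Place (AlgebraicClosure ℚ) (modularFunctionFieldBar N),
      (∀ x, x ∈ W ↔ s18_baseIncl K N x ∈ P.toValuationSubring) ∧
      (∀ x, x ∈ W.nonunits ↔ s18_baseIncl K N x ∈ P.toValuationSubring.nonunits) ∧
      ∀ w : W, Irreducible w → P.ord (s18_baseIncl K N w) = 1 := by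
  obtain ⟨P, h1, h2, h3⟩ := s18_d3 K N W hK
  obtain ⟨h4, h5⟩ := s18_dominate_iff (s18_baseIncl K N) W _ h1 h2
  exact ⟨P, h4, h5, h3⟩

/-- **D3b** (from S24): every element of the valuation ring of a place of `Q̄ · F_N` is congruent
to a constant. -/
theorem s18_d3_residue (P : Place (AlgebraicClosure ℚ) (modularFunctionFieldBar N))
    (f : modularFunctionFieldBar N) (hf : f ∈ P.toValuationSubring) :
    ∃ c : AlgebraicClosure ℚ,
      f - algebraMap (AlgebraicClosure ℚ) (modularFunctionFieldBar N) c ∈
        P.toValuationSubring.nonunits := by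
  have := (Fermat.Agent.S24.asm_generic N).1
  exact Fermat.Agent.S24.exists_const_sub_mem_nonunits (Fermat.Agent.S24.jF N)
    (Fermat.Agent.S24.transcendental_jF N) P f hf

/-- Finiteness of the support of a principal divisor on `Q̄ · F_N` (from S24). -/
theorem s18_d3_finite_support (f : modularFunctionFieldBar N) (hf : f ≠ 0) :
    {P : Place (AlgebraicClosure ℚ) (modularFunctionFieldBar N) | P.ord f ≠ 0}.Finite := by
  have := (Fermat.Agent.S24.asm_generic N).1
  exact Fermat.Agent.S24.finite_support_ord (Fermat.Agent.S24.jF N)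
    (Fermat.Agent.S24.transcendental_jF N) f hf

end UnramMod

end Fermat.Agent.S18
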