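import Mathlib
import Fermat.Agent.S18.Setup
import Fermat.Agent.S18.ChAlg
import Fermat.Agent.S18.UnramMod
import Fermat.Agent.S18.AsMain
import Fermat.Agent.S18.SmBridge

/-!
# S18 assembly (helper15): the core of (INJ) at an auxiliary level

`s18_inj_core` : given the two charts of block C over `A₁ = A ∩ K₁` with the branch conditions, a
function `f = a / b` of `F1 = K₁ · F(N')` in Gauss normal form (`π ∤ b`, `π ∣ a - b`) all of whose
orders at the places of `Q̄ · F(N')` are divisible by `m` (a unit of `A₁`) is an `m`-th power in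
`Q̄ · F(N')`.  (Two-chart theorem `s18_as_main` + regularity `s18_twoChart_of_pkg` + D3.)
-/

set_option autoImplicit false
set_option synthInstance.maxHeartbeats 400000

open ModularCurve AlgebraicCurve

noncomputable section

namespace Fermat.Agent.S18

/-- A valuation subring of `F1` containing `A₁` and `π⁻¹` contains `K₁`. -/
theorem s18_K_mem_of_A1 (N' : ℕ) (A : ValuationSubring (AlgebraicClosure ℚ))
    (K₁ : IntermediateField ℚ (AlgebraicClosure ℚ)) [IsDiscreteValuationRing (s18_A1 A K₁)]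
    {π : s18_A1 A K₁} (hπ : Irreducible π) (W : ValuationSubring (s18_F1 K₁ N'))
    (hA : ∀ x : s18_A1 A K₁, algebraMap (s18_A1 A K₁) (s18_F1 K₁ N') x ∈ W)
    (hπW : (algebraMap (s18_A1 A K₁) (s18_F1 K₁ N') π)⁻¹ ∈ W) (c : K₁) :
    algebraMap K₁ (s18_F1 K₁ N') c ∈ W := by
  rcases (s18_A1 A K₁).mem_or_inv_mem c with hc | hc
  · exact hA ⟨c, hc⟩
  · by_cases hc0 : c = 0
    · rw [hc0, map_zero]; exact W.zero_mem
    have hne : (⟨c⁻¹, hc⟩ : s18_A1 A K₁) ≠ 0 := fun h => inv_ne_zero hc0 (congrArg Subtype.val h)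
    obtain ⟨n, u, hu⟩ := IsDiscreteValuationRing.eq_unit_mul_pow_irreducible hne hπ
    have h1 : c⁻¹ = ((u : s18_A1 A K₁) : K₁) * ((π : s18_A1 A K₁) : K₁) ^ n := by
      have := congrArg Subtype.val hu
      simpa using this
    have hu0 : ((u : s18_A1 A K₁) : K₁) ≠ 0 := fun h0 => by
      rw [h0, zero_mul] at h1
      exact inv_ne_zero hc0 h1
    have hπ0 : ((π : s18_A1 A K₁) : K₁) ≠ 0 := fun h0 => hπ.ne_zero (Subtype.ext h0)
    have h2 : c = (((u⁻¹ : (s18_A1 A K₁)ˣ) : s18_A1 A K₁) : K₁) * (((π : s18_A1 A K₁) : K₁)⁻¹) ^ n := by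
      have hinv : (((u⁻¹ : (s18_A1 A K₁)ˣ) : s18_A1 A K₁) : K₁) = (((u : s18_A1 A K₁) : K₁))⁻¹ := by
        have h3 : (((u⁻¹ : (s18_A1 A K₁)ˣ) : s18_A1 A K₁) : K₁) * ((u : s18_A1 A K₁) : K₁) = 1 :=
          congrArg Subtype.val (Units.inv_mul u)
        exact eq_inv_of_mul_eq_one_left h3
      rw [hinv, inv_pow, ← mul_inv, ← h1, inv_inv]
    rw [h2, map_mul, map_pow, map_inv₀]
    exact W.mul_mem _ _ (hA _) (W.pow_mem hπW n)

/-- The core of (INJ) at an auxiliary level. -/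
theorem s18_inj_core (N' : ℕ) [NeZero N'] (A : ValuationSubring (AlgebraicClosure ℚ))
    (K₁ : IntermediateField ℚ (AlgebraicClosure ℚ)) [IsDiscreteValuationRing (s18_A1 A K₁)]
    {π : s18_A1 A K₁} (hπ : Irreducible π)
    {t : s18_F1 K₁ N'} {B0 Binf : Subalgebra (s18_A1 A K₁) (s18_F1 K₁ N')}
    (hP : s18_ChartPkg π t B0 Binf) (hBr0 : s18_Branch π t B0) (hBrInf : s18_Branch π t⁻¹ Binf)
    (m : ℕ) (hm0 : 0 < m) (hmu : IsUnit ((m : ℕ) : s18_A1 A K₁))
    (f a b : s18_F1 K₁ N') (ha : a ∈ B0) (hb : b ∈ B0)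
    (hbπ : (algebraMap (s18_A1 A K₁) (s18_F1 K₁ N') π)⁻¹ * b ∉ B0)
    (hab : (algebraMap (s18_A1 A K₁) (s18_F1 K₁ N') π)⁻¹ * (a - b) ∈ B0) (hf : f = a / b)
    (hdiv : ∀ P : Place (AlgebraicClosure ℚ) (modularFunctionFieldBar N'),
      (m : ℤ) ∣ P.ord (s18_baseIncl K₁ N' f)) :
    ∃ x : modularFunctionFieldBar N', x ^ m = s18_baseIncl K₁ N' f := by
  haveI : CharZero (s18_A1 A K₁) :=
    ⟨fun x y hxy => by
      have : ((x : s18_A1 A K₁) : K₁) = ((y : s18_A1 A K₁) : K₁) := congrArg Subtype.val hxy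
      exact_mod_cast this⟩
  have hT := s18_twoChart_of_pkg hπ hP hBr0 hBrInf
  have hinj : Function.Injective (algebraMap (s18_A1 A K₁) (s18_F1 K₁ N')) := fun x y h =>
    Subtype.ext ((algebraMap K₁ (s18_F1 K₁ N')).injective h)
  -- `f ≠ 0`
  have hb0 : b ≠ 0 := by
    rintro rfl
    exact hbπ (by rw [mul_zero]; exact B0.zero_mem)
  have ha0 : a ≠ 0 := by
    rintro rfl
    apply hbπ
    have : (algebraMap (s18_A1 A K₁) (s18_F1 K₁ N') π)⁻¹ * b =
        -((algebraMap (s18_A1 A K₁) (s18_F1 K₁ N') π)⁻¹ * (0 - b)) := by ring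
    rw [this]; exact B0.neg_mem hab
  have hf0 : f ≠ 0 := by rw [hf]; exact div_ne_zero ha0 hb0
  -- the hypothesis `hdiv` of the two-chart theorem
  have hdiv' : ∀ W : ValuationSubring (s18_F1 K₁ N'), IsDiscreteValuationRing W →
      (∀ x : s18_A1 A K₁, algebraMap (s18_A1 A K₁) (s18_F1 K₁ N') x ∈ W) →
      (algebraMap (s18_A1 A K₁) (s18_F1 K₁ N') π)⁻¹ ∈ W →
      ∃ g u : s18_F1 K₁ N', u ∈ W ∧ u⁻¹ ∈ W ∧ f = u * g ^ m := fun W hW hA hπW =>
    s18_d3_hdiv K₁ N' m f hf0 hdiv W hW (s18_K_mem_of_A1 N' A K₁ hπ W hA hπW)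
  let φ : s18_A1 A K₁ →+* AlgebraicClosure ℚ :=
    (algebraMap K₁ (AlgebraicClosure ℚ)).comp (s18_A1 A K₁).subtype
  have hφ : Function.Injective φ := fun x y h =>
    Subtype.ext ((algebraMap K₁ (AlgebraicClosure ℚ)).injective h)
  obtain ⟨n, ω, e, M, hM, hroot⟩ := s18_as_main hinj hπ hT m hm0 hmu f a b ha hb hbπ hab hf hdiv'
    φ hφ (s18_baseIncl K₁ N') (algebraMap (AlgebraicClosure ℚ) (modularFunctionFieldBar N'))
    (fun x => (s18_baseIncl_algebraMap K₁ N' (x : K₁)).symm)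
  have hM' : s18_baseIncl K₁ N' M ≠ 0 := (map_ne_zero _).mpr hM
  refine ⟨(∑ i, algebraMap (AlgebraicClosure ℚ) (modularFunctionFieldBar N') (ω i) *
    s18_baseIncl K₁ N' (e i)) / s18_baseIncl K₁ N' M, ?_⟩
  rw [div_pow, hroot, map_mul, map_pow]
  field_simp

end Fermat.Agent.S18
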