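import Fermat.Agent.S18.NormDescent

/-!
# S18, block D5 (second form): `s18_descent_pow`

An `m`-th root at level `lcm N M` of a function `h` of level `N` gives an `m`-th root of
`h ^ (M + 1)` at level `N` (`M ∈ {2, 3}`): take the norm (the index is `1` or `M + 1`).
No coprimality between `m` and `M + 1` is needed.
-/

set_option synthInstance.maxHeartbeats 200000
set_option autoImplicit false
set_option linter.unusedSectionVars false
set_option linter.style.haveILetI false

open ModularCurve

noncomputable section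

namespace Fermat.Agent.S18

open Fermat.Agent.S24
open scoped IntermediateField

/-- General form: for `N ∣ N'`, an `m`-th root in `F̄(N')` of `h ∈ F̄(N)` gives an `m`-th root in
`F̄(N)` of `h ^ [F̄(N') : F̄(N)]`. -/
theorem s18_d5_descent_pow_of_dvd {N N' : ℕ} [NeZero N] [NeZero N'] (hdvd : N ∣ N') (m : ℕ)
    (h x : LaurentSeries Kbar) (hh : h ∈ modularFunctionFieldBar N)
    (hx : x ∈ modularFunctionFieldBar N') (hxm : x ^ m = h) :
    ∃ y ∈ modularFunctionFieldBar N,
      y ^ m = h ^ ((modularFunctionFieldBar N).relfinrank (modularFunctionFieldBar N')) := by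
  have hle := s18_d5_le hdvd
  rw [IntermediateField.relfinrank_eq_finrank_of_le hle]
  set x' : ↥(IntermediateField.extendScalars hle) := ⟨x, hx⟩ with hx'
  set h' : ↥(modularFunctionFieldBar N) := ⟨h, hh⟩ with hh'
  have hxm' : x' ^ m = algebraMap ↥(modularFunctionFieldBar N)
      ↥(IntermediateField.extendScalars hle) h' := Subtype.ext hxm
  have hnorm : Algebra.norm ↥(modularFunctionFieldBar N) x' ^ m
      = h' ^ Module.finrank ↥(modularFunctionFieldBar N)
        ↥(IntermediateField.extendScalars hle) := by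
    rw [← map_pow, hxm', Algebra.norm_algebraMap]
  exact ⟨Algebra.norm ↥(modularFunctionFieldBar N) x',
    (Algebra.norm ↥(modularFunctionFieldBar N) x').2, congrArg Subtype.val hnorm⟩

/-- (D5, helper15's v3 shape) norm descent: an `m`-th root at level `lcm N M` of a function `h` of
level `N` gives an `m`-th root of `h ^ (M + 1)` at level `N` (`M ∈ {2, 3}`). -/
theorem s18_descent_pow (N M : ℕ) [NeZero N] (hM : M = 2 ∨ M = 3) (m : ℕ)
    [NeZero (Nat.lcm N M)]
    (h : LaurentSeries (AlgebraicClosure ℚ)) (hh : h ∈ modularFunctionFieldBar N)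
    (x : LaurentSeries (AlgebraicClosure ℚ)) (hx : x ∈ modularFunctionFieldBar (Nat.lcm N M))
    (hxp : x ^ m = h) :
    ∃ y ∈ modularFunctionFieldBar N, y ^ m = h ^ (M + 1) := by
  have hMp : M.Prime := by
    rcases hM with rfl | rfl
    · exact Nat.prime_two
    · exact Nat.prime_three
  by_cases hdvd : M ∣ N
  · have hlcm : Nat.lcm N M = N := Nat.lcm_eq_left hdvd
    rw [hlcm] at hx
    exact ⟨x ^ (M + 1), pow_mem hx _, by rw [← pow_mul, mul_comm, pow_mul, hxp]⟩
  · have hcop : Nat.Coprime N M := (Nat.Coprime.symm ((Nat.Prime.coprime_iff_not_dvd hMp).mpr hdvd))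
    have hlcm : Nat.lcm N M = N * M := hcop.lcm_eq_mul
    haveI : NeZero (N * M) := ⟨Nat.mul_ne_zero (NeZero.ne N) hMp.ne_zero⟩
    rw [hlcm] at hx
    obtain ⟨y, hy, hym⟩ := s18_d5_descent_pow_of_dvd (N := N) (N' := N * M) (Dvd.intro M rfl) m
      h x hh hx hxp
    rw [s18_d5_relfinrank_mul_prime N M hMp hdvd] at hym
    exact ⟨y, hy, hym⟩

end Fermat.Agent.S18
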