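import Fermat.Agent.S24

/-!
# S18, block D5: norm descent from level `N'` to level `N ∣ N'`

`[F̄(N') : F̄(N)] = ψ(N') / ψ(N)` (from the S24 degree formula `[F̄(N) : ℚ̄(j)] = ψ(N)`), and an
element of `F̄(N)` which is a `p`-th power in `F̄(N')` with `p` prime to that degree is a `p`-th
power in `F̄(N)`.
-/

set_option synthInstance.maxHeartbeats 200000
set_option autoImplicit false
set_option linter.unusedSectionVars false
set_option linter.style.haveILetI false

open ModularCurve

noncomputable section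

namespace Fermat.Agent.S18

open Fermat.Agent.S24
open scoped IntermediateField

/-- Abstract norm descent: if `h ∈ E` is a `p`-th power in a finite extension `L/E` of degree
prime to `p`, then `h` is a `p`-th power in `E`. -/
theorem s18_d5_norm_descent {E L : Type*} [Field E] [Field L] [Algebra E L] (p : ℕ)
    (hcop : Nat.Coprime (Module.finrank E L) p) (h : E) (x : L)
    (hx : x ^ p = algebraMap E L h) : ∃ y : E, y ^ p = h := by
  have hnorm : Algebra.norm E x ^ p = h ^ Module.finrank E L := by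
    rw [← map_pow, hx, Algebra.norm_algebraMap]
  by_cases hp0 : p = 0
  · subst hp0
    rw [pow_zero] at hx
    refine ⟨1, ?_⟩
    rw [pow_zero]
    exact (algebraMap E L).injective (by rw [map_one, ← hx])
  by_cases h0 : h = 0
  · exact ⟨0, by rw [h0, zero_pow hp0]⟩
  obtain ⟨a, b, hab⟩ : ∃ a b : ℤ, a * (Module.finrank E L : ℤ) + b * (p : ℤ) = 1 := by
    have := (Nat.isCoprime_iff_coprime.mpr hcop)
    obtain ⟨a, b, hab⟩ := this
    exact ⟨a, b, hab⟩
  refine ⟨Algebra.norm E x ^ a * h ^ b, ?_⟩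
  have hN0 : Algebra.norm E x ≠ 0 := by
    intro hN
    rw [hN, zero_pow hp0] at hnorm
    exact pow_ne_zero _ h0 hnorm.symm
  rw [mul_pow, ← zpow_natCast, ← zpow_natCast, ← zpow_mul, ← zpow_mul, mul_comm a, zpow_mul,
    zpow_natCast, hnorm, ← zpow_natCast, ← zpow_mul, ← zpow_add₀ h0]
  have : (Module.finrank E L : ℤ) * a + b * (p : ℤ) = 1 := by linarith
  rw [this, zpow_one]

/-- `F̄(N) ≤ F̄(N')` for `N ∣ N'`. -/
theorem s18_d5_le {N N' : ℕ} [NeZero N] [NeZero N'] (hdvd : N ∣ N') :
    modularFunctionFieldBar N ≤ modularFunctionFieldBar N' := by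
  apply IntermediateField.adjoin.mono
  exact Set.image_mono (full_degeneracy_le hdvd)

/-- `ℚ̄(j) ≤ F̄(N)`. -/
theorem s18_d5_j_le (N : ℕ) [NeZero N] :
    Kbar⟮jqModC Kbar⟯ ≤ modularFunctionFieldBar N := by
  rw [IntermediateField.adjoin_simple_le_iff, ← jtrans_coe_jF N]
  exact (jF N).2

/-- `[F̄(N) : ℚ̄(j)] = ψ(N)` in relative-rank form. -/
theorem s18_d5_relfinrank_j (N : ℕ) [NeZero N] :
    (Kbar⟮jqModC Kbar⟯).relfinrank (modularFunctionFieldBar N) = dedekindPsi N := by
  have h1 : (Kbar⟮jF N⟯ : IntermediateField Kbar (FF N))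
      = (Kbar⟮jqModC Kbar⟯).comap (modularFunctionFieldBar N).val := by
    have h2 : (Kbar⟮jF N⟯ : IntermediateField Kbar (FF N)).map (modularFunctionFieldBar N).val
        = Kbar⟮jqModC Kbar⟯ := by
      rw [IntermediateField.adjoin_map, Set.image_singleton, ← jtrans_coe_jF N]
      rfl
    rw [← h2, IntermediateField.comap_map]
  have h3 := IntermediateField.finrank_comap (A := Kbar⟮jqModC Kbar⟯)
    (modularFunctionFieldBar N).val
  rw [IntermediateField.fieldRange_val, ← h1] at h3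
  rw [← h3]
  exact (asm_generic N).2.1

/-- `[F̄(N') : F̄(N)] · ψ(N) = ψ(N')`. -/
theorem s18_d5_relfinrank {N N' : ℕ} [NeZero N] [NeZero N'] (hdvd : N ∣ N') :
    (modularFunctionFieldBar N).relfinrank (modularFunctionFieldBar N') * dedekindPsi N
      = dedekindPsi N' := by
  rw [← s18_d5_relfinrank_j N, ← s18_d5_relfinrank_j N', mul_comm]
  exact IntermediateField.relfinrank_mul_relfinrank (s18_d5_j_le N) (s18_d5_le hdvd)

/-- `ψ(N) ≠ 0`. -/
theorem s18_d5_dedekindPsi_ne_zero (N : ℕ) [NeZero N] : dedekindPsi N ≠ 0 := by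
  intro h
  have h1 := (asm_generic N).2.1
  have hfd := (asm_generic N).1
  rw [h] at h1
  exact (Module.finrank_pos (R := Kbar⟮jF N⟯) (M := FF N)).ne' h1

/-- (D5, general form) an element of `F̄(N)` that is a `p`-th power in `F̄(N')`, `N ∣ N'`, with
`p` prime to `[F̄(N') : F̄(N)]`, is a `p`-th power in `F̄(N)`. -/
theorem s18_d5_descent_of_coprime {N N' : ℕ} [NeZero N] [NeZero N'] (hdvd : N ∣ N') (p : ℕ)
    (hcop : Nat.Coprime
      ((modularFunctionFieldBar N).relfinrank (modularFunctionFieldBar N')) p)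
    (h x : LaurentSeries Kbar) (hh : h ∈ modularFunctionFieldBar N)
    (hx : x ∈ modularFunctionFieldBar N') (hxp : x ^ p = h) :
    ∃ y ∈ modularFunctionFieldBar N, y ^ p = h := by
  have hle := s18_d5_le hdvd
  rw [IntermediateField.relfinrank_eq_finrank_of_le hle] at hcop
  obtain ⟨y, hy⟩ := s18_d5_norm_descent
    (E := ↥(modularFunctionFieldBar N)) (L := ↥(IntermediateField.extendScalars hle)) p hcop
    ⟨h, hh⟩ ⟨x, hx⟩ (Subtype.ext hxp)
  exact ⟨y, y.2, congrArg Subtype.val hy⟩

/-- (D5) `N' = N * M` with `M` a prime not dividing `N`: the degree is `M + 1`. -/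
theorem s18_d5_relfinrank_mul_prime (N M : ℕ) [NeZero N] (hM : M.Prime) (hMN : ¬ M ∣ N) :
    (modularFunctionFieldBar N).relfinrank (modularFunctionFieldBar (N * M)) = M + 1 := by
  haveI : NeZero (N * M) := ⟨Nat.mul_ne_zero (NeZero.ne N) hM.ne_zero⟩
  have h1 := s18_d5_relfinrank (N := N) (N' := N * M) (Dvd.intro M rfl)
  rw [idx_dedekindPsi_mul_of_not_dvd (NeZero.ne N) hM hMN, mul_comm] at h1
  exact Nat.eq_of_mul_eq_mul_left (Nat.pos_of_ne_zero (s18_d5_dedekindPsi_ne_zero N)) h1

/-- (D5) norm descent from level `N * M` to level `N` (`M` prime, `M ∤ N`) for `p`-th powers with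
`p` prime to `M + 1`. -/
theorem s18_d5_descent (N M : ℕ) [NeZero N] (hM : M.Prime) (hMN : ¬ M ∣ N) (p : ℕ)
    (hcop : Nat.Coprime (M + 1) p)
    (h x : LaurentSeries Kbar) (hh : h ∈ modularFunctionFieldBar N)
    (hx : x ∈ modularFunctionFieldBar (N * M)) (hxp : x ^ p = h) :
    ∃ y ∈ modularFunctionFieldBar N, y ^ p = h := by
  haveI : NeZero (N * M) := ⟨Nat.mul_ne_zero (NeZero.ne N) hM.ne_zero⟩
  exact s18_d5_descent_of_coprime (N := N) (N' := N * M) (Dvd.intro M rfl) p
    (by rw [s18_d5_relfinrank_mul_prime N M hM hMN]; exact hcop) h x hh hx hxp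

end Fermat.Agent.S18
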