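import Fermat.Agent.S18.PlaceRestrict
import Fermat.Agent.S18.NormDescent

/-!
# S18, block D (D7, modular form): divisibility of orders passes from level `N` to level `N'`

For `N ∣ N'` the function field `modularFunctionFieldBar N` is contained in
`modularFunctionFieldBar N'` (`s18_d5_le`); every place of the larger field restricts to a place of
the smaller one with a positive ramification index (`s18_d7_restrict`).  Hence if all orders of `h`
at level `N` are divisible by `m`, so are all orders of `h` at level `N'` (`s18_d7_dvd`).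
-/

set_option autoImplicit false

namespace Fermat.Agent.S18

open IntermediateField AlgebraicCurve ModularCurve Fermat.Agent.S24

/-- Restriction of a place from level `N'` to level `N ∣ N'`, with its ramification index. -/
theorem s18_d7_restrict {N N' : ℕ} [NeZero N] [NeZero N'] (hdvd : N ∣ N')
    (P' : Place Kbar (modularFunctionFieldBar N')) :
    ∃ (P : Place Kbar (modularFunctionFieldBar N)) (e : ℕ), 0 < e ∧
      ∀ (x : LaurentSeries Kbar) (hx : x ∈ modularFunctionFieldBar N),
        P'.ord ⟨x, s18_d5_le hdvd hx⟩ = e * P.ord ⟨x, hx⟩ := by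
  have h1 : FiniteDimensional Kbar⟮jF N⟯ (modularFunctionFieldBar N) := (asm_generic N).1
  have hj : IntermediateField.inclusion (s18_d5_le hdvd) (jF N) = jF N' := rfl
  have h2 : FiniteDimensional Kbar⟮IntermediateField.inclusion (s18_d5_le hdvd) (jF N)⟯
      (modularFunctionFieldBar N') := by
    rw [hj]; exact (asm_generic N').1
  obtain ⟨P, e, he0, he⟩ :=
    s18_place_restrict (IntermediateField.inclusion (s18_d5_le hdvd)) (jF N) P'
  exact ⟨P, e, he0, fun x hx => he ⟨x, hx⟩⟩

/-- **D7.** If all orders of `h` at level `N` are divisible by `m`, then so are all orders at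
level `N'` (`N ∣ N'`). -/
theorem s18_d7_dvd {N N' : ℕ} [NeZero N] [NeZero N'] (hdvd : N ∣ N') (m : ℤ)
    (h : LaurentSeries Kbar) (hh : h ∈ modularFunctionFieldBar N)
    (hdiv : ∀ P : Place Kbar (modularFunctionFieldBar N), m ∣ P.ord ⟨h, hh⟩) :
    ∀ P' : Place Kbar (modularFunctionFieldBar N'), m ∣ P'.ord ⟨h, s18_d5_le hdvd hh⟩ := by
  intro P'
  obtain ⟨P, e, -, he⟩ := s18_d7_restrict hdvd P'
  rw [he h hh]
  exact Dvd.dvd.mul_left (hdiv P) _

end Fermat.Agent.S18
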