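import Mathlib
import Fermat.Agent.S18.DescentPow
import Fermat.Agent.S18.PlaceLevel

/-!
# S18 assembly (helper15): from the auxiliary levels `lcm N 2`, `lcm N 3` back to level `N`

`s18_InjLevel N' ℓ A m` is the statement (INJ) at level `N'`: a quotient `h = n₁ / n₂` of integral
series of the function field with equal nonzero reductions, all of whose orders are divisible by
`m`, is an `m`-th power.  `s18_inj_of_level` deduces (INJ) at level `N` from (INJ) at the levels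
`lcm N M`, `M ∈ {2, 3}`, `M ≠ ℓ` (norm descent; the index is `1` or `M + 1`).
-/

set_option autoImplicit false
set_option synthInstance.maxHeartbeats 400000

open ModularCurve AlgebraicCurve

noncomputable section

namespace Fermat.Agent.S18

/-- The statement (INJ) at level `N'`. -/
def s18_InjLevel (N' : ℕ) (A : ValuationSubring (AlgebraicClosure ℚ)) (m : ℕ) : Prop :=
  ∀ (y₁ y₂ : LaurentSeries A)
    (h₁ : coeffMap A.subtype y₁ ∈ modularFunctionFieldBar N')
    (h₂ : coeffMap A.subtype y₂ ∈ modularFunctionFieldBar N'),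
    coeffMap (IsLocalRing.residue A) y₁ = coeffMap (IsLocalRing.residue A) y₂ →
    coeffMap (IsLocalRing.residue A) y₂ ≠ 0 →
    (∀ P : Place (AlgebraicClosure ℚ) (modularFunctionFieldBar N'),
      (m : ℤ) ∣ P.ord ((⟨coeffMap A.subtype y₁, h₁⟩ : modularFunctionFieldBar N') /
        ⟨coeffMap A.subtype y₂, h₂⟩)) →
    ∃ x : modularFunctionFieldBar N',
      x ^ m = (⟨coeffMap A.subtype y₁, h₁⟩ : modularFunctionFieldBar N') /
        ⟨coeffMap A.subtype y₂, h₂⟩

/-- If `h ^ k` is an `m`-th power and `m`, `k` are coprime, then `h` is an `m`-th power. -/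
theorem s18_root_of_coprime {E : Type*} [Field E] (m k : ℕ) (hm : 0 < m) (hcop : Nat.Coprime m k)
    (h y : E) (hy : y ^ m = h ^ k) : ∃ x : E, x ^ m = h := by
  by_cases h0 : h = 0
  · exact ⟨0, by rw [h0, zero_pow hm.ne']⟩
  have hbez : (m : ℤ) * Nat.gcdA m k + (k : ℤ) * Nat.gcdB m k = 1 := by
    have := Nat.gcd_eq_gcd_ab m k
    rw [hcop.gcd_eq_one] at this
    simpa using this.symm
  refine ⟨h ^ (Nat.gcdA m k) * y ^ (Nat.gcdB m k), ?_⟩
  have hy0 : y ≠ 0 := by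
    rintro rfl
    rw [zero_pow hm.ne'] at hy
    exact pow_ne_zero k h0 hy.symm
  calc (h ^ (Nat.gcdA m k) * y ^ (Nat.gcdB m k)) ^ m
      = h ^ ((m : ℤ) * Nat.gcdA m k) * (y ^ m) ^ (Nat.gcdB m k) := by
        rw [mul_pow, ← zpow_natCast (h ^ Nat.gcdA m k), ← zpow_mul, mul_comm (Nat.gcdA m k) (m : ℤ),
          ← zpow_natCast (y ^ Nat.gcdB m k), ← zpow_mul, ← zpow_natCast y m, ← zpow_mul,
          mul_comm (Nat.gcdB m k) (m : ℤ)]
    _ = h ^ ((m : ℤ) * Nat.gcdA m k) * h ^ ((k : ℤ) * Nat.gcdB m k) := by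
        rw [hy, ← zpow_natCast h k, ← zpow_mul]
    _ = h := by rw [← zpow_add₀ h0, hbez, zpow_one]

/-- (INJ) at level `N` from (INJ) at the levels `lcm N M`, `M ∈ {2, 3}`, `M ≠ ℓ`. -/
theorem s18_inj_of_level (N : ℕ) [NeZero N] {ℓ : ℕ} [Fact ℓ.Prime]
    (A : ValuationSubring (AlgebraicClosure ℚ)) (m : ℕ) (hm0 : 0 < m) (hm : ¬ ℓ ∣ m)
    (hlev : ∀ M : ℕ, (M = 2 ∨ M = 3) → M ≠ ℓ → s18_InjLevel (Nat.lcm N M) A m) :
    s18_InjLevel N A m := by
  intro y₁ y₂ h₁ h₂ hred hne hdiv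
  have hhmem : coeffMap A.subtype y₁ / coeffMap A.subtype y₂ ∈ modularFunctionFieldBar N :=
    div_mem h₁ h₂
  have hsub : (⟨coeffMap A.subtype y₁, h₁⟩ : modularFunctionFieldBar N) /
      ⟨coeffMap A.subtype y₂, h₂⟩ = ⟨_, hhmem⟩ := Subtype.ext (by simp)
  rw [hsub] at hdiv ⊢
  -- for each admissible `M`, `h ^ (M + 1)` is an `m`-th power at level `N`
  have key : ∀ M : ℕ, (M = 2 ∨ M = 3) → M ≠ ℓ → ∃ y : modularFunctionFieldBar N,
      y ^ m = (⟨_, hhmem⟩ : modularFunctionFieldBar N) ^ (M + 1) := by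
    intro M hM hMℓ
    have hM0 : M ≠ 0 := by rcases hM with rfl | rfl <;> norm_num
    haveI : NeZero (Nat.lcm N M) := ⟨Nat.lcm_ne_zero (NeZero.ne N) hM0⟩
    have hdvd : N ∣ Nat.lcm N M := Nat.dvd_lcm_left N M
    have h₁' := s18_d5_le hdvd h₁
    have h₂' := s18_d5_le hdvd h₂
    have hdiv' := s18_d7_dvd hdvd (m : ℤ) _ hhmem hdiv
    obtain ⟨x, hx⟩ := hlev M hM hMℓ y₁ y₂ h₁' h₂' hred hne (by
      intro P
      have e : (⟨coeffMap A.subtype y₁, h₁'⟩ : modularFunctionFieldBar (Nat.lcm N M)) /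
          ⟨coeffMap A.subtype y₂, h₂'⟩ = ⟨_, s18_d5_le hdvd hhmem⟩ := Subtype.ext (by simp)
      rw [e]; exact hdiv' P)
    have hxp : (x : LaurentSeries (AlgebraicClosure ℚ)) ^ m =
        coeffMap A.subtype y₁ / coeffMap A.subtype y₂ := by
      have := congrArg Subtype.val hx
      simpa using this
    obtain ⟨y, hy, hym⟩ := s18_descent_pow N M hM m _ hhmem x x.2 hxp
    exact ⟨⟨y, hy⟩, Subtype.ext (by simpa using hym)⟩
  by_cases h2 : ℓ = 2
  · obtain ⟨y, hy⟩ := key 3 (Or.inr rfl) (by omega)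
    have hcop : Nat.Coprime m (3 + 1) := by
      subst h2
      have : Nat.Coprime m 2 := (Nat.prime_two.coprime_iff_not_dvd.mpr hm).symm
      exact this.pow_right 2
    exact s18_root_of_coprime m (3 + 1) hm0 hcop _ y hy
  by_cases h3 : ℓ = 3
  · obtain ⟨y, hy⟩ := key 2 (Or.inl rfl) (by omega)
    have hcop : Nat.Coprime m (2 + 1) := by
      subst h3
      exact (Nat.prime_three.coprime_iff_not_dvd.mpr hm).symm
    exact s18_root_of_coprime m (2 + 1) hm0 hcop _ y hy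
  · obtain ⟨y2, hy2⟩ := key 2 (Or.inl rfl) (fun h => h2 h.symm)
    obtain ⟨y3, hy3⟩ := key 3 (Or.inr rfl) (fun h => h3 h.symm)
    by_cases h0 : (⟨_, hhmem⟩ : modularFunctionFieldBar N) = 0
    · exact ⟨0, by rw [h0, zero_pow hm0.ne']⟩
    refine ⟨y3 / y2, ?_⟩
    rw [div_pow, hy3, hy2]
    field_simp
    rw [pow_succ]

end Fermat.Agent.S18
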