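import Mathlib
import Fermat.Prelude.Def_ModularCurve_ArithmeticGalois

/-!
# S18, block D1: number fields of definition

Every element of `F̄(N) = laurentBaseChange ℚ̄ (modularFunctionFieldFull N)` is defined over a
finite Galois extension `K₁` of `ℚ` inside `ℚ̄`: it is `coeffMap (algebraMap K₁ ℚ̄) y` with
`y ∈ laurentBaseChange K₁ (modularFunctionFieldFull N)`.  The same for any finite set of elements.
-/

set_option autoImplicit false
set_option linter.style.haveILetI false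

open ModularCurve HahnSeries

noncomputable section

namespace Fermat.Agent.S18

section general

variable (F₀ : IntermediateField ℚ (LaurentSeries ℚ))

/-- Functoriality of `laurentBaseChange` in the coefficient field. -/
theorem s18_d1_coeffMap_mem {L₁ L₂ : Type*} [Field L₁] [Field L₂] [Algebra ℚ L₁] [Algebra ℚ L₂]
    (φ : L₁ →+* L₂) {y : LaurentSeries L₁} (hy : y ∈ laurentBaseChange L₁ F₀) :
    coeffMap φ y ∈ laurentBaseChange L₂ F₀ := by
  rw [mem_laurentBaseChange_iff] at hy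
  induction hy using Subfield.closure_induction with
  | mem z hz =>
      rcases hz with ⟨a, rfl⟩ | ⟨z, hz, rfl⟩
      · rw [algebraMap_laurentSeries_eq_single, coeffMap_single,
          ← algebraMap_laurentSeries_eq_single]
        exact (laurentBaseChange L₂ F₀).algebraMap_mem _
      · have h1 : coeffMap φ (coeffEmb L₁ z) = coeffEmb L₂ z := by
          rw [coeffEmb, coeffMap_coeffMap]
          exact coeffMap_congr (RingHom.ext fun c => by simp) z
        rw [h1]
        exact coeffEmb_mem_laurentBaseChange L₂ hz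
  | one => rw [map_one]; exact one_mem _
  | add x y _ _ hx hy => rw [map_add]; exact add_mem hx hy
  | neg x _ hx => rw [map_neg]; exact neg_mem hx
  | inv x _ hx => rw [map_inv₀]; exact inv_mem hx
  | mul x y _ _ hx hy => rw [map_mul]; exact mul_mem hx hy

/-- `coeffMap` along an injective ring homomorphism is injective. -/
theorem s18_d1_coeffMap_injective {R S : Type*} [CommRing R] [CommRing S] (φ : R →+* S)
    (hφ : Function.Injective φ) : Function.Injective (coeffMap φ) := by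
  intro x y hxy
  ext k
  have := congrArg (fun z => z.coeff k) hxy
  exact hφ this

/-- The predicate "defined over the number field `K₁`". -/
def s18_d1_DefinedOver (K₁ : IntermediateField ℚ (AlgebraicClosure ℚ))
    (x : LaurentSeries (AlgebraicClosure ℚ)) : Prop :=
  ∃ y ∈ laurentBaseChange K₁ F₀, coeffMap (algebraMap K₁ (AlgebraicClosure ℚ)) y = x

variable {F₀}

theorem s18_d1_DefinedOver.mono {K₁ K₂ : IntermediateField ℚ (AlgebraicClosure ℚ)} (h : K₁ ≤ K₂)
    {x : LaurentSeries (AlgebraicClosure ℚ)} (hx : s18_d1_DefinedOver F₀ K₁ x) :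
    s18_d1_DefinedOver F₀ K₂ x := by
  obtain ⟨y, hy, rfl⟩ := hx
  refine ⟨coeffMap (IntermediateField.inclusion h : K₁ →+* K₂) y,
    s18_d1_coeffMap_mem F₀ _ hy, ?_⟩
  rw [coeffMap_coeffMap]
  exact coeffMap_congr (RingHom.ext fun c => rfl) y

theorem s18_d1_DefinedOver.mem {K₁ : IntermediateField ℚ (AlgebraicClosure ℚ)}
    {x : LaurentSeries (AlgebraicClosure ℚ)} (hx : s18_d1_DefinedOver F₀ K₁ x) :
    x ∈ laurentBaseChange (AlgebraicClosure ℚ) F₀ := by
  obtain ⟨y, hy, rfl⟩ := hx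
  exact s18_d1_coeffMap_mem F₀ _ hy

/-- Transport of a property along the (unique) `ℚ`-algebra structure. -/
theorem s18_d1_alg_transport {R : Type*} [Semiring R] (P : Algebra ℚ R → Prop)
    (a b : Algebra ℚ R) (h : P a) : P b := Subsingleton.elim a b ▸ h

theorem s18_d1_qbar_isAlgebraic : Algebra.IsAlgebraic ℚ (AlgebraicClosure ℚ) :=
  s18_d1_alg_transport (fun i => @Algebra.IsAlgebraic ℚ (AlgebraicClosure ℚ) _ _ i) _ _
    (AlgebraicClosure.isAlgebraic ℚ)

theorem s18_d1_qbar_normal : Normal ℚ (AlgebraicClosure ℚ) :=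
  s18_d1_alg_transport (fun i => @Normal ℚ (AlgebraicClosure ℚ) _ _ i)
    (AlgebraicClosure.instAlgebra ℚ) _ inferInstance

/-- The class of finite Galois subextensions of `ℚ̄/ℚ`. -/
def s18_d1_IsGaloisNF (K₁ : IntermediateField ℚ (AlgebraicClosure ℚ)) : Prop :=
  FiniteDimensional ℚ K₁ ∧ IsGalois ℚ K₁

/-- Constructor from the statements for the intermediate-field algebra structure. -/
theorem s18_d1_IsGaloisNF.of (K₁ : IntermediateField ℚ (AlgebraicClosure ℚ))
    (hfd : @Module.Finite ℚ ↥K₁ _ _ (@Algebra.toModule _ _ _ _ (IntermediateField.algebra' K₁)))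
    (hn : @Normal ℚ ↥K₁ _ _ (IntermediateField.algebra' K₁)) : s18_d1_IsGaloisNF K₁ := by
  have hfd' : FiniteDimensional ℚ K₁ :=
    s18_d1_alg_transport (fun i => @Module.Finite ℚ ↥K₁ _ _ (@Algebra.toModule _ _ _ _ i)) _ _ hfd
  have hn' : Normal ℚ K₁ := s18_d1_alg_transport (fun i => @Normal ℚ ↥K₁ _ _ i) _ _ hn
  haveI : Algebra.IsAlgebraic ℚ K₁ := Algebra.IsAlgebraic.of_finite ℚ K₁
  haveI : Algebra.IsSeparable ℚ K₁ := Algebra.IsAlgebraic.isSeparable_of_perfectField
  exact ⟨hfd', IsGalois.mk⟩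

theorem s18_d1_IsGaloisNF.finite' {K₁ : IntermediateField ℚ (AlgebraicClosure ℚ)}
    (h : s18_d1_IsGaloisNF K₁) :
    @Module.Finite ℚ ↥K₁ _ _ (@Algebra.toModule _ _ _ _ (IntermediateField.algebra' K₁)) :=
  s18_d1_alg_transport (fun i => @Module.Finite ℚ ↥K₁ _ _ (@Algebra.toModule _ _ _ _ i)) _ _ h.1

theorem s18_d1_IsGaloisNF.normal' {K₁ : IntermediateField ℚ (AlgebraicClosure ℚ)}
    (h : s18_d1_IsGaloisNF K₁) : @Normal ℚ ↥K₁ _ _ (IntermediateField.algebra' K₁) :=
  s18_d1_alg_transport (fun i => @Normal ℚ ↥K₁ _ _ i) _ _ (h.2.to_normal)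

theorem s18_d1_IsGaloisNF.sup {K₁ K₂ : IntermediateField ℚ (AlgebraicClosure ℚ)}
    (h₁ : s18_d1_IsGaloisNF K₁) (h₂ : s18_d1_IsGaloisNF K₂) :
    s18_d1_IsGaloisNF (K₁ ⊔ K₂) :=
  s18_d1_IsGaloisNF.of _
    (@IntermediateField.finiteDimensional_sup ℚ (AlgebraicClosure ℚ) _ _ _ K₁ K₂
      h₁.finite' h₂.finite')
    (@IntermediateField.normal_sup ℚ (AlgebraicClosure ℚ) _ _ _ K₁ K₂ h₁.normal' h₂.normal')

/-- Every constant lies in a finite Galois subextension. -/
theorem s18_d1_exists_galois (a : AlgebraicClosure ℚ) :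
    ∃ K₁ : IntermediateField ℚ (AlgebraicClosure ℚ), s18_d1_IsGaloisNF K₁ ∧ a ∈ K₁ := by
  haveI := s18_d1_qbar_isAlgebraic
  have hint : IsIntegral ℚ a := Algebra.IsIntegral.isIntegral a
  have hsplit : ((minpoly ℚ a).map (algebraMap ℚ (AlgebraicClosure ℚ))).Splits :=
    IsAlgClosed.splits _
  haveI := IntermediateField.adjoin_rootSet_isSplittingField hsplit
  refine ⟨IntermediateField.adjoin ℚ ((minpoly ℚ a).rootSet (AlgebraicClosure ℚ)),
    s18_d1_IsGaloisNF.of _
      (Polynomial.IsSplittingField.finiteDimensional _ (minpoly ℚ a))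
      (Normal.of_isSplittingField (minpoly ℚ a)), ?_⟩
  apply IntermediateField.subset_adjoin
  rw [Polynomial.mem_rootSet]
  exact ⟨minpoly.ne_zero hint, minpoly.aeval ℚ a⟩

/-- (D1, one element) every element of `laurentBaseChange ℚ̄ F₀` is defined over a finite Galois
extension of `ℚ`. -/
theorem s18_d1_exists (x : LaurentSeries (AlgebraicClosure ℚ))
    (hx : x ∈ laurentBaseChange (AlgebraicClosure ℚ) F₀) :
    ∃ K₁ : IntermediateField ℚ (AlgebraicClosure ℚ), s18_d1_IsGaloisNF K₁ ∧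
      s18_d1_DefinedOver F₀ K₁ x := by
  rw [mem_laurentBaseChange_iff] at hx
  induction hx using Subfield.closure_induction with
  | mem z hz =>
      rcases hz with ⟨a, rfl⟩ | ⟨z, hz, rfl⟩
      · obtain ⟨K₁, hK₁, ha⟩ := s18_d1_exists_galois a
        refine ⟨K₁, hK₁, algebraMap K₁ (LaurentSeries K₁) ⟨a, ha⟩,
          (laurentBaseChange K₁ F₀).algebraMap_mem _, ?_⟩
        rw [algebraMap_laurentSeries_eq_single, coeffMap_single,
          ← algebraMap_laurentSeries_eq_single]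
        rfl
      · obtain ⟨K₁, hK₁, -⟩ := s18_d1_exists_galois 0
        refine ⟨K₁, hK₁, coeffEmb _ z, coeffEmb_mem_laurentBaseChange _ hz, ?_⟩
        rw [coeffEmb, coeffMap_coeffMap]
        exact coeffMap_congr (RingHom.ext fun c => by simp) z
  | one =>
      obtain ⟨K₁, hK₁, -⟩ := s18_d1_exists_galois 0
      exact ⟨K₁, hK₁, 1, one_mem _, map_one _⟩
  | add x y _ _ hx hy =>
      obtain ⟨K₁, hK₁, hx⟩ := hx
      obtain ⟨K₂, hK₂, hy⟩ := hy
      obtain ⟨x', hx', rfl⟩ := hx.mono (le_sup_left : K₁ ≤ K₁ ⊔ K₂)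
      obtain ⟨y', hy', rfl⟩ := hy.mono (le_sup_right : K₂ ≤ K₁ ⊔ K₂)
      exact ⟨K₁ ⊔ K₂, hK₁.sup hK₂, x' + y', add_mem hx' hy', map_add _ _ _⟩
  | neg x _ hx =>
      obtain ⟨K₁, hK₁, x', hx', rfl⟩ := hx
      exact ⟨K₁, hK₁, -x', neg_mem hx', map_neg _ _⟩
  | inv x _ hx =>
      obtain ⟨K₁, hK₁, x', hx', rfl⟩ := hx
      exact ⟨K₁, hK₁, x'⁻¹, inv_mem hx', map_inv₀ _ _⟩
  | mul x y _ _ hx hy =>
      obtain ⟨K₁, hK₁, hx⟩ := hx
      obtain ⟨K₂, hK₂, hy⟩ := hy
      obtain ⟨x', hx', rfl⟩ := hx.mono (le_sup_left : K₁ ≤ K₁ ⊔ K₂)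
      obtain ⟨y', hy', rfl⟩ := hy.mono (le_sup_right : K₂ ≤ K₁ ⊔ K₂)
      exact ⟨K₁ ⊔ K₂, hK₁.sup hK₂, x' * y', mul_mem hx' hy', map_mul _ _ _⟩

/-- (D1, finite sets) finitely many elements of `laurentBaseChange ℚ̄ F₀` are defined over a
common finite Galois extension of `ℚ`. -/
theorem s18_d1_exists_finset (S : Finset (LaurentSeries (AlgebraicClosure ℚ)))
    (hS : ∀ x ∈ S, x ∈ laurentBaseChange (AlgebraicClosure ℚ) F₀) :
    ∃ K₁ : IntermediateField ℚ (AlgebraicClosure ℚ), s18_d1_IsGaloisNF K₁ ∧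
      ∀ x ∈ S, s18_d1_DefinedOver F₀ K₁ x := by
  classical
  induction S using Finset.induction_on with
  | empty =>
      obtain ⟨K₁, hK₁, -⟩ := s18_d1_exists_galois 0
      exact ⟨K₁, hK₁, fun x hx => absurd hx (Finset.notMem_empty x)⟩
  | insert a S _ ih =>
      obtain ⟨K₁, hK₁, h₁⟩ := ih fun x hx => hS x (Finset.mem_insert_of_mem hx)
      obtain ⟨K₂, hK₂, h₂⟩ := s18_d1_exists a (hS a (Finset.mem_insert_self a S))
      refine ⟨K₁ ⊔ K₂, hK₁.sup hK₂, fun x hx => ?_⟩
      rcases Finset.mem_insert.mp hx with rfl | hx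
      · exact h₂.mono le_sup_right
      · exact (h₁ x hx).mono le_sup_left

/-- (D1, helper15's shape) finitely many elements of `F̄(N)` are defined over a common finite
Galois extension `K₁` of `ℚ` inside `ℚ̄`. -/
theorem s18_d1 (N : ℕ) (S : Finset (LaurentSeries (AlgebraicClosure ℚ)))
    (hS : ∀ x ∈ S, x ∈ modularFunctionFieldBar N) :
    ∃ K₁ : IntermediateField ℚ (AlgebraicClosure ℚ), FiniteDimensional ℚ K₁ ∧ IsGalois ℚ K₁ ∧
      ∀ x ∈ S, ∃ y ∈ laurentBaseChange K₁ (modularFunctionFieldFull N),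
        coeffMap (algebraMap K₁ (AlgebraicClosure ℚ)) y = x := by
  obtain ⟨K₁, ⟨h1, h2⟩, h3⟩ := s18_d1_exists_finset (F₀ := modularFunctionFieldFull N) S hS
  exact ⟨K₁, h1, h2, h3⟩

/-- (D1, two elements, with `NumberField`). -/
theorem s18_d1_pair (N : ℕ) (x₁ x₂ : LaurentSeries (AlgebraicClosure ℚ))
    (h₁ : x₁ ∈ modularFunctionFieldBar N) (h₂ : x₂ ∈ modularFunctionFieldBar N) :
    ∃ K₁ : IntermediateField ℚ (AlgebraicClosure ℚ), NumberField K₁ ∧ IsGalois ℚ K₁ ∧
      (∃ y ∈ laurentBaseChange K₁ (modularFunctionFieldFull N),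
        coeffMap (algebraMap K₁ (AlgebraicClosure ℚ)) y = x₁) ∧
      (∃ y ∈ laurentBaseChange K₁ (modularFunctionFieldFull N),
        coeffMap (algebraMap K₁ (AlgebraicClosure ℚ)) y = x₂) := by
  classical
  obtain ⟨K₁, h1, h2, h3⟩ := s18_d1 N {x₁, x₂} (by
    intro x hx
    rcases Finset.mem_insert.mp hx with rfl | hx
    · exact h₁
    · rw [Finset.mem_singleton] at hx
      rw [hx]; exact h₂)
  haveI := h1
  exact ⟨K₁, NumberField.mk, h2, h3 x₁ (Finset.mem_insert_self _ _),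
    h3 x₂ (Finset.mem_insert_of_mem (Finset.mem_singleton_self _))⟩

/-- Conversely, series defined over a subfield `K₁ ≤ ℚ̄` lie in `F̄(N)`. -/
theorem s18_d1_mem_bar (N : ℕ) (K₁ : IntermediateField ℚ (AlgebraicClosure ℚ))
    (y : LaurentSeries K₁) (hy : y ∈ laurentBaseChange K₁ (modularFunctionFieldFull N)) :
    coeffMap (algebraMap K₁ (AlgebraicClosure ℚ)) y ∈ modularFunctionFieldBar N :=
  s18_d1_coeffMap_mem (modularFunctionFieldFull N) _ hy

/-- If a series over `K₁` has all coefficients (viewed in `ℚ̄`) in the valuation ring `A`, it is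
a series over `A₁ = A ∩ K₁`. -/
theorem s18_d1_descend_coeff (K₁ : IntermediateField ℚ (AlgebraicClosure ℚ))
    (A : ValuationSubring (AlgebraicClosure ℚ)) (y : LaurentSeries K₁) (z : LaurentSeries A)
    (h : coeffMap (algebraMap K₁ (AlgebraicClosure ℚ)) y = coeffMap A.subtype z) :
    ∃ w : LaurentSeries (A.comap (algebraMap K₁ (AlgebraicClosure ℚ))),
      coeffMap (A.comap (algebraMap K₁ (AlgebraicClosure ℚ))).subtype w = y := by
  have hmem : ∀ k : ℤ, y.coeff k ∈ A.comap (algebraMap K₁ (AlgebraicClosure ℚ)) := by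
    intro k
    rw [ValuationSubring.mem_comap]
    have := congrArg (fun s => s.coeff k) h
    simp only [coeffMap_coeff] at this
    rw [this]
    exact (z.coeff k).2
  refine ⟨HahnSeries.ofSuppBddBelow (fun k => ⟨y.coeff k, hmem k⟩) ?_, ?_⟩
  · exact ⟨y.order, fun k hk => le_of_not_gt fun hlt =>
      hk (Subtype.ext (HahnSeries.coeff_eq_zero_of_lt_order hlt))⟩
  · ext k
    rfl

end general

end Fermat.Agent.S18
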