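import Mathlib
import Fermat.Agent.S18.InjCore
import Fermat.Agent.S18.InjDescent
import Fermat.Agent.S18.NumField

/-!
# S18 assembly (helper15): (INJ) at an auxiliary level from the level data

`s18_LevelData N' ℓ A K₁` collects everything the blocks C (charts, Gauss normal form), D (branch
condition) and the arithmetic of `A₁ = A ∩ K₁` deliver at the auxiliary level `N'` for a number
field `K₁ ⊆ Q̄`.  `s18_inj_level_of_data` deduces (INJ) at level `N'`.
-/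

set_option autoImplicit false
set_option synthInstance.maxHeartbeats 400000

open ModularCurve AlgebraicCurve

noncomputable section

namespace Fermat.Agent.S18

/-- Everything needed at the auxiliary level `N'` over the number field `K₁`. -/
def s18_LevelData (N' : ℕ) (ℓ : ℕ) (A : ValuationSubring (AlgebraicClosure ℚ))
    (K₁ : IntermediateField ℚ (AlgebraicClosure ℚ)) : Prop :=
  IsDiscreteValuationRing (s18_A1 A K₁) ∧
  ∃ (π : s18_A1 A K₁) (t : s18_F1 K₁ N') (B0 Binf : Subalgebra (s18_A1 A K₁) (s18_F1 K₁ N')),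
    Irreducible π ∧ s18_ChartPkg π t B0 Binf ∧ s18_Branch π t B0 ∧ s18_Branch π t⁻¹ Binf ∧
    (∀ m : ℕ, ¬ ℓ ∣ m → IsUnit ((m : ℕ) : s18_A1 A K₁)) ∧
    ∀ (y₁ y₂ : LaurentSeries A) (f : s18_F1 K₁ N'),
      coeffMap (algebraMap K₁ (AlgebraicClosure ℚ)) (f : LaurentSeries K₁) *
        coeffMap A.subtype y₂ = coeffMap A.subtype y₁ →
      coeffMap (IsLocalRing.residue A) y₁ = coeffMap (IsLocalRing.residue A) y₂ →
      coeffMap (IsLocalRing.residue A) y₂ ≠ 0 →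
      ∃ a ∈ B0, ∃ b ∈ B0, (algebraMap (s18_A1 A K₁) (s18_F1 K₁ N') π)⁻¹ * b ∉ B0 ∧
        (algebraMap (s18_A1 A K₁) (s18_F1 K₁ N') π)⁻¹ * (a - b) ∈ B0 ∧ f = a / b

/-- (INJ) at the level `N'` from the level data over all Galois number fields. -/
theorem s18_inj_level_of_data (N' : ℕ) [NeZero N'] {ℓ : ℕ}
    (A : ValuationSubring (AlgebraicClosure ℚ)) (m : ℕ) (hm0 : 0 < m) (hm : ¬ ℓ ∣ m)
    (hdata : ∀ K₁ : IntermediateField ℚ (AlgebraicClosure ℚ), NumberField K₁ → IsGalois ℚ K₁ →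
      s18_LevelData N' ℓ A K₁) :
    s18_InjLevel N' A m := by
  intro y₁ y₂ h₁ h₂ hred hne hdiv
  obtain ⟨K₁, hNF, hGal, ⟨f₁, hf₁mem, hf₁⟩, ⟨f₂, hf₂mem, hf₂⟩⟩ :=
    s18_d1_pair N' (coeffMap A.subtype y₁) (coeffMap A.subtype y₂) h₁ h₂
  obtain ⟨hDVR, π, t, B0, Binf, hπ, hP, hBr0, hBrInf, hunit, hgauss⟩ := hdata K₁ hNF hGal
  -- `n₂ ≠ 0`
  have hn₂ : coeffMap A.subtype y₂ ≠ 0 := by
    intro h0
    apply hne
    have hy₂ : y₂ = 0 := by
      ext k
      have := congrArg (fun z => z.coeff k) h0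
      simpa using this
    rw [hy₂, map_zero]
  set f : s18_F1 K₁ N' := (⟨f₁, hf₁mem⟩ : s18_F1 K₁ N') / ⟨f₂, hf₂mem⟩ with hfdef
  have hfcoe : coeffMap (algebraMap K₁ (AlgebraicClosure ℚ)) (f : LaurentSeries K₁) =
      coeffMap A.subtype y₁ / coeffMap A.subtype y₂ := by
    rw [hfdef]
    simp only [IntermediateField.coe_div]
    rw [map_div₀, hf₁, hf₂]
  have hfn : coeffMap (algebraMap K₁ (AlgebraicClosure ℚ)) (f : LaurentSeries K₁) *
      coeffMap A.subtype y₂ = coeffMap A.subtype y₁ := by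
    rw [hfcoe, div_mul_cancel₀ _ hn₂]
  obtain ⟨a, ha, b, hb, hbπ, hab, hfab⟩ := hgauss y₁ y₂ f hfn hred hne
  have hbase : s18_baseIncl K₁ N' f = (⟨coeffMap A.subtype y₁, h₁⟩ : modularFunctionFieldBar N') /
      ⟨coeffMap A.subtype y₂, h₂⟩ := by
    apply Subtype.ext
    rw [s18_baseIncl_coe, hfcoe]
    simp
  rw [← hbase] at hdiv ⊢
  exact s18_inj_core N' A K₁ hπ hP hBr0 hBrInf m hm0 (hunit m hm) f a b ha hb hbπ hab hfab hdiv

end Fermat.Agent.S18
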