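import Mathlib

/-!
# S18, block Cb (= D2): valuation rings of number fields

A valuation subring `A` of a number field `K` in which a prime `ℓ` is not a unit is the
localisation of `𝓞 K` at a nonzero prime; hence it is a DVR with finite residue field, and the
residue field has an `𝔽_ℓ`-basis lifting to `A`.
-/

set_option autoImplicit false
set_option linter.style.haveILetI false

namespace Fermat.Agent.S18

open IsDedekindDomain NumberField

/-- A valuation subring of a number field in which `ℓ` is not a unit is the localisation of the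
ring of integers at a nonzero prime containing `ℓ`. -/
theorem s18_ch_exists_prime {K : Type*} [Field K] [NumberField K] (A : ValuationSubring K)
    (ℓ : ℕ) (hℓ : ((ℓ : K))⁻¹ ∉ A) :
    ∃ v : HeightOneSpectrum (𝓞 K), v.valuationSubringAtPrime K = A ∧
      ((ℓ : ℕ) : 𝓞 K) ∈ v.asIdeal := by
  have hint : ∀ x : 𝓞 K, (x : K) ∈ A.toSubring := by
    intro x
    have h1 : IsIntegral ℤ (x : K) := x.2
    have h2 : IsIntegral A (x : K) := h1.tower_top
    obtain ⟨y, hy⟩ := (IsIntegrallyClosed.isIntegral_iff (R := A) (K := K)).mp h2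
    rw [← hy]
    exact y.2
  let φ : 𝓞 K →+* A := (algebraMap (𝓞 K) K).codRestrict A.toSubring hint
  have hφ : ∀ x : 𝓞 K, ((φ x : A) : K) = (x : K) := fun x => rfl
  let P : Ideal (𝓞 K) := (IsLocalRing.maximalIdeal A).comap φ
  have hPprime : P.IsPrime := Ideal.comap_isPrime φ _
  have hℓ0 : (ℓ : K) ≠ 0 := by
    intro h
    apply hℓ
    rw [h, inv_zero]
    exact A.zero_mem
  have hℓP : ((ℓ : ℕ) : 𝓞 K) ∈ P := by
    show φ ((ℓ : ℕ) : 𝓞 K) ∈ IsLocalRing.maximalIdeal A
    rw [IsLocalRing.mem_maximalIdeal, mem_nonunits_iff]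
    intro hu
    obtain ⟨u, hu⟩ := hu
    apply hℓ
    have h1 : ((u⁻¹ : Aˣ) : A) * φ ((ℓ : ℕ) : 𝓞 K) = 1 := by rw [← hu]; exact u.inv_mul
    have h2 : (((u⁻¹ : Aˣ) : A) : K) * (ℓ : K) = 1 := by
      have := congrArg (fun a : A => (a : K)) h1
      simpa [hφ] using this
    have h3 : ((ℓ : K))⁻¹ = (((u⁻¹ : Aˣ) : A) : K) := by
      rw [eq_comm, ← mul_eq_one_iff_eq_inv₀ hℓ0]
      exact h2
    rw [h3]
    exact ((u⁻¹ : Aˣ) : A).2
  have hPne : P ≠ ⊥ := by
    intro h
    rw [h, Ideal.mem_bot] at hℓP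
    apply hℓ0
    have := congrArg (fun a : 𝓞 K => (a : K)) hℓP
    simpa using this
  let v : HeightOneSpectrum (𝓞 K) := ⟨P, hPprime, hPne⟩
  have hle : v.valuationSubringAtPrime K ≤ A := by
    rintro x ⟨a, s, hs, rfl⟩
    have hs' : φ s ∉ IsLocalRing.maximalIdeal A := hs
    rw [IsLocalRing.mem_maximalIdeal, mem_nonunits_iff, not_not] at hs'
    obtain ⟨u, hu⟩ := hs'
    have h1 : (((u⁻¹ : Aˣ) : A) : K) * ((s : 𝓞 K) : K) = 1 := by
      have h0 : ((u⁻¹ : Aˣ) : A) * φ s = 1 := by rw [← hu]; exact u.inv_mul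
      have := congrArg (fun a : A => (a : K)) h0
      simpa [hφ] using this
    have hs0 : ((s : 𝓞 K) : K) ≠ 0 := right_ne_zero_of_mul_eq_one h1
    have h3 : (((s : 𝓞 K) : K))⁻¹ = (((u⁻¹ : Aˣ) : A) : K) := by
      rw [eq_comm, ← mul_eq_one_iff_eq_inv₀ hs0]
      exact h1
    have h4 : ((algebraMap (𝓞 K) K) s)⁻¹ = (((u⁻¹ : Aˣ) : A) : K) := h3
    rw [h4]
    exact A.mul_mem _ _ (hint a) ((u⁻¹ : Aˣ) : A).2
  have hA : A ≠ ⊤ := fun h => hℓ (h ▸ ValuationSubring.mem_top _)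
  exact ⟨v, ValuationSubring.eq_of_le_of_ne_top _ hle hA, hℓP⟩

/-- A valuation subring of a number field in which the prime `ℓ` is not a unit is a DVR. -/
theorem s18_ch_dvr {K : Type*} [Field K] [NumberField K] (A : ValuationSubring K) (ℓ : ℕ)
    [Fact ℓ.Prime] (hℓ : ((ℓ : K))⁻¹ ∉ A) : IsDiscreteValuationRing A := by
  obtain ⟨v, rfl, -⟩ := s18_ch_exists_prime A ℓ hℓ
  exact IsLocalization.AtPrime.isDiscreteValuationRing_of_dedekind_domain (𝓞 K) v.ne_bot
    (v.valuationSubringAtPrime K)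

/-- The residue field is finite (hence perfect). -/
theorem s18_ch_resfinite {K : Type*} [Field K] [NumberField K] (A : ValuationSubring K) (ℓ : ℕ)
    [Fact ℓ.Prime] (hℓ : ((ℓ : K))⁻¹ ∉ A) : Finite (IsLocalRing.ResidueField A) := by
  obtain ⟨v, rfl, -⟩ := s18_ch_exists_prime A ℓ hℓ
  haveI : Finite (𝓞 K ⧸ v.asIdeal) := Ideal.finiteQuotientOfFreeOfNeBot v.asIdeal v.ne_bot
  exact Finite.of_equiv _
    (IsLocalization.AtPrime.equivQuotMaximalIdeal v.asIdeal (v.valuationSubringAtPrime K)).toEquiv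

/-- The residue field has characteristic `ℓ`. -/
theorem s18_ch_residue_natCast {K : Type*} [Field K] [NumberField K] (A : ValuationSubring K)
    (ℓ : ℕ) (hℓ : ((ℓ : K))⁻¹ ∉ A) : ((ℓ : ℕ) : IsLocalRing.ResidueField A) = 0 := by
  have h1 : ((ℓ : ℕ) : A) ∈ IsLocalRing.maximalIdeal A := by
    rw [IsLocalRing.mem_maximalIdeal, mem_nonunits_iff]
    intro hu
    obtain ⟨u, hu⟩ := hu
    apply hℓ
    have h1 : ((u⁻¹ : Aˣ) : A) * ((ℓ : ℕ) : A) = 1 := by rw [← hu]; exact u.inv_mul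
    have h2 : (((u⁻¹ : Aˣ) : A) : K) * (ℓ : K) = 1 := by
      have := congrArg (fun a : A => (a : K)) h1
      simpa using this
    have hℓ0 : (ℓ : K) ≠ 0 := right_ne_zero_of_mul_eq_one h2
    have h3 : ((ℓ : K))⁻¹ = (((u⁻¹ : Aˣ) : A) : K) := by
      rw [eq_comm, ← mul_eq_one_iff_eq_inv₀ hℓ0]
      exact h2
    rw [h3]
    exact ((u⁻¹ : Aˣ) : A).2
  have h2 : IsLocalRing.residue A ((ℓ : ℕ) : A) = 0 := by
    rw [IsLocalRing.residue_eq_zero_iff]
    exact h1
  rw [← h2, map_natCast]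

/-- Residue basis: `A/π` is a finite-dimensional `𝔽_ℓ`-vector space with basis the classes of
`a_1, …, a_f`. -/
theorem s18_ch_resbasis {K : Type*} [Field K] [NumberField K] (A : ValuationSubring K) (ℓ : ℕ)
    [Fact ℓ.Prime] (hℓ : ((ℓ : K))⁻¹ ∉ A) (π : A) (hπ : Irreducible π) :
    ∃ (f : ℕ) (a : Fin f → A),
      (∀ x : A, ∃ (c : Fin f → ℤ) (y : A), x = ∑ i, (c i : A) * a i + π * y) ∧
      (∀ c : Fin f → ℤ, (∃ y : A, ∑ i, (c i : A) * a i = π * y) → ∀ i, (ℓ : ℤ) ∣ c i) := by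
  haveI := s18_ch_dvr A ℓ hℓ
  haveI := s18_ch_resfinite A ℓ hℓ
  haveI : CharP (IsLocalRing.ResidueField A) ℓ :=
    (CharP.charP_iff_prime_eq_zero (Fact.out : ℓ.Prime)).mpr (s18_ch_residue_natCast A ℓ hℓ)
  letI : Algebra (ZMod ℓ) (IsLocalRing.ResidueField A) := ZMod.algebra _ ℓ
  let b := Module.finBasis (ZMod ℓ) (IsLocalRing.ResidueField A)
  have hsurj : Function.Surjective (IsLocalRing.residue A) := IsLocalRing.residue_surjective
  choose a ha using fun i => hsurj (b i)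
  have hmax : IsLocalRing.maximalIdeal A = Ideal.span {π} :=
    (Irreducible.maximalIdeal_eq hπ)
  have hker : ∀ z : A, IsLocalRing.residue A z = 0 → ∃ y : A, z = π * y := by
    intro z hz
    rw [IsLocalRing.residue_eq_zero_iff, hmax, Ideal.mem_span_singleton] at hz
    exact hz
  have hres : ∀ c : Fin _ → ℤ, IsLocalRing.residue A (∑ i, (c i : A) * a i)
      = ∑ i, ((c i : ZMod ℓ)) • b i := by
    intro c
    rw [map_sum]
    refine Finset.sum_congr rfl fun i _ => ?_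
    rw [map_mul, ha, map_intCast, Algebra.smul_def]
    congr 1
    rw [map_intCast]
  refine ⟨_, a, fun x => ?_, fun c hc i => ?_⟩
  · let c : Fin _ → ℤ := fun i => ((b.repr (IsLocalRing.residue A x) i).val : ℤ)
    have hx : IsLocalRing.residue A (x - ∑ i, (c i : A) * a i) = 0 := by
      rw [map_sub, hres, sub_eq_zero]
      conv_lhs => rw [← b.sum_repr (IsLocalRing.residue A x)]
      refine Finset.sum_congr rfl fun i _ => ?_
      congr 1
      simp [c]
    obtain ⟨y, hy⟩ := hker _ hx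
    exact ⟨c, y, by rw [← hy]; ring⟩
  · obtain ⟨y, hy⟩ := hc
    have h0 : ∑ i, ((c i : ZMod ℓ)) • b i = 0 := by
      rw [← hres, hy, map_mul]
      have : IsLocalRing.residue A π = 0 := by
        rw [IsLocalRing.residue_eq_zero_iff, hmax]
        exact Ideal.mem_span_singleton_self π
      rw [this, zero_mul]
    have h1 := (Fintype.linearIndependent_iff.mp b.linearIndependent) (fun i => (c i : ZMod ℓ)) h0 i
    exact (ZMod.intCast_zmod_eq_zero_iff_dvd (c i) ℓ).mp h1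

end Fermat.Agent.S18
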