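import Fermat.Agent.S18.Setup
import Fermat.Agent.S18.ChDvr
import Fermat.Agent.S18.ChAlg

/-!
# S18 (E-K1): facts about the valuation ring `A₁ = A ∩ K₁` of a number field `K₁ ⊆ Q̄`

`A` is a valuation subring of `Q̄` over the prime `ℓ`, `K₁` a finite extension of `ℚ` inside `Q̄`,
`A₁ = s18_A1 A K₁ = A.comap (algebraMap K₁ Q̄)`.
-/

set_option autoImplicit false
set_option synthInstance.maxHeartbeats 400000

noncomputable section

namespace Fermat.Agent.S18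

open ModularCurve

section A1

variable (A : ValuationSubring (AlgebraicClosure ℚ)) {ℓ : ℕ} [Fact ℓ.Prime]
  (hA : A.LiesOverPrime ℓ) (K₁ : IntermediateField ℚ (AlgebraicClosure ℚ))

include hA in
/-- (i) `ℓ` is not a unit of `A₁`. -/
theorem s18_a1_ell : ((ℓ : K₁))⁻¹ ∉ s18_A1 A K₁ := by
  intro h
  have h1 : ((ℓ : AlgebraicClosure ℚ))⁻¹ ∈ A := by
    have h2 : algebraMap K₁ (AlgebraicClosure ℚ) ((ℓ : K₁))⁻¹ ∈ A := h
    rwa [map_inv₀, map_natCast] at h2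
  obtain ⟨hmem, hmax⟩ := (ValuationSubring.mem_nonunits_iff_exists_mem_maximalIdeal).mp hA
  have hunit : IsUnit (⟨(ℓ : AlgebraicClosure ℚ), hmem⟩ : A) := by
    refine IsUnit.of_mul_eq_one (⟨((ℓ : AlgebraicClosure ℚ))⁻¹, h1⟩ : A) (Subtype.ext ?_)
    show (ℓ : AlgebraicClosure ℚ) * ((ℓ : AlgebraicClosure ℚ))⁻¹ = 1
    have hℓ0 : (ℓ : AlgebraicClosure ℚ) ≠ 0 := Nat.cast_ne_zero.mpr (Fact.out : ℓ.Prime).ne_zero
    exact mul_inv_cancel₀ hℓ0
  exact (IsLocalRing.mem_maximalIdeal _).mp hmax hunit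

include hA in
/-- (ii) `A₁` is a discrete valuation ring. -/
theorem s18_a1_dvr [FiniteDimensional ℚ K₁] : IsDiscreteValuationRing (s18_A1 A K₁) :=
  haveI : NumberField K₁ := NumberField.mk
  s18_ch_dvr (s18_A1 A K₁) ℓ (s18_a1_ell A hA K₁)

include hA in
/-- (iii) residue basis data for `A₁`. -/
theorem s18_a1_resbasis [FiniteDimensional ℚ K₁] (π : s18_A1 A K₁) (hπ : Irreducible π) :
    s18_ResBasis ℓ (s18_A1 A K₁) π :=
  haveI : NumberField K₁ := NumberField.mk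
  ⟨s18_a1_ell A hA K₁, hπ, s18_ch_resbasis (s18_A1 A K₁) ℓ (s18_a1_ell A hA K₁) π hπ⟩

include hA in
/-- `ℓ` is not a unit of `A₁` (ring form). -/
theorem s18_a1_ell_not_isUnit : ¬ IsUnit ((ℓ : ℕ) : s18_A1 A K₁) := by
  intro hu
  obtain ⟨u, hu⟩ := hu.exists_left_inv
  apply s18_a1_ell A hA K₁
  have h1 : ((u : s18_A1 A K₁) : K₁) * (ℓ : K₁) = 1 := by
    have := congrArg (fun a : s18_A1 A K₁ => (a : K₁)) hu
    simpa using this
  have hℓ0 : (ℓ : K₁) ≠ 0 := right_ne_zero_of_mul_eq_one h1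
  have h2 : ((ℓ : K₁))⁻¹ = ((u : s18_A1 A K₁) : K₁) := by
    rw [eq_comm, ← mul_eq_one_iff_eq_inv₀ hℓ0]
    exact h1
  rw [h2]
  exact u.2

include hA in
/-- (iv) integers prime to `ℓ` are units of `A₁`. -/
theorem s18_a1_isUnit_natCast (m : ℕ) (hm : ¬ ℓ ∣ m) : IsUnit ((m : ℕ) : s18_A1 A K₁) := by
  by_contra hnu
  have h1 : ((m : ℕ) : s18_A1 A K₁) ∈ IsLocalRing.maximalIdeal (s18_A1 A K₁) :=
    (IsLocalRing.mem_maximalIdeal _).mpr hnu
  have h2 : ((ℓ : ℕ) : s18_A1 A K₁) ∈ IsLocalRing.maximalIdeal (s18_A1 A K₁) :=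
    (IsLocalRing.mem_maximalIdeal _).mpr (s18_a1_ell_not_isUnit A hA K₁)
  have hcop : Nat.Coprime ℓ m := ((Fact.out : ℓ.Prime).coprime_iff_not_dvd).mpr hm
  obtain ⟨a, b, hab⟩ := Nat.isCoprime_iff_coprime.mpr hcop
  have h3 : (1 : s18_A1 A K₁) = (a : s18_A1 A K₁) * ((ℓ : ℕ) : s18_A1 A K₁)
      + (b : s18_A1 A K₁) * ((m : ℕ) : s18_A1 A K₁) := by
    have := congrArg (fun z : ℤ => (z : s18_A1 A K₁)) hab
    simp only [Int.cast_add, Int.cast_mul, Int.cast_natCast, Int.cast_one] at this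
    exact this.symm
  have h4 : (1 : s18_A1 A K₁) ∈ IsLocalRing.maximalIdeal (s18_A1 A K₁) := by
    rw [h3]
    exact Ideal.add_mem _ (Ideal.mul_mem_left _ _ h2) (Ideal.mul_mem_left _ _ h1)
  exact (IsLocalRing.mem_maximalIdeal _).mp h4 isUnit_one

/-- (v) `A₁` has characteristic zero. -/
theorem s18_a1_charZero : CharZero (s18_A1 A K₁) :=
  ⟨fun m n h => by
    have h1 : ((m : s18_A1 A K₁) : K₁) = ((n : s18_A1 A K₁) : K₁) := congrArg Subtype.val h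
    have h2 : (m : K₁) = (n : K₁) := by simpa using h1
    exact Nat.cast_injective h2⟩

include hA in
/-- (vi) a valuation ring of `F1` containing `A₁` and `π⁻¹` contains `K₁`. -/
theorem s18_a1_K_mem [FiniteDimensional ℚ K₁] (N' : ℕ) {π : s18_A1 A K₁}
    (W : ValuationSubring (s18_F1 K₁ N'))
    (hAW : ∀ a : s18_A1 A K₁, algebraMap (s18_A1 A K₁) (s18_F1 K₁ N') a ∈ W)
    (hπ : Irreducible π)
    (hπW : (algebraMap (s18_A1 A K₁) (s18_F1 K₁ N') π)⁻¹ ∈ W) :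
    ∀ c : K₁, algebraMap K₁ (s18_F1 K₁ N') c ∈ W := by
  have := s18_a1_dvr A hA K₁
  intro c
  by_cases hc : c ∈ s18_A1 A K₁
  · exact hAW ⟨c, hc⟩
  · have hc' : c⁻¹ ∈ s18_A1 A K₁ := (ValuationSubring.mem_or_inv_mem _ c).resolve_left hc
    have hc0 : c ≠ 0 := fun h => hc (h ▸ zero_mem _)
    have hne : (⟨c⁻¹, hc'⟩ : s18_A1 A K₁) ≠ 0 := by
      intro h0
      exact inv_ne_zero hc0 (congrArg Subtype.val h0)
    obtain ⟨k, u, hu⟩ := IsDiscreteValuationRing.eq_unit_mul_pow_irreducible hne hπ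
    have h1 : c⁻¹ = ((u : s18_A1 A K₁) : K₁) * (π : K₁) ^ k := by
      have := congrArg (fun a : s18_A1 A K₁ => (a : K₁)) hu
      simpa using this
    have h2 : ((u : s18_A1 A K₁) : K₁) * (((u⁻¹ : (s18_A1 A K₁)ˣ) : s18_A1 A K₁) : K₁) = 1 := by
      have h0 : (u : s18_A1 A K₁) * ((u⁻¹ : (s18_A1 A K₁)ˣ) : s18_A1 A K₁) = 1 := u.mul_inv
      have := congrArg Subtype.val h0
      exact this
    have hπ0 : (π : K₁) ≠ 0 := fun h0 => hπ.ne_zero (Subtype.ext h0)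
    have hu0 : ((u : s18_A1 A K₁) : K₁) ≠ 0 := left_ne_zero_of_mul_eq_one h2
    have h3 : c = (((u⁻¹ : (s18_A1 A K₁)ˣ) : s18_A1 A K₁) : K₁) * ((π : K₁)⁻¹) ^ k := by
      have h4 : c = (c⁻¹)⁻¹ := (inv_inv c).symm
      rw [h4, h1, mul_inv, inv_pow]
      congr 1
      rw [eq_comm, ← mul_eq_one_iff_eq_inv₀ hu0, mul_comm]
      exact h2
    have h5 : algebraMap K₁ (s18_F1 K₁ N') c
        = algebraMap (s18_A1 A K₁) (s18_F1 K₁ N') ((u⁻¹ : (s18_A1 A K₁)ˣ) : s18_A1 A K₁)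
          * ((algebraMap (s18_A1 A K₁) (s18_F1 K₁ N') π)⁻¹) ^ k := by
      conv_lhs => rw [h3]
      rw [map_mul, map_pow, map_inv₀]
      rfl
    rw [h5]
    exact W.mul_mem _ _ (hAW _) (pow_mem hπW k)

end A1

end Fermat.Agent.S18
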