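import Fermat.Agent.S24

/-!
# S18, block D6: branch data of `F̄(N)` over the `t`-line

`F̄(N) = modularFunctionFieldBar N` over `ℚ̄`.  From the S24 analysis of the Galois closure of
`F̄(N)` over `ℚ̄(j)` (ramification indices `1` over generic `j`, `≤ 2` over `1728`, `≤ 3` over `0`)
we deduce that for a Hauptmodul `t` with `j t² = (t + 256)³` (level 2) resp.
`j t³ = (t + 27)(t + 243)³` (level 3) the extension `F̄(N)/ℚ̄(t)` is unramified outside
`t = 0, ∞, -64` (resp. `0, ∞, -27`).
-/

set_option synthInstance.maxHeartbeats 200000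
set_option autoImplicit false
set_option linter.style.haveILetI false
set_option linter.unusedSectionVars false
set_option linter.unusedSimpArgs false

open ModularCurve

noncomputable section

namespace Fermat.Agent.S18

open AlgebraicCurve Fermat.Agent.S24
open scoped IntermediateField

attribute [local instance] Fermat.Agent.S24.algKC Fermat.Agent.S24.algFL

variable (N : ℕ) [NeZero N]

/-- Every place of `F̄(N)` over `j = c` has `ord (j - c)` bounded by the order at any one place of
the Galois closure over `j = c`. -/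
theorem s18_d6_ord_j_le (c : Kbar) (w0 : Place Kbar (ModL N))
    (h0 : 0 < w0.ord (jL N - algebraMap Kbar (ModL N) c))
    (v : Place Kbar (FF N)) (hv : 0 < v.ord (jF N - algebraMap Kbar (FF N) c)) :
    v.ord (jF N - algebraMap Kbar (FF N) c) ≤ w0.ord (jL N - algebraMap Kbar (ModL N) c) := by
  set t : FF N := jF N - algebraMap Kbar (FF N) c with ht_def
  have ht : Transcendental Kbar t := asm_transcendental_sub_const (transcendental_jF N) c
  have hmap : algebraMap (FF N) (ModL N) t = jL N - algebraMap Kbar (ModL N) c :=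
    asm_algebraMap_sub N c
  have hgen : Kbar⟮algebraMap (FF N) (ModL N) t⟯ = Kbar⟮jL N⟯ := by
    rw [hmap]; exact asm_adjoin_sub_const _ _
  have htfix : ∀ g : GG N, g • algebraMap (FF N) (ModL N) t = algebraMap (FF N) (ModL N) t :=
    fun g => asm_fixed_of_mem N _ (hgen ▸ IntermediateField.mem_adjoin_simple_self Kbar _) g
  have hfix : ∀ f : ModL N, (∀ g : GG N, g • f = f) →
      f ∈ Kbar⟮algebraMap (FF N) (ModL N) t⟯ := by
    intro f hf
    rw [hgen]
    exact modL_fixed N f (fun γ => hf (rho N γ))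
  obtain ⟨hfd, -, hfdL, -, hFL, -⟩ := galois_setup (K := Kbar) (F := FF N) (L := ModL N)
    (G := GG N) t ht hfix htfix (HH N) (asm_mem_HH N)
  haveI := hfd
  haveI := hfdL
  haveI := hFL
  have ht0 : t ≠ 0 := fun h => by rw [h, Place.ord_zero] at hv; exact lt_irrefl _ hv
  obtain ⟨w, hw⟩ := exists_place_over (K := Kbar) (F := FF N) (L := ModL N) t ht v hv
  -- the restriction of `w` is `v`
  have hwt : 0 < w.ord (algebraMap (FF N) (ModL N) t) := by
    have h1 : algebraMap (FF N) (ModL N) t ∈ w.toValuationSubring :=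
      (hw t).mpr ((mem_iff_ord_nonneg v t).mpr hv.le)
    have h2 : (algebraMap (FF N) (ModL N) t)⁻¹ ∉ w.toValuationSubring := by
      rw [← map_inv₀, hw, mem_iff_ord_nonneg, Place.ord_inv]
      omega
    rw [mem_iff_ord_nonneg, Place.ord_inv] at h2
    omega
  obtain ⟨v', e, he, hv'⟩ := exists_restrict_place (K := Kbar) (F := FF N) (L := ModL N) w
    ⟨t, ht0, hwt.ne'⟩
  have hvv' : v' = v := by
    apply place_ext_ord
    intro f
    rw [← mem_iff_ord_nonneg v f, ← hw f, mem_iff_ord_nonneg, hv' f]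
    constructor
    · intro h; positivity
    · intro h; exact nonneg_of_mul_nonneg_right h he
  subst hvv'
  have ht' : Transcendental Kbar (algebraMap (FF N) (ModL N) t) :=
    (transcendental_algebraMap_iff (algebraMap (FF N) (ModL N)).injective).mpr ht
  have h0' : 0 < w0.ord (algebraMap (FF N) (ModL N) t) := by rw [hmap]; exact h0
  obtain ⟨g, hg⟩ := cnt_transitive (K := Kbar) (L := ModL N) (G := GG N)
    (algebraMap (FF N) (ModL N) t) ht' hfix htfix w0 w h0' hwt
  have hord : w.ord (algebraMap (FF N) (ModL N) t) = w0.ord (algebraMap (FF N) (ModL N) t) := by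
    rw [← hg, cnt_ord_smul, htfix]
  rw [← hmap, ← hord, hv' t]
  exact le_mul_of_one_le_left hv.le (by omega)

/-- Generic fibres of `j` are unramified in `F̄(N)`. -/
theorem s18_d6_ord_j_generic (c : Kbar) (h0 : c ≠ 0) (h1 : c ≠ 1728)
    (v : Place Kbar (FF N)) (hv : 0 < v.ord (jF N - algebraMap Kbar (FF N) c)) :
    v.ord (jF N - algebraMap Kbar (FF N) c) = 1 := by
  obtain ⟨w0, hw0⟩ := exists_place_generic N c h0 h1
  have h := s18_d6_ord_j_le N c w0 (by rw [hw0]; exact one_pos) v hv
  rw [hw0] at h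
  omega

/-- Ramification over `j = 1728` is at most `2`. -/
theorem s18_d6_ord_j_1728 (v : Place Kbar (FF N))
    (hv : 0 < v.ord (jF N - algebraMap Kbar (FF N) 1728)) :
    v.ord (jF N - algebraMap Kbar (FF N) 1728) ≤ 2 := by
  obtain ⟨w0, hw0, hw2, -⟩ := exists_place_S N
  exact (s18_d6_ord_j_le N 1728 w0 hw0 v hv).trans hw2

/-- Ramification over `j = 0` is at most `3`. -/
theorem s18_d6_ord_j_zero (v : Place Kbar (FF N)) (hv : 0 < v.ord (jF N)) :
    v.ord (jF N) ≤ 3 := by
  obtain ⟨w0, hw0, hw3, -⟩ := exists_place_ST N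
  have h := s18_d6_ord_j_le N 0 w0 (by rw [map_zero, sub_zero]; exact hw0) v
    (by rw [map_zero, sub_zero]; exact hv)
  rw [map_zero, sub_zero, map_zero, sub_zero] at h
  exact h.trans hw3

/-! ## The `t`-line -/

section generic

variable {K F : Type*} [Field K] [IsAlgClosed K] [CharZero K] [Field F] [Algebra K F]

open Polynomial in
/-- A polynomial in `s` with nonzero constant term does not vanish at a zero of `s`. -/
theorem s18_d6_aeval_ne_zero (v : Place K F) (s : F) (hs : 0 < v.ord s) (p : K[X])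
    (hp : p.coeff 0 ≠ 0) : aeval s p ≠ 0 := by
  intro h0
  have hs' : s ∈ v.toValuationSubring := (mem_iff_ord_nonneg v s).mpr hs.le
  have hs0 : s ≠ 0 := by
    intro h; rw [h, Place.ord_zero] at hs; exact lt_irrefl _ hs
  have hdec : aeval s p = algebraMap K F (p.coeff 0) + aeval s p.divX * s := by
    conv_lhs => rw [← divX_mul_X_add p]
    simp [add_comm]
  have hc0 : algebraMap K F (p.coeff 0) ≠ 0 := (_root_.map_ne_zero _).mpr hp
  rw [h0] at hdec
  have hA : aeval s p.divX * s ≠ 0 := by
    intro h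
    rw [h, add_zero] at hdec
    exact hc0 hdec.symm
  have h1 : 0 ≤ v.ord (aeval s p.divX) :=
    (mem_iff_ord_nonneg v _).mp (trn_aeval_mem s v hs' _)
  have h2 : v.ord (algebraMap K F (p.coeff 0)) < v.ord (aeval s p.divX * s) := by
    rw [ord_algebraMap, v.ord_mul (left_ne_zero_of_mul hA) hs0]; omega
  have h3 := ord_add_eq_of_lt v hc0 hA h2
  rw [← hdec, Place.ord_zero, ord_algebraMap] at h3
  rw [ord_algebraMap] at h2
  have h4 : algebraMap K F (p.coeff 0) = -(aeval s p.divX * s) := by
    linear_combination -hdec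
  have h5 := ord_algebraMap v (p.coeff 0)
  rw [h4, ord_neg] at h5
  omega

open Polynomial in
/-- If `A * p(s) = s^m * q(s)` with `p(0), q(0) ≠ 0`, then `ord A = m * ord s` at every zero of
`s`. -/
theorem s18_d6_ord_of_eq (v : Place K F) (s : F) (hs : 0 < v.ord s) (A : F) (p q : K[X])
    (hp : p.coeff 0 ≠ 0) (hq : q.coeff 0 ≠ 0) (m : ℕ)
    (h : A * aeval s p = s ^ m * aeval s q) : v.ord A = m * v.ord s := by
  have hs0 : s ≠ 0 := by
    intro h; rw [h, Place.ord_zero] at hs; exact lt_irrefl _ hs
  have hp0 := s18_d6_aeval_ne_zero v s hs p hp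
  have hq0 := s18_d6_aeval_ne_zero v s hs q hq
  have hA : A ≠ 0 := by
    intro hA
    rw [hA, zero_mul] at h
    exact mul_ne_zero (pow_ne_zero m hs0) hq0 h.symm
  have h1 := congrArg v.ord h
  rw [v.ord_mul hA hp0, v.ord_mul (pow_ne_zero m hs0) hq0, cnt_ord_aeval_unit s v hs p hp,
    cnt_ord_aeval_unit s v hs q hq, ord_pow] at h1
  omega

open Polynomial in
/-- Generic form of `s18_d6_two`: the function `J` with `J t² = (t + 256)³`. -/
theorem s18_d6_two_generic (J t : F) (hjt : J * t ^ 2 = (t + 256) ^ 3)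
    (v : Place K F) (c : K) (hc0 : c ≠ 0) (hc : c ≠ -64)
    (hv : 0 < v.ord (t - algebraMap K F c))
    (hgen : ∀ j0 : K, j0 ≠ 0 → j0 ≠ 1728 → 0 < v.ord (J - algebraMap K F j0) →
      v.ord (J - algebraMap K F j0) = 1)
    (h1728 : 0 < v.ord (J - algebraMap K F 1728) → v.ord (J - algebraMap K F 1728) ≤ 2)
    (h0 : 0 < v.ord J → v.ord J ≤ 3) :
    v.ord (t - algebraMap K F c) = 1 := by
  set s : F := t - algebraMap K F c with hs_def
  have ht : t = s + algebraMap K F c := by rw [hs_def]; ring
  rw [ht] at hjt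
  by_cases h512 : c = 512
  · subst h512
    have key : (J - algebraMap K F 1728) * aeval s ((X + C (512 : K)) ^ 2)
        = s ^ 2 * aeval s (X + C (576 : K)) := by
      simp only [map_pow, map_add, aeval_X, aeval_C, map_ofNat] at hjt ⊢
      linear_combination hjt
    have h1 := s18_d6_ord_of_eq v s hv _ _ _ (by simp [coeff_zero_eq_eval_zero])
      (by simp [coeff_zero_eq_eval_zero]) 2 key
    have h2 := h1728 (by rw [h1]; push_cast; omega)
    rw [h1] at h2
    push_cast at h2
    omega
  by_cases h256 : c = -256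
  · subst h256
    have key : J * aeval s ((X + C (-256 : K)) ^ 2) = s ^ 3 * aeval s (1 : K[X]) := by
      simp only [map_pow, map_add, aeval_X, aeval_C, map_ofNat, map_neg, map_one] at hjt ⊢
      linear_combination hjt
    have h1 := s18_d6_ord_of_eq v s hv _ _ _ (by simp [coeff_zero_eq_eval_zero])
      (by simp) 3 key
    have h2 := h0 (by rw [h1]; push_cast; omega)
    rw [h1] at h2
    push_cast at h2
    omega
  · set a : K := c + 256 with ha_def
    have ha0 : a ≠ 0 := by
      intro h
      apply h256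
      rw [ha_def] at h
      linear_combination h
    set j0 : K := a ^ 3 / c ^ 2 with hj0_def
    have hj0 : j0 * c ^ 2 = a ^ 3 := by
      rw [hj0_def, div_mul_cancel₀ _ (pow_ne_zero 2 hc0)]
    have hj0F : algebraMap K F j0 * algebraMap K F c ^ 2
        = (algebraMap K F c + 256) ^ 3 := by
      have h := congrArg (algebraMap K F) hj0
      rw [map_mul, map_pow, map_pow, ha_def, map_add, map_ofNat] at h
      exact h
    have hj00 : j0 ≠ 0 := by
      rw [hj0_def]
      exact div_ne_zero (pow_ne_zero 3 ha0) (pow_ne_zero 2 hc0)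
    have hj01 : j0 ≠ 1728 := by
      intro h
      rw [h] at hj0
      have h2 : (c - 512) ^ 2 * (c + 64) = 0 := by
        rw [ha_def] at hj0
        linear_combination -hj0
      rcases mul_eq_zero.mp h2 with h3 | h3
      · exact h512 (by linear_combination (pow_eq_zero_iff (two_ne_zero)).mp h3)
      · exact hc (by linear_combination h3)
    have key : (J - algebraMap K F j0)
          * aeval s (C (c ^ 2) * (X + C c) ^ 2)
        = s ^ 1 * aeval s (C (c ^ 2) * ((X + C a) ^ 2 + (X + C a) * C a + C (a ^ 2))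
            - C (a ^ 3) * (X + C (2 * c))) := by
      simp only [map_pow, map_add, map_mul, map_sub, aeval_X, aeval_C, map_ofNat, ha_def]
        at hjt ⊢
      linear_combination (algebraMap K F c) ^ 2 * hjt
        - (s + algebraMap K F c) ^ 2 * hj0F
    have h1 := s18_d6_ord_of_eq v s hv _ _ _
      (by
        simp only [coeff_zero_eq_eval_zero, eval_mul, eval_pow, eval_add, eval_X, eval_C]
        simpa using hc0)
      (by
        simp only [coeff_zero_eq_eval_zero, eval_mul, eval_pow, eval_add, eval_sub, eval_X,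
          eval_C]
        have h3 : c * a ^ 2 * (c - 512) ≠ 0 :=
          mul_ne_zero (mul_ne_zero hc0 (pow_ne_zero 2 ha0)) (sub_ne_zero.mpr h512)
        intro h4
        apply h3
        rw [ha_def] at h4 ⊢
        linear_combination h4) 1 key
    have h2 := hgen j0 hj00 hj01 (by rw [h1]; push_cast; omega)
    rw [h1] at h2
    push_cast at h2
    omega

open Polynomial in
/-- Generic form of `s18_d6_three`: the function `J` with `J t³ = (t + 27)(t + 243)³`. -/
theorem s18_d6_three_generic (J t : F) (hjt : J * t ^ 3 = (t + 27) * (t + 243) ^ 3)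
    (v : Place K F) (c : K) (hc0 : c ≠ 0) (hc : c ≠ -27)
    (hv : 0 < v.ord (t - algebraMap K F c))
    (hgen : ∀ j0 : K, j0 ≠ 0 → j0 ≠ 1728 → 0 < v.ord (J - algebraMap K F j0) →
      v.ord (J - algebraMap K F j0) = 1)
    (h1728 : 0 < v.ord (J - algebraMap K F 1728) → v.ord (J - algebraMap K F 1728) ≤ 2)
    (h0 : 0 < v.ord J → v.ord J ≤ 3) :
    v.ord (t - algebraMap K F c) = 1 := by
  set s : F := t - algebraMap K F c with hs_def
  have ht : t = s + algebraMap K F c := by rw [hs_def]; ring
  rw [ht] at hjt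
  by_cases hD : c ^ 2 - 486 * c - 19683 = 0
  · have hDF : algebraMap K F c ^ 2 - 486 * algebraMap K F c - 19683 = 0 := by
      have h := congrArg (algebraMap K F) hD
      rw [map_sub, map_sub, map_pow, map_mul, map_ofNat, map_ofNat, map_zero] at h
      exact h
    have key : (J - algebraMap K F 1728) * aeval s ((X + C c) ^ 3)
        = s ^ 2 * aeval s ((X + C (2 * c - 486)) ^ 2) := by
      simp only [map_pow, map_add, map_sub, map_mul, aeval_X, aeval_C, map_ofNat] at hjt ⊢
      linear_combination hjt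
        + (2 * ((s + algebraMap K F c) ^ 2 - 486 * (s + algebraMap K F c) - 19683)
          - (algebraMap K F c ^ 2 - 486 * algebraMap K F c - 19683)) * hDF
    have h1 := s18_d6_ord_of_eq v s hv _ _ _
      (by
        simp only [coeff_zero_eq_eval_zero, eval_mul, eval_pow, eval_add, eval_X, eval_C]
        simpa using hc0)
      (by
        simp only [coeff_zero_eq_eval_zero, eval_mul, eval_pow, eval_add, eval_X, eval_C]
        intro h4
        have h5 : 2 * c - 486 = 0 := by simpa using h4
        have h6 : (78732 : K) = 0 := by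
          linear_combination (1 / 4 : K) * (2 * c - 486) * h5 - hD
        norm_num at h6) 2 key
    have h2 := h1728 (by rw [h1]; push_cast; omega)
    rw [h1] at h2
    push_cast at h2
    omega
  by_cases h243 : c = -243
  · subst h243
    have key : J * aeval s ((X + C (-243 : K)) ^ 3)
        = s ^ 3 * aeval s (X + C (-216 : K)) := by
      simp only [map_pow, map_add, aeval_X, aeval_C, map_ofNat, map_neg, map_one] at hjt ⊢
      linear_combination hjt
    have h1 := s18_d6_ord_of_eq v s hv _ _ _ (by simp [coeff_zero_eq_eval_zero])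
      (by simp [coeff_zero_eq_eval_zero]) 3 key
    have h2 := h0 (by rw [h1]; push_cast; omega)
    rw [h1] at h2
    push_cast at h2
    omega
  · set a : K := c + 27 with ha_def
    set b : K := c + 243 with hb_def
    have ha0 : a ≠ 0 := by
      intro h
      apply hc
      rw [ha_def] at h
      linear_combination h
    have hb0 : b ≠ 0 := by
      intro h
      apply h243
      rw [hb_def] at h
      linear_combination h
    set j0 : K := a * b ^ 3 / c ^ 3 with hj0_def
    have hj0 : j0 * c ^ 3 = a * b ^ 3 := by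
      rw [hj0_def, div_mul_cancel₀ _ (pow_ne_zero 3 hc0)]
    have hj0F : algebraMap K F j0 * algebraMap K F c ^ 3
        = (algebraMap K F c + 27) * (algebraMap K F c + 243) ^ 3 := by
      have h := congrArg (algebraMap K F) hj0
      rw [map_mul, map_pow, map_mul, map_pow, ha_def, hb_def, map_add, map_add, map_ofNat,
        map_ofNat] at h
      exact h
    have hj00 : j0 ≠ 0 := by
      rw [hj0_def]
      exact div_ne_zero (mul_ne_zero ha0 (pow_ne_zero 3 hb0)) (pow_ne_zero 3 hc0)
    have hj01 : j0 ≠ 1728 := by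
      intro h
      rw [h] at hj0
      have h2 : (c ^ 2 - 486 * c - 19683) ^ 2 = 0 := by
        rw [ha_def, hb_def] at hj0
        linear_combination -hj0
      exact hD ((pow_eq_zero_iff (two_ne_zero)).mp h2)
    have key : (J - algebraMap K F j0)
          * aeval s (C (c ^ 3) * (X + C c) ^ 3)
        = s ^ 1 * aeval s (C (c ^ 3) * ((X + C b) ^ 3
              + C a * ((X + C b) ^ 2 + (X + C b) * C b + C (b ^ 2)))
            - C (a * b ^ 3) * ((X + C c) ^ 2 + (X + C c) * C c + C (c ^ 2))) := by
      simp only [map_pow, map_add, map_mul, map_sub, aeval_X, aeval_C, map_ofNat, ha_def, hb_def]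
        at hjt ⊢
      linear_combination (algebraMap K F c) ^ 3 * hjt
        - (s + algebraMap K F c) ^ 3 * hj0F
    have h1 := s18_d6_ord_of_eq v s hv _ _ _
      (by
        simp only [coeff_zero_eq_eval_zero, eval_mul, eval_pow, eval_add, eval_X, eval_C]
        simpa using hc0)
      (by
        simp only [coeff_zero_eq_eval_zero, eval_mul, eval_pow, eval_add, eval_sub, eval_X,
          eval_C]
        have h3 : c ^ 2 * b ^ 2 * (c ^ 2 - 486 * c - 19683) ≠ 0 :=
          mul_ne_zero (mul_ne_zero (pow_ne_zero 2 hc0) (pow_ne_zero 2 hb0)) hD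
        intro h4
        apply h3
        rw [ha_def, hb_def] at h4
        rw [hb_def]
        linear_combination h4) 1 key
    have h2 := hgen j0 hj00 hj01 (by rw [h1]; push_cast; omega)
    rw [h1] at h2
    push_cast at h2
    omega

/-- Change of coordinate `t ↦ t⁻¹` at a finite nonzero value. -/
theorem s18_d6_ord_inv_sub (t : F) (v : Place K F) (c : K) (hc0 : c ≠ 0)
    (hv : 0 < v.ord (t⁻¹ - algebraMap K F c)) :
    v.ord (t⁻¹ - algebraMap K F c) = v.ord (t - algebraMap K F c⁻¹) := by
  have hcF : algebraMap K F c ≠ 0 := (_root_.map_ne_zero _).mpr hc0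
  have hne : t⁻¹ - algebraMap K F c ≠ 0 := by
    intro h; rw [h, Place.ord_zero] at hv; exact lt_irrefl _ hv
  have ht0 : t ≠ 0 := by
    intro h
    rw [h, inv_zero, zero_sub, ord_neg, ord_algebraMap] at hv
    exact lt_irrefl _ hv
  have hti : v.ord t⁻¹ = 0 := by
    have h1 : t⁻¹ = algebraMap K F c + (t⁻¹ - algebraMap K F c) := by ring
    rw [h1, ord_add_eq_of_lt v hcF hne (by rw [ord_algebraMap]; exact hv), ord_algebraMap]
  have hfac : t⁻¹ - algebraMap K F c
      = -algebraMap K F c * (t - algebraMap K F c⁻¹) * t⁻¹ := by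
    rw [map_inv₀]
    field_simp
    ring
  have hne2 : t - algebraMap K F c⁻¹ ≠ 0 := by
    intro h
    rw [h, mul_zero, zero_mul] at hfac
    exact hne hfac
  conv_lhs => rw [hfac]
  rw [v.ord_mul (mul_ne_zero (neg_ne_zero.mpr hcF) hne2) (inv_ne_zero ht0),
    v.ord_mul (neg_ne_zero.mpr hcF) hne2, ord_neg, ord_algebraMap, hti]
  ring

open Polynomial in
/-- A separable polynomial in `t` has order `1` at each of its zeros where the corresponding
linear factor `t - c` has order `1`. -/
theorem s18_d6_ord_aeval_separable (t : F) (v : Place K F) (g : K[X]) (hg : g.Separable)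
    (hv : 0 < v.ord (aeval t g))
    (hbr : ∀ c : K, g.IsRoot c → 0 < v.ord (t - algebraMap K F c) →
      v.ord (t - algebraMap K F c) = 1) :
    v.ord (aeval t g) = 1 := by
  classical
  have hg0 : g ≠ 0 := hg.ne_zero
  have hne : aeval t g ≠ 0 := by
    intro h; rw [h, Place.ord_zero] at hv; exact lt_irrefl _ hv
  have hnodup : g.roots.Nodup := nodup_roots hg
  have hprod : g = C g.leadingCoeff * ∏ a ∈ g.roots.toFinset, (X - C a) := by
    conv_lhs => rw [(IsAlgClosed.splits g).eq_prod_roots]
    congr 1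
    rw [Finset.prod_eq_multiset_prod, Multiset.toFinset_val, Multiset.dedup_eq_self.mpr hnodup]
  have hev : aeval t g = algebraMap K F g.leadingCoeff
      * ∏ a ∈ g.roots.toFinset, (t - algebraMap K F a) := by
    conv_lhs => rw [hprod]
    simp [map_prod]
  have hlc : algebraMap K F g.leadingCoeff ≠ 0 :=
    (_root_.map_ne_zero _).mpr (leadingCoeff_ne_zero.mpr hg0)
  rw [hev] at hne
  have hfac : ∀ a ∈ g.roots.toFinset, t - algebraMap K F a ≠ 0 := fun a ha =>
    (Finset.prod_ne_zero_iff.mp (right_ne_zero_of_mul hne)) a ha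
  have hord : v.ord (aeval t g) = ∑ a ∈ g.roots.toFinset, v.ord (t - algebraMap K F a) := by
    rw [hev, v.ord_mul hlc (right_ne_zero_of_mul hne), ord_algebraMap, zero_add,
      trn_ord_prod v _ _ hfac]
  -- `t` is integral at `v`
  have htint : 0 ≤ v.ord t := by
    by_contra hneg
    rw [not_le] at hneg
    have ht0 : t ≠ 0 := by
      intro h; rw [h, Place.ord_zero] at hneg; exact lt_irrefl _ hneg
    have hall : ∀ a ∈ g.roots.toFinset, v.ord (t - algebraMap K F a) = v.ord t := by
      intro a ha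
      by_cases ha0 : a = 0
      · rw [ha0, map_zero, sub_zero]
      · have h1 : t - algebraMap K F a = t + (-algebraMap K F a) := by ring
        rw [h1]
        exact ord_add_eq_of_lt v ht0 (neg_ne_zero.mpr ((_root_.map_ne_zero _).mpr ha0))
          (by rw [ord_neg, ord_algebraMap]; exact hneg)
    rw [hord, Finset.sum_congr rfl hall, Finset.sum_const, nsmul_eq_mul] at hv
    have : (0 : ℤ) ≤ (g.roots.toFinset.card : ℤ) := Nat.cast_nonneg _
    nlinarith
  have hnonneg : ∀ a ∈ g.roots.toFinset, 0 ≤ v.ord (t - algebraMap K F a) := by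
    intro a ha
    rw [← mem_iff_ord_nonneg]
    exact v.toValuationSubring.sub_mem ((mem_iff_ord_nonneg v t).mpr htint) (v.algebraMap_mem' a)
  -- there is a root with positive order
  obtain ⟨a0, ha0, hpos⟩ : ∃ a ∈ g.roots.toFinset, 0 < v.ord (t - algebraMap K F a) := by
    by_contra hcon
    push Not at hcon
    rw [hord] at hv
    have := Finset.sum_nonpos hcon
    omega
  have hothers : ∀ a ∈ g.roots.toFinset, a ≠ a0 → v.ord (t - algebraMap K F a) = 0 := by
    intro a ha hne'
    have h1 : t - algebraMap K F a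
        = algebraMap K F (a0 - a) + (t - algebraMap K F a0) := by
      rw [map_sub]; ring
    rw [h1, ord_add_eq_of_lt v ((_root_.map_ne_zero _).mpr (sub_ne_zero.mpr (Ne.symm hne')))
      (hfac a0 ha0) (by rw [ord_algebraMap]; exact hpos), ord_algebraMap]
  rw [hord, Finset.sum_eq_single a0 (fun a ha hne' => hothers a ha hne')
    (fun h => absurd ha0 h)]
  exact hbr a0 ((mem_roots hg0).mp (Multiset.mem_toFinset.mp ha0)) hpos

end generic

/-- (D6, level 2) If `j t² = (t + 256)³`, then `F̄(N)/ℚ̄(t)` is unramified over every finite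
`t = c` with `c ≠ 0, -64`. -/
theorem s18_d6_two (t : FF N) (hjt : jF N * t ^ 2 = (t + 256) ^ 3)
    (v : Place Kbar (FF N)) (c : Kbar) (hc0 : c ≠ 0) (hc : c ≠ -64)
    (hv : 0 < v.ord (t - algebraMap Kbar (FF N) c)) :
    v.ord (t - algebraMap Kbar (FF N) c) = 1 :=
  s18_d6_two_generic (jF N) t hjt v c hc0 hc hv
    (fun j0 h0 h1 hv' => s18_d6_ord_j_generic N j0 h0 h1 v hv')
    (s18_d6_ord_j_1728 N v) (s18_d6_ord_j_zero N v)

/-- (D6, level 3) If `j t³ = (t + 27)(t + 243)³`, then `F̄(N)/ℚ̄(t)` is unramified over every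
finite `t = c` with `c ≠ 0, -27`. -/
theorem s18_d6_three (t : FF N) (hjt : jF N * t ^ 3 = (t + 27) * (t + 243) ^ 3)
    (v : Place Kbar (FF N)) (c : Kbar) (hc0 : c ≠ 0) (hc : c ≠ -27)
    (hv : 0 < v.ord (t - algebraMap Kbar (FF N) c)) :
    v.ord (t - algebraMap Kbar (FF N) c) = 1 :=
  s18_d6_three_generic (jF N) t hjt v c hc0 hc hv
    (fun j0 h0 h1 hv' => s18_d6_ord_j_generic N j0 h0 h1 v hv')
    (s18_d6_ord_j_1728 N v) (s18_d6_ord_j_zero N v)

/-- (D6, level 2, chart at infinity) the same for the coordinate `t⁻¹` at `c ≠ 0, -1/64`. -/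
theorem s18_d6_two_inv (t : FF N) (hjt : jF N * t ^ 2 = (t + 256) ^ 3)
    (v : Place Kbar (FF N)) (c : Kbar) (hc0 : c ≠ 0) (hc : c⁻¹ ≠ -64)
    (hv : 0 < v.ord (t⁻¹ - algebraMap Kbar (FF N) c)) :
    v.ord (t⁻¹ - algebraMap Kbar (FF N) c) = 1 := by
  have h := s18_d6_ord_inv_sub t v c hc0 hv
  rw [h]
  exact s18_d6_two N t hjt v c⁻¹ (inv_ne_zero hc0) hc (by rw [← h]; exact hv)

/-- (D6, level 3, chart at infinity) the same for the coordinate `t⁻¹` at `c ≠ 0, -1/27`. -/
theorem s18_d6_three_inv (t : FF N) (hjt : jF N * t ^ 3 = (t + 27) * (t + 243) ^ 3)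
    (v : Place Kbar (FF N)) (c : Kbar) (hc0 : c ≠ 0) (hc : c⁻¹ ≠ -27)
    (hv : 0 < v.ord (t⁻¹ - algebraMap Kbar (FF N) c)) :
    v.ord (t⁻¹ - algebraMap Kbar (FF N) c) = 1 := by
  have h := s18_d6_ord_inv_sub t v c hc0 hv
  rw [h]
  exact s18_d6_three N t hjt v c⁻¹ (inv_ne_zero hc0) hc (by rw [← h]; exact hv)

open Polynomial in
/-- (D6, level 2, polynomial form) a separable `g ∈ ℚ̄[X]` with `g(0), g(-64) ≠ 0`: `g(t)` has
order `1` at each of its zeros. -/
theorem s18_d6_two_poly (t : FF N) (hjt : jF N * t ^ 2 = (t + 256) ^ 3)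
    (v : Place Kbar (FF N)) (g : Kbar[X]) (hg : g.Separable) (h0 : g.eval 0 ≠ 0)
    (h64 : g.eval (-64) ≠ 0) (hv : 0 < v.ord (aeval t g)) : v.ord (aeval t g) = 1 :=
  s18_d6_ord_aeval_separable t v g hg hv fun c hroot hpos =>
    s18_d6_two N t hjt v c (fun h => h0 (by subst h; exact hroot)) (fun h => h64 (by subst h; exact hroot)) hpos

open Polynomial in
/-- (D6, level 2, polynomial form at infinity) a separable `g ∈ ℚ̄[X]` with `g(0) ≠ 0`,
`g(-1/64) ≠ 0`: `g(t⁻¹)` has order `1` at each of its zeros. -/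
theorem s18_d6_two_inv_poly (t : FF N) (hjt : jF N * t ^ 2 = (t + 256) ^ 3)
    (v : Place Kbar (FF N)) (g : Kbar[X]) (hg : g.Separable) (h0 : g.eval 0 ≠ 0)
    (h64 : g.eval (-(64 : Kbar)⁻¹) ≠ 0) (hv : 0 < v.ord (aeval t⁻¹ g)) :
    v.ord (aeval t⁻¹ g) = 1 :=
  s18_d6_ord_aeval_separable t⁻¹ v g hg hv fun c hroot hpos =>
    s18_d6_two_inv N t hjt v c (fun h => h0 (by subst h; exact hroot))
      (fun h => h64 (by
        have hc : c = -(64 : Kbar)⁻¹ := by
          rw [← inv_inv c, h, inv_neg]
        subst hc; exact hroot)) hpos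

open Polynomial in
/-- (D6, level 3, polynomial form) a separable `g ∈ ℚ̄[X]` with `g(0), g(-27) ≠ 0`: `g(t)` has
order `1` at each of its zeros. -/
theorem s18_d6_three_poly (t : FF N) (hjt : jF N * t ^ 3 = (t + 27) * (t + 243) ^ 3)
    (v : Place Kbar (FF N)) (g : Kbar[X]) (hg : g.Separable) (h0 : g.eval 0 ≠ 0)
    (h27 : g.eval (-27) ≠ 0) (hv : 0 < v.ord (aeval t g)) : v.ord (aeval t g) = 1 :=
  s18_d6_ord_aeval_separable t v g hg hv fun c hroot hpos =>
    s18_d6_three N t hjt v c (fun h => h0 (by subst h; exact hroot)) (fun h => h27 (by subst h; exact hroot)) hpos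

open Polynomial in
/-- (D6, level 3, polynomial form at infinity) a separable `g ∈ ℚ̄[X]` with `g(0) ≠ 0`,
`g(-1/27) ≠ 0`: `g(t⁻¹)` has order `1` at each of its zeros. -/
theorem s18_d6_three_inv_poly (t : FF N) (hjt : jF N * t ^ 3 = (t + 27) * (t + 243) ^ 3)
    (v : Place Kbar (FF N)) (g : Kbar[X]) (hg : g.Separable) (h0 : g.eval 0 ≠ 0)
    (h27 : g.eval (-(27 : Kbar)⁻¹) ≠ 0) (hv : 0 < v.ord (aeval t⁻¹ g)) :
    v.ord (aeval t⁻¹ g) = 1 :=
  s18_d6_ord_aeval_separable t⁻¹ v g hg hv fun c hroot hpos =>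
    s18_d6_three_inv N t hjt v c (fun h => h0 (by subst h; exact hroot))
      (fun h => h27 (by
        have hc : c = -(27 : Kbar)⁻¹ := by
          rw [← inv_inv c, h, inv_neg]
        subst hc; exact hroot)) hpos

end Fermat.Agent.S18
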