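import Fermat.Agent.S18.Haupt3

/-!
# S18 block C0: the Hauptmoduln over an arbitrary coefficient ring, and membership in the
function field

* `s18_t2R R`, `s18_t3R R` : the images of `t₂`, `t₃` in `LaurentSeries R`, with the identities
  against `jqModC R` and `qExpand R M (jqModC R)`;
* for a field `K` in which `M` is invertible, `s18_tMR K` lies in the field generated by
  `j(q)` and `j(q^M)`, hence in `modularFunctionFieldFullC K N` for `M ∣ N`.
-/

set_option autoImplicit false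

namespace Fermat.Agent.S18

open ModularCurve

section General

variable (R : Type*) [CommRing R]

/-- The Hauptmodul `t₂` with coefficients in `R`. -/
noncomputable def s18_t2R : LaurentSeries R := coeffMap (Int.castRingHom R) s18_t2

/-- `1 / t₂` with coefficients in `R`. -/
noncomputable def s18_t2invR : LaurentSeries R := coeffMap (Int.castRingHom R) s18_t2inv

/-- The Hauptmodul `t₃` with coefficients in `R`. -/
noncomputable def s18_t3R : LaurentSeries R := coeffMap (Int.castRingHom R) s18_t3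

/-- `1 / t₃` with coefficients in `R`. -/
noncomputable def s18_t3invR : LaurentSeries R := coeffMap (Int.castRingHom R) s18_t3inv

theorem s18_t2R_int : s18_t2R ℤ = s18_t2 := by
  rw [s18_t2R, coeffMap_congr (RingHom.ext_int (Int.castRingHom ℤ) (RingHom.id ℤ)), coeffMap_id]

theorem s18_t3R_int : s18_t3R ℤ = s18_t3 := by
  rw [s18_t3R, coeffMap_congr (RingHom.ext_int (Int.castRingHom ℤ) (RingHom.id ℤ)), coeffMap_id]

variable {R} in
theorem s18_coeffMap_t2R {S : Type*} [CommRing S] (f : R →+* S) :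
    coeffMap f (s18_t2R R) = s18_t2R S := by
  rw [s18_t2R, coeffMap_coeffMap, s18_t2R,
    coeffMap_congr (RingHom.ext_int (f.comp (Int.castRingHom R)) (Int.castRingHom S))]

variable {R} in
theorem s18_coeffMap_t2invR {S : Type*} [CommRing S] (f : R →+* S) :
    coeffMap f (s18_t2invR R) = s18_t2invR S := by
  rw [s18_t2invR, coeffMap_coeffMap, s18_t2invR,
    coeffMap_congr (RingHom.ext_int (f.comp (Int.castRingHom R)) (Int.castRingHom S))]

variable {R} in
theorem s18_coeffMap_t3R {S : Type*} [CommRing S] (f : R →+* S) :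
    coeffMap f (s18_t3R R) = s18_t3R S := by
  rw [s18_t3R, coeffMap_coeffMap, s18_t3R,
    coeffMap_congr (RingHom.ext_int (f.comp (Int.castRingHom R)) (Int.castRingHom S))]

variable {R} in
theorem s18_coeffMap_t3invR {S : Type*} [CommRing S] (f : R →+* S) :
    coeffMap f (s18_t3invR R) = s18_t3invR S := by
  rw [s18_t3invR, coeffMap_coeffMap, s18_t3invR,
    coeffMap_congr (RingHom.ext_int (f.comp (Int.castRingHom R)) (Int.castRingHom S))]

theorem s18_t2R_mul_inv : s18_t2R R * s18_t2invR R = 1 := by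
  rw [s18_t2R, s18_t2invR, ← map_mul, s18_t2_mul_inv, map_one]

theorem s18_t3R_mul_inv : s18_t3R R * s18_t3invR R = 1 := by
  rw [s18_t3R, s18_t3invR, ← map_mul, s18_t3_mul_inv, map_one]

/-- `j · t₂² = (t₂ + 256)³` over `R`. -/
theorem s18_t2R_j : jqModC R * s18_t2R R ^ 2 = (s18_t2R R + 256) ^ 3 := by
  have h := congrArg (coeffMap (Int.castRingHom R)) s18_t2_j
  rw [map_mul, map_pow, map_pow, map_add, coeffMap_jqModC, map_ofNat] at h
  exact h

/-- `j(q²) · t₂ = (t₂ + 16)³` over `R`. -/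
theorem s18_t2R_j2 : qExpand R 2 (jqModC R) * s18_t2R R = (s18_t2R R + 16) ^ 3 := by
  have h := congrArg (coeffMap (Int.castRingHom R)) s18_t2_j2
  rw [map_mul, map_pow, map_add, coeffMap_qExpand, coeffMap_jqModC, map_ofNat] at h
  exact h

/-- `j · t₃³ = (t₃ + 27)(t₃ + 243)³` over `R`. -/
theorem s18_t3R_j : jqModC R * s18_t3R R ^ 3 = (s18_t3R R + 27) * (s18_t3R R + 243) ^ 3 := by
  have h := congrArg (coeffMap (Int.castRingHom R)) s18_t3_j
  rw [map_mul, map_pow, map_mul, map_pow, map_add, map_add, coeffMap_jqModC, map_ofNat,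
    map_ofNat] at h
  exact h

/-- `j(q³) · t₃ = (t₃ + 27)(t₃ + 3)³` over `R`. -/
theorem s18_t3R_j3 :
    qExpand R 3 (jqModC R) * s18_t3R R = (s18_t3R R + 27) * (s18_t3R R + 3) ^ 3 := by
  have h := congrArg (coeffMap (Int.castRingHom R)) s18_t3_j3
  rw [map_mul, map_mul, map_pow, map_add, map_add, coeffMap_qExpand, coeffMap_jqModC, map_ofNat,
    map_ofNat] at h
  exact h

/-! ### Consequences: integrality equations -/

/-- `t₂` is a root of a monic cubic over `ℤ[j]`. -/
theorem s18_t2R_cubic :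
    s18_t2R R ^ 3 + (768 - jqModC R) * s18_t2R R ^ 2 + 196608 * s18_t2R R + 16777216 = 0 := by
  linear_combination -(s18_t2R_j R)

/-- `1 / t₂` is a root of a cubic over `ℤ[j]` with leading coefficient `2²⁴`. -/
theorem s18_t2invR_cubic :
    16777216 * s18_t2invR R ^ 3 + 196608 * s18_t2invR R ^ 2 +
      (768 - jqModC R) * s18_t2invR R + 1 = 0 := by
  have h := s18_t2R_cubic R
  have hu := s18_t2R_mul_inv R
  linear_combination (s18_t2invR R ^ 3) * h +
    (-(196608 * s18_t2invR R ^ 2 +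
      (768 - jqModC R) * s18_t2invR R * (1 + s18_t2invR R * s18_t2R R) +
      (1 + s18_t2invR R * s18_t2R R + s18_t2invR R ^ 2 * s18_t2R R ^ 2))) * hu

/-- `j` as a Laurent polynomial in `t₂`. -/
theorem s18_t2R_j_eq : jqModC R = (s18_t2R R + 256) ^ 3 * s18_t2invR R ^ 2 := by
  have h := s18_t2R_j R
  have hu := s18_t2R_mul_inv R
  linear_combination (s18_t2invR R ^ 2) * h +
    (-(jqModC R * (1 + s18_t2R R * s18_t2invR R))) * hu

/-- `j(q²)` as a Laurent polynomial in `t₂`. -/
theorem s18_t2R_j2_eq : qExpand R 2 (jqModC R) = (s18_t2R R + 16) ^ 3 * s18_t2invR R := by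
  have h := s18_t2R_j2 R
  have hu := s18_t2R_mul_inv R
  linear_combination (s18_t2invR R) * h + (-(qExpand R 2 (jqModC R))) * hu

/-- `t₃` is a root of a monic quartic over `ℤ[j]`. -/
theorem s18_t3R_quartic :
    s18_t3R R ^ 4 + (756 - jqModC R) * s18_t3R R ^ 3 + 196830 * s18_t3R R ^ 2 +
      19131876 * s18_t3R R + 387420489 = 0 := by
  linear_combination -(s18_t3R_j R)

/-- `1 / t₃` is a root of a quartic over `ℤ[j]` with leading coefficient `3¹⁸`. -/
theorem s18_t3invR_quartic :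
    387420489 * s18_t3invR R ^ 4 + 19131876 * s18_t3invR R ^ 3 + 196830 * s18_t3invR R ^ 2 +
      (756 - jqModC R) * s18_t3invR R + 1 = 0 := by
  have h := s18_t3R_quartic R
  have hu := s18_t3R_mul_inv R
  linear_combination (s18_t3invR R ^ 4) * h +
    (-(19131876 * s18_t3invR R ^ 3 +
      196830 * s18_t3invR R ^ 2 * (1 + s18_t3invR R * s18_t3R R) +
      (756 - jqModC R) * s18_t3invR R *
        (1 + s18_t3invR R * s18_t3R R + s18_t3invR R ^ 2 * s18_t3R R ^ 2) +
      (1 + s18_t3invR R * s18_t3R R + s18_t3invR R ^ 2 * s18_t3R R ^ 2 +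
        s18_t3invR R ^ 3 * s18_t3R R ^ 3))) * hu

/-- `j` as a Laurent polynomial in `t₃`. -/
theorem s18_t3R_j_eq :
    jqModC R = (s18_t3R R + 27) * (s18_t3R R + 243) ^ 3 * s18_t3invR R ^ 3 := by
  have h := s18_t3R_j R
  have hu := s18_t3R_mul_inv R
  linear_combination (s18_t3invR R ^ 3) * h +
    (-(jqModC R * (1 + s18_t3R R * s18_t3invR R + s18_t3R R ^ 2 * s18_t3invR R ^ 2))) * hu

/-- `j(q³)` as a Laurent polynomial in `t₃`. -/
theorem s18_t3R_j3_eq :
    qExpand R 3 (jqModC R) = (s18_t3R R + 27) * (s18_t3R R + 3) ^ 3 * s18_t3invR R := by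
  have h := s18_t3R_j3 R
  have hu := s18_t3R_mul_inv R
  linear_combination (s18_t3invR R) * h + (-(qExpand R 3 (jqModC R))) * hu

end General

/-! ### Leading terms -/

section Lead

variable {R : Type*} [CommRing R]

/-- `x = q⁻ⁿ · (1 + …)`: a pole of order exactly `n` with leading coefficient `1`. -/
def s18h_lead (n : ℤ) (x : LaurentSeries R) : Prop :=
  ∃ P : PowerSeries R, PowerSeries.constantCoeff P = 1 ∧
    x = HahnSeries.single (-n) 1 * HahnSeries.ofPowerSeries ℤ R P

theorem s18h_lead_one : s18h_lead 0 (1 : LaurentSeries R) :=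
  ⟨1, map_one _, by rw [neg_zero, map_one (HahnSeries.ofPowerSeries ℤ R), mul_one]; rfl⟩

theorem s18h_lead_mul {n m : ℤ} {x y : LaurentSeries R} (hx : s18h_lead n x)
    (hy : s18h_lead m y) : s18h_lead (n + m) (x * y) := by
  obtain ⟨P, hP, rfl⟩ := hx
  obtain ⟨Q, hQ, rfl⟩ := hy
  refine ⟨P * Q, by rw [map_mul, hP, hQ, mul_one], ?_⟩
  rw [map_mul, neg_add, ← one_mul (1 : R), ← HahnSeries.single_mul_single, one_mul]
  ring

theorem s18h_lead_pow {n : ℤ} {x : LaurentSeries R} (hx : s18h_lead n x) (a : ℕ) :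
    s18h_lead (a * n) (x ^ a) := by
  induction a with
  | zero => rw [pow_zero, Nat.cast_zero, zero_mul]; exact s18h_lead_one
  | succ a ih =>
    rw [pow_succ, Nat.cast_succ, add_mul, one_mul]
    exact s18h_lead_mul ih hx

theorem s18h_lead_coeff {n : ℤ} {x : LaurentSeries R} (hx : s18h_lead n x) (m : ℤ)
    (hm : m = -n) : x.coeff m = 1 := by
  obtain ⟨P, hP, rfl⟩ := hx
  subst hm
  have h := HahnSeries.coeff_single_mul_add (r := (1 : R))
    (x := HahnSeries.ofPowerSeries ℤ R P) (a := 0) (b := -n)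
  rw [zero_add] at h
  rw [h, one_mul, show (0 : ℤ) = ((0 : ℕ) : ℤ) from rfl, HahnSeries.ofPowerSeries_apply_coeff,
    PowerSeries.coeff_zero_eq_constantCoeff_apply, hP]

theorem s18h_lead_coeff_lt {n : ℤ} {x : LaurentSeries R} (hx : s18h_lead n x) (m : ℤ)
    (hm : m < -n) : x.coeff m = 0 := by
  obtain ⟨P, hP, rfl⟩ := hx
  have h := HahnSeries.coeff_single_mul_add (r := (1 : R))
    (x := HahnSeries.ofPowerSeries ℤ R P) (a := m + n) (b := -n)
  rw [show m + n + -n = m by ring] at h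
  rw [h, one_mul]
  exact ofPowerSeries_coeff_of_neg _ (by omega)

theorem s18h_lead_jq : s18h_lead 1 (jqModC R) :=
  ⟨jNum.map (Int.castRingHom R), by
    rw [← PowerSeries.coeff_zero_eq_constantCoeff_apply, PowerSeries.coeff_map,
      PowerSeries.coeff_zero_eq_constantCoeff_apply, constantCoeff_jNum, map_one], rfl⟩

theorem s18h_lead_qExpand (N : ℕ) [NeZero N] {n : ℤ} {x : LaurentSeries R}
    (hx : s18h_lead n x) : s18h_lead (N * n) (qExpand R N x) := by
  obtain ⟨P, hP, rfl⟩ := hx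
  refine ⟨s18_exp N P, ?_, ?_⟩
  · rw [← PowerSeries.coeff_zero_eq_constantCoeff_apply, s18_coeff_exp, if_pos (dvd_zero N),
      Nat.zero_div, PowerSeries.coeff_zero_eq_constantCoeff_apply, hP]
  · rw [map_mul, qExpand_single, s18_ofPowerSeries_exp, mul_neg]

theorem s18h_coeff_intCast_mul (c : ℤ) (x : LaurentSeries R) (n : ℤ) :
    ((c : LaurentSeries R) * x).coeff n = (c : R) * x.coeff n := by
  rw [← map_intCast (HahnSeries.C : R →+* LaurentSeries R) c, HahnSeries.C_mul_eq_smul,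
    HahnSeries.coeff_smul, smul_eq_mul]

theorem s18h_lead_t2R (R : Type*) [CommRing R] : s18h_lead 1 (s18_t2R R) := by
  refine ⟨(s18_B2 * s18_A2'.invOfUnit 1).map (Int.castRingHom R), ?_, ?_⟩
  · rw [← PowerSeries.coeff_zero_eq_constantCoeff_apply, PowerSeries.coeff_map,
      PowerSeries.coeff_zero_eq_constantCoeff_apply, map_mul, s18_constantCoeff_B2,
      PowerSeries.constantCoeff_invOfUnit, one_mul]
    simp
  · rw [s18_t2R, s18_t2, map_mul, coeffMap_single, coeffMap_ofPowerSeries, map_one]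

theorem s18h_lead_t3R (R : Type*) [CommRing R] : s18h_lead 1 (s18_t3R R) := by
  refine ⟨(s18_C3 * s18_A3'.invOfUnit 1).map (Int.castRingHom R), ?_, ?_⟩
  · rw [← PowerSeries.coeff_zero_eq_constantCoeff_apply, PowerSeries.coeff_map,
      PowerSeries.coeff_zero_eq_constantCoeff_apply, map_mul, s18_constantCoeff_C3,
      PowerSeries.constantCoeff_invOfUnit, one_mul]
    simp
  · rw [s18_t3R, s18_t3, map_mul, coeffMap_single, coeffMap_ofPowerSeries, map_one]

end Lead

/-! ### Membership in the function field -/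

section Field

/-- A linear relation with coefficients in an intermediate field and nonzero constant term. -/
theorem s18h_mem_of_lin {K L : Type*} [Field K] [Field L] [Algebra K L]
    (F : IntermediateField K L) (t α β : L) (hα : α ∈ F) (hβ : β ∈ F)
    (hlin : α * t + β = 0) (hβ0 : β ≠ 0) : t ∈ F := by
  have hα0 : α ≠ 0 := fun h => hβ0 (by rw [h, zero_mul, zero_add] at hlin; exact hlin)
  have ht : t = -β / α := by
    rw [eq_div_iff hα0]
    linear_combination hlin
  rw [ht]
  exact div_mem (neg_mem hβ) hα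

/-- Elimination at level 2: the two relations give a linear relation for `t`. -/
theorem s18h_elim2 {L : Type*} [CommRing L] (j k t : L) (hE1 : j * t ^ 2 = (t + 256) ^ 3)
    (hE2 : k * t = (t + 16) ^ 3) :
    (j ^ 2 * k - 768 * j ^ 2 - 1488 * j * k - 25067520 * j - k ^ 2 + 161280 * k -
        19906560000) * t +
      (-4096 * j ^ 2 - 799211520 * j - 16773120 * k - 2707292160000) = 0 := by
  linear_combination (t * j - 720 * t + 48 * j + k + 161280) * hE1 +
    (-t * j + 720 * t + j ^ 2 - 1488 * j - k + 357120) * hE2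

/-- The constant term of the level-2 elimination has `q⁻²`-coefficient `-2²⁴`. -/
theorem s18h_beta2_coeff (R : Type*) [CommRing R] :
    (-4096 * jqModC R ^ 2 - 799211520 * jqModC R - 16773120 * qExpand R 2 (jqModC R) -
      2707292160000 : LaurentSeries R).coeff (-2) = -16777216 := by
  have hlj : s18h_lead 1 (jqModC R) := s18h_lead_jq
  have hlk : s18h_lead ((2 : ℕ) * 1) (qExpand R 2 (jqModC R)) :=
    s18h_lead_qExpand 2 s18h_lead_jq
  have hZ : (-4096 * jqModC R ^ 2 - 799211520 * jqModC R - 16773120 * qExpand R 2 (jqModC R) -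
      2707292160000 : LaurentSeries R) =
      ((-4096 : ℤ) : LaurentSeries R) * (jqModC R ^ 2 * qExpand R 2 (jqModC R) ^ 0) +
      ((-799211520 : ℤ) : LaurentSeries R) * (jqModC R ^ 1 * qExpand R 2 (jqModC R) ^ 0) +
      ((-16773120 : ℤ) : LaurentSeries R) * (jqModC R ^ 0 * qExpand R 2 (jqModC R) ^ 1) +
      ((-2707292160000 : ℤ) : LaurentSeries R) * (jqModC R ^ 0 * qExpand R 2 (jqModC R) ^ 0) := by
    push_cast
    ring
  have m1 : (jqModC R ^ 2 * qExpand R 2 (jqModC R) ^ 0).coeff (-2) = 1 :=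
    s18h_lead_coeff (s18h_lead_mul (s18h_lead_pow hlj 2) (s18h_lead_pow hlk 0)) (-2)
      (by norm_num)
  have m2 : (jqModC R ^ 1 * qExpand R 2 (jqModC R) ^ 0).coeff (-2) = 0 :=
    s18h_lead_coeff_lt (s18h_lead_mul (s18h_lead_pow hlj 1) (s18h_lead_pow hlk 0)) (-2)
      (by norm_num)
  have m3 : (jqModC R ^ 0 * qExpand R 2 (jqModC R) ^ 1).coeff (-2) = 1 :=
    s18h_lead_coeff (s18h_lead_mul (s18h_lead_pow hlj 0) (s18h_lead_pow hlk 1)) (-2)
      (by norm_num)
  have m4 : (jqModC R ^ 0 * qExpand R 2 (jqModC R) ^ 0).coeff (-2) = 0 :=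
    s18h_lead_coeff_lt (s18h_lead_mul (s18h_lead_pow hlj 0) (s18h_lead_pow hlk 0)) (-2)
      (by norm_num)
  rw [hZ]
  simp only [HahnSeries.coeff_add, s18h_coeff_intCast_mul]
  rw [m1, m2, m3, m4]
  push_cast
  ring

/-- Elimination at level 3: the two relations give a linear relation for `t`. -/
theorem s18h_elim3 {L : Type*} [CommRing L] (j k t : L)
    (hE1 : j * t ^ 3 = (t + 27) * (t + 243) ^ 3) (hE2 : k * t = (t + 27) * (t + 3) ^ 3) :
    (-j ^ 5 * k ^ 2 + 1512 * j ^ 5 * k - 374706 * j ^ 5 + 3672 * j ^ 4 * k ^ 2 + 2199927357 * j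
    ^ 4 * k + 3513587135760 * j ^ 4 - 4802436 * j ^ 3 * k ^ 2 + 6287091255360 * j ^ 3 * k -
    578039691371443200 * j ^ 3 + j ^ 2 * k ^ 3 + 2734670160 * j ^ 2 * k ^ 2 - 12148776475948800
    * j ^ 2 * k + 3468720924518404608000 * j ^ 2 - 1440 * j * k ^ 3 - 607750387200 * j * k ^ 2 +
    4430048196934656000 * j * k - 4101236057280872448000000 * j + 518400 * k ^ 3 +
    19110670848000 * k ^ 2 + 170148916887552000000 * k + 1369513028852121600000000000) * t +
      (729 * j ^ 5 * k - 551124 * j ^ 5 + 13944460716 * j ^ 4 * k + 16877673339120 * j ^ 4 +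
      35694226104480 * j ^ 3 * k - 10379169493558848000 * j ^ 3 + 387419760 * j ^ 2 * k ^ 2 -
      108392996345702400 * j ^ 2 * k + 86248560322019464704000 * j ^ 2 - 557884454400 * j * k ^
      2 + 79754306454770688000 * j * k - 108081439958057877504000000 * j + 200838403584000 * k ^
      2 - 18302525195157504000000 * k + 36976851779007283200000000000) = 0 := by
  linear_combination (-270 * t ^ 2 * j ^ 4 - t ^ 2 * j ^ 3 * k - 25429680 * t ^ 2 * j ^ 3 + 2160
  * t ^ 2 * j ^ 2 * k + 17132083200 * t ^ 2 * j ^ 2 - 1555200 * t ^ 2 * j * k + 15281146368000 *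
  t ^ 2 * j + 373248000 * t ^ 2 * k - 10319560704000000 * t ^ 2 - t * j ^ 4 * k - 8964 * t * j ^
  4 + 2880 * t * j ^ 3 * k + 158494320 * t * j ^ 3 - 2913840 * t * j ^ 2 * k + 2055056832000 * t
  * j ^ 2 + 1209945600 * t * j * k - 3192389024256000 * t * j - 166841856000 * t * k +
  1176429920256000000 * t - 36 * j ^ 4 * k - 45684 * j ^ 4 - 92124 * j ^ 3 * k + 26779844160 * j
  ^ 3 - j ^ 2 * k ^ 2 + 279776160 * j ^ 2 * k - 222607701273600 * j ^ 2 + 1440 * j * k ^ 2 -
  205858713600 * j * k + 278975282042880000 * j - 518400 * k ^ 2 + 47241999360000 * k -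
  95445616951296000000) * hE1 +
    (270 * t ^ 2 * j ^ 4 + t ^ 2 * j ^ 3 * k + 25429680 * t ^ 2 * j ^ 3 - 2160 * t ^ 2 * j ^ 2 *
    k - 17132083200 * t ^ 2 * j ^ 2 + 1555200 * t ^ 2 * j * k - 15281146368000 * t ^ 2 * j -
    373248000 * t ^ 2 * k + 10319560704000000 * t ^ 2 - 270 * t * j ^ 5 - 25226316 * t * j ^ 4 +
    35282958480 * t * j ^ 3 - 196560 * t * j ^ 2 * k + 890989632000 * t * j ^ 2 + 283046400 * t
    * j * k - 18129597064704000 * t * j - 101896704000 * t * k + 6253653786624000000 * t - j ^ 5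
    * k + 756 * j ^ 5 + 3672 * j ^ 4 * k + 1126535364 * j ^ 4 - 4802436 * j ^ 3 * k +
    5636726677440 * j ^ 3 + j ^ 2 * k ^ 2 + 2715539040 * j ^ 2 * k - 7922962188518400 * j ^ 2 -
    1440 * j * k ^ 2 - 580201574400 * j * k + 959904104785920000 * j + 518400 * k ^ 2 +
    9193098240000 * k + 1009345912897536000000) * hE2

/-- The constant term of the level-3 elimination has `q⁻⁸`-coefficient `3¹⁸`. -/
theorem s18h_beta3_coeff (R : Type*) [CommRing R] :
    (729 * jqModC R ^ 5 * qExpand R 3 (jqModC R) - 551124 * jqModC R ^ 5 + 13944460716 * jqModC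
    R ^ 4 * qExpand R 3 (jqModC R) + 16877673339120 * jqModC R ^ 4 + 35694226104480 * jqModC R ^
    3 * qExpand R 3 (jqModC R) - 10379169493558848000 * jqModC R ^ 3 + 387419760 * jqModC R ^ 2
    * qExpand R 3 (jqModC R) ^ 2 - 108392996345702400 * jqModC R ^ 2 * qExpand R 3 (jqModC R) +
    86248560322019464704000 * jqModC R ^ 2 - 557884454400 * jqModC R * qExpand R 3 (jqModC R) ^
    2 + 79754306454770688000 * jqModC R * qExpand R 3 (jqModC R) - 108081439958057877504000000 *
    jqModC R + 200838403584000 * qExpand R 3 (jqModC R) ^ 2 - 18302525195157504000000 * qExpand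
    R 3 (jqModC R) + 36976851779007283200000000000 :
      LaurentSeries R).coeff (-8) = 387420489 := by
  have hlj : s18h_lead 1 (jqModC R) := s18h_lead_jq
  have hlk : s18h_lead ((3 : ℕ) * 1) (qExpand R 3 (jqModC R)) :=
    s18h_lead_qExpand 3 s18h_lead_jq
  have hZ : (729 * jqModC R ^ 5 * qExpand R 3 (jqModC R) - 551124 * jqModC R ^ 5 + 13944460716 *
  jqModC R ^ 4 * qExpand R 3 (jqModC R) + 16877673339120 * jqModC R ^ 4 + 35694226104480 *
  jqModC R ^ 3 * qExpand R 3 (jqModC R) - 10379169493558848000 * jqModC R ^ 3 + 387419760 *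
  jqModC R ^ 2 * qExpand R 3 (jqModC R) ^ 2 - 108392996345702400 * jqModC R ^ 2 * qExpand R 3
  (jqModC R) + 86248560322019464704000 * jqModC R ^ 2 - 557884454400 * jqModC R * qExpand R 3
  (jqModC R) ^ 2 + 79754306454770688000 * jqModC R * qExpand R 3 (jqModC R) -
  108081439958057877504000000 * jqModC R + 200838403584000 * qExpand R 3 (jqModC R) ^ 2 -
  18302525195157504000000 * qExpand R 3 (jqModC R) + 36976851779007283200000000000 :
      LaurentSeries R) =
      ((729 : ℤ) : LaurentSeries R) * (jqModC R ^ 5 * qExpand R 3 (jqModC R) ^ 1) +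
      ((-551124 : ℤ) : LaurentSeries R) * (jqModC R ^ 5 * qExpand R 3 (jqModC R) ^ 0) +
      ((13944460716 : ℤ) : LaurentSeries R) * (jqModC R ^ 4 * qExpand R 3 (jqModC R) ^ 1) +
      ((16877673339120 : ℤ) : LaurentSeries R) * (jqModC R ^ 4 * qExpand R 3 (jqModC R) ^ 0) +
      ((35694226104480 : ℤ) : LaurentSeries R) * (jqModC R ^ 3 * qExpand R 3 (jqModC R) ^ 1) +
      ((-10379169493558848000 : ℤ) : LaurentSeries R) * (jqModC R ^ 3 * qExpand R 3 (jqModC R) ^ 0) +
      ((387419760 : ℤ) : LaurentSeries R) * (jqModC R ^ 2 * qExpand R 3 (jqModC R) ^ 2) +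
      ((-108392996345702400 : ℤ) : LaurentSeries R) * (jqModC R ^ 2 * qExpand R 3 (jqModC R) ^ 1) +
      ((86248560322019464704000 : ℤ) : LaurentSeries R) * (jqModC R ^ 2 * qExpand R 3 (jqModC R) ^ 0) +
      ((-557884454400 : ℤ) : LaurentSeries R) * (jqModC R ^ 1 * qExpand R 3 (jqModC R) ^ 2) +
      ((79754306454770688000 : ℤ) : LaurentSeries R) * (jqModC R ^ 1 * qExpand R 3 (jqModC R) ^ 1) +
      ((-108081439958057877504000000 : ℤ) : LaurentSeries R) * (jqModC R ^ 1 * qExpand R 3 (jqModC R) ^ 0) +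
      ((200838403584000 : ℤ) : LaurentSeries R) * (jqModC R ^ 0 * qExpand R 3 (jqModC R) ^ 2) +
      ((-18302525195157504000000 : ℤ) : LaurentSeries R) * (jqModC R ^ 0 * qExpand R 3 (jqModC R) ^ 1) +
      ((36976851779007283200000000000 : ℤ) : LaurentSeries R) * (jqModC R ^ 0 * qExpand R 3 (jqModC R) ^ 0) := by
    push_cast
    ring
  have m0 : (jqModC R ^ 5 * qExpand R 3 (jqModC R) ^ 1).coeff (-8) = 1 :=
    s18h_lead_coeff (s18h_lead_mul (s18h_lead_pow hlj 5) (s18h_lead_pow hlk 1)) (-8)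
      (by norm_num)
  have m1 : (jqModC R ^ 5 * qExpand R 3 (jqModC R) ^ 0).coeff (-8) = 0 :=
    s18h_lead_coeff_lt (s18h_lead_mul (s18h_lead_pow hlj 5) (s18h_lead_pow hlk 0)) (-8)
      (by norm_num)
  have m2 : (jqModC R ^ 4 * qExpand R 3 (jqModC R) ^ 1).coeff (-8) = 0 :=
    s18h_lead_coeff_lt (s18h_lead_mul (s18h_lead_pow hlj 4) (s18h_lead_pow hlk 1)) (-8)
      (by norm_num)
  have m3 : (jqModC R ^ 4 * qExpand R 3 (jqModC R) ^ 0).coeff (-8) = 0 :=
    s18h_lead_coeff_lt (s18h_lead_mul (s18h_lead_pow hlj 4) (s18h_lead_pow hlk 0)) (-8)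
      (by norm_num)
  have m4 : (jqModC R ^ 3 * qExpand R 3 (jqModC R) ^ 1).coeff (-8) = 0 :=
    s18h_lead_coeff_lt (s18h_lead_mul (s18h_lead_pow hlj 3) (s18h_lead_pow hlk 1)) (-8)
      (by norm_num)
  have m5 : (jqModC R ^ 3 * qExpand R 3 (jqModC R) ^ 0).coeff (-8) = 0 :=
    s18h_lead_coeff_lt (s18h_lead_mul (s18h_lead_pow hlj 3) (s18h_lead_pow hlk 0)) (-8)
      (by norm_num)
  have m6 : (jqModC R ^ 2 * qExpand R 3 (jqModC R) ^ 2).coeff (-8) = 1 :=
    s18h_lead_coeff (s18h_lead_mul (s18h_lead_pow hlj 2) (s18h_lead_pow hlk 2)) (-8)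
      (by norm_num)
  have m7 : (jqModC R ^ 2 * qExpand R 3 (jqModC R) ^ 1).coeff (-8) = 0 :=
    s18h_lead_coeff_lt (s18h_lead_mul (s18h_lead_pow hlj 2) (s18h_lead_pow hlk 1)) (-8)
      (by norm_num)
  have m8 : (jqModC R ^ 2 * qExpand R 3 (jqModC R) ^ 0).coeff (-8) = 0 :=
    s18h_lead_coeff_lt (s18h_lead_mul (s18h_lead_pow hlj 2) (s18h_lead_pow hlk 0)) (-8)
      (by norm_num)
  have m9 : (jqModC R ^ 1 * qExpand R 3 (jqModC R) ^ 2).coeff (-8) = 0 :=
    s18h_lead_coeff_lt (s18h_lead_mul (s18h_lead_pow hlj 1) (s18h_lead_pow hlk 2)) (-8)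
      (by norm_num)
  have m10 : (jqModC R ^ 1 * qExpand R 3 (jqModC R) ^ 1).coeff (-8) = 0 :=
    s18h_lead_coeff_lt (s18h_lead_mul (s18h_lead_pow hlj 1) (s18h_lead_pow hlk 1)) (-8)
      (by norm_num)
  have m11 : (jqModC R ^ 1 * qExpand R 3 (jqModC R) ^ 0).coeff (-8) = 0 :=
    s18h_lead_coeff_lt (s18h_lead_mul (s18h_lead_pow hlj 1) (s18h_lead_pow hlk 0)) (-8)
      (by norm_num)
  have m12 : (jqModC R ^ 0 * qExpand R 3 (jqModC R) ^ 2).coeff (-8) = 0 :=
    s18h_lead_coeff_lt (s18h_lead_mul (s18h_lead_pow hlj 0) (s18h_lead_pow hlk 2)) (-8)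
      (by norm_num)
  have m13 : (jqModC R ^ 0 * qExpand R 3 (jqModC R) ^ 1).coeff (-8) = 0 :=
    s18h_lead_coeff_lt (s18h_lead_mul (s18h_lead_pow hlj 0) (s18h_lead_pow hlk 1)) (-8)
      (by norm_num)
  have m14 : (jqModC R ^ 0 * qExpand R 3 (jqModC R) ^ 0).coeff (-8) = 0 :=
    s18h_lead_coeff_lt (s18h_lead_mul (s18h_lead_pow hlj 0) (s18h_lead_pow hlk 0)) (-8)
      (by norm_num)
  rw [hZ]
  simp only [HahnSeries.coeff_add, s18h_coeff_intCast_mul]
  rw [m0, m1, m2, m3, m4, m5, m6, m7, m8, m9, m10, m11, m12, m13, m14]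
  push_cast
  ring

variable (K : Type*) [Field K]

/-- **Level 2**: if `2 ≠ 0` in `K` then `t₂ ∈ K(j(q), j(q²))`. -/
theorem s18_t2R_mem_adjoin (h2 : (2 : K) ≠ 0) :
    s18_t2R K ∈ IntermediateField.adjoin K {jqModC K, qExpand K 2 (jqModC K)} := by
  have hj : jqModC K ∈ IntermediateField.adjoin K {jqModC K, qExpand K 2 (jqModC K)} :=
    IntermediateField.subset_adjoin _ _ (Set.mem_insert _ _)
  have hk : qExpand K 2 (jqModC K) ∈
      IntermediateField.adjoin K {jqModC K, qExpand K 2 (jqModC K)} :=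
    IntermediateField.subset_adjoin _ _ (Set.mem_insert_of_mem _ rfl)
  refine s18h_mem_of_lin _ _ _ _ ?_ ?_
    (s18h_elim2 (jqModC K) (qExpand K 2 (jqModC K)) (s18_t2R K) (s18_t2R_j K) (s18_t2R_j2 K)) ?_
  · repeat'
      with_reducible first
        | exact hj
        | exact hk
        | exact ofNat_mem _ _
        | apply pow_mem
        | apply sub_mem
        | apply add_mem
        | apply neg_mem
        | apply mul_mem
  · repeat'
      with_reducible first
        | exact hj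
        | exact hk
        | exact ofNat_mem _ _
        | apply pow_mem
        | apply sub_mem
        | apply add_mem
        | apply neg_mem
        | apply mul_mem
  · intro h0
    have hc := s18h_beta2_coeff K
    rw [h0, HahnSeries.coeff_zero] at hc
    have h24 : (2 : K) ^ 24 = 0 := by linear_combination hc
    exact h2 (pow_eq_zero_iff (by norm_num) |>.mp h24)

/-- **Level 2**: `t₂` lies in the full function field of level `N` whenever `2 ∣ N`. -/
theorem s18_t2R_mem_full (h2 : (2 : K) ≠ 0) (N : ℕ) [NeZero N] (hN : 2 ∣ N) :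
    s18_t2R K ∈ modularFunctionFieldFullC K N := by
  have hle : IntermediateField.adjoin K {jqModC K, qExpand K 2 (jqModC K)} ≤
      modularFunctionFieldFullC K N := by
    rw [IntermediateField.adjoin_le_iff]
    rintro x (rfl | rfl)
    · exact jqModC_mem_full K N
    · exact jqModCd_mem_full K N hN
  exact hle (s18_t2R_mem_adjoin K h2)

/-- **Level 3**: if `3 ≠ 0` in `K` then `t₃ ∈ K(j(q), j(q³))`. -/
theorem s18_t3R_mem_adjoin (h3 : (3 : K) ≠ 0) :
    s18_t3R K ∈ IntermediateField.adjoin K {jqModC K, qExpand K 3 (jqModC K)} := by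
  have hj : jqModC K ∈ IntermediateField.adjoin K {jqModC K, qExpand K 3 (jqModC K)} :=
    IntermediateField.subset_adjoin _ _ (Set.mem_insert _ _)
  have hk : qExpand K 3 (jqModC K) ∈
      IntermediateField.adjoin K {jqModC K, qExpand K 3 (jqModC K)} :=
    IntermediateField.subset_adjoin _ _ (Set.mem_insert_of_mem _ rfl)
  refine s18h_mem_of_lin _ _ _ _ ?_ ?_
    (s18h_elim3 (jqModC K) (qExpand K 3 (jqModC K)) (s18_t3R K) (s18_t3R_j K) (s18_t3R_j3 K)) ?_
  · repeat'
      with_reducible first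
        | exact hj
        | exact hk
        | exact ofNat_mem _ _
        | apply pow_mem
        | apply sub_mem
        | apply add_mem
        | apply neg_mem
        | apply mul_mem
  · repeat'
      with_reducible first
        | exact hj
        | exact hk
        | exact ofNat_mem _ _
        | apply pow_mem
        | apply sub_mem
        | apply add_mem
        | apply neg_mem
        | apply mul_mem
  · intro h0
    have hc := s18h_beta3_coeff K
    rw [h0, HahnSeries.coeff_zero] at hc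
    have h18 : (3 : K) ^ 18 = 0 := by linear_combination -hc
    exact h3 (pow_eq_zero_iff (by norm_num) |>.mp h18)

/-- **Level 3**: `t₃` lies in the full function field of level `N` whenever `3 ∣ N`. -/
theorem s18_t3R_mem_full (h3 : (3 : K) ≠ 0) (N : ℕ) [NeZero N] (hN : 3 ∣ N) :
    s18_t3R K ∈ modularFunctionFieldFullC K N := by
  have hle : IntermediateField.adjoin K {jqModC K, qExpand K 3 (jqModC K)} ≤
      modularFunctionFieldFullC K N := by
    rw [IntermediateField.adjoin_le_iff]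
    rintro x (rfl | rfl)
    · exact jqModC_mem_full K N
    · exact jqModCd_mem_full K N hN
  exact hle (s18_t3R_mem_adjoin K h3)

/-- `1 / t₂` is the field inverse of `t₂`. -/
theorem s18_t2invR_eq_inv : s18_t2invR K = (s18_t2R K)⁻¹ :=
  eq_inv_of_mul_eq_one_right (s18_t2R_mul_inv K)

/-- `1 / t₃` is the field inverse of `t₃`. -/
theorem s18_t3invR_eq_inv : s18_t3invR K = (s18_t3R K)⁻¹ :=
  eq_inv_of_mul_eq_one_right (s18_t3R_mul_inv K)

theorem s18_t2invR_mem_full (h2 : (2 : K) ≠ 0) (N : ℕ) [NeZero N] (hN : 2 ∣ N) :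
    s18_t2invR K ∈ modularFunctionFieldFullC K N := by
  rw [s18_t2invR_eq_inv]
  exact inv_mem (s18_t2R_mem_full K h2 N hN)

theorem s18_t3invR_mem_full (h3 : (3 : K) ≠ 0) (N : ℕ) [NeZero N] (hN : 3 ∣ N) :
    s18_t3invR K ∈ modularFunctionFieldFullC K N := by
  rw [s18_t3invR_eq_inv]
  exact inv_mem (s18_t3R_mem_full K h3 N hN)

/-- Over `ℚ`: `t₂ ∈ modularFunctionFieldFull N` for `2 ∣ N`. -/
theorem s18_t2Q_mem (N : ℕ) [NeZero N] (hN : 2 ∣ N) : s18_t2R ℚ ∈ modularFunctionFieldFull N :=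
  s18_t2R_mem_full ℚ (by norm_num) N hN

/-- Over `ℚ`: `t₃ ∈ modularFunctionFieldFull N` for `3 ∣ N`. -/
theorem s18_t3Q_mem (N : ℕ) [NeZero N] (hN : 3 ∣ N) : s18_t3R ℚ ∈ modularFunctionFieldFull N :=
  s18_t3R_mem_full ℚ (by norm_num) N hN

end Field

end Fermat.Agent.S18
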