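import Fermat.Agent.S18.ChartZ
import Fermat.Agent.S18.HauptField

/-!
# S18 block C: the Hauptmoduln `t₂`, `t₃` are coordinates

For `M ∈ {2, 3}`, `M ∣ N` and `ℓ ≠ M`, the Hauptmodul `t_M` of `X₀(M)` (block C0, helper25) is an
element of `F_N = modularFunctionFieldFull N` and a coordinate in the sense of `s18_cz_Coord`;
its reduction modulo `ℓ` is the Hauptmodul over `𝔽_ℓ`.
-/

set_option autoImplicit false

open ModularCurve ModularCurve.IgusaScheme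

noncomputable section

namespace Fermat.Agent.S18

open Fermat.Agent.S28

variable (N : ℕ) [NeZero N] (ℓ : ℕ) [Fact ℓ.Prime]

/-- The Hauptmodul `t₂` as an element of `F_N`, `2 ∣ N`. -/
def s18_cz_t2 (hN : 2 ∣ N) : modularFunctionFieldFull N := ⟨s18_t2R ℚ, s18_t2Q_mem N hN⟩

/-- The Hauptmodul `t₃` as an element of `F_N`, `3 ∣ N`. -/
def s18_cz_t3 (hN : 3 ∣ N) : modularFunctionFieldFull N := ⟨s18_t3R ℚ, s18_t3Q_mem N hN⟩

@[simp] theorem s18_cz_coe_t2 (hN : 2 ∣ N) :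
    ((s18_cz_t2 N hN : modularFunctionFieldFull N) : LaurentSeries ℚ) = s18_t2R ℚ := rfl

@[simp] theorem s18_cz_coe_t3 (hN : 3 ∣ N) :
    ((s18_cz_t3 N hN : modularFunctionFieldFull N) : LaurentSeries ℚ) = s18_t3R ℚ := rfl

theorem s18_cz_coe_t2_inv (hN : 2 ∣ N) :
    (((s18_cz_t2 N hN)⁻¹ : modularFunctionFieldFull N) : LaurentSeries ℚ) = s18_t2invR ℚ := by
  rw [s18_t2invR_eq_inv]
  rfl

theorem s18_cz_coe_t3_inv (hN : 3 ∣ N) :
    (((s18_cz_t3 N hN)⁻¹ : modularFunctionFieldFull N) : LaurentSeries ℚ) = s18_t3invR ℚ := by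
  rw [s18_t3invR_eq_inv]
  rfl

theorem s18_cz_t2_ne_zero (hN : 2 ∣ N) : s18_cz_t2 N hN ≠ 0 := by
  intro h0
  have h1 := congrArg (fun x : modularFunctionFieldFull N => (x : LaurentSeries ℚ)) h0
  have h2 := s18_t2R_mul_inv ℚ
  simp only [s18_cz_coe_t2] at h1
  rw [h1] at h2
  simp at h2

theorem s18_cz_t3_ne_zero (hN : 3 ∣ N) : s18_cz_t3 N hN ≠ 0 := by
  intro h0
  have h1 := congrArg (fun x : modularFunctionFieldFull N => (x : LaurentSeries ℚ)) h0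
  have h2 := s18_t3R_mul_inv ℚ
  simp only [s18_cz_coe_t3] at h1
  rw [h1] at h2
  simp at h2

omit [Fact ℓ.Prime] in
theorem s18_cz_evJ_X : evJ ℓ Polynomial.X = jq := Polynomial.eval₂_X _ _

omit [Fact ℓ.Prime] in
theorem s18_cz_evJ_C (r : GaloisRep.ratLocalizedAt ℓ) :
    evJ ℓ (Polynomial.C r) = HahnSeries.C (r : ℚ) := Polynomial.eval₂_C _ _

/-- A natural number prime to `ℓ` has an inverse in `ℤ_(ℓ)`. -/
theorem s18_cz_exists_inv (m : ℕ) (hm : ¬ ℓ ∣ m) :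
    ∃ u : GaloisRep.ratLocalizedAt ℓ, HahnSeries.C ((u : ℚ)) * (m : LaurentSeries ℚ) = 1 := by
  obtain ⟨u, hu⟩ := (natCast_isUnit_ratLocalizedAt ℓ m hm).exists_left_inv
  refine ⟨u, ?_⟩
  have h1 := congrArg (constR ℓ) hu
  rw [map_mul, map_natCast, map_one] at h1
  exact h1

/-- `t₂` is integral over `ℤ_(ℓ)[j]`. -/
theorem s18_cz_t2_mem_fin (hN : 2 ∣ N) : s18_cz_t2 N hN ∈ chartAlgFin N ℓ := by
  rw [mem_chartAlgFin_iff]
  refine ⟨Polynomial.X ^ 3 + (Polynomial.C (768 - Polynomial.X) * Polynomial.X ^ 2 +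
    Polynomial.C 196608 * Polynomial.X + Polynomial.C 16777216), ?_, ?_⟩
  · apply Polynomial.monic_X_pow_add
    compute_degree!
  · have h := s18_t2R_cubic ℚ
    rw [jqModC_rat] at h
    simp only [Polynomial.eval₂_add, Polynomial.eval₂_mul, Polynomial.eval₂_pow,
      Polynomial.eval₂_X, Polynomial.eval₂_C]
    simp only [map_sub, map_ofNat, s18_cz_evJ_X, s18_cz_coe_t2]
    linear_combination h

/-- `t₃` is integral over `ℤ_(ℓ)[j]`. -/
theorem s18_cz_t3_mem_fin (hN : 3 ∣ N) : s18_cz_t3 N hN ∈ chartAlgFin N ℓ := by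
  rw [mem_chartAlgFin_iff]
  refine ⟨Polynomial.X ^ 4 + (Polynomial.C (756 - Polynomial.X) * Polynomial.X ^ 3 +
    Polynomial.C 196830 * Polynomial.X ^ 2 + Polynomial.C 19131876 * Polynomial.X +
    Polynomial.C 387420489), ?_, ?_⟩
  · apply Polynomial.monic_X_pow_add
    compute_degree!
  · have h := s18_t3R_quartic ℚ
    rw [jqModC_rat] at h
    simp only [Polynomial.eval₂_add, Polynomial.eval₂_mul, Polynomial.eval₂_pow,
      Polynomial.eval₂_X, Polynomial.eval₂_C]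
    simp only [map_sub, map_ofNat, s18_cz_evJ_X, s18_cz_coe_t3]
    linear_combination h

/-- `t₂⁻¹` is integral over `ℤ_(ℓ)[j]` for `ℓ ≠ 2`. -/
theorem s18_cz_t2_inv_mem_fin (hN : 2 ∣ N) (hℓ : ℓ ≠ 2) :
    (s18_cz_t2 N hN)⁻¹ ∈ chartAlgFin N ℓ := by
  have hℓp : ℓ.Prime := Fact.out
  have hnd : ¬ ℓ ∣ 16777216 := by
    intro hd
    have h1 : ℓ ∣ 2 ^ 24 := by
      norm_num
      exact hd
    exact hℓ ((Nat.prime_dvd_prime_iff_eq hℓp Nat.prime_two).mp (hℓp.dvd_of_dvd_pow h1))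
  obtain ⟨u, hu⟩ := s18_cz_exists_inv ℓ 16777216 hnd
  rw [Nat.cast_ofNat] at hu
  rw [mem_chartAlgFin_iff]
  refine ⟨Polynomial.X ^ 3 + (Polynomial.C (Polynomial.C u * 196608) * Polynomial.X ^ 2 +
    Polynomial.C (Polynomial.C u * (768 - Polynomial.X)) * Polynomial.X +
    Polynomial.C (Polynomial.C u)), ?_, ?_⟩
  · apply Polynomial.monic_X_pow_add
    compute_degree!
  · have h := s18_t2invR_cubic ℚ
    rw [jqModC_rat] at h
    rw [s18_cz_coe_t2_inv]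
    simp only [Polynomial.eval₂_add, Polynomial.eval₂_mul, Polynomial.eval₂_pow,
      Polynomial.eval₂_X, Polynomial.eval₂_C]
    simp only [map_mul, map_sub, map_ofNat, s18_cz_evJ_X, s18_cz_evJ_C]
    linear_combination (HahnSeries.C (u : ℚ)) * h - (s18_t2invR ℚ) ^ 3 * hu

/-- `t₃⁻¹` is integral over `ℤ_(ℓ)[j]` for `ℓ ≠ 3`. -/
theorem s18_cz_t3_inv_mem_fin (hN : 3 ∣ N) (hℓ : ℓ ≠ 3) :
    (s18_cz_t3 N hN)⁻¹ ∈ chartAlgFin N ℓ := by
  have hℓp : ℓ.Prime := Fact.out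
  have hnd : ¬ ℓ ∣ 387420489 := by
    intro hd
    have h1 : ℓ ∣ 3 ^ 18 := by
      norm_num
      exact hd
    exact hℓ ((Nat.prime_dvd_prime_iff_eq hℓp Nat.prime_three).mp (hℓp.dvd_of_dvd_pow h1))
  obtain ⟨u, hu⟩ := s18_cz_exists_inv ℓ 387420489 hnd
  rw [Nat.cast_ofNat] at hu
  rw [mem_chartAlgFin_iff]
  refine ⟨Polynomial.X ^ 4 + (Polynomial.C (Polynomial.C u * 19131876) * Polynomial.X ^ 3 +
    Polynomial.C (Polynomial.C u * 196830) * Polynomial.X ^ 2 +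
    Polynomial.C (Polynomial.C u * (756 - Polynomial.X)) * Polynomial.X +
    Polynomial.C (Polynomial.C u)), ?_, ?_⟩
  · apply Polynomial.monic_X_pow_add
    compute_degree!
  · have h := s18_t3invR_quartic ℚ
    rw [jqModC_rat] at h
    rw [s18_cz_coe_t3_inv]
    simp only [Polynomial.eval₂_add, Polynomial.eval₂_mul, Polynomial.eval₂_pow,
      Polynomial.eval₂_X, Polynomial.eval₂_C]
    simp only [map_mul, map_sub, map_ofNat, s18_cz_evJ_X, s18_cz_evJ_C]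
    linear_combination (HahnSeries.C (u : ℚ)) * h - (s18_t3invR ℚ) ^ 4 * hu

/-- `j ∈ ℤ_(ℓ)[t₂, t₂⁻¹]`. -/
theorem s18_cz_j_mem_t2 (hN : 2 ∣ N) :
    jFull N ∈ Algebra.adjoin (GaloisRep.ratLocalizedAt ℓ)
      ({s18_cz_t2 N hN, (s18_cz_t2 N hN)⁻¹} : Set (modularFunctionFieldFull N)) := by
  have h1 : jFull N = (s18_cz_t2 N hN + algebraMap (GaloisRep.ratLocalizedAt ℓ)
      (modularFunctionFieldFull N) 256) ^ 3 * (s18_cz_t2 N hN)⁻¹ ^ 2 := by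
    apply kerVal_injective N
    rw [map_mul, map_pow, map_pow, map_add, kerVal_algebraMap, map_ofNat]
    show jq = (s18_t2R ℚ + 256) ^ 3 *
      (((s18_cz_t2 N hN)⁻¹ : modularFunctionFieldFull N) : LaurentSeries ℚ) ^ 2
    rw [s18_cz_coe_t2_inv, ← jqModC_rat]
    exact s18_t2R_j_eq ℚ
  rw [h1]
  exact Subalgebra.mul_mem _ (Subalgebra.pow_mem _ (Subalgebra.add_mem _
    (Algebra.subset_adjoin (by simp)) (Subalgebra.algebraMap_mem _ _)) 3)
    (Subalgebra.pow_mem _ (Algebra.subset_adjoin (by simp)) 2)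

/-- `j ∈ ℤ_(ℓ)[t₃, t₃⁻¹]`. -/
theorem s18_cz_j_mem_t3 (hN : 3 ∣ N) :
    jFull N ∈ Algebra.adjoin (GaloisRep.ratLocalizedAt ℓ)
      ({s18_cz_t3 N hN, (s18_cz_t3 N hN)⁻¹} : Set (modularFunctionFieldFull N)) := by
  have h1 : jFull N = (s18_cz_t3 N hN + algebraMap (GaloisRep.ratLocalizedAt ℓ)
      (modularFunctionFieldFull N) 27) * (s18_cz_t3 N hN + algebraMap (GaloisRep.ratLocalizedAt ℓ)
      (modularFunctionFieldFull N) 243) ^ 3 * (s18_cz_t3 N hN)⁻¹ ^ 3 := by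
    apply kerVal_injective N
    rw [map_mul, map_mul, map_pow, map_pow, map_add, map_add, kerVal_algebraMap,
      kerVal_algebraMap, map_ofNat, map_ofNat]
    show jq = (s18_t3R ℚ + 27) * (s18_t3R ℚ + 243) ^ 3 *
      (((s18_cz_t3 N hN)⁻¹ : modularFunctionFieldFull N) : LaurentSeries ℚ) ^ 3
    rw [s18_cz_coe_t3_inv, ← jqModC_rat]
    exact s18_t3R_j_eq ℚ
  rw [h1]
  exact Subalgebra.mul_mem _ (Subalgebra.mul_mem _ (Subalgebra.add_mem _
    (Algebra.subset_adjoin (by simp)) (Subalgebra.algebraMap_mem _ _))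
    (Subalgebra.pow_mem _ (Subalgebra.add_mem _
    (Algebra.subset_adjoin (by simp)) (Subalgebra.algebraMap_mem _ _)) 3))
    (Subalgebra.pow_mem _ (Algebra.subset_adjoin (by simp)) 3)

/-- **`t₂` is a coordinate** of the modular curve of level `N` over `ℤ_(ℓ)`, `2 ∣ N`, `ℓ ≠ 2`. -/
theorem s18_cz_coord_t2 (hN : 2 ∣ N) (hℓ : ℓ ≠ 2) : s18_cz_Coord N ℓ (s18_cz_t2 N hN) :=
  s18_cz_coord_of_fin (s18_cz_t2_ne_zero N hN) (s18_cz_t2_mem_fin N ℓ hN)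
    (s18_cz_t2_inv_mem_fin N ℓ hN hℓ) (s18_cz_j_mem_t2 N ℓ hN)

/-- **`t₃` is a coordinate** of the modular curve of level `N` over `ℤ_(ℓ)`, `3 ∣ N`, `ℓ ≠ 3`. -/
theorem s18_cz_coord_t3 (hN : 3 ∣ N) (hℓ : ℓ ≠ 3) : s18_cz_Coord N ℓ (s18_cz_t3 N hN) :=
  s18_cz_coord_of_fin (s18_cz_t3_ne_zero N hN) (s18_cz_t3_mem_fin N ℓ hN)
    (s18_cz_t3_inv_mem_fin N ℓ hN hℓ) (s18_cz_j_mem_t3 N ℓ hN)

/-! ### Reductions modulo `ℓ` -/

variable {N ℓ}

/-- The reduction of an element of the chart whose `q`-expansion has integer coefficients is the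
coefficientwise reduction. -/
theorem s18_cz_Coord.red_intSeries {t : modularFunctionFieldFull N} (h : s18_cz_Coord N ℓ t)
    {B : Subring (LaurentSeries ℚ)} (hB : CoreData N ℓ B) (x : chartAlg N ℓ {t, t⁻¹})
    (y : LaurentSeries ℤ)
    (hy : coeffMap (Int.castRingHom ℚ) y = ((x : modularFunctionFieldFull N) : LaurentSeries ℚ)) :
    h.red hB x = coeffMap (Int.castRingHom (ZMod ℓ)) y := by
  rw [h.red_eq_redL hB x (coeffMap (Int.castRingHom (GaloisRep.ratLocalizedAt ℓ)) y)]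
  · rw [redL, coeffMap_coeffMap]
    exact coeffMap_congr (RingHom.ext_int _ _) y
  · rw [incL, coeffMap_coeffMap, ← hy]
    exact coeffMap_congr (RingHom.ext_int _ _) y

/-- The reduction of `j` is `j` over `𝔽_ℓ`. -/
theorem s18_cz_Coord.red_j {t : modularFunctionFieldFull N} (h : s18_cz_Coord N ℓ t)
    {B : Subring (LaurentSeries ℚ)} (hB : CoreData N ℓ B) (x : chartAlg N ℓ {t, t⁻¹})
    (hx : (x : modularFunctionFieldFull N) = jFull N) : h.red hB x = jqModC (ZMod ℓ) := by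
  rw [h.red_intSeries hB x (jqModC ℤ), coeffMap_jqModC]
  rw [coeffMap_jqModC, hx]
  rfl

/-- The reduction of the generator `j(q^d)` is `j(q^d)` over `𝔽_ℓ`. -/
theorem s18_cz_Coord.red_gen {t : modularFunctionFieldFull N} (h : s18_cz_Coord N ℓ t)
    {B : Subring (LaurentSeries ℚ)} (hB : CoreData N ℓ B) (d : ℕ) [NeZero d]
    (x : chartAlg N ℓ {t, t⁻¹})
    (hx : ((x : modularFunctionFieldFull N) : LaurentSeries ℚ) = qExpand ℚ d jq) :
    h.red hB x = qExpand (ZMod ℓ) d (jqModC (ZMod ℓ)) := by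
  rw [h.red_intSeries hB x (qExpand ℤ d (jqModC ℤ)), coeffMap_qExpand, coeffMap_jqModC]
  rw [coeffMap_qExpand, coeffMap_jqModC, hx]
  rfl

/-- The generators `j(q^d)`, `d ∣ N`, lie in the chart `ℤ_(ℓ)[t, t⁻¹]^~`. -/
theorem s18_cz_Coord.gen_mem {t : modularFunctionFieldFull N} (h : s18_cz_Coord N ℓ t)
    {B : Subring (LaurentSeries ℚ)} (hB : CoreData N ℓ B) (d : ℕ) [NeZero d] (hd : d ∣ N)
    (x : modularFunctionFieldFull N) (hx : (x : LaurentSeries ℚ) = qExpand ℚ d jq) :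
    x ∈ chartAlg N ℓ {t, t⁻¹} := by
  apply h.fin_le_chart_pair
  rw [mem_chartAlgFin_iff, hx]
  exact hB.integral _ (hB.gen_mem d hd)

/-- The reduction of `t₂` is `t₂` over `𝔽_ℓ`. -/
theorem s18_cz_red_t2 (hN : 2 ∣ N) (hℓ : ℓ ≠ 2) {B : Subring (LaurentSeries ℚ)}
    (hB : CoreData N ℓ B) :
    (s18_cz_coord_t2 N ℓ hN hℓ).red hB (s18_cz_Coord.tPair N ℓ (s18_cz_t2 N hN)) =
      s18_t2R (ZMod ℓ) :=
  (s18_cz_coord_t2 N ℓ hN hℓ).red_intSeries hB _ s18_t2 rfl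

/-- The reduction of `t₂⁻¹` is `t₂⁻¹` over `𝔽_ℓ`. -/
theorem s18_cz_red_t2_inv (hN : 2 ∣ N) (hℓ : ℓ ≠ 2) {B : Subring (LaurentSeries ℚ)}
    (hB : CoreData N ℓ B) :
    (s18_cz_coord_t2 N ℓ hN hℓ).red hB (s18_cz_Coord.tInvPair N ℓ (s18_cz_t2 N hN)) =
      s18_t2invR (ZMod ℓ) :=
  (s18_cz_coord_t2 N ℓ hN hℓ).red_intSeries hB _ s18_t2inv (s18_cz_coe_t2_inv N hN).symm

/-- The reduction of `t₃` is `t₃` over `𝔽_ℓ`. -/
theorem s18_cz_red_t3 (hN : 3 ∣ N) (hℓ : ℓ ≠ 3) {B : Subring (LaurentSeries ℚ)}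
    (hB : CoreData N ℓ B) :
    (s18_cz_coord_t3 N ℓ hN hℓ).red hB (s18_cz_Coord.tPair N ℓ (s18_cz_t3 N hN)) =
      s18_t3R (ZMod ℓ) :=
  (s18_cz_coord_t3 N ℓ hN hℓ).red_intSeries hB _ s18_t3 rfl

/-- The reduction of `t₃⁻¹` is `t₃⁻¹` over `𝔽_ℓ`. -/
theorem s18_cz_red_t3_inv (hN : 3 ∣ N) (hℓ : ℓ ≠ 3) {B : Subring (LaurentSeries ℚ)}
    (hB : CoreData N ℓ B) :
    (s18_cz_coord_t3 N ℓ hN hℓ).red hB (s18_cz_Coord.tInvPair N ℓ (s18_cz_t3 N hN)) =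
      s18_t3invR (ZMod ℓ) :=
  (s18_cz_coord_t3 N ℓ hN hℓ).red_intSeries hB _ s18_t3inv (s18_cz_coe_t3_inv N hN).symm

end Fermat.Agent.S18
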