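import Fermat.Agent.S18.BranchCond
import Fermat.Agent.S18.UnramMod
import Fermat.Agent.S18.Branch
import Fermat.Agent.S18.ChAlg
import Fermat.Agent.S18.ChartZHaupt
import Fermat.Agent.S18.Setup

/-!
# S18: the branch condition for the modular charts with a Hauptmodul coordinate

For `M ∈ {2, 3}`, `M ∣ N'`, `ℓ ≠ M`: the charts of `K₁ · F(N')` over `A₁ = A ∩ K₁` with coordinate
`t_M` (resp. `t_M⁻¹`) satisfy `s18_Branch`: `F̄(N') / ℚ̄(t_M)` is unramified outside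
`t_M ∈ {0, ∞, -64}` (resp. `-27`), and constant field extensions are unramified.
-/

set_option autoImplicit false
set_option synthInstance.maxHeartbeats 400000

open ModularCurve AlgebraicCurve Polynomial IntermediateField

noncomputable section

namespace Fermat.Agent.S18

open Fermat.Agent.S24 (Kbar FF jF)

section BranchChart

variable (N' : ℕ) [NeZero N'] (A : ValuationSubring Kbar) (K₁ : IntermediateField ℚ Kbar)

/-- Integers prime to the residue characteristic are units of `A₁`. -/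
theorem s18_br_isUnit_natCast {ℓ : ℕ} (hℓ : ((ℓ : K₁))⁻¹ ∉ s18_A1 A K₁) (m : ℕ)
    (hm : Nat.Coprime m ℓ) : IsUnit ((m : ℕ) : s18_A1 A K₁) := by
  by_contra hmu
  have hℓu : ¬ IsUnit ((ℓ : ℕ) : s18_A1 A K₁) := by
    intro hu
    obtain ⟨u, hu⟩ := hu
    apply hℓ
    have h1 : (((u⁻¹ : (s18_A1 A K₁)ˣ) : s18_A1 A K₁) : K₁) * (ℓ : K₁) = 1 := by
      have h2 := congrArg (Subtype.val) (Units.inv_mul u)
      rw [hu] at h2
      simpa using h2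
    rw [← eq_inv_of_mul_eq_one_left h1]
    exact ((u⁻¹ : (s18_A1 A K₁)ˣ) : s18_A1 A K₁).2
  have h1 : ((m : ℕ) : s18_A1 A K₁) ∈ IsLocalRing.maximalIdeal (s18_A1 A K₁) :=
    (IsLocalRing.mem_maximalIdeal _).mpr hmu
  have h2 : ((ℓ : ℕ) : s18_A1 A K₁) ∈ IsLocalRing.maximalIdeal (s18_A1 A K₁) :=
    (IsLocalRing.mem_maximalIdeal _).mpr hℓu
  obtain ⟨a, b, hab⟩ := (Nat.isCoprime_iff_coprime.mpr hm)
  have h3 : (1 : s18_A1 A K₁) ∈ IsLocalRing.maximalIdeal (s18_A1 A K₁) := by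
    have h4 : (1 : s18_A1 A K₁) = (a : s18_A1 A K₁) * ((m : ℕ) : s18_A1 A K₁) +
        (b : s18_A1 A K₁) * ((ℓ : ℕ) : s18_A1 A K₁) := by
      have := congrArg (Int.cast : ℤ → s18_A1 A K₁) hab
      push_cast at this
      exact this.symm
    rw [h4]
    exact add_mem (Ideal.mul_mem_left _ _ h1) (Ideal.mul_mem_left _ _ h2)
  exact (IsLocalRing.maximalIdeal.isMaximal _).ne_top ((Ideal.eq_top_iff_one _).mpr h3)

/-- The branch condition in the concrete setting, from ramification data of `F̄(N') / ℚ̄(t)`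
outside two sections differing by a unit of `A₁`. -/
theorem s18_br_branch_bar [IsDiscreteValuationRing (s18_A1 A K₁)] {π : s18_A1 A K₁}
    (hπ : Irreducible π) (t : s18_F1 K₁ N')
    (B : Subalgebra (s18_A1 A K₁) (s18_F1 K₁ N')) (c₁ c₂ : s18_A1 A K₁) (hc : IsUnit (c₁ - c₂))
    (hbr : ∀ (P : Place Kbar (FF N')) (G : Polynomial Kbar), G.Separable →
      G.eval (algebraMap K₁ Kbar (c₁ : K₁)) ≠ 0 →
      G.eval (algebraMap K₁ Kbar (c₂ : K₁)) ≠ 0 →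
      0 < P.ord (aeval (s18_baseIncl K₁ N' t) G) → P.ord (aeval (s18_baseIncl K₁ N' t) G) = 1) :
    s18_Branch π t B := by
  have := (Fermat.Agent.S24.asm_generic N').1
  have := s18_isAlgebraic_bar K₁
  exact s18_br_branch (A₀ := s18_A1 A K₁) (K1 := K₁) (Ω := Kbar) (F1 := s18_F1 K₁ N')
    (Fb := FF N') (fun _ => rfl) hπ (s18_baseIncl K₁ N') (s18_baseIncl_algebraMap K₁ N')
    (s18_baseIncl_gen K₁ N') (jF N') t B c₁ c₂ hc hbr

/-- The image of the level-2 Hauptmodul in `F̄(N')`. -/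
theorem s18_br_coe_t2 (h2 : 2 ∣ N') :
    ((s18_baseIncl K₁ N' (s18_coord K₁ (s18_cz_t2 N' h2)) : FF N') : LaurentSeries Kbar) =
      s18_t2R Kbar := by
  rw [s18_baseIncl_coe]
  show coeffMap (algebraMap K₁ Kbar) (coeffEmb K₁ (s18_t2R ℚ)) = s18_t2R Kbar
  rw [s18_coeffMap_coeffEmb_bar, coeffEmb, s18_coeffMap_t2R]

/-- The image of the level-3 Hauptmodul in `F̄(N')`. -/
theorem s18_br_coe_t3 (h3 : 3 ∣ N') :
    ((s18_baseIncl K₁ N' (s18_coord K₁ (s18_cz_t3 N' h3)) : FF N') : LaurentSeries Kbar) =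
      s18_t3R Kbar := by
  rw [s18_baseIncl_coe]
  show coeffMap (algebraMap K₁ Kbar) (coeffEmb K₁ (s18_t3R ℚ)) = s18_t3R Kbar
  rw [s18_coeffMap_coeffEmb_bar, coeffEmb, s18_coeffMap_t3R]

theorem s18_br_hjt2 (h2 : 2 ∣ N') :
    jF N' * (s18_baseIncl K₁ N' (s18_coord K₁ (s18_cz_t2 N' h2))) ^ 2 =
      (s18_baseIncl K₁ N' (s18_coord K₁ (s18_cz_t2 N' h2)) + 256) ^ 3 := by
  apply Subtype.ext
  have h := s18_t2R_j Kbar
  rw [← s18_br_coe_t2 N' K₁ h2, ← Fermat.Agent.S24.jtrans_coe_jF N'] at h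
  exact h

theorem s18_br_hjt3 (h3 : 3 ∣ N') :
    jF N' * (s18_baseIncl K₁ N' (s18_coord K₁ (s18_cz_t3 N' h3))) ^ 3 =
      (s18_baseIncl K₁ N' (s18_coord K₁ (s18_cz_t3 N' h3)) + 27) *
        (s18_baseIncl K₁ N' (s18_coord K₁ (s18_cz_t3 N' h3)) + 243) ^ 3 := by
  apply Subtype.ext
  have h := s18_t3R_j Kbar
  rw [← s18_br_coe_t3 N' K₁ h3, ← Fermat.Agent.S24.jtrans_coe_jF N'] at h
  exact h
/-- A unit of `A₁` lifting a natural number prime to `ℓ`. -/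
theorem s18_br_exists_unit {ℓ : ℕ} (hℓ : ((ℓ : K₁))⁻¹ ∉ s18_A1 A K₁) (m : ℕ)
    (hm : Nat.Coprime m ℓ) :
    ∃ u : (s18_A1 A K₁)ˣ, ((u : s18_A1 A K₁) : K₁) = (m : K₁) ∧
      (((u⁻¹ : (s18_A1 A K₁)ˣ) : s18_A1 A K₁) : K₁) = ((m : K₁))⁻¹ := by
  obtain ⟨u, hu⟩ := s18_br_isUnit_natCast A K₁ hℓ m hm
  have h0 : ((u : s18_A1 A K₁) : K₁) = (m : K₁) := by
    rw [hu]
    simp
  refine ⟨u, h0, ?_⟩
  have h1 : (((u⁻¹ : (s18_A1 A K₁)ˣ) : s18_A1 A K₁) : K₁) * ((u : s18_A1 A K₁) : K₁) = 1 :=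
    congrArg (Subtype.val) (Units.inv_mul u)
  rw [← h0]
  exact eq_inv_of_mul_eq_one_left h1

end BranchChart

section Final

/-- **Branch condition, level 2, chart at `0`** (sections `t = 0`, `t = -64`). -/
theorem s18_branch_two (N' : ℕ) [NeZero N'] (h2 : 2 ∣ N') {ℓ : ℕ} [Fact ℓ.Prime] (hℓ2 : ℓ ≠ 2)
    (A : ValuationSubring Kbar) (K₁ : IntermediateField ℚ Kbar)
    (hℓ : ((ℓ : K₁))⁻¹ ∉ s18_A1 A K₁) [IsDiscreteValuationRing (s18_A1 A K₁)]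
    {π : s18_A1 A K₁} (hπ : Irreducible π) (B : Subalgebra (s18_A1 A K₁) (s18_F1 K₁ N'))
    (_ht : (s18_coord K₁ (s18_cz_t2 N' h2)) ∈ B) :
    s18_Branch π (s18_coord K₁ (s18_cz_t2 N' h2)) B := by
  have hcop : Nat.Coprime 64 ℓ := by
    have h : Nat.Coprime 2 ℓ :=
      (Nat.coprime_primes Nat.prime_two (Fact.out : ℓ.Prime)).mpr (Ne.symm hℓ2)
    exact (Nat.Coprime.pow_left 6 h : Nat.Coprime (2 ^ 6) ℓ)
  obtain ⟨u, hu, -⟩ := s18_br_exists_unit A K₁ hℓ 64 hcop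
  refine s18_br_branch_bar N' A K₁ hπ _ B 0 (-(u : s18_A1 A K₁)) ?_ ?_
  · rw [zero_sub, neg_neg]
    exact u.isUnit
  · intro P G hG h0 h64 hv
    refine s18_d6_two_poly N' _ (s18_br_hjt2 N' K₁ h2) P G hG ?_ ?_ hv
    · simpa using h0
    · have e : algebraMap K₁ Kbar ((-(u : s18_A1 A K₁) : s18_A1 A K₁) : K₁) = -64 := by
        have : ((-(u : s18_A1 A K₁) : s18_A1 A K₁) : K₁) = -((u : s18_A1 A K₁) : K₁) := rfl
        rw [this, hu, map_neg, map_natCast]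
        norm_num
      rwa [e] at h64

/-- **Branch condition, level 2, chart at `∞`** (sections `t⁻¹ = 0`, `t⁻¹ = -1/64`). -/
theorem s18_branch_two_inv (N' : ℕ) [NeZero N'] (h2 : 2 ∣ N') {ℓ : ℕ} [Fact ℓ.Prime] (hℓ2 : ℓ ≠ 2)
    (A : ValuationSubring Kbar) (K₁ : IntermediateField ℚ Kbar)
    (hℓ : ((ℓ : K₁))⁻¹ ∉ s18_A1 A K₁) [IsDiscreteValuationRing (s18_A1 A K₁)]
    {π : s18_A1 A K₁} (hπ : Irreducible π) (B : Subalgebra (s18_A1 A K₁) (s18_F1 K₁ N'))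
    (_ht : (s18_coord K₁ (s18_cz_t2 N' h2))⁻¹ ∈ B) :
    s18_Branch π (s18_coord K₁ (s18_cz_t2 N' h2))⁻¹ B := by
  have hcop : Nat.Coprime 64 ℓ := by
    have h : Nat.Coprime 2 ℓ :=
      (Nat.coprime_primes Nat.prime_two (Fact.out : ℓ.Prime)).mpr (Ne.symm hℓ2)
    exact (Nat.Coprime.pow_left 6 h : Nat.Coprime (2 ^ 6) ℓ)
  obtain ⟨u, -, hu⟩ := s18_br_exists_unit A K₁ hℓ 64 hcop
  refine s18_br_branch_bar N' A K₁ hπ _ B 0 (-((u⁻¹ : (s18_A1 A K₁)ˣ) : s18_A1 A K₁)) ?_ ?_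
  · rw [zero_sub, neg_neg]
    exact (u⁻¹).isUnit
  · intro P G hG h0 h64 hv
    rw [map_inv₀] at hv ⊢
    refine s18_d6_two_inv_poly N' _ (s18_br_hjt2 N' K₁ h2) P G hG ?_ ?_ hv
    · simpa using h0
    · have e : algebraMap K₁ Kbar
          ((-((u⁻¹ : (s18_A1 A K₁)ˣ) : s18_A1 A K₁) : s18_A1 A K₁) : K₁) = -(64 : Kbar)⁻¹ := by
        have : ((-((u⁻¹ : (s18_A1 A K₁)ˣ) : s18_A1 A K₁) : s18_A1 A K₁) : K₁) =
            -(((u⁻¹ : (s18_A1 A K₁)ˣ) : s18_A1 A K₁) : K₁) := rfl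
        rw [this, hu, map_neg, map_inv₀, map_natCast]
        norm_num
      rwa [e] at h64

/-- **Branch condition, level 3, chart at `0`** (sections `t = 0`, `t = -27`). -/
theorem s18_branch_three (N' : ℕ) [NeZero N'] (h3 : 3 ∣ N') {ℓ : ℕ} [Fact ℓ.Prime] (hℓ3 : ℓ ≠ 3)
    (A : ValuationSubring Kbar) (K₁ : IntermediateField ℚ Kbar)
    (hℓ : ((ℓ : K₁))⁻¹ ∉ s18_A1 A K₁) [IsDiscreteValuationRing (s18_A1 A K₁)]
    {π : s18_A1 A K₁} (hπ : Irreducible π) (B : Subalgebra (s18_A1 A K₁) (s18_F1 K₁ N'))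
    (_ht : (s18_coord K₁ (s18_cz_t3 N' h3)) ∈ B) :
    s18_Branch π (s18_coord K₁ (s18_cz_t3 N' h3)) B := by
  have hcop : Nat.Coprime 27 ℓ := by
    have h : Nat.Coprime 3 ℓ :=
      (Nat.coprime_primes Nat.prime_three (Fact.out : ℓ.Prime)).mpr (Ne.symm hℓ3)
    exact (Nat.Coprime.pow_left 3 h : Nat.Coprime (3 ^ 3) ℓ)
  obtain ⟨u, hu, -⟩ := s18_br_exists_unit A K₁ hℓ 27 hcop
  refine s18_br_branch_bar N' A K₁ hπ _ B 0 (-(u : s18_A1 A K₁)) ?_ ?_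
  · rw [zero_sub, neg_neg]
    exact u.isUnit
  · intro P G hG h0 h27 hv
    refine s18_d6_three_poly N' _ (s18_br_hjt3 N' K₁ h3) P G hG ?_ ?_ hv
    · simpa using h0
    · have e : algebraMap K₁ Kbar ((-(u : s18_A1 A K₁) : s18_A1 A K₁) : K₁) = -27 := by
        have : ((-(u : s18_A1 A K₁) : s18_A1 A K₁) : K₁) = -((u : s18_A1 A K₁) : K₁) := rfl
        rw [this, hu, map_neg, map_natCast]
        norm_num
      rwa [e] at h27

/-- **Branch condition, level 3, chart at `∞`** (sections `t⁻¹ = 0`, `t⁻¹ = -1/27`). -/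
theorem s18_branch_three_inv (N' : ℕ) [NeZero N'] (h3 : 3 ∣ N') {ℓ : ℕ} [Fact ℓ.Prime] (hℓ3 : ℓ ≠ 3)
    (A : ValuationSubring Kbar) (K₁ : IntermediateField ℚ Kbar)
    (hℓ : ((ℓ : K₁))⁻¹ ∉ s18_A1 A K₁) [IsDiscreteValuationRing (s18_A1 A K₁)]
    {π : s18_A1 A K₁} (hπ : Irreducible π) (B : Subalgebra (s18_A1 A K₁) (s18_F1 K₁ N'))
    (_ht : (s18_coord K₁ (s18_cz_t3 N' h3))⁻¹ ∈ B) :
    s18_Branch π (s18_coord K₁ (s18_cz_t3 N' h3))⁻¹ B := by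
  have hcop : Nat.Coprime 27 ℓ := by
    have h : Nat.Coprime 3 ℓ :=
      (Nat.coprime_primes Nat.prime_three (Fact.out : ℓ.Prime)).mpr (Ne.symm hℓ3)
    exact (Nat.Coprime.pow_left 3 h : Nat.Coprime (3 ^ 3) ℓ)
  obtain ⟨u, -, hu⟩ := s18_br_exists_unit A K₁ hℓ 27 hcop
  refine s18_br_branch_bar N' A K₁ hπ _ B 0 (-((u⁻¹ : (s18_A1 A K₁)ˣ) : s18_A1 A K₁)) ?_ ?_
  · rw [zero_sub, neg_neg]
    exact (u⁻¹).isUnit
  · intro P G hG h0 h27 hv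
    rw [map_inv₀] at hv ⊢
    refine s18_d6_three_inv_poly N' _ (s18_br_hjt3 N' K₁ h3) P G hG ?_ ?_ hv
    · simpa using h0
    · have e : algebraMap K₁ Kbar
          ((-((u⁻¹ : (s18_A1 A K₁)ˣ) : s18_A1 A K₁) : s18_A1 A K₁) : K₁) = -(27 : Kbar)⁻¹ := by
        have : ((-((u⁻¹ : (s18_A1 A K₁)ˣ) : s18_A1 A K₁) : s18_A1 A K₁) : K₁) =
            -(((u⁻¹ : (s18_A1 A K₁)ˣ) : s18_A1 A K₁) : K₁) := rfl
        rw [this, hu, map_neg, map_inv₀, map_natCast]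
        norm_num
      rwa [e] at h27

end Final

end Fermat.Agent.S18
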