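import Fermat.Agent.S18.ChAlg

/-!
# S18, block C (H-c): the base-changed function field is the fraction field of the chart

Every element of `laurentBaseChange K (modularFunctionFieldFull N)` is a quotient of two elements
of the chart `s18_chAlg N ℓ A t`.
-/

set_option autoImplicit false
set_option synthInstance.maxHeartbeats 400000
set_option linter.unusedSectionVars false
set_option linter.unusedVariables false

open ModularCurve ModularCurve.IgusaScheme Fermat.Agent.S28 Polynomial

noncomputable section

namespace Fermat.Agent.S18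

section ChAlgFrac

variable {N : ℕ} [NeZero N] {ℓ : ℕ} [Fact ℓ.Prime]
variable {K : Type*} [Field K] [Algebra ℚ K] {A : ValuationSubring K}
variable {t : modularFunctionFieldFull N}

/-- The chart ring lies in the base-changed function field. -/
theorem s18_chRing_le_baseChange (z : LaurentSeries K) (hz : z ∈ s18_chRing N ℓ A t) :
    z ∈ laurentBaseChange K (modularFunctionFieldFull N) := by
  refine s18_chSpan_induction
    (P := fun z => z ∈ laurentBaseChange K (modularFunctionFieldFull N)) ?_ ?_ ?_ ?_ hz
  · intro r x hx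
    obtain ⟨y, hy, rfl⟩ := s18_mem_czRing.mp hx
    refine mul_mem ?_ (coeffEmb_mem_laurentBaseChange K y.2)
    rw [HahnSeries.C_apply, ← algebraMap_laurentSeries_eq_single]
    exact (laurentBaseChange K _).algebraMap_mem _
  · exact zero_mem _
  · intro y y' h h'
    exact add_mem h h'
  · intro y h
    exact neg_mem h

/-- (H-c) every element of the base-changed function field is a quotient of elements of the
chart. -/
theorem s18_chAlg_frac (hℓ : ((ℓ : K))⁻¹ ∉ A) (h : s18_cz_Coord N ℓ t)
    {B : Subring (LaurentSeries ℚ)} (hB : CoreData N ℓ B)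
    (x : laurentBaseChange K (modularFunctionFieldFull N)) :
    ∃ a ∈ s18_chAlg N ℓ A t, ∃ b ∈ s18_chAlg N ℓ A t, b ≠ 0 ∧ x = a / b := by
  have hx := mem_laurentBaseChange_iff.mp x.2
  have hle : Subfield.closure (Set.range (algebraMap K (LaurentSeries K)) ∪
      (⇑(coeffEmb K) '' ((modularFunctionFieldFull N : IntermediateField ℚ (LaurentSeries ℚ)) :
        Set (LaurentSeries ℚ))))
      ≤ Subfield.closure (s18_chRing N ℓ A t : Set (LaurentSeries K)) := by
    rw [Subfield.closure_le]
    rintro z (⟨c, rfl⟩ | ⟨y, hy, rfl⟩)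
    · -- constants
      rw [algebraMap_laurentSeries_eq_single, ← HahnSeries.C_apply]
      rcases A.mem_or_inv_mem c with hc | hc
      · exact Subfield.subset_closure (s18_const_mem_chSpan (ι₁ := A.subtype) ⟨c, hc⟩)
      · have h1 : (HahnSeries.C c : LaurentSeries K) = (HahnSeries.C (c⁻¹))⁻¹ := by
          rw [← map_inv₀, inv_inv]
        rw [h1]
        exact inv_mem (Subfield.subset_closure
          (s18_const_mem_chSpan (ι₁ := A.subtype) ⟨c⁻¹, hc⟩))
    · obtain ⟨a, ha, b, hb, hb0, hab⟩ := h.exists_frac hB ⟨y, hy⟩
      have h1 : coeffEmb K y =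
          coeffEmb K (a : LaurentSeries ℚ) / coeffEmb K (b : LaurentSeries ℚ) := by
        rw [← map_div₀]
        congr 1
        exact congrArg Subtype.val hab
      rw [h1]
      exact div_mem (Subfield.subset_closure (s18_map_mem_chSpan (s18_coe_mem_czRing ha)))
        (Subfield.subset_closure (s18_map_mem_chSpan (s18_coe_mem_czRing hb)))
  obtain ⟨y, hy, z, hz, hyz⟩ := Subfield.mem_closure_iff.mp (hle hx)
  rw [Subring.closure_eq] at hy hz
  by_cases hz0 : z = 0
  · refine ⟨0, zero_mem _, 1, one_mem _, one_ne_zero, ?_⟩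
    apply Subtype.ext
    rw [← hyz, hz0, div_zero, div_one]
    rfl
  · refine ⟨⟨y, s18_chRing_le_baseChange y hy⟩, hy, ⟨z, s18_chRing_le_baseChange z hz⟩, hz,
      ?_, ?_⟩
    · intro h0
      exact hz0 (congrArg Subtype.val h0)
    · apply Subtype.ext
      rw [← hyz]
      rfl

end ChAlgFrac

end Fermat.Agent.S18
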