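import Fermat.Agent.S18.ChProps
import Fermat.Agent.S18.ChAlgFrac

/-!
# S18, block C (C-III): Gauss normal form

`A = Abig ∩ K` (via `φ : K → Kb`), `f ∈ K · F_N` with `f · n₂ = n₁` where `n₁, n₂` have
`Abig`-integral `q`-expansions with equal non-zero reductions.  Then `f = a / b` with `a, b` in
the chart `s18_chAlg N ℓ A t`, `π ∤ b` and `π ∣ a - b`.
-/

set_option autoImplicit false
set_option synthInstance.maxHeartbeats 400000
set_option linter.unusedSectionVars false
set_option linter.unusedVariables false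

open ModularCurve ModularCurve.IgusaScheme Fermat.Agent.S28 Polynomial

noncomputable section

namespace Fermat.Agent.S18

section NormalForm

variable {N : ℕ} [NeZero N] {ℓ : ℕ} [Fact ℓ.Prime]
variable {K : Type*} [Field K] [Algebra ℚ K] {A : ValuationSubring K}
variable {t : modularFunctionFieldFull N}

local notation "FK" => laurentBaseChange K (modularFunctionFieldFull N)

variable [IsDiscreteValuationRing A] {π : A}

/-- Gauss decomposition in the chart ring: a non-zero element is a power of `π` times an element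
with non-zero reduction. -/
theorem s18_chRing_decomp (hR : s18_ResBasis ℓ A π) (h : s18_cz_Coord N ℓ t)
    {B : Subring (LaurentSeries ℚ)} (hB : CoreData N ℓ B)
    (y : LaurentSeries K) (hy : y ∈ s18_chRing N ℓ A t) (hy0 : y ≠ 0) :
    ∃ (n : ℕ) (y' : LaurentSeries K) (hy' : y' ∈ s18_chRing N ℓ A t),
      y = HahnSeries.C (A.subtype π) ^ n * y' ∧
      s18_red (ρ := IsLocalRing.residue A) (s18_valSubtype_injective (A := A))
        ⟨y', s18_chRing_le_W hR.unit h hB hy'⟩ ≠ 0 := by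
  have hmax : IsLocalRing.maximalIdeal A = Ideal.span {π} := hR.irr.maximalIdeal_eq
  refine s18_chart_decomp (S := s18_chRing N ℓ A t) (s18_valSubtype_injective (A := A))
    hR.irr.ne_zero (s18_residue_uniformizer hR.irr) ?_ ?_
    (fun y hy => s18_chRing_le_W hR.unit h hB hy)
    (fun y hy hred => s18_chRing_kernel hR h hB y hy hred) y hy hy0
  · intro r hr
    rw [IsLocalRing.residue_eq_zero_iff, hmax, Ideal.mem_span_singleton] at hr
    exact hr
  · intro r hr
    obtain ⟨n, u, hu⟩ := IsDiscreteValuationRing.eq_unit_mul_pow_irreducible hr hR.irr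
    refine ⟨n, u, by rw [hu, mul_comm], ?_⟩
    rw [Ne, IsLocalRing.residue_eq_zero_iff]
    exact fun hmem => (IsLocalRing.mem_maximalIdeal _).mp hmem u.isUnit

/-- (C-III) Gauss normal form. -/
theorem s18_ch_gauss_normal (hR : s18_ResBasis ℓ A π) (h : s18_cz_Coord N ℓ t)
    {B : Subring (LaurentSeries ℚ)} (hB : CoreData N ℓ B)
    {Kb : Type*} [Field Kb] (Abig : ValuationSubring Kb) (φ : K →+* Kb) (hA : A = Abig.comap φ)
    (y₁ y₂ : LaurentSeries Abig) (f : FK)
    (hf : coeffMap φ (f : LaurentSeries K) * coeffMap Abig.subtype y₂ = coeffMap Abig.subtype y₁)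
    (hred : coeffMap (IsLocalRing.residue Abig) y₁ = coeffMap (IsLocalRing.residue Abig) y₂)
    (hne : coeffMap (IsLocalRing.residue Abig) y₂ ≠ 0) :
    ∃ a ∈ s18_chAlg N ℓ A t, ∃ b ∈ s18_chAlg N ℓ A t,
      (algebraMap A FK π)⁻¹ * b ∉ s18_chAlg N ℓ A t ∧
      (algebraMap A FK π)⁻¹ * (a - b) ∈ s18_chAlg N ℓ A t ∧ f = a / b := by
  classical
  -- the comparison maps
  have hAmem : ∀ x : K, x ∈ A ↔ φ x ∈ Abig := fun x => by
    rw [hA]
    exact ValuationSubring.mem_comap
  have hmemA : ∀ r : A, φ (r : K) ∈ Abig := fun r => (hAmem _).mp r.2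
  let fA : A →+* Abig := (φ.comp A.subtype).codRestrict Abig.toSubring hmemA
  have hloc : IsLocalHom fA := by
    refine ⟨fun a ha => ?_⟩
    obtain ⟨u, hu⟩ := ha
    have h1 : φ (a : K) * (((u⁻¹ : Abigˣ) : Abig) : Kb) = 1 := by
      have h2 : fA a * ((u⁻¹ : Abigˣ) : Abig) = 1 := by rw [← hu]; exact Units.mul_inv u
      exact congrArg Subtype.val h2
    have h3 : φ ((a : K)⁻¹) ∈ Abig := by
      rw [map_inv₀, inv_eq_of_mul_eq_one_right h1]
      exact ((u⁻¹ : Abigˣ) : Abig).2
    have h4 : ((a : K))⁻¹ ∈ A := (hAmem _).mpr h3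
    have ha0 : (a : K) ≠ 0 := by
      intro h0
      rw [h0, map_zero, zero_mul] at h1
      exact zero_ne_one h1
    exact IsUnit.of_mul_eq_one ⟨(a : K)⁻¹, h4⟩ (Subtype.ext (mul_inv_cancel₀ ha0))
  let ψ : IsLocalRing.ResidueField A →+* IsLocalRing.ResidueField Abig :=
    IsLocalRing.ResidueField.map fA
  have hφ : φ.comp A.subtype = Abig.subtype.comp fA := rfl
  have hψ : ψ.comp (IsLocalRing.residue A) = (IsLocalRing.residue Abig).comp fA :=
    IsLocalRing.ResidueField.map_comp_residue fA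
  have hιA : Function.Injective A.subtype := s18_valSubtype_injective (A := A)
  have hιB : Function.Injective Abig.subtype := Subtype.val_injective
  have hψinj : Function.Injective (coeffMap ψ) := s18_coeffMap_injective ψ ψ.injective
  have hW : ∀ y ∈ s18_chRing N ℓ A t, y ∈ s18_W A.subtype (IsLocalRing.residue A) :=
    fun y hy => s18_chRing_le_W hR.unit h hB hy
  have hWb : ∀ y ∈ s18_chRing N ℓ A t,
      coeffMap φ y ∈ s18_W Abig.subtype (IsLocalRing.residue Abig) :=
    fun y hy => s18_W_map fA φ ψ hφ hψ (hW y hy)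
  have hredmap : ∀ y (hy : y ∈ s18_chRing N ℓ A t),
      s18_red hιB ⟨coeffMap φ y, hWb y hy⟩ = coeffMap ψ (s18_red hιA ⟨y, hW y hy⟩) :=
    fun y hy => s18_red_map hιA hιB fA φ ψ hφ hψ ⟨y, hW y hy⟩ (hWb y hy)
  have hπb : IsLocalRing.residue Abig (fA π) = 0 := by
    have h1 := RingHom.congr_fun hψ π
    rw [RingHom.comp_apply, RingHom.comp_apply] at h1
    rw [← h1, s18_residue_uniformizer hR.irr, map_zero]
  have hCπ : (HahnSeries.C (A.subtype π) : LaurentSeries K) ≠ 0 := s18_C_ne_zero hR.irr.ne_zero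
  have hCφ : coeffMap φ (HahnSeries.C (A.subtype π)) = HahnSeries.C (Abig.subtype (fA π)) := by
    rw [HahnSeries.C_apply, HahnSeries.C_apply, coeffMap_single]
    rfl
  -- descent of divisibility by powers of `π`
  have key : ∀ n : ℕ, ∀ a₀ ∈ s18_chRing N ℓ A t, ∀ a : LaurentSeries K,
      a₀ = HahnSeries.C (A.subtype π) ^ n * a →
      coeffMap φ a ∈ s18_W Abig.subtype (IsLocalRing.residue Abig) →
      a ∈ s18_chRing N ℓ A t := by
    intro n
    induction n with
    | zero =>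
      intro a₀ ha₀ a e _
      rw [pow_zero, one_mul] at e
      rw [← e]
      exact ha₀
    | succ n ih =>
      intro a₀ ha₀ a e haW
      have h1 : s18_red hιB ⟨coeffMap φ a₀, hWb a₀ ha₀⟩ = 0 := by
        refine s18_red_C_mul_eq_zero hιB hπb (hWb a₀ ha₀)
          (y' := HahnSeries.C (Abig.subtype (fA π)) ^ n * coeffMap φ a) ?_ ?_
        · exact Subring.mul_mem _ (Subring.pow_mem _ (s18_C_mem_W (fA π)) n) haW
        · rw [e, map_mul, map_pow, hCφ, pow_succ]
          ring
      rw [hredmap a₀ ha₀] at h1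
      have h2 : s18_red hιA ⟨a₀, hW a₀ ha₀⟩ = 0 := hψinj (by rw [h1, map_zero])
      obtain ⟨a₀', ha₀', e'⟩ := s18_chRing_kernel hR h hB a₀ ha₀ h2
      refine ih a₀' ha₀' a ?_ haW
      apply mul_left_cancel₀ hCπ
      rw [← e', e, pow_succ]
      ring
  -- the fraction
  obtain ⟨a₀, ha₀, b₀, hb₀, hb₀0, hfab⟩ := s18_chAlg_frac (A := A) (t := t) hR.unit h hB f
  have hb₀0' : (b₀ : LaurentSeries K) ≠ 0 := fun h0 => hb₀0 (Subtype.ext h0)
  obtain ⟨n, b₁, hb₁, eb, hb₁red⟩ :=
    s18_chRing_decomp hR h hB (b₀ : LaurentSeries K) (s18_mem_chAlg.mp hb₀) hb₀0'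
  have hb₁0 : b₁ ≠ 0 := by
    intro h0
    apply hb₁red
    have e0 : (⟨b₁, s18_chRing_le_W hR.unit h hB hb₁⟩ :
        s18_W A.subtype (IsLocalRing.residue A)) = 0 := Subtype.ext h0
    rw [e0, map_zero]
  let b : FK := ⟨b₁, s18_chRing_le_baseChange b₁ hb₁⟩
  have hbmem : b ∈ s18_chAlg N ℓ A t := hb₁
  have hb0 : b ≠ 0 := fun h0 => hb₁0 (congrArg Subtype.val h0)
  let a : FK := f * b
  have hacoe : (a : LaurentSeries K) = (f : LaurentSeries K) * b₁ := rfl
  have hfW : coeffMap φ (f : LaurentSeries K) ∈ s18_W Abig.subtype (IsLocalRing.residue Abig) :=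
    ⟨y₂, y₁, hne, by rw [mul_comm]; exact hf⟩
  have hfred : s18_red hιB ⟨coeffMap φ (f : LaurentSeries K), hfW⟩ = 1 := by
    rw [s18_red_eq hιB _ y₂ y₁ hne (by rw [mul_comm]; exact hf), hred, div_self hne]
  have haW : coeffMap φ (a : LaurentSeries K) ∈
      s18_W Abig.subtype (IsLocalRing.residue Abig) := by
    rw [hacoe, map_mul]
    exact Subring.mul_mem _ hfW (hWb b₁ hb₁)
  have hamem : (a : LaurentSeries K) ∈ s18_chRing N ℓ A t := by
    refine key n (a₀ : LaurentSeries K) (s18_mem_chAlg.mp ha₀) _ ?_ haW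
    have h1 : (a₀ : LaurentSeries K) = (f : LaurentSeries K) * (b₀ : LaurentSeries K) := by
      have h2 : a₀ = f * b₀ := by rw [hfab, div_mul_cancel₀ _ hb₀0]
      exact congrArg Subtype.val h2
    rw [h1, eb, hacoe]
    ring
  have hamem' : a ∈ s18_chAlg N ℓ A t := hamem
  have hredab : s18_red hιA ⟨(a : LaurentSeries K), hW _ hamem⟩ =
      s18_red hιA ⟨b₁, hW _ hb₁⟩ := by
    apply hψinj
    rw [← hredmap _ hamem, ← hredmap _ hb₁]
    have e1 : (⟨coeffMap φ (a : LaurentSeries K), hWb _ hamem⟩ :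
        s18_W Abig.subtype (IsLocalRing.residue Abig)) =
        ⟨coeffMap φ (f : LaurentSeries K), hfW⟩ * ⟨coeffMap φ b₁, hWb _ hb₁⟩ := by
      apply Subtype.ext
      show coeffMap φ (a : LaurentSeries K) = coeffMap φ (f : LaurentSeries K) * coeffMap φ b₁
      rw [hacoe, map_mul]
    rw [e1, map_mul, hfred, one_mul]
  refine ⟨a, hamem', b, hbmem, ?_, ?_, ?_⟩
  · exact s18_chAlg_not_dvd hR h hB b hbmem hb₁red
  · refine s18_chAlg_dvd hR h hB (a - b) (Subalgebra.sub_mem _ hamem' hbmem) ?_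
    have e2 : (⟨((a - b : FK) : LaurentSeries K), s18_chRing_le_W hR.unit h hB
        (s18_mem_chAlg.mp (Subalgebra.sub_mem _ hamem' hbmem))⟩ :
        s18_W A.subtype (IsLocalRing.residue A)) =
        ⟨(a : LaurentSeries K), hW _ hamem⟩ - ⟨b₁, hW _ hb₁⟩ := rfl
    rw [e2, map_sub, hredab, sub_self]
  · exact (mul_div_cancel_right₀ f hb0).symm

end NormalForm

end Fermat.Agent.S18
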