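import Fermat.Agent.S18.ChPkg
import Fermat.Agent.S18.ChDvr
import Fermat.Agent.S18.ChartZHaupt
import Fermat.Agent.S28.Core

/-!
# S18, block C: the chart package over a number field, for the Hauptmoduln `t₂`, `t₃`

* `s18_ch_pkg_nf` : the chart package `s18_ChartPkg` over a valuation ring `A` (with `ℓ` not a
  unit) of a number field `K` Galois over `ℚ`, for a coordinate `t` of level `N`, `ℓ ∤ N`;
* `s18_ch_pkg_t2`, `s18_ch_pkg_t3` : the instances `t = t₂` (`2 ∣ N`) and `t = t₃` (`3 ∣ N`).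
-/

set_option autoImplicit false
set_option synthInstance.maxHeartbeats 400000

open ModularCurve ModularCurve.IgusaScheme Fermat.Agent.S28 Polynomial

noncomputable section

namespace Fermat.Agent.S18

section ChPkgInst

variable {N : ℕ} [NeZero N] {ℓ : ℕ} [Fact ℓ.Prime]
variable {K : Type*} [Field K] [NumberField K] [IsGalois ℚ K] {A : ValuationSubring K}

/-- **The chart package over a number field**: `A` a valuation ring of the number field `K`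
(Galois over `ℚ`) in which `ℓ` is not a unit, `π` a uniformizer of `A`, `ℓ ∤ N`, `t` a coordinate
with integral `q`-expansion `T` with leading term `q^e`, `e = ±1`, and `T * T' = 1`. -/
theorem s18_ch_pkg_nf (hℓ : ((ℓ : K))⁻¹ ∉ A) (hℓN : ¬ ℓ ∣ N)
    {t : modularFunctionFieldFull N} (h : s18_cz_Coord N ℓ t)
    (T T' : LaurentSeries ℤ) (hTT' : T * T' = 1)
    (hT : (t : LaurentSeries ℚ) = coeffMap (Int.castRingHom ℚ) T)
    (e : ℤ) (he : e = 1 ∨ e = -1) (hlead : IsLeading T e 1) (π : A) (hπ : Irreducible π) :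
    s18_ChartPkg π (s18_coord K t) (s18_chAlg N ℓ A t) (s18_chAlg N ℓ A t⁻¹) := by
  haveI := s18_ch_dvr A ℓ hℓ
  obtain ⟨B, hB⟩ := core N ℓ hℓN
  exact s18_ch_pkg ⟨hℓ, hπ, s18_ch_resbasis A ℓ hℓ π hπ⟩ h hB T T' hTT' hT e he hlead

omit [IsGalois ℚ K] in
/-- A valuation ring of a number field in which `ℓ` is not a unit has a uniformizer. -/
theorem s18_ch_exists_uniformizer (hℓ : ((ℓ : K))⁻¹ ∉ A) : ∃ π : A, Irreducible π := by
  haveI := s18_ch_dvr A ℓ hℓ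
  exact IsDiscreteValuationRing.exists_irreducible A

theorem s18_pkg_lead_t2 : IsLeading s18_t2 (-1) 1 := by
  have h1 := s18h_lead_t2R ℤ
  rw [s18_t2R_int] at h1
  exact ⟨s18h_lead_coeff h1 (-1) rfl, fun n hn => s18h_lead_coeff_lt h1 n hn⟩

theorem s18_pkg_lead_t3 : IsLeading s18_t3 (-1) 1 := by
  have h1 := s18h_lead_t3R ℤ
  rw [s18_t3R_int] at h1
  exact ⟨s18h_lead_coeff h1 (-1) rfl, fun n hn => s18h_lead_coeff_lt h1 n hn⟩

/-- **The chart package for the Hauptmodul `t₂`**, `2 ∣ N`, `ℓ ∤ N`. -/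
theorem s18_ch_pkg_t2 (hℓ : ((ℓ : K))⁻¹ ∉ A) (hℓN : ¬ ℓ ∣ N) (hN : 2 ∣ N)
    (π : A) (hπ : Irreducible π) :
    s18_ChartPkg π (s18_coord K (s18_cz_t2 N hN)) (s18_chAlg N ℓ A (s18_cz_t2 N hN))
      (s18_chAlg N ℓ A (s18_cz_t2 N hN)⁻¹) := by
  have hℓ2 : ℓ ≠ 2 := fun h2 => hℓN (h2 ▸ hN)
  exact s18_ch_pkg_nf hℓ hℓN (s18_cz_coord_t2 N ℓ hN hℓ2) s18_t2 s18_t2inv s18_t2_mul_inv rfl
    (-1) (Or.inr rfl) s18_pkg_lead_t2 π hπ

/-- **The chart package for the Hauptmodul `t₃`**, `3 ∣ N`, `ℓ ∤ N`. -/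
theorem s18_ch_pkg_t3 (hℓ : ((ℓ : K))⁻¹ ∉ A) (hℓN : ¬ ℓ ∣ N) (hN : 3 ∣ N)
    (π : A) (hπ : Irreducible π) :
    s18_ChartPkg π (s18_coord K (s18_cz_t3 N hN)) (s18_chAlg N ℓ A (s18_cz_t3 N hN))
      (s18_chAlg N ℓ A (s18_cz_t3 N hN)⁻¹) := by
  have hℓ3 : ℓ ≠ 3 := fun h3 => hℓN (h3 ▸ hN)
  exact s18_ch_pkg_nf hℓ hℓN (s18_cz_coord_t3 N ℓ hN hℓ3) s18_t3 s18_t3inv s18_t3_mul_inv rfl
    (-1) (Or.inr rfl) s18_pkg_lead_t3 π hπ

end ChPkgInst

end Fermat.Agent.S18
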