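import Mathlib
import Fermat.Agent.S18.LevelData
import Fermat.Agent.S18.ChPkgInst
import Fermat.Agent.S18.ChNormalForm
import Fermat.Agent.S18.BranchChart
import Fermat.Agent.S18.A1Facts

/-!
# S18 assembly (helper15): the level data at the auxiliary levels

`s18_level_data` : at a level `N'` divisible by `M ∈ {2, 3}` and prime to `ℓ`, over a Galois number
field `K₁ ⊆ Q̄`, the charts of the Hauptmodul `t_M` over `A₁ = A ∩ K₁` (block C), the branch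
conditions (block D) and the Gauss normal form give `s18_LevelData N' ℓ A K₁`.
-/

set_option autoImplicit false
set_option synthInstance.maxHeartbeats 400000

open ModularCurve ModularCurve.IgusaScheme AlgebraicCurve Fermat.Agent.S28

noncomputable section

namespace Fermat.Agent.S18

theorem s18_level_data (N' M : ℕ) [NeZero N'] (hM : M = 2 ∨ M = 3) (hMN : M ∣ N') {ℓ : ℕ}
    [Fact ℓ.Prime] (hℓN : ¬ ℓ ∣ N') (A : ValuationSubring (AlgebraicClosure ℚ))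
    (hA : A.LiesOverPrime ℓ) (K₁ : IntermediateField ℚ (AlgebraicClosure ℚ))
    (hNF : NumberField K₁) (hGal : IsGalois ℚ K₁) : s18_LevelData N' ℓ A K₁ := by
  haveI := hNF
  haveI := hGal
  have hℓ : ((ℓ : K₁))⁻¹ ∉ s18_A1 A K₁ := s18_a1_ell A hA K₁
  haveI hDVR : IsDiscreteValuationRing (s18_A1 A K₁) := s18_a1_dvr A hA K₁
  obtain ⟨π, hπ⟩ := IsDiscreteValuationRing.exists_irreducible (s18_A1 A K₁)
  have hR : s18_ResBasis ℓ (s18_A1 A K₁) π := s18_a1_resbasis A hA K₁ π hπ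
  obtain ⟨B, hB⟩ := core N' ℓ hℓN
  have hunit : ∀ m : ℕ, ¬ ℓ ∣ m → IsUnit ((m : ℕ) : s18_A1 A K₁) := fun m hm =>
    s18_a1_isUnit_natCast A hA K₁ m hm
  rcases hM with rfl | rfl
  · have hℓ2 : ℓ ≠ 2 := fun h2 => hℓN (h2 ▸ hMN)
    refine ⟨hDVR, π, s18_coord K₁ (s18_cz_t2 N' hMN),
      s18_chAlg N' ℓ (s18_A1 A K₁) (s18_cz_t2 N' hMN),
      s18_chAlg N' ℓ (s18_A1 A K₁) (s18_cz_t2 N' hMN)⁻¹, hπ,
      s18_ch_pkg_t2 hℓ hℓN hMN π hπ, ?_, ?_, hunit, ?_⟩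
    · exact s18_branch_two N' hMN hℓ2 A K₁ hℓ hπ _ (s18_coord_mem _)
    · exact s18_branch_two_inv N' hMN hℓ2 A K₁ hℓ hπ _ (s18_ch_pkg_t2 hℓ hℓN hMN π hπ).smInf.t_mem
    · intro y₁ y₂ f hf hred hne
      exact s18_ch_gauss_normal hR (s18_cz_coord_t2 N' ℓ hMN hℓ2) hB A
        (algebraMap K₁ (AlgebraicClosure ℚ)) rfl y₁ y₂ f hf hred hne
  · have hℓ3 : ℓ ≠ 3 := fun h3 => hℓN (h3 ▸ hMN)
    refine ⟨hDVR, π, s18_coord K₁ (s18_cz_t3 N' hMN),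
      s18_chAlg N' ℓ (s18_A1 A K₁) (s18_cz_t3 N' hMN),
      s18_chAlg N' ℓ (s18_A1 A K₁) (s18_cz_t3 N' hMN)⁻¹, hπ,
      s18_ch_pkg_t3 hℓ hℓN hMN π hπ, ?_, ?_, hunit, ?_⟩
    · exact s18_branch_three N' hMN hℓ3 A K₁ hℓ hπ _ (s18_coord_mem _)
    · exact s18_branch_three_inv N' hMN hℓ3 A K₁ hℓ hπ _
        (s18_ch_pkg_t3 hℓ hℓN hMN π hπ).smInf.t_mem
    · intro y₁ y₂ f hf hred hne
      exact s18_ch_gauss_normal hR (s18_cz_coord_t3 N' ℓ hMN hℓ3) hB A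
        (algebraMap K₁ (AlgebraicClosure ℚ)) rfl y₁ y₂ f hf hred hne

end Fermat.Agent.S18
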