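import Mathlib
import Fermat.Agent.S18.LevelData
import Fermat.Agent.S18.LevelMain

/-!
# S18: the injectivity statement (INJ)

`s18_inj` : a quotient `h = n₁ / n₂` of integral series of the function field of level `N` with
equal nonzero reductions modulo `ℓ ∤ N`, all of whose orders are divisible by `m` (prime to `ℓ`), is
an `m`-th power in `Q̄ · F(N)`.
-/

set_option autoImplicit false
set_option synthInstance.maxHeartbeats 400000

open ModularCurve AlgebraicCurve

noncomputable section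

namespace Fermat.Agent.S18

/-- (INJ) at every level `N` prime to `ℓ`. -/
theorem s18_inj (N : ℕ) [NeZero N] {ℓ : ℕ} [Fact ℓ.Prime] (hℓN : ¬ ℓ ∣ N)
    (A : ValuationSubring (AlgebraicClosure ℚ)) (hA : A.LiesOverPrime ℓ)
    (m : ℕ) (hm0 : 0 < m) (hm : ¬ ℓ ∣ m)
    (y₁ y₂ : LaurentSeries A)
    (h₁ : coeffMap A.subtype y₁ ∈ modularFunctionFieldBar N)
    (h₂ : coeffMap A.subtype y₂ ∈ modularFunctionFieldBar N)
    (hred : coeffMap (IsLocalRing.residue A) y₁ = coeffMap (IsLocalRing.residue A) y₂)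
    (hne : coeffMap (IsLocalRing.residue A) y₂ ≠ 0)
    (hdiv : ∀ P : Place (AlgebraicClosure ℚ) (modularFunctionFieldBar N),
      (m : ℤ) ∣ P.ord ((⟨coeffMap A.subtype y₁, h₁⟩ : modularFunctionFieldBar N) /
        ⟨coeffMap A.subtype y₂, h₂⟩)) :
    ∃ x : modularFunctionFieldBar N,
      x ^ m = (⟨coeffMap A.subtype y₁, h₁⟩ : modularFunctionFieldBar N) /
        ⟨coeffMap A.subtype y₂, h₂⟩ := by
  have hℓ : ℓ.Prime := Fact.out
  refine s18_inj_of_level N A m hm0 hm (fun M hM hMℓ => ?_) y₁ y₂ h₁ h₂ hred hne hdiv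
  have hM0 : M ≠ 0 := by rcases hM with rfl | rfl <;> norm_num
  have hMp : M.Prime := by rcases hM with rfl | rfl <;> norm_num
  haveI : NeZero (Nat.lcm N M) := ⟨Nat.lcm_ne_zero (NeZero.ne N) hM0⟩
  have hℓN' : ¬ ℓ ∣ Nat.lcm N M := by
    intro hdvd
    have h1 : ℓ ∣ N * M := hdvd.trans (Nat.lcm_dvd_mul N M)
    rcases hℓ.dvd_mul.mp h1 with h2 | h2
    · exact hℓN h2
    · exact hMℓ ((Nat.prime_dvd_prime_iff_eq hℓ hMp).mp h2).symm
  exact s18_inj_level_of_data (Nat.lcm N M) A m hm0 hm (fun K₁ hNF hGal =>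
    s18_level_data (Nat.lcm N M) M hM (Nat.dvd_lcm_right N M) hℓN' A hA K₁ hNF hGal)

end Fermat.Agent.S18
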