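import Fermat.Agent.S18.PlaceMk
import Fermat.Agent.S28.Core
import Fermat.Agent.S28.Kernel

/-!
# S18, block D4 (helper24): a function on `X₀(N)` mod `ℓ` with trivial divisor is constant

* `s18_monic_rel_field` : for a field `k` of characteristic `ℓ ∤ N` and `d ∣ N`, the series
  `j(q^d)` is a root of a monic polynomial with coefficients in `k[j]` (from S28's `core`).
* `s18_finiteDimensional_fullC` : `modularFunctionFieldFullC k N` is finite over `k(j)`.
* `s18_const_of_ord_eq_zero` : **D4**.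
* `s18_exists_place_fullC` : every nontrivial valuation subring containing `k` is a place.
-/

set_option autoImplicit false

open ModularCurve AlgebraicCurve IntermediateField Polynomial

noncomputable section

namespace Fermat.Agent.S18

open Fermat.Agent.S28

/-- Over `ℤ_(ℓ)`: `j(q^d)` is integral over `ℤ_(ℓ)[j]` as a formal series (`d ∣ N`, `ℓ ∤ N`). -/
theorem s18_monic_rel_loc (N ℓ : ℕ) [NeZero N] [Fact ℓ.Prime] (hℓN : ¬ ℓ ∣ N) (d : ℕ) [NeZero d]
    (hd : d ∣ N) :
    ∃ P : Polynomial (Polynomial (GaloisRep.ratLocalizedAt ℓ)), P.Monic ∧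
      P.eval₂ (kerEvJ (GaloisRep.ratLocalizedAt ℓ))
        (qExpand (GaloisRep.ratLocalizedAt ℓ) d (jqModC (GaloisRep.ratLocalizedAt ℓ))) = 0 := by
  obtain ⟨B, hB⟩ := core N ℓ hℓN
  obtain ⟨P, hP, h0⟩ := hB.integral _ (hB.gen_mem d hd)
  refine ⟨P, hP, incL_injective ℓ ?_⟩
  rw [map_zero, Polynomial.hom_eval₂]
  have h1 : (incL ℓ).comp (kerEvJ (GaloisRep.ratLocalizedAt ℓ)) = evJ ℓ :=
    RingHom.ext (incL_kerEvJ ℓ)
  have h2 : incL ℓ (qExpand (GaloisRep.ratLocalizedAt ℓ) d (jqModC (GaloisRep.ratLocalizedAt ℓ))) =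
      qExpand ℚ d jq := by
    rw [incL, coeffMap_qExpand, coeffMap_jqModC, jqModC_rat]
  rw [h1, h2]
  exact h0

/-- Over a field of characteristic `ℓ ∤ N`: `j(q^d)` is integral over `k[j]`, `d ∣ N`. -/
theorem s18_monic_rel_field (N ℓ : ℕ) [NeZero N] [Fact ℓ.Prime] (hℓN : ¬ ℓ ∣ N)
    (k : Type*) [Field k] [CharP k ℓ] (d : ℕ) [NeZero d] (hd : d ∣ N) :
    ∃ P : Polynomial (Polynomial k), P.Monic ∧
      P.eval₂ (kerEvJ k) (qExpand k d (jqModC k)) = 0 := by
  obtain ⟨P, hP, h0⟩ := s18_monic_rel_loc N ℓ hℓN d hd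
  set φ : GaloisRep.ratLocalizedAt ℓ →+* k := (ZMod.castHom (dvd_refl ℓ) k).comp (redR ℓ) with hφ
  refine ⟨P.map (Polynomial.mapRingHom φ), hP.map _, ?_⟩
  have h := congrArg (coeffMap φ) h0
  rw [map_zero, Polynomial.hom_eval₂] at h
  rw [Polynomial.eval₂_map]
  have h1 : (coeffMap φ).comp (kerEvJ (GaloisRep.ratLocalizedAt ℓ)) =
      (kerEvJ k).comp (Polynomial.mapRingHom φ) :=
    RingHom.ext fun c => coeffMap_kerEvJ φ c
  have h2 : coeffMap φ (qExpand (GaloisRep.ratLocalizedAt ℓ) d
      (jqModC (GaloisRep.ratLocalizedAt ℓ))) = qExpand k d (jqModC k) := by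
    rw [coeffMap_qExpand, coeffMap_jqModC]
  rw [h1, h2] at h
  exact h

section Abstract

variable {k F L : Type*} [Field k] [Field F] [Field L] [Algebra k F] [Algebra k L]

/-- A field `F` embedded in `L`, generated over `k` by a finite set `S` of elements each integral
over `k[j]`, is finite over `k(j)`. -/
theorem s18_finiteDimensional_of_gens (ι : F →ₐ[k] L) (j : F) (S : Set L) (hS : S.Finite)
    (hgen : ∀ y : F, ι y ∈ IntermediateField.adjoin k S) (hSF : ∀ x ∈ S, ∃ y : F, ι y = x)
    (hint : ∀ x ∈ S, ∃ P : Polynomial (Polynomial k), P.Monic ∧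
      P.eval₂ ((aeval (ι j)).toRingHom : Polynomial k →+* L) x = 0) :
    FiniteDimensional k⟮j⟯ F := by
  have hιinj : Function.Injective ι := ι.toRingHom.injective
  set S' : Set F := ι ⁻¹' S with hS'
  have hS'fin : S'.Finite := hS.preimage hιinj.injOn
  have : Finite S' := hS'fin.to_subtype
  set ψ : Polynomial k →+* k⟮j⟯ :=
    (aeval (⟨j, mem_adjoin_simple_self k j⟩ : k⟮j⟯)).toRingHom with hψ
  have hcomp : ((ι.toRingHom.comp (algebraMap k⟮j⟯ F)).comp ψ) =
      ((aeval (ι j)).toRingHom : Polynomial k →+* L) := by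
    refine Polynomial.ringHom_ext (fun a => ?_) ?_
    · simp [hψ]
    · simp [hψ]
  have hintF : ∀ y ∈ S', IsIntegral k⟮j⟯ y := by
    intro y hy
    obtain ⟨P, hP, h0⟩ := hint (ι y) hy
    refine ⟨P.map ψ, hP.map ψ, hιinj ?_⟩
    have : ι (eval₂ (algebraMap k⟮j⟯ F) y (P.map ψ)) =
        ι.toRingHom (eval₂ (algebraMap k⟮j⟯ F) y (P.map ψ)) := rfl
    rw [map_zero, this, Polynomial.hom_eval₂, Polynomial.eval₂_map, hcomp]
    exact h0
  have hfinT : FiniteDimensional k⟮j⟯ (IntermediateField.adjoin k⟮j⟯ S') :=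
    IntermediateField.finiteDimensional_adjoin hintF
  have htop : IntermediateField.adjoin k⟮j⟯ S' = ⊤ := by
    refine eq_top_iff.mpr fun y _ => ?_
    have hle : IntermediateField.adjoin k S ≤
        ((IntermediateField.adjoin k⟮j⟯ S').restrictScalars k).map ι := by
      rw [IntermediateField.adjoin_le_iff]
      intro x hx
      obtain ⟨y', rfl⟩ := hSF x hx
      have hy'S : y' ∈ S' := hx
      have hy'T : y' ∈ IntermediateField.adjoin k⟮j⟯ S' :=
        IntermediateField.subset_adjoin _ _ hy'S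
      show ι y' ∈ ((IntermediateField.adjoin k⟮j⟯ S').restrictScalars k).map ι
      rw [IntermediateField.mem_map]
      exact ⟨y', (IntermediateField.mem_restrictScalars k).mpr hy'T, rfl⟩
    have hmem := hle (hgen y)
    rw [IntermediateField.mem_map] at hmem
    obtain ⟨y', hy', hyy⟩ := hmem
    have : y' = y := hιinj hyy
    rw [← this]
    exact (IntermediateField.mem_restrictScalars k).mp hy'
  rw [htop] at hfinT
  exact (IntermediateField.topEquiv (F := k⟮j⟯) (E := F)).toLinearEquiv.finiteDimensional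

end Abstract

section Modular

variable (k : Type*) [Field k] (N : ℕ) [NeZero N]

/-- The function `j` as an element of `modularFunctionFieldFullC k N`. -/
def s18_jC : modularFunctionFieldFullC k N := ⟨jqModC k, jqModC_mem_full k N⟩

omit [NeZero N] in
@[simp] theorem s18_jC_coe : ((s18_jC k N : modularFunctionFieldFullC k N) : LaurentSeries k) =
    jqModC k := rfl

theorem s18_divisorExpansionsC_finite : (divisorExpansionsC k N).Finite := by
  classical
  let g : ℕ → LaurentSeries k := fun d => if h : d = 0 then 0 else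
    haveI : NeZero d := ⟨h⟩; qExpand k d (jqModC k)
  refine ((N.divisors.image g).finite_toSet).subset ?_
  rintro x ⟨d, hd0, hdN, rfl⟩
  simp only [Finset.coe_image, Set.mem_image, Finset.mem_coe, Nat.mem_divisors]
  refine ⟨d, ⟨hdN, NeZero.ne N⟩, ?_⟩
  simp only [g, dif_neg (NeZero.ne d)]

theorem s18_kerEvJ_eq_aeval :
    kerEvJ k = ((aeval (jqModC k)).toRingHom : Polynomial k →+* LaurentSeries k) := by
  refine Polynomial.ringHom_ext (fun a => ?_) ?_
  · rw [kerEvJ_apply, eval₂_C]
    simp only [AlgHom.toRingHom_eq_coe, RingHom.coe_coe, aeval_C]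
    rw [algebraMap_laurentSeries_eq_single]
    rfl
  · rw [kerEvJ_apply, eval₂_X]
    simp

set_option synthInstance.maxHeartbeats 400000 in
/-- `modularFunctionFieldFullC k N` is finite over `k(j)` (`char k = ℓ ∤ N`). -/
theorem s18_finiteDimensional_fullC (ℓ : ℕ) [Fact ℓ.Prime] (hℓN : ¬ ℓ ∣ N) [CharP k ℓ] :
    FiniteDimensional k⟮s18_jC k N⟯ (modularFunctionFieldFullC k N) := by
  refine s18_finiteDimensional_of_gens (modularFunctionFieldFullC k N).val (s18_jC k N)
    (divisorExpansionsC k N) (s18_divisorExpansionsC_finite k N) (fun y => y.2)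
    (fun x hx => ⟨⟨x, IntermediateField.subset_adjoin k _ hx⟩, rfl⟩) ?_
  rintro x ⟨d, hd0, hdN, rfl⟩
  have := hd0
  obtain ⟨P, hP, h0⟩ := s18_monic_rel_field N ℓ hℓN k d hdN
  refine ⟨P, hP, ?_⟩
  have hj : (modularFunctionFieldFullC k N).val (s18_jC k N) = jqModC k := rfl
  rw [hj, ← s18_kerEvJ_eq_aeval]
  exact h0

set_option synthInstance.maxHeartbeats 400000 in
/-- **D4.** `k` algebraically closed of characteristic `ℓ ∤ N`: a function in
`modularFunctionFieldFullC k N` whose order vanishes at every place is a constant. -/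
theorem s18_const_of_ord_eq_zero (ℓ : ℕ) [Fact ℓ.Prime] (hℓN : ¬ ℓ ∣ N) [CharP k ℓ] [IsAlgClosed k]
    (f : modularFunctionFieldFullC k N)
    (h : ∀ Q : Place k (modularFunctionFieldFullC k N), Q.ord f = 0) :
    ∃ c : k, f = algebraMap k (modularFunctionFieldFullC k N) c := by
  have := s18_finiteDimensional_fullC k N ℓ hℓN
  exact s18_const_of_ord_eq_zero_of_finite (s18_jC k N) f h

set_option synthInstance.maxHeartbeats 400000 in
/-- Every nontrivial valuation subring of `modularFunctionFieldFullC k N` containing `k` is the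
valuation ring of a place (`k` algebraically closed of characteristic `ℓ ∤ N`). -/
theorem s18_exists_place_fullC (ℓ : ℕ) [Fact ℓ.Prime] (hℓN : ¬ ℓ ∣ N) [CharP k ℓ] [IsAlgClosed k]
    (V : ValuationSubring (modularFunctionFieldFullC k N))
    (hk : ∀ a : k, algebraMap k (modularFunctionFieldFullC k N) a ∈ V) (hV : V ≠ ⊤) :
    ∃ Q : Place k (modularFunctionFieldFullC k N), Q.toValuationSubring = V := by
  have := s18_finiteDimensional_fullC k N ℓ hℓN
  exact s18_exists_place_of_valuationSubring (s18_jC k N) V hk hV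

set_option synthInstance.maxHeartbeats 400000 in
/-- A nonconstant function has a zero at some place. -/
theorem s18_exists_place_nonunit_fullC (ℓ : ℕ) [Fact ℓ.Prime] (hℓN : ¬ ℓ ∣ N) [CharP k ℓ]
    [IsAlgClosed k] (f : modularFunctionFieldFullC k N)
    (hf : ¬ ∃ c : k, f = algebraMap k (modularFunctionFieldFullC k N) c) :
    ∃ Q : Place k (modularFunctionFieldFullC k N), f ∈ Q.toValuationSubring.nonunits := by
  have := s18_finiteDimensional_fullC k N ℓ hℓN
  exact s18_exists_place_nonunit (s18_jC k N) f hf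

end Modular

end Fermat.Agent.S18
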