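import Fermat.Agent.S18.WrapRed
import Fermat.Agent.S24.PlaceBasic

/-!
# S18 wrapper, part 3: injectivity of reduction on prime-to-`ℓ` torsion from `(INJ)`

`s18_w_main`: in the abstract setting of `ModularCurve.ReductionInputsAlong A π N`, assume
* `hconst` (D4): a function of the characteristic-`ℓ` function field with zero divisor is constant;
* `hinj` (INJ): a quotient `y₁ / y₂` of `A`-integral series of the function field with equal
  nonzero reductions, all of whose orders are divisible by `m`, is an `m`-th power.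
Then a class `z` with `m • z = 0` and `reductionAlong A π N z = 0` vanishes.
-/

set_option autoImplicit false
set_option synthInstance.maxHeartbeats 400000
set_option linter.unusedSectionVars false

open ModularCurve AlgebraicCurve HahnSeries

noncomputable section

namespace Fermat.Agent.S18

open Fermat.Agent.S24

section Good

variable {L : Type*} [Field L] [Algebra ℚ L] (A : ValuationSubring L)
variable {k : Type*} [Field k] (π : A →+* k) (N : ℕ)
variable (r : Place L (laurentBaseChange L (modularFunctionFieldFull N)) →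
  Place k (modularFunctionFieldFullC k N))

/-- Divisors of functions with a reduction, whose image under `r` is the divisor of the
reduction. -/
def s18_w_Good (E : Divisor L (laurentBaseChange L (modularFunctionFieldFull N))) : Prop :=
  ∃ (f : laurentBaseChange L (modularFunctionFieldFull N))
    (fb : modularFunctionFieldFullC k N),
    fb ≠ 0 ∧ s18_w_Red A π N f fb ∧ (∀ P, E P = P.ord f) ∧
      (∀ Q, Finsupp.mapDomain r E Q = Q.ord fb)

variable {A π N r}

theorem s18_w_good_of_principal (hr : IsPlaceReductionAlong A π N r)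
    (hgen : PrincipalGeneratedByIntegral A π N)
    {E : Divisor L (laurentBaseChange L (modularFunctionFieldFull N))}
    (hE : E ∈ Divisor.principal (K := L) (F := laurentBaseChange L (modularFunctionFieldFull N))) :
    s18_w_Good A π N r E := by
  have hE' := hgen hE
  clear hE
  induction hE' using AddSubgroup.closure_induction with
  | mem E hE =>
      obtain ⟨y, hy, hyk, hne, hEy⟩ := hE
      exact ⟨⟨_, hy⟩, ⟨_, hyk⟩, fun h => hne (congrArg Subtype.val h),
        s18_w_Red.of_integral y hy hyk, hEy, hr.2 y hy hyk hne E hEy⟩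
  | zero =>
      exact ⟨1, 1, one_ne_zero, s18_w_Red.one, fun P => by simp, fun Q => by simp⟩
  | add E E' _ _ hE hE' =>
      obtain ⟨f, fb, hfb, hred, h1, h2⟩ := hE
      obtain ⟨g, gb, hgb, hred', h1', h2'⟩ := hE'
      have hf0 := hred.ne_zero hfb
      have hg0 := hred'.ne_zero hgb
      refine ⟨f * g, fb * gb, mul_ne_zero hfb hgb, hred.mul hred', fun P => ?_, fun Q => ?_⟩
      · rw [Finsupp.add_apply, h1, h1', P.ord_mul hf0 hg0]
      · rw [Finsupp.mapDomain_add, Finsupp.add_apply, h2, h2', Q.ord_mul hfb hgb]
  | neg E _ hE =>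
      obtain ⟨f, fb, hfb, hred, h1, h2⟩ := hE
      refine ⟨f⁻¹, fb⁻¹, inv_ne_zero hfb, hred.inv hfb, fun P => ?_, fun Q => ?_⟩
      · rw [Finsupp.neg_apply, h1, P.ord_inv]
      · rw [← Finsupp.mapDomain.addMonoidHom_apply, map_neg, Finsupp.mapDomain.addMonoidHom_apply,
          Finsupp.neg_apply, h2, Q.ord_inv]

end Good

section Main

variable {L : Type*} [Field L] [Algebra ℚ L] (A : ValuationSubring L)
variable {k : Type*} [Field k] (π : A →+* k) (N : ℕ)

/-- The wrapper: `(INJ)` + `(D4)` imply that reduction is injective on `m`-torsion. -/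
theorem s18_w_main (hπ : Function.Surjective π)
    (hconst : ∀ f : modularFunctionFieldFullC k N,
      (∀ Q : Place k (modularFunctionFieldFullC k N), Q.ord f = 0) →
        ∃ c : k, f = algebraMap k (modularFunctionFieldFullC k N) c)
    (m : ℕ) (hm0 : 0 < m)
    (hinj : ∀ (y₁ y₂ : LaurentSeries A)
      (h₁ : coeffMap A.subtype y₁ ∈ laurentBaseChange L (modularFunctionFieldFull N))
      (h₂ : coeffMap A.subtype y₂ ∈ laurentBaseChange L (modularFunctionFieldFull N)),
      coeffMap π y₁ = coeffMap π y₂ → coeffMap π y₂ ≠ 0 →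
      (∀ P : Place L (laurentBaseChange L (modularFunctionFieldFull N)),
        (m : ℤ) ∣ P.ord ((⟨coeffMap A.subtype y₁, h₁⟩ :
          laurentBaseChange L (modularFunctionFieldFull N)) / ⟨coeffMap A.subtype y₂, h₂⟩)) →
      ∃ x : laurentBaseChange L (modularFunctionFieldFull N),
        x ^ m = (⟨coeffMap A.subtype y₁, h₁⟩ :
          laurentBaseChange L (modularFunctionFieldFull N)) / ⟨coeffMap A.subtype y₂, h₂⟩)
    (h : ReductionInputsAlong A π N)
    (z : Pic0 L (laurentBaseChange L (modularFunctionFieldFull N)))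
    (hmz : m • z = 0) (hz : reductionAlong A π N z = 0) : z = 0 := by
  obtain ⟨D, rfl⟩ := Pic0.mk_surjective z
  have hr := h.choose_spec.1
  have hgen := h.choose_spec.2
  -- `m • D` is principal
  have hmD : m • (D : Divisor L (laurentBaseChange L (modularFunctionFieldFull N))) ∈
      Divisor.principal (K := L) (F := laurentBaseChange L (modularFunctionFieldFull N)) := by
    have h1 : (QuotientAddGroup.mk (m • D) :
        Pic0 L (laurentBaseChange L (modularFunctionFieldFull N))) = 0 := by
      rw [QuotientAddGroup.mk_nsmul]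
      exact hmz
    have h2 := (QuotientAddGroup.eq_zero_iff _).mp h1
    rw [AddSubgroup.mem_addSubgroupOf] at h2
    exact h2
  obtain ⟨u, ub, hub, hured, hu1, hu2⟩ := s18_w_good_of_principal hr hgen hmD
  have hu0 : u ≠ 0 := hured.ne_zero hub
  -- the reduction of `D` is principal
  have hz' : Finsupp.mapDomain h.choose
      (D : Divisor L (laurentBaseChange L (modularFunctionFieldFull N))) ∈
      Divisor.principal (K := k) (F := modularFunctionFieldFullC k N) := by
    rw [reductionAlong_mk h D] at hz
    have h2 := (QuotientAddGroup.eq_zero_iff _).mp hz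
    rw [AddSubgroup.mem_addSubgroupOf] at h2
    exact h2
  obtain ⟨gb, hgb0, hgb⟩ := hz'
  -- `ub / gb ^ m` has zero divisor, hence is a constant
  have hzero : ∀ Q : Place k (modularFunctionFieldFullC k N), Q.ord (ub / gb ^ m) = 0 := by
    intro Q
    rw [div_eq_mul_inv, Q.ord_mul hub (inv_ne_zero (pow_ne_zero m hgb0)), Q.ord_inv, ord_pow,
      ← hu2 Q, Finsupp.mapDomain_smul, Finsupp.smul_apply, hgb Q, nsmul_eq_mul]
    ring
  obtain ⟨c, hc⟩ := hconst _ hzero
  have hc0 : c ≠ 0 := by
    intro h0
    rw [h0, map_zero, div_eq_zero_iff] at hc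
    rcases hc with hc | hc
    · exact hub hc
    · exact pow_ne_zero m hgb0 hc
  obtain ⟨a, rfl⟩ := hπ c
  have ha0 : (a : L) ≠ 0 := by
    intro h0
    apply hc0
    have : a = 0 := Subtype.ext h0
    rw [this, map_zero]
  -- lift `gb`
  obtain ⟨g, hgred⟩ := s18_w_exists_lift A π N hπ gb
  have hg0 : g ≠ 0 := hgred.ne_zero hgb0
  have haF : algebraMap L (laurentBaseChange L (modularFunctionFieldFull N)) (a : L) ≠ 0 :=
    (_root_.map_ne_zero _).mpr ha0
  have hcF : algebraMap k (modularFunctionFieldFullC k N) (π a) ≠ 0 :=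
    (_root_.map_ne_zero _).mpr hc0
  -- the function `hh = u / (a * g ^ m)` has reduction `1`
  have hhred : s18_w_Red A π N
      (u / (algebraMap L (laurentBaseChange L (modularFunctionFieldFull N)) (a : L) * g ^ m))
      1 := by
    have h1 := hured.div ((s18_w_Red.const (π := π) (N := N) a).mul (hgred.pow m))
      (mul_ne_zero hcF (pow_ne_zero m hgb0))
    have h2 : ub / (algebraMap k (modularFunctionFieldFullC k N) (π a) * gb ^ m) = 1 := by
      rw [← hc]
      field_simp
    rw [h2] at h1
    exact h1
  obtain ⟨y₁, y₂, h₁, h₂, hred, hne, hheq⟩ := hhred.exists_equal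
  have hord : ∀ P : Place L (laurentBaseChange L (modularFunctionFieldFull N)),
      P.ord (u / (algebraMap L (laurentBaseChange L (modularFunctionFieldFull N)) (a : L)
        * g ^ m)) = m * ((D : Divisor L (laurentBaseChange L (modularFunctionFieldFull N))) P
          - P.ord g) := by
    intro P
    rw [div_eq_mul_inv, P.ord_mul hu0 (inv_ne_zero (mul_ne_zero haF (pow_ne_zero m hg0))),
      P.ord_inv, P.ord_mul haF (pow_ne_zero m hg0), ord_algebraMap, ord_pow, ← hu1 P,
      Finsupp.smul_apply, nsmul_eq_mul]
    ring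
  obtain ⟨x, hx⟩ := hinj y₁ y₂ h₁ h₂ hred hne (fun P => by
    rw [← hheq, hord P]
    exact dvd_mul_right _ _)
  rw [← hheq] at hx
  have hx0 : x ≠ 0 := by
    intro h0
    rw [h0, zero_pow hm0.ne'] at hx
    exact div_ne_zero hu0 (mul_ne_zero haF (pow_ne_zero m hg0)) hx.symm
  -- `D` is the divisor of `x * g`
  have hD : (D : Divisor L (laurentBaseChange L (modularFunctionFieldFull N))) ∈
      Divisor.principal (K := L) (F := laurentBaseChange L (modularFunctionFieldFull N)) := by
    refine ⟨x * g, mul_ne_zero hx0 hg0, fun P => ?_⟩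
    have h1 := congrArg P.ord hx
    rw [ord_pow, hord P] at h1
    have hm' : (m : ℤ) ≠ 0 := Nat.cast_ne_zero.mpr hm0.ne'
    have h2 := mul_left_cancel₀ hm' h1
    rw [P.ord_mul hx0 hg0, h2]
    ring
  exact (QuotientAddGroup.eq_zero_iff _).mpr (AddSubgroup.mem_addSubgroupOf.mpr hD)

end Main

end Fermat.Agent.S18
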