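import Fermat.Agent.S18.WrapRes
import Fermat.Agent.S18.Wrapper
import Fermat.Agent.S18.Const

/-!
# S18 wrapper, part 4: the statement S18 from `(INJ)`

`s18_w_result` is the frozen statement S18 with one extra hypothesis `hinj`, which is verbatim the
conclusion of the assembly theorem `s18_inj` (for all `m`).
-/

set_option autoImplicit false
set_option synthInstance.maxHeartbeats 400000
set_option linter.style.haveILetI false

open ModularCurve AlgebraicCurve HahnSeries

noncomputable section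

namespace Fermat.Agent.S18

/-- S18 from `(INJ)`. -/
theorem s18_w_result (N : ℕ) [NeZero N] {ℓ : ℕ} [Fact ℓ.Prime] (hℓN : ¬ ℓ ∣ N)
    (A : ValuationSubring (AlgebraicClosure ℚ)) (hA : A.LiesOverPrime ℓ)
    (hinj : ∀ (m : ℕ), 0 < m → ¬ ℓ ∣ m → ∀ (y₁ y₂ : LaurentSeries A)
      (h₁ : coeffMap A.subtype y₁ ∈ modularFunctionFieldBar N)
      (h₂ : coeffMap A.subtype y₂ ∈ modularFunctionFieldBar N),
      coeffMap (IsLocalRing.residue A) y₁ = coeffMap (IsLocalRing.residue A) y₂ →
      coeffMap (IsLocalRing.residue A) y₂ ≠ 0 →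
      (∀ P : Place (AlgebraicClosure ℚ) (modularFunctionFieldBar N),
        (m : ℤ) ∣ P.ord ((⟨coeffMap A.subtype y₁, h₁⟩ : modularFunctionFieldBar N) /
          ⟨coeffMap A.subtype y₂, h₂⟩)) →
      ∃ x : modularFunctionFieldBar N,
        x ^ m = (⟨coeffMap A.subtype y₁, h₁⟩ : modularFunctionFieldBar N) /
          ⟨coeffMap A.subtype y₂, h₂⟩)
    (h : ModularCurve.ReductionInputsModL A N) (m : ℕ) (hm : ¬ ℓ ∣ m) (z : ModularCurve.JZero N)
    (hmz : m • z = 0) (hz : ModularCurve.reductionModL A N z = 0) :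
    z = 0 := by
  have hm0 : 0 < m := Nat.pos_of_ne_zero (fun h0 => hm (h0 ▸ dvd_zero ℓ))
  haveI := s18_w_charP A ℓ hA
  haveI := s18_w_isAlgClosed A
  exact s18_w_main A (IsLocalRing.residue A) N IsLocalRing.residue_surjective
    (fun f hf => s18_const_of_ord_eq_zero (IsLocalRing.ResidueField A) N ℓ hℓN f hf) m hm0
    (hinj m hm0 hm) h z hmz hz

end Fermat.Agent.S18
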