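import Mathlib

/-!
# S18, block AS7: approximate solutions give exact solutions

If a system of polynomial equations `G j = 0` over a domain `A0` has, for every `n`, a solution
modulo `pi ^ n` in `A0` (where `A0` is `pi`-adically separated), then it has an exact solution
in every algebraically closed field `Ω` containing `A0`.

Proof: otherwise `1 = ∑ c_j G_j` over `Ω` (Nullstellensatz); apply a `Frac A0`-linear functional
`ρ : Ω → Frac A0` with `ρ 1 = 1` coefficientwise and clear denominators by `b ≠ 0`;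
evaluating at the approximate solutions gives `pi ^ n ∣ b` for all `n`, so `b = 0`.
-/

namespace Fermat.Agent.S18

/-- Weak Nullstellensatz, Bezout form. -/
theorem as7_one_mem_span {k : Type*} [Field k] [IsAlgClosed k] {σ : Type*} [Finite σ]
    {ι : Type*} (P : ι → MvPolynomial σ k)
    (h : ¬ ∃ x : σ → k, ∀ j, MvPolynomial.eval x (P j) = 0) :
    (1 : MvPolynomial σ k) ∈ Ideal.span (Set.range P) := by
  have hz : MvPolynomial.zeroLocus k (Ideal.span (Set.range P)) = ∅ := by
    rw [MvPolynomial.zeroLocus_span]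
    ext x
    simp only [Set.mem_ofPred_eq, Set.mem_empty_iff_false, iff_false]
    intro hx
    exact h ⟨x, fun j => by simpa using hx (P j) ⟨j, rfl⟩⟩
  have h1 := MvPolynomial.vanishingIdeal_zeroLocus_eq_radical (K := k) (Ideal.span (Set.range P))
  rw [hz, MvPolynomial.vanishingIdeal_empty] at h1
  have h2 : Ideal.span (Set.range P) = ⊤ := Ideal.radical_eq_top.mp h1.symm
  rw [h2]
  trivial

/-- **AS7**: approximate solutions modulo all powers of `pi` in a `pi`-adically separated domain
give an exact solution in any algebraically closed field containing the domain. -/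
theorem as7_exists_zero {A0 : Type*} [CommRing A0] [IsDomain A0] (pi : A0)
    (hpi : ∀ d : A0, (∀ n : ℕ, pi ^ n ∣ d) → d = 0)
    {Ω : Type*} [Field Ω] [IsAlgClosed Ω] [Algebra A0 Ω]
    (hinj : Function.Injective (algebraMap A0 Ω))
    {σ ι : Type*} [Finite σ] (G : ι → MvPolynomial σ A0)
    (happrox : ∀ n : ℕ, ∃ x : σ → A0, ∀ j, pi ^ n ∣ MvPolynomial.eval x (G j)) :
    ∃ x : σ → Ω, ∀ j, MvPolynomial.eval x (MvPolynomial.map (algebraMap A0 Ω) (G j)) = 0 := by
  classical
  by_contra hno
  have h1 := as7_one_mem_span (fun j => MvPolynomial.map (algebraMap A0 Ω) (G j)) hno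
  obtain ⟨c, hc⟩ := Finsupp.mem_ideal_span_range_iff_exists_finsupp.mp h1
  have : FaithfulSMul A0 Ω := (faithfulSMul_iff_algebraMap_injective A0 Ω).mpr hinj
  let _ : Algebra (FractionRing A0) Ω := FractionRing.liftAlgebra A0 Ω
  have : IsScalarTower A0 (FractionRing A0) Ω := FractionRing.isScalarTower_liftAlgebra A0 Ω
  obtain ⟨f, hf⟩ : ∃ f : Module.Dual (FractionRing A0) Ω, f 1 ≠ 0 := by
    by_contra hcon
    push Not at hcon
    exact one_ne_zero ((Module.forall_dual_apply_eq_zero_iff (FractionRing A0) (1 : Ω)).mp hcon)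
  -- normalise: `ρ 1 = 1`
  obtain ⟨ρ, hρ⟩ : ∃ ρ : Module.Dual (FractionRing A0) Ω, ρ 1 = 1 :=
    ⟨(f 1)⁻¹ • f, by simp [hf]⟩
  -- the finite set of values of `ρ` on the coefficients of the `c j`
  let T : Finset (FractionRing A0) :=
    c.support.biUnion fun j => (c j).support.image fun s => ρ (MvPolynomial.coeff s (c j))
  obtain ⟨b, hb⟩ := IsLocalization.exist_integer_multiples_of_finset (nonZeroDivisors A0) T
  let W : Submodule A0 (FractionRing A0) := Submodule.span A0 (T : Set (FractionRing A0))
  have hW : ∀ w ∈ W, ∃ a : A0, algebraMap A0 (FractionRing A0) a = (b : A0) • w := by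
    intro w hw
    induction hw using Submodule.span_induction with
    | mem t ht =>
      obtain ⟨a, ha⟩ := hb t ht
      exact ⟨a, ha⟩
    | zero => exact ⟨0, by simp⟩
    | add u v _ _ hu hv =>
      obtain ⟨a, ha⟩ := hu
      obtain ⟨a', ha'⟩ := hv
      exact ⟨a + a', by rw [map_add, ha, ha', smul_add]⟩
    | smul r u _ hu =>
      obtain ⟨a, ha⟩ := hu
      exact ⟨r * a, by rw [map_mul, ha, smul_comm, Algebra.smul_def r]⟩
  have key : ∀ n : ℕ, ∃ w ∈ W, (1 : FractionRing A0) = pi ^ n • w := by
    intro n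
    obtain ⟨x, hx⟩ := happrox n
    choose d hd using hx
    have hev := congrArg (MvPolynomial.eval (fun i => algebraMap A0 Ω (x i))) hc
    rw [Finsupp.sum, map_sum, map_one] at hev
    have hterm : ∀ j, MvPolynomial.eval (fun i => algebraMap A0 Ω (x i))
        (c j * MvPolynomial.map (algebraMap A0 Ω) (G j)) =
        ∑ s ∈ (c j).support, (∏ i ∈ s.support, x i ^ s i) • (pi ^ n • (d j •
          MvPolynomial.coeff s (c j))) := by
      intro j
      rw [map_mul, MvPolynomial.eval_map, ← MvPolynomial.aeval_def]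
      have h2 : MvPolynomial.aeval (fun i => algebraMap A0 Ω (x i)) (G j) =
          algebraMap A0 Ω (MvPolynomial.eval x (G j)) := by
        have := MvPolynomial.aeval_algebraMap_apply (B := Ω) x (G j)
        rw [MvPolynomial.aeval_eq_eval] at this
        exact this
      rw [h2, hd j, MvPolynomial.eval_eq, Finset.sum_mul]
      refine Finset.sum_congr rfl fun s _ => ?_
      simp only [Algebra.smul_def, map_mul, map_pow, map_prod]
      ring
    rw [Finset.sum_congr rfl fun j _ => hterm j] at hev
    have hev2 := congrArg ρ hev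
    rw [hρ, map_sum] at hev2
    refine ⟨∑ j ∈ c.support, ∑ s ∈ (c j).support, ((∏ i ∈ s.support, x i ^ s i) * d j) •
        ρ (MvPolynomial.coeff s (c j)), ?_, ?_⟩
    · refine Submodule.sum_mem _ fun j hj => Submodule.sum_mem _ fun s hs =>
        Submodule.smul_mem _ _ (Submodule.subset_span ?_)
      exact Finset.mem_coe.mpr (Finset.mem_biUnion.mpr ⟨j, hj, Finset.mem_image.mpr ⟨s, hs, rfl⟩⟩)
    · rw [← hev2, Finset.smul_sum]
      refine Finset.sum_congr rfl fun j _ => ?_
      rw [map_sum, Finset.smul_sum]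
      refine Finset.sum_congr rfl fun s _ => ?_
      rw [LinearMap.map_smul_of_tower, LinearMap.map_smul_of_tower, LinearMap.map_smul_of_tower,
        smul_smul, smul_smul, smul_smul]
      congr 1
      ring
  have hb0 : (b : A0) = 0 := by
    refine hpi _ fun n => ?_
    obtain ⟨w, hw, h1w⟩ := key n
    obtain ⟨a, ha⟩ := hW w hw
    refine ⟨a, ?_⟩
    apply IsFractionRing.injective A0 (FractionRing A0)
    rw [map_mul, ha, ← Algebra.smul_def, smul_comm, ← h1w, Algebra.smul_def, mul_one]
  exact nonZeroDivisors.coe_ne_zero b hb0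

/-- `aeval` form of `as7_exists_zero`. -/
theorem as7_exists_zero_aeval {A0 : Type*} [CommRing A0] [IsDomain A0] (pi : A0)
    (hpi : ∀ d : A0, (∀ n : ℕ, pi ^ n ∣ d) → d = 0)
    {Ω : Type*} [Field Ω] [IsAlgClosed Ω] [Algebra A0 Ω]
    (hinj : Function.Injective (algebraMap A0 Ω))
    {σ ι : Type*} [Finite σ] (G : ι → MvPolynomial σ A0)
    (happrox : ∀ n : ℕ, ∃ x : σ → A0, ∀ j, pi ^ n ∣ MvPolynomial.eval x (G j)) :
    ∃ x : σ → Ω, ∀ j, MvPolynomial.aeval x (G j) = 0 := by
  obtain ⟨x, hx⟩ := as7_exists_zero pi hpi hinj G happrox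
  refine ⟨x, fun j => ?_⟩
  rw [MvPolynomial.aeval_def, ← MvPolynomial.eval_map]
  exact hx j

/-- A Noetherian domain is `pi`-adically separated for every non-unit `pi`
(Krull's intersection theorem), so `as7_exists_zero` applies. -/
theorem as7_separated_of_noetherian {A0 : Type*} [CommRing A0] [IsDomain A0]
    [IsNoetherianRing A0] (pi : A0) (hpi : ¬ IsUnit pi) :
    ∀ d : A0, (∀ n : ℕ, pi ^ n ∣ d) → d = 0 := by
  intro d hd
  have hne : Ideal.span {pi} ≠ ⊤ := by
    rw [Ne, Ideal.span_singleton_eq_top]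
    exact hpi
  have h := Ideal.iInf_pow_eq_bot_of_isDomain (Ideal.span {pi}) hne
  have hmem : d ∈ ⨅ i : ℕ, Ideal.span {pi} ^ i := by
    rw [Ideal.mem_iInf]
    intro n
    rw [Ideal.span_singleton_pow, Ideal.mem_span_singleton]
    exact hd n
  rw [h] at hmem
  exact hmem

end Fermat.Agent.S18
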