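import Fermat.Agent.S18.PthRoot

/-!
# S18, block AS3 in the skeleton shape

`s18_as_hensel` and `s18_as_root_unique` exactly as in helper15's skeleton, as corollaries of
`as3_exists_root_principal` / `as3_root_unique_principal` (the hypothesis `hrad` is not needed).
-/

set_option autoImplicit false
set_option linter.unusedVariables false

namespace Fermat.Agent.S18

/-- (AS3a) Hensel: `p`-th roots of elements `≡ 1` modulo `ϖ^n`. -/
theorem s18_as_hensel {R : Type*} [CommRing R] (ϖ : R) (hrad : ∀ x : R, IsUnit (1 + ϖ * x))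
    (p : ℕ) (hp : IsUnit (p : R)) (x : R) (n : ℕ) :
    ∃ y z : R, (1 + ϖ * y) ^ p = (1 + ϖ * x) + ϖ ^ n * z := by
  obtain ⟨u, ⟨y, hy⟩, ⟨z, hz⟩⟩ :=
    as3_exists_root_principal ϖ p hp (1 + ϖ * x) ⟨x, by ring⟩ n
  refine ⟨y, z, ?_⟩
  have hu : u = 1 + ϖ * y := by rw [← hy]; ring
  rw [← hu, ← hz]
  ring

/-- (AS3b) uniqueness of `p`-th roots `≡ 1` modulo `ϖ^n`. -/
theorem s18_as_root_unique {R : Type*} [CommRing R] (ϖ : R)
    (hrad : ∀ x : R, IsUnit (1 + ϖ * x))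
    (p : ℕ) (hp : IsUnit (p : R)) (a b c : R) (n : ℕ)
    (h : (1 + ϖ * a) ^ p = (1 + ϖ * b) ^ p + ϖ ^ n * c) :
    ∃ d : R, 1 + ϖ * a = 1 + ϖ * b + ϖ ^ n * d := by
  obtain ⟨d, hd⟩ := as3_root_unique_principal ϖ p hp (1 + ϖ * a) (1 + ϖ * b)
    ⟨a, by ring⟩ ⟨b, by ring⟩ n ⟨c, by rw [h]; ring⟩
  exact ⟨d, by rw [← hd]; ring⟩

end Fermat.Agent.S18
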