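import Mathlib

/-!
# S18, block AS1 (core, Mathlib only)

* `as1_ufd_of_regular` : a noetherian local domain whose maximal ideal is generated by a prime
  element `ϖ` and one more element is a UFD (Krull's principal ideal theorem + Nakayama).
* `as1_primeVal f hf` : the localization of a domain at a prime element `f`, as a
  `ValuationSubring` of the fraction field; it is a discrete valuation ring.
* `as1_multiplicity_modEq` : `a / b = u * g ^ p` with `u` a unit at `f` implies
  `multiplicity f a ≡ multiplicity f b [MOD p]`.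
* `as1_pow_factor` : in a UFD, if all multiplicities of `a` and `b` are congruent mod `p` then
  `a * g₋ ^ p = w * b * g₊ ^ p` with `w` a unit and `g₊`, `g₋` coprime.
-/

set_option autoImplicit false

namespace Fermat.Agent.S18


open IsLocalRing

/-- A noetherian local domain whose maximal ideal is generated by a prime element `ϖ` and one more
element `s` (a regular local ring of dimension `≤ 2`) is a unique factorization domain. -/
theorem as1_ufd_of_regular {R : Type*} [CommRing R] [IsDomain R] [IsNoetherianRing R]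
    [IsLocalRing R] (ϖ s : R) (hϖ : Prime ϖ)
    (hm : maximalIdeal R = Ideal.span {ϖ, s}) : UniqueFactorizationMonoid R := by
  classical
  -- the quotient by `ϖ` is a principal ideal ring
  have hQprime : (Ideal.span {ϖ}).IsPrime := (Ideal.span_singleton_prime hϖ.ne_zero).mpr hϖ
  have hϖm : ϖ ∈ maximalIdeal R := by rw [hm]; exact Ideal.subset_span (by simp)
  have hQne : Ideal.span {ϖ} ≠ ⊤ := hQprime.ne_top
  let Rb := R ⧸ Ideal.span {ϖ}
  have : IsDomain Rb := Ideal.Quotient.isDomain _
  have : Nontrivial Rb := Ideal.Quotient.nontrivial_iff.mpr hQne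
  have : IsLocalRing Rb :=
    IsLocalRing.of_surjective' (Ideal.Quotient.mk (Ideal.span {ϖ})) Ideal.Quotient.mk_surjective
  have hPIR : IsPrincipalIdealRing Rb := by
    refine ((tfae_of_isNoetherianRing_of_isLocalRing_of_isDomain Rb).out 4 0).mp ?_
    refine ⟨Ideal.Quotient.mk _ s, ?_⟩
    have h1 : maximalIdeal Rb = (maximalIdeal R).map (Ideal.Quotient.mk (Ideal.span {ϖ})) := by
      apply le_antisymm
      · intro x hx
        obtain ⟨y, rfl⟩ := Ideal.Quotient.mk_surjective x
        refine Ideal.mem_map_of_mem _ ?_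
        rw [mem_maximalIdeal, mem_nonunits_iff] at hx ⊢
        exact fun hy => hx (hy.map _)
      · rw [Ideal.map_le_iff_le_comap]
        intro y hy
        rw [Ideal.mem_comap, mem_maximalIdeal, mem_nonunits_iff]
        intro hu
        obtain ⟨zb, hz⟩ := hu.exists_right_inv
        obtain ⟨z, rfl⟩ := Ideal.Quotient.mk_surjective zb
        rw [← map_mul, ← map_one (Ideal.Quotient.mk (Ideal.span {ϖ})), Ideal.Quotient.eq] at hz
        have hz' : y * z - 1 ∈ maximalIdeal R :=
          (Ideal.span_singleton_le_iff_mem _).mpr hϖm hz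
        have hyz : y * z ∈ maximalIdeal R := Ideal.mul_mem_right z _ hy
        have h1 : (1 : R) ∈ maximalIdeal R := by
          have h2 := (maximalIdeal R).sub_mem hyz hz'
          rwa [sub_sub_cancel] at h2
        exact (Ideal.ne_top_iff_one _).mp (maximalIdeal.isMaximal R).ne_top h1
    rw [h1, hm, Ideal.map_span, Ideal.submodule_span_eq]
    apply le_antisymm
    · rw [Ideal.span_le]
      rintro _ ⟨y, hy, rfl⟩
      rcases hy with rfl | rfl
      · have : Ideal.Quotient.mk (Ideal.span {y}) y = 0 :=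
          Ideal.Quotient.eq_zero_iff_mem.mpr (Ideal.subset_span rfl)
        rw [this]; exact Ideal.zero_mem _
      · exact Ideal.subset_span rfl
    · rw [Ideal.span_le]
      rintro _ rfl
      exact Ideal.subset_span ⟨s, by simp, rfl⟩
  -- every irreducible element is prime
  have hirr : ∀ f : R, Irreducible f → Prime f := by
    intro f hf
    by_cases hdvd : ϖ ∣ f
    · obtain ⟨c, rfl⟩ := hdvd
      have hc : IsUnit c := (hf.isUnit_or_isUnit rfl).resolve_left hϖ.not_isUnit
      exact (associated_mul_unit_right ϖ c hc).prime hϖ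
    · have hfne : Ideal.span {f} ≠ ⊤ := by
        rw [Ne, Ideal.span_singleton_eq_top]; exact hf.not_isUnit
      obtain ⟨P, hPmin⟩ := Ideal.nonempty_minimalPrimes hfne
      have hPprime : P.IsPrime := hPmin.1.1
      have hfP : f ∈ P := hPmin.1.2 (Ideal.subset_span rfl)
      have hht : P.height ≤ 1 :=
        Ideal.height_le_one_of_isPrincipal_of_mem_minimalPrimes (Ideal.span {f}) P hPmin
      -- `ϖ ∉ P`
      have hϖP : ϖ ∉ P := by
        intro h
        have hle : Ideal.span {ϖ} ≤ P := (Ideal.span_singleton_le_iff_mem P).mpr h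
        have h1 : (1 : ℕ∞) ≤ (Ideal.span {ϖ}).height := by
          rw [Order.one_le_iff_pos, pos_iff_ne_zero, Ne, Ideal.height_eq_zero_iff_eq_bot]
          rw [Ideal.span_singleton_eq_bot]
          exact hϖ.ne_zero
        have := Ideal.eq_of_le_of_height_le (I := Ideal.span {ϖ}) (J := P) hle (hht.trans h1)
        rw [← this] at hfP
        exact hdvd (Ideal.mem_span_singleton.mp hfP)
      -- `P` is principal
      obtain ⟨gb, hgb⟩ := (hPIR.principal (P.map (Ideal.Quotient.mk (Ideal.span {ϖ})))).principal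
      have hgbmem : gb ∈ P.map (Ideal.Quotient.mk (Ideal.span {ϖ})) := by
        rw [hgb]; exact Submodule.mem_span_singleton_self gb
      rw [Ideal.mem_map_iff_of_surjective _ Ideal.Quotient.mk_surjective] at hgbmem
      obtain ⟨g, hgP, rfl⟩ := hgbmem
      have hPle : P ≤ Ideal.span {g} ⊔ Ideal.span {ϖ} • P := by
        intro y hy
        have hy' : Ideal.Quotient.mk (Ideal.span {ϖ}) y ∈
            P.map (Ideal.Quotient.mk (Ideal.span {ϖ})) := Ideal.mem_map_of_mem _ hy
        rw [hgb] at hy'
        obtain ⟨cb, hcb⟩ := Submodule.mem_span_singleton.mp hy'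
        obtain ⟨c, rfl⟩ := Ideal.Quotient.mk_surjective cb
        rw [smul_eq_mul, ← map_mul, eq_comm, Ideal.Quotient.eq, Ideal.mem_span_singleton] at hcb
        obtain ⟨d, hd⟩ := hcb
        have hdP : d ∈ P := by
          have : ϖ * d ∈ P := by
            rw [← hd]; exact P.sub_mem hy (P.mul_mem_left c hgP)
          exact (hPprime.mem_or_mem this).resolve_left hϖP
        have e : y = c * g + ϖ * d := by rw [← hd]; ring
        rw [e]
        refine Submodule.add_mem_sup (Ideal.mem_span_singleton.mpr ⟨c, mul_comm c g⟩) ?_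
        exact Submodule.smul_mem_smul (Ideal.subset_span rfl) hdP
      have hjac : Ideal.span {ϖ} ≤ Ideal.jacobson (⊥ : Ideal R) := by
        rw [IsLocalRing.jacobson_eq_maximalIdeal _ bot_ne_top]
        exact (Ideal.span_singleton_le_iff_mem _).mpr hϖm
      have hPg : P ≤ Ideal.span {g} :=
        Submodule.le_of_le_smul_of_le_jacobson_bot (IsNoetherian.noetherian P) hjac hPle
      have hgf : g ∣ f := Ideal.mem_span_singleton.mp (hPg hfP)
      obtain ⟨c, hc⟩ := hgf
      have hgnu : ¬ IsUnit g := fun hu => hPprime.ne_top (Ideal.eq_top_of_isUnit_mem _ hgP hu)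
      have hcu : IsUnit c := (hf.isUnit_or_isUnit hc).resolve_left hgnu
      have hPeq : P = Ideal.span {f} := by
        apply le_antisymm
        · refine hPg.trans ?_
          rw [Ideal.span_singleton_le_span_singleton]
          obtain ⟨u, rfl⟩ := hcu
          exact ⟨↑u⁻¹, by rw [hc, mul_assoc, Units.mul_inv, mul_one]⟩
        · exact (Ideal.span_singleton_le_iff_mem P).mpr hfP
      rw [hPeq] at hPprime
      exact (Ideal.span_singleton_prime hf.ne_zero).mp hPprime
  refine UniqueFactorizationMonoid.of_exists_prime_factors fun a ha => ?_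
  obtain ⟨fs, hfs, hprod⟩ := WfDvdMonoid.exists_factors a ha
  exact ⟨fs, fun b hb => hirr b (hfs b hb), hprod⟩



section PrimeVal

variable {R F : Type*} [CommRing R] [IsDomain R] [WfDvdMonoid R] [Field F] [Algebra R F]
  [IsFractionRing R F]

omit [IsDomain R] [WfDvdMonoid R] in
theorem as1_algebraMap_ne_zero_of_not_dvd {f c : R} (hc : ¬ f ∣ c) : algebraMap R F c ≠ 0 := by
  intro h
  apply hc
  have : c = 0 := (IsFractionRing.injective R F) (by rw [h, map_zero])
  rw [this]; exact dvd_zero f

/-- The localization of a domain `R` at a prime element `f`, as a valuation subring of the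
fraction field `F`. -/
def as1_primeVal (f : R) (hf : Prime f) : ValuationSubring F where
  carrier := {x | ∃ a c : R, ¬ f ∣ c ∧ x = algebraMap R F a / algebraMap R F c}
  mul_mem' := by
    rintro x y ⟨a, c, hc, rfl⟩ ⟨a', c', hc', rfl⟩
    exact ⟨a * a', c * c', fun h => (hf.dvd_or_dvd h).elim hc hc', by
      rw [map_mul, map_mul, div_mul_div_comm]⟩
  one_mem' := ⟨1, 1, hf.not_dvd_one, by simp⟩
  add_mem' := by
    rintro x y ⟨a, c, hc, rfl⟩ ⟨a', c', hc', rfl⟩
    refine ⟨a * c' + c * a', c * c', fun h => (hf.dvd_or_dvd h).elim hc hc', ?_⟩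
    rw [div_add_div _ _ (as1_algebraMap_ne_zero_of_not_dvd hc)
      (as1_algebraMap_ne_zero_of_not_dvd hc')]
    simp only [map_add, map_mul]
  zero_mem' := ⟨0, 1, hf.not_dvd_one, by simp⟩
  neg_mem' := by
    rintro x ⟨a, c, hc, rfl⟩
    exact ⟨-a, c, hc, by rw [map_neg, neg_div]⟩
  mem_or_inv_mem' := by
    intro x
    obtain ⟨a, c, hc0, rfl⟩ := IsFractionRing.div_surjective (A := R) x
    have hc0' : c ≠ 0 := nonZeroDivisors.ne_zero hc0
    by_cases ha0 : a = 0
    · left
      exact ⟨0, 1, hf.not_dvd_one, by simp [ha0]⟩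
    obtain ⟨a1, ha1, hfa1⟩ :=
      (FiniteMultiplicity.of_not_isUnit hf.not_isUnit ha0).exists_eq_pow_mul_and_not_dvd
    obtain ⟨c1, hc1, hfc1⟩ :=
      (FiniteMultiplicity.of_not_isUnit hf.not_isUnit hc0').exists_eq_pow_mul_and_not_dvd
    have hfF : algebraMap R F f ≠ 0 := by
      intro h
      exact hf.ne_zero ((IsFractionRing.injective R F) (by rw [h, map_zero]))
    have ha1F := as1_algebraMap_ne_zero_of_not_dvd (F := F) hfa1
    have hc1F := as1_algebraMap_ne_zero_of_not_dvd (F := F) hfc1
    rcases le_total (multiplicity f c) (multiplicity f a) with hle | hle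
    · left
      refine ⟨f ^ (multiplicity f a - multiplicity f c) * a1, c1, hfc1, ?_⟩
      conv_lhs => rw [ha1, hc1]
      simp only [map_mul, map_pow]
      rw [div_eq_div_iff (mul_ne_zero (pow_ne_zero _ hfF) hc1F) hc1F]
      have : algebraMap R F f ^ multiplicity f a =
          algebraMap R F f ^ (multiplicity f a - multiplicity f c) *
            algebraMap R F f ^ multiplicity f c := by
        rw [← pow_add, Nat.sub_add_cancel hle]
      rw [this]; ring
    · right
      refine ⟨f ^ (multiplicity f c - multiplicity f a) * c1, a1, hfa1, ?_⟩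
      rw [inv_div]
      conv_lhs => rw [ha1, hc1]
      simp only [map_mul, map_pow]
      rw [div_eq_div_iff (mul_ne_zero (pow_ne_zero _ hfF) ha1F) ha1F]
      have : algebraMap R F f ^ multiplicity f c =
          algebraMap R F f ^ (multiplicity f c - multiplicity f a) *
            algebraMap R F f ^ multiplicity f a := by
        rw [← pow_add, Nat.sub_add_cancel hle]
      rw [this]; ring

theorem as1_mem_primeVal {f : R} (hf : Prime f) {x : F} :
    x ∈ as1_primeVal (F := F) f hf ↔
      ∃ a c : R, ¬ f ∣ c ∧ x = algebraMap R F a / algebraMap R F c := Iff.rfl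

theorem as1_algebraMap_mem_primeVal {f : R} (hf : Prime f) (r : R) :
    algebraMap R F r ∈ as1_primeVal (F := F) f hf := ⟨r, 1, hf.not_dvd_one, by simp⟩

theorem as1_inv_mem_primeVal {f : R} (hf : Prime f) {c : R} (hc : ¬ f ∣ c) :
    (algebraMap R F c)⁻¹ ∈ as1_primeVal (F := F) f hf := ⟨1, c, hc, by simp⟩

/-- Units of the localization at `f` are quotients of elements prime to `f`. -/
theorem as1_primeVal_unit_repr {f : R} (hf : Prime f) {u : F} (hu0 : u ≠ 0)
    (hu : u ∈ as1_primeVal (F := F) f hf) (hu' : u⁻¹ ∈ as1_primeVal (F := F) f hf) :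
    ∃ a c : R, ¬ f ∣ a ∧ ¬ f ∣ c ∧ u = algebraMap R F a / algebraMap R F c := by
  obtain ⟨a, c, hc, rfl⟩ := hu
  obtain ⟨a', c', hc', h⟩ := hu'
  refine ⟨a, c, ?_, hc, rfl⟩
  intro hfa
  have hcF := as1_algebraMap_ne_zero_of_not_dvd (F := F) hc
  have hc'F := as1_algebraMap_ne_zero_of_not_dvd (F := F) hc'
  have haF : algebraMap R F a ≠ 0 := by
    intro h0; apply hu0; rw [h0, zero_div]
  rw [inv_div, div_eq_div_iff haF hc'F] at h
  have h2 : c * c' = a' * a := by
    apply IsFractionRing.injective R F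
    rw [map_mul, map_mul, h]
  have : f ∣ c * c' := by rw [h2]; exact Dvd.dvd.mul_left hfa a'
  exact (hf.dvd_or_dvd this).elim hc hc'

/-- Every nonzero element of the localization at `f` is a power of `f` times a unit. -/
theorem as1_primeVal_decomp {f : R} (hf : Prime f) {x : F} (hx0 : x ≠ 0)
    (hx : x ∈ as1_primeVal (F := F) f hf) :
    ∃ (n : ℕ) (u : F), u ∈ as1_primeVal (F := F) f hf ∧ u⁻¹ ∈ as1_primeVal (F := F) f hf ∧
      x = algebraMap R F f ^ n * u := by
  obtain ⟨a, c, hc, rfl⟩ := hx
  have hcF := as1_algebraMap_ne_zero_of_not_dvd (F := F) hc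
  have ha0 : a ≠ 0 := by
    rintro rfl; apply hx0; rw [map_zero, zero_div]
  obtain ⟨a1, ha1, hfa1⟩ :=
    (FiniteMultiplicity.of_not_isUnit hf.not_isUnit ha0).exists_eq_pow_mul_and_not_dvd
  refine ⟨multiplicity f a, algebraMap R F a1 / algebraMap R F c, ⟨a1, c, hc, rfl⟩,
    ⟨c, a1, hfa1, by rw [inv_div]⟩, ?_⟩
  conv_lhs => rw [ha1]
  rw [map_mul, map_pow, mul_div_assoc]

theorem as1_primeVal_inv_f_not_mem {f : R} (hf : Prime f) :
    (algebraMap R F f)⁻¹ ∉ as1_primeVal (F := F) f hf := by
  rintro ⟨a, c, hc, h⟩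
  have hcF := as1_algebraMap_ne_zero_of_not_dvd (F := F) hc
  have hfF : algebraMap R F f ≠ 0 := by
    intro h0
    exact hf.ne_zero ((IsFractionRing.injective R F) (by rw [h0, map_zero]))
  apply hc
  refine ⟨a, ?_⟩
  apply IsFractionRing.injective R F
  rw [map_mul]
  field_simp at h
  rw [h, mul_comm]

instance as1_primeVal_isDVR {f : R} (hf : Prime f) :
    IsDiscreteValuationRing (as1_primeVal (F := F) f hf) := by
  have hfF : algebraMap R F f ≠ 0 := by
    intro h0
    exact hf.ne_zero ((IsFractionRing.injective R F) (by rw [h0, map_zero]))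
  set W := as1_primeVal (F := F) f hf with hW
  let ϖ : W := ⟨algebraMap R F f, as1_algebraMap_mem_primeVal hf f⟩
  have hϖ0 : ϖ ≠ 0 := fun h => hfF (congrArg Subtype.val h)
  have hϖu : ¬ IsUnit ϖ := by
    intro hu
    obtain ⟨z, hz⟩ := hu.exists_right_inv
    apply as1_primeVal_inv_f_not_mem (F := F) hf
    have hz' : algebraMap R F f * (z : F) = 1 := congrArg Subtype.val hz
    have : (algebraMap R F f)⁻¹ = (z : F) := by
      rw [← mul_one (algebraMap R F f)⁻¹, ← hz', inv_mul_cancel_left₀ hfF]
    rw [this]; exact z.2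
  -- decomposition inside `W`
  have hdec : ∀ x : W, x ≠ 0 → ∃ (n : ℕ) (u : Wˣ), x = ϖ ^ n * u := by
    intro x hx0
    have hxF : (x : F) ≠ 0 := fun h => hx0 (Subtype.ext h)
    obtain ⟨n, u, hu, hu', hxu⟩ := as1_primeVal_decomp hf hxF x.2
    have huF : u ≠ 0 := by
      rintro rfl; apply hxF; rw [hxu, mul_zero]
    refine ⟨n, ⟨⟨u, hu⟩, ⟨u⁻¹, hu'⟩, Subtype.ext (mul_inv_cancel₀ huF),
      Subtype.ext (inv_mul_cancel₀ huF)⟩, Subtype.ext ?_⟩
    simpa using hxu
  refine IsDiscreteValuationRing.ofHasUnitMulPowIrreducibleFactorization ⟨ϖ, ?_, ?_⟩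
  · rw [irreducible_iff]
    refine ⟨hϖu, fun x y hxy => ?_⟩
    have hx0 : x ≠ 0 := by rintro rfl; exact hϖ0 (by rw [hxy, zero_mul])
    have hy0 : y ≠ 0 := by rintro rfl; exact hϖ0 (by rw [hxy, mul_zero])
    obtain ⟨i, u, rfl⟩ := hdec x hx0
    obtain ⟨j, v, rfl⟩ := hdec y hy0
    rcases Nat.eq_zero_or_pos i with rfl | hi
    · left; rw [pow_zero, one_mul]; exact u.isUnit
    rcases Nat.eq_zero_or_pos j with rfl | hj
    · right; rw [pow_zero, one_mul]; exact v.isUnit
    exfalso
    apply hϖu
    obtain ⟨i', rfl⟩ : ∃ i', i = i' + 1 := ⟨i - 1, by omega⟩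
    obtain ⟨j', rfl⟩ : ∃ j', j = j' + 1 := ⟨j - 1, by omega⟩
    have e : ϖ * (1 - ϖ ^ (i' + j' + 1) * (u * v : Wˣ)) = 0 := by
      have : ϖ * (ϖ ^ (i' + j' + 1) * ((u * v : Wˣ) : W)) = ϖ := by
        conv_rhs => rw [hxy]
        push_cast; ring
      rw [mul_sub, mul_one, this, sub_self]
    have e2 : (1 : W) = ϖ ^ (i' + j' + 1) * ((u * v : Wˣ) : W) := by
      rcases mul_eq_zero.mp e with h | h
      · exact absurd h hϖ0
      · exact sub_eq_zero.mp h
    exact IsUnit.of_mul_eq_one (ϖ ^ (i' + j') * ((u * v : Wˣ) : W)) (by rw [e2]; ring)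
  · intro x hx0
    obtain ⟨n, u, rfl⟩ := hdec x hx0
    exact ⟨n, u, rfl⟩

end PrimeVal


section ModEq

variable {R F : Type*} [CommRing R] [IsDomain R] [WfDvdMonoid R] [Field F] [Algebra R F]
  [IsFractionRing R F]

/-- If `a / b = u * g ^ p` with `u` a unit of the localization at the prime `f`, then the
multiplicities of `f` in `a` and `b` are congruent modulo `p`. -/
theorem as1_multiplicity_modEq {f : R} (hf : Prime f) (p : ℕ) (hp : 0 < p) {a b : R}
    (ha : a ≠ 0) (hb : b ≠ 0) {g u : F}
    (hu : u ∈ as1_primeVal (F := F) f hf) (hu' : u⁻¹ ∈ as1_primeVal (F := F) f hf)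
    (h : algebraMap R F a / algebraMap R F b = u * g ^ p) :
    multiplicity f a ≡ multiplicity f b [MOD p] := by
  have hinj := IsFractionRing.injective R F
  have haF : algebraMap R F a ≠ 0 := fun h0 => ha (hinj (by rw [h0, map_zero]))
  have hbF : algebraMap R F b ≠ 0 := fun h0 => hb (hinj (by rw [h0, map_zero]))
  have hne : u * g ^ p ≠ 0 := by rw [← h]; exact div_ne_zero haF hbF
  have hu0 : u ≠ 0 := left_ne_zero_of_mul hne
  have hg0 : g ≠ 0 := by
    rintro rfl
    exact (right_ne_zero_of_mul hne) (zero_pow hp.ne')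
  obtain ⟨u1, c1, hu1, hc1, rfl⟩ := as1_primeVal_unit_repr hf hu0 hu hu'
  obtain ⟨g1, g2, hg2, rfl⟩ := IsFractionRing.div_surjective (A := R) g
  have hg20 : g2 ≠ 0 := nonZeroDivisors.ne_zero hg2
  have hg2F : algebraMap R F g2 ≠ 0 := fun h0 => hg20 (hinj (by rw [h0, map_zero]))
  have hg10 : g1 ≠ 0 := by
    rintro rfl; apply hg0; rw [map_zero, zero_div]
  have hc1F := as1_algebraMap_ne_zero_of_not_dvd (F := F) hc1
  have hu10 : u1 ≠ 0 := by rintro rfl; exact hu1 (dvd_zero f)
  have hc10 : c1 ≠ 0 := by rintro rfl; exact hc1 (dvd_zero f)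
  have key : a * c1 * g2 ^ p = b * u1 * g1 ^ p := by
    apply hinj
    simp only [map_mul, map_pow]
    rw [div_pow, div_mul_div_comm, div_eq_div_iff hbF (mul_ne_zero hc1F (pow_ne_zero p hg2F))] at h
    linear_combination h
  have hfin : ∀ x : R, x ≠ 0 → FiniteMultiplicity f x := fun x hx =>
    FiniteMultiplicity.of_not_isUnit hf.not_isUnit hx
  have h1 : multiplicity f (a * c1 * g2 ^ p) = multiplicity f a + p * multiplicity f g2 := by
    rw [multiplicity_mul hf (hfin _ (mul_ne_zero (mul_ne_zero ha hc10) (pow_ne_zero p hg20))),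
      multiplicity_mul hf (hfin _ (mul_ne_zero ha hc10)),
      (hfin g2 hg20).multiplicity_pow hf, multiplicity_eq_zero.mpr hc1, add_zero]
  have h2 : multiplicity f (b * u1 * g1 ^ p) = multiplicity f b + p * multiplicity f g1 := by
    rw [multiplicity_mul hf (hfin _ (mul_ne_zero (mul_ne_zero hb hu10) (pow_ne_zero p hg10))),
      multiplicity_mul hf (hfin _ (mul_ne_zero hb hu10)),
      (hfin g1 hg10).multiplicity_pow hf, multiplicity_eq_zero.mpr hu1, add_zero]
  rw [key, h2] at h1
  unfold Nat.ModEq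
  have e1 : (multiplicity f a + p * multiplicity f g2) % p = multiplicity f a % p :=
    Nat.add_mul_mod_self_left _ _ _
  have e2 : (multiplicity f b + p * multiplicity f g1) % p = multiplicity f b % p :=
    Nat.add_mul_mod_self_left _ _ _
  rw [← e1, ← e2, h1]

end ModEq


open UniqueFactorizationMonoid Multiset in
/-- In a UFD, if the multiplicities of `a` and `b` at every prime are congruent modulo `p`, then
`a / b` is a unit times a `p`-th power `(g₊ / g₋) ^ p` with `g₊`, `g₋` coprime. -/
theorem as1_pow_factor {R : Type*} [CommRing R] [IsDomain R] [UniqueFactorizationMonoid R]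
    (p : ℕ) (hp : 0 < p) (a b : R) (ha : a ≠ 0) (hb : b ≠ 0)
    (hmod : ∀ f : R, Prime f → multiplicity f a ≡ multiplicity f b [MOD p]) :
    ∃ (gp gm : R) (w : Rˣ), gp ≠ 0 ∧ gm ≠ 0 ∧ a * gm ^ p = w * b * gp ^ p ∧
      ∀ M : R, gm ^ p ∣ M * gp ^ p → gm ∣ M := by
  classical
  let _ : StrongNormalizationMonoid R := UniqueFactorizationMonoid.strongNormalizationMonoid
  have hsub : ∀ x y : ℕ, x ≡ y [MOD p] → p ∣ x - y := by
    intro x y hxy
    rcases le_total y x with h | h
    · exact (Nat.modEq_iff_dvd' h).mp hxy.symm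
    · rw [Nat.sub_eq_zero_of_le h]; exact dvd_zero p
  have hcnt : ∀ (c : R), c ≠ 0 → ∀ q ∈ normalizedFactors c,
      count q (normalizedFactors c) = multiplicity q c := by
    intro c hc q hq
    have h1 := multiplicity_eq_count_normalizedFactors (prime_of_normalized_factor q hq).irreducible
      hc
    rw [normalize_normalized_factor q hq] at h1
    exact h1.symm
  have hcnt0 : ∀ (c : R), c ≠ 0 → ∀ q : R, Prime q → normalize q = q →
      count q (normalizedFactors c) = multiplicity q c := by
    intro c hc q hq hqn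
    have h1 := multiplicity_eq_count_normalizedFactors hq.irreducible hc
    rw [hqn] at h1
    exact h1.symm
  set A := normalizedFactors a with hA
  set Bm := normalizedFactors b with hBm
  have hAB : ∀ q ∈ A - Bm, p ∣ count q (A - Bm) := by
    intro q hq
    have hqA : q ∈ A := Multiset.mem_of_le (Multiset.sub_le_self A Bm) hq
    have hqp := prime_of_normalized_factor q hqA
    have hqn := normalize_normalized_factor q hqA
    rw [Multiset.count_sub, hcnt0 a ha q hqp hqn, hcnt0 b hb q hqp hqn]
    exact hsub _ _ (hmod q hqp)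
  have hBA : ∀ q ∈ Bm - A, p ∣ count q (Bm - A) := by
    intro q hq
    have hqB : q ∈ Bm := Multiset.mem_of_le (Multiset.sub_le_self Bm A) hq
    have hqp := prime_of_normalized_factor q hqB
    have hqn := normalize_normalized_factor q hqB
    rw [Multiset.count_sub, hcnt0 a ha q hqp hqn, hcnt0 b hb q hqp hqn]
    exact hsub _ _ (hmod q hqp).symm
  obtain ⟨U, hU⟩ := Multiset.exists_smul_of_dvd_count _ hAB
  obtain ⟨V, hV⟩ := Multiset.exists_smul_of_dvd_count _ hBA
  have hUmem : ∀ x ∈ U, x ∈ A ∧ count x Bm < count x A := by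
    intro x hx
    have h1 : x ∈ A - Bm := by rw [hU]; exact Multiset.mem_nsmul.mpr ⟨hp.ne', hx⟩
    refine ⟨Multiset.mem_of_le (Multiset.sub_le_self A Bm) h1, ?_⟩
    have := Multiset.count_pos.mpr h1
    rw [Multiset.count_sub] at this
    omega
  have hVmem : ∀ x ∈ V, x ∈ Bm ∧ count x A < count x Bm := by
    intro x hx
    have h1 : x ∈ Bm - A := by rw [hV]; exact Multiset.mem_nsmul.mpr ⟨hp.ne', hx⟩
    refine ⟨Multiset.mem_of_le (Multiset.sub_le_self Bm A) h1, ?_⟩
    have := Multiset.count_pos.mpr h1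
    rw [Multiset.count_sub] at this
    omega
  have hU0 : U.prod ≠ 0 := by
    apply Multiset.prod_ne_zero
    intro h0
    exact (prime_of_normalized_factor 0 (hUmem 0 h0).1).ne_zero rfl
  have hV0 : V.prod ≠ 0 := by
    apply Multiset.prod_ne_zero
    intro h0
    exact (prime_of_normalized_factor 0 (hVmem 0 h0).1).ne_zero rfl
  obtain ⟨ua, hua⟩ := prod_normalizedFactors ha
  obtain ⟨ub, hub⟩ := prod_normalizedFactors hb
  have hmult : A + (Bm - A) = Bm + (A - Bm) := by
    ext q
    simp only [Multiset.count_add, Multiset.count_sub]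
    omega
  have hprod : A.prod * V.prod ^ p = Bm.prod * U.prod ^ p := by
    rw [← Multiset.prod_nsmul, ← Multiset.prod_nsmul, ← hU, ← hV, ← Multiset.prod_add,
      ← Multiset.prod_add, hmult]
  refine ⟨U.prod, V.prod, ua * ub⁻¹, hU0, hV0, ?_, ?_⟩
  · rw [← hua, ← hub]
    have : A.prod * ↑ua * V.prod ^ p = ↑ua * (A.prod * V.prod ^ p) := by ring
    rw [this, hprod]
    have h2 : (↑(ua * ub⁻¹) : R) * (Bm.prod * ↑ub) * U.prod ^ p =
        ↑ua * (Bm.prod * U.prod ^ p) * ((ub⁻¹ : Rˣ) * (ub : Rˣ) : Rˣ) := by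
      push_cast; ring
    rw [h2, inv_mul_cancel, Units.val_one, mul_one]
  · intro M hM
    have hrel : IsRelPrime V.prod U.prod := by
      intro d hdV hdU
      by_contra hdu
      have hd0 : d ≠ 0 := ne_zero_of_dvd_ne_zero hV0 hdV
      obtain ⟨q, hqi, hqd⟩ := WfDvdMonoid.exists_irreducible_factor hdu hd0
      have hqp : Prime q := UniqueFactorizationMonoid.irreducible_iff_prime.mp hqi
      obtain ⟨v, hvV, hqv⟩ := hqp.exists_mem_multiset_dvd (hqd.trans hdV)
      obtain ⟨u, huU, hqu⟩ := hqp.exists_mem_multiset_dvd (hqd.trans hdU)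
      have hvB := (hVmem v hvV).1
      have huA := (hUmem u huU).1
      have hv1 : Associated q v :=
        hqi.associated_of_dvd (prime_of_normalized_factor v hvB).irreducible hqv
      have hu1 : Associated q u :=
        hqi.associated_of_dvd (prime_of_normalized_factor u huA).irreducible hqu
      have huv : u = v := by
        have h3 : Associated u v := hu1.symm.trans hv1
        rw [← normalize_normalized_factor u huA, ← normalize_normalized_factor v hvB]
        exact normalize_eq_normalize h3.dvd h3.symm.dvd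
      have h4 := (hUmem u huU).2
      have h5 := (hVmem v hvV).2
      rw [huv] at h4
      omega
    have h6 : V.prod ^ p ∣ M := (hrel.pow (m := p) (n := p)).dvd_of_dvd_mul_right hM
    exact (dvd_pow_self V.prod hp.ne').trans h6


end Fermat.Agent.S18
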