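import Fermat.Agent.S18.Unram
import Fermat.Agent.S18.ChartPre
import Fermat.Agent.S18.PolyPrime

/-!
# S18: the branch condition `s18_Branch` from ramification data over the algebraic closure

Abstract setting of `Unram.lean` (constants `K1 ⊆ Ω`, function fields `F1 ⊆ Fb` via `ι`), with
`K1 = Frac A₀` for a discrete valuation ring `A₀`.  If `Fb / Ω(t)` is unramified over every
separable divisor of the `t`-line avoiding two sections `c₁, c₂ ∈ A₀` whose difference is a unit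
of `A₀`, then every chart `B ⊆ F1` with coordinate `t` satisfies the branch condition.
-/

set_option autoImplicit false

namespace Fermat.Agent.S18

open Polynomial IntermediateField AlgebraicCurve

section BranchCond

variable {A₀ K1 Ω F1 Fb : Type*} [CommRing A₀] [IsDomain A₀] [IsDiscreteValuationRing A₀]
  [Field K1] [Field Ω] [Field F1] [Field Fb]
  [Algebra A₀ K1] [IsFractionRing A₀ K1] [Algebra K1 Ω] [Algebra K1 F1] [Algebra Ω Fb]
  [Algebra A₀ F1]

/-- Constants of `K1` lie in a valuation subring containing `A₀` and `π⁻¹`. -/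
theorem s18_br_const_mem
    (hAK : ∀ a : A₀, algebraMap A₀ F1 a = algebraMap K1 F1 (algebraMap A₀ K1 a))
    {π : A₀} (hπ : Irreducible π) (W : ValuationSubring F1)
    (hA : ∀ a : A₀, algebraMap A₀ F1 a ∈ W) (hπW : (algebraMap A₀ F1 π)⁻¹ ∈ W) (c : K1) :
    algebraMap K1 F1 c ∈ W := by
  obtain ⟨a, s, hs, rfl⟩ := IsFractionRing.div_surjective (A := A₀) c
  have hs0 : s ≠ 0 := nonZeroDivisors.ne_zero hs
  obtain ⟨n, u, rfl⟩ := IsDiscreteValuationRing.eq_unit_mul_pow_irreducible hs0 hπ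
  rw [map_div₀, ← hAK, ← hAK, map_mul, map_pow, div_eq_mul_inv, mul_inv, ← inv_pow]
  have hu : (algebraMap A₀ F1 (u : A₀))⁻¹ = algebraMap A₀ F1 ((u⁻¹ : A₀ˣ) : A₀) := by
    have h1 : algebraMap A₀ F1 ((u⁻¹ : A₀ˣ) : A₀) * algebraMap A₀ F1 (u : A₀) = 1 := by
      rw [← map_mul, Units.inv_mul, map_one]
    exact (eq_inv_of_mul_eq_one_left h1).symm
  rw [hu]
  exact W.mul_mem _ _ (hA a) (W.mul_mem _ _ (hA _) (pow_mem hπW n))

variable [CharZero K1] [Algebra.IsAlgebraic K1 Ω] [IsAlgClosed Ω]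

/-- Core: if `Fb` is unramified over the zeros of `g(t)` (`g ∈ A₀[X]`), then `g(t)` is a
uniformizer of every discrete valuation ring `W ⊇ A₀[1/π]` of `F1` in which it is not a unit. -/
theorem s18_br_core
    (hAK : ∀ a : A₀, algebraMap A₀ F1 a = algebraMap K1 F1 (algebraMap A₀ K1 a))
    {π : A₀} (hπ : Irreducible π)
    (ι : F1 →+* Fb) (hι : ∀ c : K1, ι (algebraMap K1 F1 c) = algebraMap Ω Fb (algebraMap K1 Ω c))
    (hgen : ∀ y : Fb, ∃ a b : Fb, a ∈ Submodule.span Ω (Set.range ι) ∧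
      b ∈ Submodule.span Ω (Set.range ι) ∧ b ≠ 0 ∧ y = a / b)
    (j : Fb) [FiniteDimensional Ω⟮j⟯ Fb] (t : F1)
    (g : A₀[X])
    (hbr : ∀ P : Place Ω Fb,
      0 < P.ord (aeval (ι t) ((g.map (algebraMap A₀ K1)).map (algebraMap K1 Ω))) →
      P.ord (aeval (ι t) ((g.map (algebraMap A₀ K1)).map (algebraMap K1 Ω))) = 1)
    (W : ValuationSubring F1) (hW : IsDiscreteValuationRing W)
    (hA : ∀ a : A₀, algebraMap A₀ F1 a ∈ W) (hπW : (algebraMap A₀ F1 π)⁻¹ ∈ W)
    (hgW : (aeval t g)⁻¹ ∉ W) (y : F1) (hy : y ∈ W) (hyinv : y⁻¹ ∉ W) :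
    y / aeval t g ∈ W := by
  have := hW
  have hK : ∀ c : K1, algebraMap K1 F1 c ∈ W := s18_br_const_mem hAK hπ W hA hπW
  obtain ⟨P, hWP, hnon, hirr⟩ := s18_unram_const_ext ι hι hgen j W hK
  set γ : F1 := aeval t g with hγ
  have hγW : γ ∈ W := (W.mem_or_inv_mem γ).resolve_right hgW
  have hγ0 : γ ≠ 0 := by
    intro h0
    rw [h0, inv_zero] at hgW
    exact hgW W.zero_mem
  have hγnon : γ ∈ W.nonunits := W.mem_nonunits_iff_or.mpr (Or.inr hgW)
  -- transport to `Fb`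
  have hιγ : ι γ = aeval (ι t) ((g.map (algebraMap A₀ K1)).map (algebraMap K1 Ω)) := by
    rw [hγ, aeval_def, aeval_def, hom_eval₂, eval₂_map, eval₂_map]
    congr 1
    ext a
    simp only [RingHom.comp_apply]
    rw [hAK, hι]
  have hιγ0 : ι γ ≠ 0 := (map_ne_zero ι).mpr hγ0
  have hpos : 0 < P.ord (ι γ) :=
    (Fermat.Agent.S24.mem_nonunits_iff_ord_pos P hιγ0).mp (hnon _ hγnon)
  have hone : P.ord (ι γ) = 1 := by
    rw [hιγ] at hpos ⊢
    exact hbr P hpos
  -- `γ = u * w ^ n` in `W`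
  obtain ⟨w, hw⟩ := IsDiscreteValuationRing.exists_irreducible W
  have hγ'0 : (⟨γ, hγW⟩ : W) ≠ 0 := fun h0 => hγ0 (congrArg Subtype.val h0)
  obtain ⟨n, u, hu⟩ := IsDiscreteValuationRing.eq_unit_mul_pow_irreducible hγ'0 hw
  have huF : γ = ((u : W) : F1) * (w : F1) ^ n := congrArg Subtype.val hu
  have hwF : (w : F1) ≠ 0 := fun h0 => hw.ne_zero (Subtype.ext h0)
  have huF0 : ((u : W) : F1) ≠ 0 := by
    intro h0
    rw [h0, zero_mul] at huF
    exact hγ0 huF
  have hunit : (((u⁻¹ : Wˣ) : W) : F1) = (((u : W) : F1))⁻¹ := by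
    have h1 : (((u⁻¹ : Wˣ) : W) : F1) * ((u : W) : F1) = 1 :=
      congrArg Subtype.val (Units.inv_mul u)
    exact eq_inv_of_mul_eq_one_left h1
  have hordu : P.ord (ι ((u : W) : F1)) = 0 := by
    refine Fermat.Agent.S24.ord_unit_eq_zero P (hWP _ (u : W).2) ?_
    rw [← map_inv₀, ← hunit]
    exact hWP _ ((u⁻¹ : Wˣ) : W).2
  have hordn : P.ord (ι γ) = n := by
    rw [huF, map_mul, map_pow, P.ord_mul ((map_ne_zero ι).mpr huF0)
      (pow_ne_zero _ ((map_ne_zero ι).mpr hwF)), hordu, zero_add,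
      Fermat.Agent.S24.ord_pow, hirr w hw, mul_one]
  have hn : n = 1 := by
    rw [hone] at hordn
    exact_mod_cast hordn.symm
  subst hn
  rw [pow_one] at huF
  -- `y` is divisible by `w`
  have hy' : (⟨y, hy⟩ : W) ∈ IsLocalRing.maximalIdeal W := by
    rw [← ValuationSubring.coe_mem_nonunits_iff]
    exact W.mem_nonunits_iff_or.mpr (Or.inr hyinv)
  rw [hw.maximalIdeal_eq, Ideal.mem_span_singleton] at hy'
  obtain ⟨z, hz⟩ := hy'
  have hyF : y = (w : F1) * (z : F1) := congrArg Subtype.val hz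
  have : y / γ = (z : F1) * (((u⁻¹ : Wˣ) : W) : F1) := by
    rw [hunit, huF, hyF]
    field_simp
  rw [this]
  exact W.mul_mem _ _ z.2 ((u⁻¹ : Wˣ) : W).2

/-- **Branch condition** for a chart `B` with coordinate `t`, from: `Fb / Ω(t)` is unramified over
the zeros of `G(t)` for every separable `G ∈ Ω[X]` not vanishing at the two sections `c₁`, `c₂`,
where `c₁ - c₂` is a unit of `A₀`. -/
theorem s18_br_branch
    (hAK : ∀ a : A₀, algebraMap A₀ F1 a = algebraMap K1 F1 (algebraMap A₀ K1 a))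
    {π : A₀} (hπ : Irreducible π)
    (ι : F1 →+* Fb) (hι : ∀ c : K1, ι (algebraMap K1 F1 c) = algebraMap Ω Fb (algebraMap K1 Ω c))
    (hgen : ∀ y : Fb, ∃ a b : Fb, a ∈ Submodule.span Ω (Set.range ι) ∧
      b ∈ Submodule.span Ω (Set.range ι) ∧ b ≠ 0 ∧ y = a / b)
    (j : Fb) [FiniteDimensional Ω⟮j⟯ Fb] (t : F1) (B : Subalgebra A₀ F1)
    (c₁ c₂ : A₀) (hc : IsUnit (c₁ - c₂))
    (hbr : ∀ (P : Place Ω Fb) (G : Polynomial Ω), G.Separable →
      G.eval (algebraMap K1 Ω (algebraMap A₀ K1 c₁)) ≠ 0 →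
      G.eval (algebraMap K1 Ω (algebraMap A₀ K1 c₂)) ≠ 0 →
      0 < P.ord (aeval (ι t) G) → P.ord (aeval (ι t) G) = 1) :
    s18_Branch π t B := by
  have hinj : Function.Injective
      ((algebraMap K1 Ω).comp (algebraMap A₀ K1)) :=
    (algebraMap K1 Ω).injective.comp (IsFractionRing.injective A₀ K1)
  -- evaluation of the base-changed polynomial at a section
  have heval : ∀ (g : A₀[X]) (c : A₀),
      ((g.map (algebraMap A₀ K1)).map (algebraMap K1 Ω)).eval
        (algebraMap K1 Ω (algebraMap A₀ K1 c)) = algebraMap K1 Ω (algebraMap A₀ K1 (g.eval c)) := by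
    intro g c
    rw [eval_map, eval₂_at_apply, eval_map, eval₂_at_apply]
  -- an irreducible polynomial vanishing at `c` is associated to `X - C c`
  have hassoc : ∀ (g : A₀[X]) (c : A₀), Irreducible g → g.eval c = 0 → Associated g (X - C c) := by
    intro g c hg h0
    have hdvd : X - C c ∣ g := dvd_iff_isRoot.mpr h0
    exact ((irreducible_X_sub_C c).associated_of_dvd hg hdvd).symm
  -- the common core
  have key : ∀ (g : A₀[X]), Irreducible g → ¬ C π ∣ g → g.eval c₁ ≠ 0 → g.eval c₂ ≠ 0 →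
      ∀ W : ValuationSubring F1, IsDiscreteValuationRing W → (∀ x ∈ B, x ∈ W) →
      (algebraMap A₀ F1 π)⁻¹ ∈ W → (aeval t g)⁻¹ ∉ W →
      ∀ y ∈ W, y⁻¹ ∉ W → y / aeval t g ∈ W := by
    intro g hg hπg h1 h2 W hW hBW hπW hgW y hy hyinv
    refine s18_br_core hAK hπ ι hι hgen j t g (fun P hP => ?_) W hW
      (fun a => hBW _ (B.algebraMap_mem a)) hπW hgW y hy hyinv
    refine hbr P _ ((s18_e1_separable_map hπ hg hπg K1).map) ?_ ?_ hP
    · rw [heval]
      exact fun h => h1 (hinj (by simpa using h))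
    · rw [heval]
      exact fun h => h2 (hinj (by simpa using h))
  intro 𝔫 h𝔫 _
  by_cases hX : X - C c₁ ∈ 𝔫
  · refine ⟨c₁, fun g hg𝔫 hg hπg hgb => key g hg hπg (fun h0 => hgb (hassoc g c₁ hg h0)) ?_⟩
    intro h0
    obtain ⟨v, hv⟩ := (hassoc g c₂ hg h0)
    have h2 : X - C c₂ ∈ 𝔫 := hv ▸ Ideal.mul_mem_right _ _ hg𝔫
    have h3 : C (c₁ - c₂) ∈ 𝔫 := by
      have : C (c₁ - c₂) = (X - C c₂) - (X - C c₁) := by rw [map_sub]; ring
      rw [this]
      exact sub_mem h2 hX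
    exact h𝔫.ne_top (Ideal.eq_top_of_isUnit_mem _ h3 (isUnit_C.mpr hc))
  · refine ⟨c₂, fun g hg𝔫 hg hπg hgb => key g hg hπg ?_ (fun h0 => hgb (hassoc g c₂ hg h0))⟩
    intro h0
    obtain ⟨v, hv⟩ := (hassoc g c₁ hg h0)
    exact hX (hv ▸ Ideal.mul_mem_right _ _ hg𝔫)

end BranchCond

end Fermat.Agent.S18
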