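import Fermat.Agent.S18.ChAlg

/-!
# S18, block C (H-b), (H-b'): the chart over `A` is finitely generated over `A[t]`

From the `ℤ_(ℓ)`-level finiteness statement (Z4, `ChartZFin.lean`) for `chartAlg N ℓ {t}`.
-/

set_option autoImplicit false
set_option synthInstance.maxHeartbeats 400000

open ModularCurve ModularCurve.IgusaScheme Fermat.Agent.S28 Polynomial

noncomputable section

namespace Fermat.Agent.S18

section ChAlgFg

variable {N : ℕ} [NeZero N] {ℓ : ℕ} [Fact ℓ.Prime]
variable {K : Type*} [Field K] [Algebra ℚ K] {A : ValuationSubring K}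
variable {t : modularFunctionFieldFull N}

variable (A) in
/-- Evaluation of polynomials over `A` at the `q`-expansion of the coordinate, in `K((q))`. -/
def s18_fg_ev (t : modularFunctionFieldFull N) : A[X] →+* LaurentSeries K :=
  Polynomial.eval₂RingHom ((HahnSeries.C : K →+* LaurentSeries K).comp A.subtype)
    (coeffEmb K (t : LaurentSeries ℚ))

omit [NeZero N] in
/-- The `q`-expansion of a polynomial in the coordinate. -/
theorem s18_fg_coe_aeval_coord (P : A[X]) :
    ((aeval (s18_coord K t) P : laurentBaseChange K (modularFunctionFieldFull N)) :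
      LaurentSeries K) = s18_fg_ev A t P := by
  have h1 := Polynomial.hom_eval₂ P
    (algebraMap A (laurentBaseChange K (modularFunctionFieldFull N)))
    (laurentBaseChange K (modularFunctionFieldFull N)).toSubfield.subtype (s18_coord K t)
  have h2 : ((laurentBaseChange K (modularFunctionFieldFull N)).toSubfield.subtype).comp
      (algebraMap A (laurentBaseChange K (modularFunctionFieldFull N))) =
      (HahnSeries.C : K →+* LaurentSeries K).comp A.subtype := by
    refine RingHom.ext (fun a => ?_)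
    show algebraMap K (LaurentSeries K) (a : K) = _
    rw [algebraMap_laurentSeries_eq_single, ← HahnSeries.C_apply]
    rfl
  rw [h2] at h1
  exact h1

/-- Compatibility of evaluation with the base change `ℤ_(ℓ) → A`. -/
theorem s18_fg_coeffEmb_aeval (hℓ : ((ℓ : K))⁻¹ ∉ A) (P : Polynomial (GaloisRep.ratLocalizedAt ℓ)) :
    coeffEmb K ((Polynomial.aeval t P : modularFunctionFieldFull N) : LaurentSeries ℚ) =
      s18_fg_ev A t (P.map (s18_zToA ℓ A hℓ)) := by
  have h1 := Polynomial.hom_eval₂ P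
    (algebraMap (GaloisRep.ratLocalizedAt ℓ) (modularFunctionFieldFull N))
    ((coeffEmb K).comp (kerVal N)) t
  have h2 : ((coeffEmb K).comp (kerVal N)).comp
      (algebraMap (GaloisRep.ratLocalizedAt ℓ) (modularFunctionFieldFull N)) =
      ((HahnSeries.C : K →+* LaurentSeries K).comp A.subtype).comp (s18_zToA ℓ A hℓ) := by
    refine RingHom.ext (fun r => ?_)
    show coeffEmb K (kerVal N (algebraMap (GaloisRep.ratLocalizedAt ℓ)
      (modularFunctionFieldFull N) r)) = HahnSeries.C (algebraMap ℚ K (r : ℚ))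
    rw [kerVal_algebraMap]
    show coeffEmb K (HahnSeries.C (r : ℚ)) = _
    rw [HahnSeries.C_apply, HahnSeries.C_apply, coeffEmb, coeffMap_single]
  rw [h2] at h1
  show coeffEmb K (kerVal N (Polynomial.aeval t P)) = _
  rw [s18_fg_ev, Polynomial.coe_eval₂RingHom, Polynomial.eval₂_map]
  exact h1

/-- The embedding `F_N → K · F_N`. -/
def s18_fg_emb (K : Type*) [Field K] [Algebra ℚ K] (m : modularFunctionFieldFull N) :
    laurentBaseChange K (modularFunctionFieldFull N) :=
  ⟨coeffEmb K (m : LaurentSeries ℚ), coeffEmb_mem_laurentBaseChange K m.2⟩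

omit [NeZero N] in
theorem s18_fg_emb_injective : Function.Injective
    (s18_fg_emb K : modularFunctionFieldFull N → laurentBaseChange K (modularFunctionFieldFull N)) := by
  intro a b hab
  have h1 : coeffEmb K (a : LaurentSeries ℚ) = coeffEmb K (b : LaurentSeries ℚ) :=
    congrArg Subtype.val hab
  exact Subtype.ext (s18_coeffMap_injective _ (algebraMap ℚ K).injective h1)

/-- Key normal form: every element of the chart ring is a combination of the images of the
`ℤ_(ℓ)`-generators with coefficients polynomials in the coordinate over `A`. -/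
theorem s18_fg_chRing_span (hℓ : ((ℓ : K))⁻¹ ∉ A) (gen : Finset (modularFunctionFieldFull N))
    (hspan : ∀ x ∈ chartAlg N ℓ {t}, ∃ c : modularFunctionFieldFull N →
      Polynomial (GaloisRep.ratLocalizedAt ℓ), x = ∑ m ∈ gen, Polynomial.aeval t (c m) * m)
    (z : LaurentSeries K) (hz : z ∈ s18_chRing N ℓ A t) :
    ∃ c : modularFunctionFieldFull N → A[X],
      z = ∑ m ∈ gen, s18_fg_ev A t (c m) * coeffEmb K (m : LaurentSeries ℚ) := by
  refine s18_chSpan_induction (P := fun z => ∃ c : modularFunctionFieldFull N → A[X],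
      z = ∑ m ∈ gen, s18_fg_ev A t (c m) * coeffEmb K (m : LaurentSeries ℚ)) ?_ ?_ ?_ ?_ hz
  · intro r x hx
    obtain ⟨y, hy, rfl⟩ := s18_mem_czRing.mp hx
    obtain ⟨c0, hc0⟩ := hspan y hy
    refine ⟨fun m => Polynomial.C r * (c0 m).map (s18_zToA ℓ A hℓ), ?_⟩
    have h1 : coeffMap (algebraMap ℚ K) ((y : modularFunctionFieldFull N) : LaurentSeries ℚ) =
        ∑ m ∈ gen, s18_fg_ev A t ((c0 m).map (s18_zToA ℓ A hℓ)) *
          coeffEmb K (m : LaurentSeries ℚ) := by
      conv_lhs => rw [hc0]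
      show coeffEmb K (kerVal N (∑ m ∈ gen, Polynomial.aeval t (c0 m) * m)) = _
      rw [map_sum, map_sum]
      refine Finset.sum_congr rfl (fun m _ => ?_)
      rw [map_mul, map_mul, ← s18_fg_coeffEmb_aeval hℓ]
      rfl
    rw [h1, Finset.mul_sum]
    refine Finset.sum_congr rfl (fun m _ => ?_)
    rw [map_mul, mul_assoc]
    congr 1
    show HahnSeries.C (A.subtype r) = Polynomial.eval₂ _ _ (Polynomial.C r)
    rw [Polynomial.eval₂_C]
    rfl
  · exact ⟨fun _ => 0, by simp⟩
  · rintro y y' ⟨c, hc⟩ ⟨c', hc'⟩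
    refine ⟨fun m => c m + c' m, ?_⟩
    rw [hc, hc', ← Finset.sum_add_distrib]
    refine Finset.sum_congr rfl (fun m _ => ?_)
    rw [map_add, add_mul]
  · rintro y ⟨c, hc⟩
    refine ⟨fun m => -c m, ?_⟩
    rw [hc, ← Finset.sum_neg_distrib]
    refine Finset.sum_congr rfl (fun m _ => ?_)
    rw [map_neg, neg_mul]

/-- (H-b) finite generation of the chart over `A[t]` (from the `ℤ_(ℓ)`-level statement Z4). -/
theorem s18_chAlg_fg
    (hZ : ∃ gen : Finset (modularFunctionFieldFull N), (∀ m ∈ gen, m ∈ chartAlg N ℓ {t}) ∧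
      ∀ x ∈ chartAlg N ℓ {t}, ∃ c : modularFunctionFieldFull N →
        Polynomial (GaloisRep.ratLocalizedAt ℓ), x = ∑ m ∈ gen, Polynomial.aeval t (c m) * m)
    (hℓ : ((ℓ : K))⁻¹ ∉ A) :
    ∃ gen : Finset (laurentBaseChange K (modularFunctionFieldFull N)),
      (∀ m ∈ gen, m ∈ s18_chAlg N ℓ A t) ∧
      ∀ x ∈ s18_chAlg N ℓ A t, ∃ c : laurentBaseChange K (modularFunctionFieldFull N) → A[X],
        x = ∑ m ∈ gen, aeval (s18_coord K t) (c m) * m := by
  classical
  obtain ⟨gen0, hgen0, hspan0⟩ := hZ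
  refine ⟨gen0.image (s18_fg_emb K), ?_, ?_⟩
  · intro m hm
    obtain ⟨m0, hm0, rfl⟩ := Finset.mem_image.mp hm
    exact s18_map_mem_chSpan (s18_coe_mem_czRing (hgen0 m0 hm0))
  · intro x hx
    obtain ⟨c, hc⟩ := s18_fg_chRing_span hℓ gen0 hspan0 (x : LaurentSeries K) hx
    refine ⟨fun y => if h : ∃ m0, s18_fg_emb K m0 = y then c h.choose else 0, ?_⟩
    rw [Finset.sum_image (fun a _ b _ hab => s18_fg_emb_injective hab)]
    apply Subtype.ext
    rw [hc, AddSubmonoidClass.coe_finsetSum]
    refine Finset.sum_congr rfl (fun m _ => ?_)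
    have hex : ∃ m0, s18_fg_emb K m0 = s18_fg_emb K m := ⟨m, rfl⟩
    have hch : hex.choose = m := s18_fg_emb_injective hex.choose_spec
    beta_reduce
    rw [dif_pos hex, hch]
    show _ = ((aeval (s18_coord K t) (c m) : laurentBaseChange K (modularFunctionFieldFull N)) :
      LaurentSeries K) * coeffEmb K (m : LaurentSeries ℚ)
    rw [s18_fg_coe_aeval_coord]

/-- (H-b') the chart is a finite `A[X]`-module. -/
theorem s18_chAlg_finite
    (hZ : ∃ gen : Finset (modularFunctionFieldFull N), (∀ m ∈ gen, m ∈ chartAlg N ℓ {t}) ∧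
      ∀ x ∈ chartAlg N ℓ {t}, ∃ c : modularFunctionFieldFull N →
        Polynomial (GaloisRep.ratLocalizedAt ℓ), x = ∑ m ∈ gen, Polynomial.aeval t (c m) * m)
    (hℓ : ((ℓ : K))⁻¹ ∉ A) :
    letI := s18_chPolyAlgebra ℓ A t
    Module.Finite A[X] (s18_chAlg N ℓ A t) := by
  classical
  letI := s18_chPolyAlgebra ℓ A t
  obtain ⟨gen, hgen, hspan⟩ := s18_chAlg_fg (A := A) hZ hℓ
  refine ⟨⟨gen.attach.image (fun m => (⟨m.1, hgen m.1 m.2⟩ : s18_chAlg N ℓ A t)), ?_⟩⟩
  rw [eq_top_iff]
  rintro ⟨x, hx⟩ -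
  obtain ⟨c, hc⟩ := hspan x hx
  have h1 : (⟨x, hx⟩ : s18_chAlg N ℓ A t) =
      ∑ m ∈ gen.attach, c m.1 • (⟨m.1, hgen m.1 m.2⟩ : s18_chAlg N ℓ A t) := by
    apply Subtype.ext
    rw [AddSubmonoidClass.coe_finsetSum]
    show x = _
    rw [hc, ← Finset.sum_attach]
    refine Finset.sum_congr rfl (fun m _ => ?_)
    show aeval (s18_coord K t) (c m.1) * (m.1 : laurentBaseChange K (modularFunctionFieldFull N)) =
      ((aeval (s18_coordB ℓ A t) (c m.1) : s18_chAlg N ℓ A t) :
        laurentBaseChange K (modularFunctionFieldFull N)) * m.1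
    rw [← Subalgebra.aeval_coe]
    rfl
  rw [h1]
  exact Submodule.sum_mem _ (fun m _ => Submodule.smul_mem _ _ (Submodule.subset_span
    (Finset.mem_coe.mpr (Finset.mem_image_of_mem _ (Finset.mem_attach _ m)))))

end ChAlgFg

end Fermat.Agent.S18
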