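import Fermat.Agent.S18.ChartZFrac

/-!
# S18 block C, piece (Z4): finiteness of the `t`-charts over `ℤ_(ℓ)[t]`

The chart `chartAlg N ℓ {t}` (integral closure of `ℤ_(ℓ)[t]` in `F_N`) is a finitely generated
`ℤ_(ℓ)[t]`-module, for a coordinate `t`.
-/

set_option autoImplicit false

open ModularCurve ModularCurve.IgusaScheme

noncomputable section

namespace Fermat.Agent.S18

open Fermat.Agent.S28

attribute [local instance] FractionRing.liftAlgebra in
/-- Finiteness of the integral closure of a noetherian integrally closed domain `A` in a field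
`L` of characteristic zero that is generated, as a field, by `A` and finitely many elements
algebraic over `A`. -/
theorem s18_cz_finite_integralClosure {A L : Type*} [CommRing A] [IsDomain A]
    [IsIntegrallyClosed A] [IsNoetherianRing A] [Field L] [CharZero L] [Algebra A L]
    [FaithfulSMul A L] (G : Set L) (hG : G.Finite) (hGalg : ∀ g ∈ G, IsAlgebraic A g)
    (hgen : ∀ x : L, x ∈ Subfield.closure (Set.range (algebraMap A L) ∪ G)) :
    Module.Finite A (integralClosure A L) := by
  have hst : IsScalarTower A (FractionRing A) L := FractionRing.isScalarTower_liftAlgebra A L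
  have hchar : CharZero (FractionRing A) :=
    (algebraMap (FractionRing A) L).charZero
  have hfin : Finite G := hG
  have hE : FiniteDimensional (FractionRing A) (IntermediateField.adjoin (FractionRing A) G) :=
    IntermediateField.finiteDimensional_adjoin (fun g hg =>
      isAlgebraic_iff_isIntegral.mp ((IsFractionRing.isAlgebraic_iff A (FractionRing A) L).mp
        (hGalg g hg)))
  have htop : IntermediateField.adjoin (FractionRing A) G = ⊤ := by
    rw [eq_top_iff]
    intro x _
    have h1 : Subfield.closure (Set.range (algebraMap A L) ∪ G) ≤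
        (IntermediateField.adjoin (FractionRing A) G).toSubfield := by
      rw [Subfield.closure_le]
      rintro y (⟨a, rfl⟩ | hy)
      · rw [IsScalarTower.algebraMap_apply A (FractionRing A) L]
        exact (IntermediateField.adjoin (FractionRing A) G).algebraMap_mem _
      · exact IntermediateField.subset_adjoin _ _ hy
    exact h1 (hgen x)
  have hL : FiniteDimensional (FractionRing A) L := by
    rw [htop] at hE
    exact Module.Finite.equiv (IntermediateField.topEquiv (F := FractionRing A) (E := L)).toLinearEquiv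
  exact IsIntegralClosure.finite A (FractionRing A) L (integralClosure A L)

variable {N : ℕ} [NeZero N] {ℓ : ℕ} [Fact ℓ.Prime]

variable (N) in
/-- The generating set of the function field `F_N` is finite. -/
theorem s18_cz_divisorExpansions_finite : (divisorExpansions N).Finite := by
  classical
  refine Set.Finite.subset ((Nat.divisors N).finite_toSet.image
    (fun d : ℕ => if hd : d = 0 then (0 : LaurentSeries ℚ) else
      haveI : NeZero d := ⟨hd⟩; qExpand ℚ d jq)) ?_
  rintro x ⟨d, hd, hdN, rfl⟩
  refine ⟨d, ?_, ?_⟩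
  · exact Finset.mem_coe.mpr (Nat.mem_divisors.mpr ⟨hdN, NeZero.ne N⟩)
  · show (if hd' : d = 0 then (0 : LaurentSeries ℚ) else
      haveI : NeZero d := ⟨hd'⟩; qExpand ℚ d jq) = _
    rw [dif_neg (NeZero.ne d)]

omit [NeZero N] in
/-- Every element of `F_N` lies in any subfield containing the generators. -/
theorem s18_cz_mem_closure (S : Subfield (modularFunctionFieldFull N))
    (hS : ∀ x : modularFunctionFieldFull N, (x : LaurentSeries ℚ) ∈ divisorExpansions N → x ∈ S)
    (x : modularFunctionFieldFull N) : x ∈ S := by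
  have h1 : (IntermediateField.adjoin ℚ (divisorExpansions N)).toSubfield ≤
      S.map (modularFunctionFieldFull N).toSubfield.subtype := by
    apply IntermediateField.adjoin_le_subfield
    · rintro y ⟨r, rfl⟩
      have h0 : algebraMap ℚ (LaurentSeries ℚ) r = ((r : ℚ) : LaurentSeries ℚ) := eq_ratCast _ r
      rw [h0]
      exact SubfieldClass.ratCast_mem _ r
    · intro y hy
      have hyF : y ∈ modularFunctionFieldFull N := IntermediateField.subset_adjoin ℚ _ hy
      exact ⟨⟨y, hyF⟩, hS ⟨y, hyF⟩ hy, rfl⟩
  obtain ⟨x', hx', hxx'⟩ := h1 x.2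
  have h2 : x' = x := Subtype.ext hxx'
  rw [← h2]
  exact hx'

/-- **Finiteness of the chart** `ℤ_(ℓ)[t]^~` over `ℤ_(ℓ)[t]`, for a coordinate `t`: there is a
finite set of elements of the chart such that every element of the chart is a combination of
them with coefficients in `ℤ_(ℓ)[t]`. -/
theorem s18_cz_Coord.exists_finset_span {t : modularFunctionFieldFull N}
    (h : s18_cz_Coord N ℓ t) {B : Subring (LaurentSeries ℚ)} (hB : CoreData N ℓ B) :
    ∃ gen : Finset (modularFunctionFieldFull N), (∀ m ∈ gen, m ∈ chartAlg N ℓ {t}) ∧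
      ∀ x ∈ chartAlg N ℓ {t}, ∃ c : modularFunctionFieldFull N →
        Polynomial (GaloisRep.ratLocalizedAt ℓ),
        x = ∑ m ∈ gen, Polynomial.aeval t (c m) * m := by
  classical
  let algA : Algebra (Polynomial (GaloisRep.ratLocalizedAt ℓ)) (modularFunctionFieldFull N) :=
    (Polynomial.aeval t : Polynomial (GaloisRep.ratLocalizedAt ℓ) →ₐ[GaloisRep.ratLocalizedAt ℓ]
      modularFunctionFieldFull N).toRingHom.toAlgebra
  have hfaith : FaithfulSMul (Polynomial (GaloisRep.ratLocalizedAt ℓ))
      (modularFunctionFieldFull N) :=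
    (faithfulSMul_iff_algebraMap_injective _ _).mpr h.aeval_injective
  have hint_iff : ∀ x : modularFunctionFieldFull N,
      IsIntegral (Polynomial (GaloisRep.ratLocalizedAt ℓ)) x ↔ x ∈ chartAlg N ℓ {t} := by
    intro x
    rw [mem_chartAlg_iff, s18_cz_isIntegral_adjoin_singleton_iff]
    rfl
  have halg : ∀ x : modularFunctionFieldFull N,
      IsAlgebraic (Polynomial (GaloisRep.ratLocalizedAt ℓ)) x := by
    intro x
    obtain ⟨a, ha, b, hb, -, rfl⟩ := h.exists_frac hB x
    rw [div_eq_mul_inv]
    exact ((hint_iff a).mpr ha).isAlgebraic.mul ((hint_iff b).mpr hb).isAlgebraic.inv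
  have hfin : Module.Finite (Polynomial (GaloisRep.ratLocalizedAt ℓ))
      (integralClosure (Polynomial (GaloisRep.ratLocalizedAt ℓ)) (modularFunctionFieldFull N)) := by
    refine s18_cz_finite_integralClosure
      (G := {x : modularFunctionFieldFull N | (x : LaurentSeries ℚ) ∈ divisorExpansions N})
      ?_ (fun g _ => halg g) ?_
    · exact Set.Finite.preimage Subtype.val_injective.injOn (s18_cz_divisorExpansions_finite N)
    · intro x
      exact s18_cz_mem_closure _ (fun y hy => Subfield.subset_closure (Or.inr hy)) x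
  obtain ⟨S, hS⟩ := hfin.fg_top
  refine ⟨S.image (Subtype.val : integralClosure (Polynomial (GaloisRep.ratLocalizedAt ℓ))
    (modularFunctionFieldFull N) → modularFunctionFieldFull N), ?_, ?_⟩
  · intro m hm
    obtain ⟨m', -, rfl⟩ := Finset.mem_image.mp hm
    exact (hint_iff _).mp m'.2
  · intro x hx
    have hx' : (⟨x, (hint_iff x).mpr hx⟩ : integralClosure (Polynomial (GaloisRep.ratLocalizedAt ℓ))
        (modularFunctionFieldFull N)) ∈ Submodule.span (Polynomial (GaloisRep.ratLocalizedAt ℓ))
        (S : Set (integralClosure (Polynomial (GaloisRep.ratLocalizedAt ℓ))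
          (modularFunctionFieldFull N))) := by
      rw [hS]
      trivial
    obtain ⟨f, -, hf⟩ := Submodule.mem_span_finset.mp hx'
    refine ⟨fun y => if hy : y ∈ integralClosure (Polynomial (GaloisRep.ratLocalizedAt ℓ))
      (modularFunctionFieldFull N) then f ⟨y, hy⟩ else 0, ?_⟩
    rw [Finset.sum_image (fun a _ b _ hab => Subtype.ext hab)]
    have h1 := congrArg (fun z : integralClosure (Polynomial (GaloisRep.ratLocalizedAt ℓ))
      (modularFunctionFieldFull N) => (z : modularFunctionFieldFull N)) hf
    simp only [AddSubmonoidClass.coe_finsetSum] at h1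
    rw [← h1]
    refine Finset.sum_congr rfl (fun a _ => ?_)
    beta_reduce
    rw [dif_pos a.2]
    rfl

/-- Finiteness of the chart `ℤ_(ℓ)[t⁻¹]^~` over `ℤ_(ℓ)[t⁻¹]`. -/
theorem s18_cz_Coord.exists_finset_span_inv {t : modularFunctionFieldFull N}
    (h : s18_cz_Coord N ℓ t) {B : Subring (LaurentSeries ℚ)} (hB : CoreData N ℓ B) :
    ∃ gen : Finset (modularFunctionFieldFull N), (∀ m ∈ gen, m ∈ chartAlg N ℓ {t⁻¹}) ∧
      ∀ x ∈ chartAlg N ℓ {t⁻¹}, ∃ c : modularFunctionFieldFull N →
        Polynomial (GaloisRep.ratLocalizedAt ℓ),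
        x = ∑ m ∈ gen, Polynomial.aeval t⁻¹ (c m) * m :=
  h.inv.exists_finset_span hB

end Fermat.Agent.S18
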