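import Fermat.Agent.S18.ChAlgFg
import Fermat.Agent.S18.ChartZFin

/-!
# S18, block C (H-a): separability of the residue extension of the chart over `A`

For a coordinate `t` with integral `q`-expansion of order `±1`, every element `x` of the chart
`s18_chAlg N ℓ A t` is, modulo `π`, a simple root of a polynomial over `A[t]`.
-/

set_option autoImplicit false
set_option synthInstance.maxHeartbeats 400000

open ModularCurve ModularCurve.IgusaScheme Fermat.Agent.S28 Polynomial

noncomputable section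

namespace Fermat.Agent.S18

section ChAlgSep

variable {N : ℕ} [NeZero N] {ℓ : ℕ} [Fact ℓ.Prime]
variable {K : Type*} [Field K] [Algebra ℚ K] {A : ValuationSubring K}
variable {t : modularFunctionFieldFull N}

/-- The order of a Laurent series with prescribed leading term. -/
theorem s18_sep_order_of_isLeading {κ : Type*} [Field κ] (u : LaurentSeries κ) (e : ℤ)
    (h1 : u.coeff e ≠ 0) (h2 : ∀ n < e, u.coeff n = 0) : u.order = e := by
  apply le_antisymm (HahnSeries.order_le_of_coeff_ne_zero h1)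
  by_contra hlt
  rw [not_le] at hlt
  have h3 := h2 _ hlt
  rw [HahnSeries.coeff_order_eq_zero] at h3
  rw [h3] at h1
  exact h1 (HahnSeries.coeff_zero)

/-- The residue field of `A` is finite when `(A, π)` has a residue basis. -/
theorem s18_sep_finite_res {π : A} (hR : s18_ResBasis ℓ A π) :
    Finite (IsLocalRing.ResidueField A) := by
  have hℓp : ℓ.Prime := Fact.out
  have : NeZero ℓ := ⟨hℓp.ne_zero⟩
  obtain ⟨f, a, hgen, -⟩ := hR.basis
  have hπ : IsLocalRing.residue A π = 0 := s18_residue_uniformizer hR.irr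
  let g : (Fin f → ZMod ℓ) → IsLocalRing.ResidueField A := fun u =>
    ∑ i, s18_zmodToRes ℓ A hR.unit (u i) * IsLocalRing.residue A (a i)
  have hg : Function.Surjective g := by
    intro k
    obtain ⟨x, rfl⟩ := IsLocalRing.residue_surjective k
    obtain ⟨c, y, hx⟩ := hgen x
    refine ⟨fun i => ((c i : ℤ) : ZMod ℓ), ?_⟩
    show ∑ i, s18_zmodToRes ℓ A hR.unit (((c i : ℤ) : ZMod ℓ)) * IsLocalRing.residue A (a i) = _
    rw [hx, map_add, map_mul, hπ, zero_mul, add_zero, map_sum]
    refine Finset.sum_congr rfl (fun i _ => ?_)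
    rw [map_mul, map_intCast, map_intCast]
  exact Finite.of_surjective g hg

/-- The reduction map on the chart algebra. -/
def s18_sep_red (hℓ : ((ℓ : K))⁻¹ ∉ A) (h : s18_cz_Coord N ℓ t)
    {B : Subring (LaurentSeries ℚ)} (hB : CoreData N ℓ B) :
    s18_chAlg N ℓ A t →+* LaurentSeries (IsLocalRing.ResidueField A) :=
  (s18_chRed hℓ h hB).comp
    (RingHom.codRestrict
      (((laurentBaseChange K (modularFunctionFieldFull N)).toSubfield.subtype).comp
        (s18_chAlg N ℓ A t).val.toRingHom) (s18_chRing N ℓ A t) (fun x => x.2))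

theorem s18_sep_red_apply (hℓ : ((ℓ : K))⁻¹ ∉ A) (h : s18_cz_Coord N ℓ t)
    {B : Subring (LaurentSeries ℚ)} (hB : CoreData N ℓ B) (x : s18_chAlg N ℓ A t) :
    s18_sep_red hℓ h hB x = s18_red (ρ := IsLocalRing.residue A)
      (s18_valSubtype_injective (A := A))
      ⟨((x : laurentBaseChange K (modularFunctionFieldFull N)) : LaurentSeries K),
        s18_chRing_le_W hℓ h hB x.2⟩ := rfl

/-- Reduction of constants. -/
theorem s18_sep_red_algebraMap (hℓ : ((ℓ : K))⁻¹ ∉ A) (h : s18_cz_Coord N ℓ t)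
    {B : Subring (LaurentSeries ℚ)} (hB : CoreData N ℓ B) (a : A) :
    s18_sep_red hℓ h hB (algebraMap A (s18_chAlg N ℓ A t) a) =
      HahnSeries.C (IsLocalRing.residue A a) := by
  rw [s18_sep_red_apply]
  have h1 : (((algebraMap A (s18_chAlg N ℓ A t) a : s18_chAlg N ℓ A t) :
      laurentBaseChange K (modularFunctionFieldFull N)) : LaurentSeries K) =
      HahnSeries.C (A.subtype a) := by
    show algebraMap K (LaurentSeries K) (a : K) = _
    rw [algebraMap_laurentSeries_eq_single, ← HahnSeries.C_apply]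
    rfl
  have h2 : (⟨(((algebraMap A (s18_chAlg N ℓ A t) a : s18_chAlg N ℓ A t) :
      laurentBaseChange K (modularFunctionFieldFull N)) : LaurentSeries K),
      s18_chRing_le_W hℓ h hB (algebraMap A (s18_chAlg N ℓ A t) a).2⟩ :
      s18_W A.subtype (IsLocalRing.residue A)) =
      ⟨HahnSeries.C (A.subtype a), s18_C_mem_W a⟩ := Subtype.ext h1
  rw [h2, s18_red_C]

/-- Reduction of the coordinate: coefficientwise reduction of its integral `q`-expansion. -/
theorem s18_sep_red_coord (hℓ : ((ℓ : K))⁻¹ ∉ A) (h : s18_cz_Coord N ℓ t)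
    {B : Subring (LaurentSeries ℚ)} (hB : CoreData N ℓ B)
    (T : LaurentSeries ℤ) (hT : (t : LaurentSeries ℚ) = coeffMap (Int.castRingHom ℚ) T) :
    s18_sep_red hℓ h hB (s18_coordB ℓ A t) =
      coeffMap (Int.castRingHom (IsLocalRing.ResidueField A)) T := by
  rw [s18_sep_red_apply]
  have h1 : (((s18_coordB ℓ A t : s18_chAlg N ℓ A t) :
      laurentBaseChange K (modularFunctionFieldFull N)) : LaurentSeries K) =
      coeffMap A.subtype (coeffMap (Int.castRingHom A) T) := by
    show coeffEmb K (t : LaurentSeries ℚ) = _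
    rw [hT, coeffEmb, coeffMap_coeffMap, coeffMap_coeffMap]
    exact coeffMap_congr (RingHom.ext_int _ _) T
  have h2 : (⟨(((s18_coordB ℓ A t : s18_chAlg N ℓ A t) :
      laurentBaseChange K (modularFunctionFieldFull N)) : LaurentSeries K),
      s18_chRing_le_W hℓ h hB (s18_coordB ℓ A t).2⟩ :
      s18_W A.subtype (IsLocalRing.residue A)) =
      ⟨coeffMap A.subtype (coeffMap (Int.castRingHom A) T), s18_coeffMap_mem_W _ _ _⟩ :=
    Subtype.ext h1
  rw [h2, s18_red_coeffMap, coeffMap_coeffMap]
  exact coeffMap_congr (RingHom.ext_int _ _) T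

/-- The reduction of a polynomial in the coordinate. -/
theorem s18_sep_red_comp (hℓ : ((ℓ : K))⁻¹ ∉ A) (h : s18_cz_Coord N ℓ t)
    {B : Subring (LaurentSeries ℚ)} (hB : CoreData N ℓ B) :
    (s18_sep_red hℓ h hB).comp
      (Polynomial.aeval (s18_coordB ℓ A t) : A[X] →ₐ[A] s18_chAlg N ℓ A t).toRingHom =
      (Polynomial.eval₂RingHom HahnSeries.C (s18_sep_red hℓ h hB (s18_coordB ℓ A t))).comp
        (Polynomial.mapRingHom (IsLocalRing.residue A)) := by
  apply Polynomial.ringHom_ext
  · intro a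
    show s18_sep_red hℓ h hB (aeval (s18_coordB ℓ A t) (C a)) =
      eval₂ HahnSeries.C _ ((C a).map (IsLocalRing.residue A))
    rw [aeval_C, s18_sep_red_algebraMap, Polynomial.map_C, eval₂_C]
  · show s18_sep_red hℓ h hB (aeval (s18_coordB ℓ A t) X) =
      eval₂ HahnSeries.C _ ((X : A[X]).map (IsLocalRing.residue A))
    rw [aeval_X, Polynomial.map_X, eval₂_X]

/-- The reduction of a bivariate polynomial expression `P(t, x)`. -/
theorem s18_sep_red_aeval (hℓ : ((ℓ : K))⁻¹ ∉ A) (h : s18_cz_Coord N ℓ t)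
    {B : Subring (LaurentSeries ℚ)} (hB : CoreData N ℓ B) (x : s18_chAlg N ℓ A t)
    (P : A[X][X]) :
    letI := s18_chPolyAlgebra ℓ A t
    s18_sep_red hℓ h hB (aeval x P) =
      (P.map (Polynomial.mapRingHom (IsLocalRing.residue A))).eval₂
        (Polynomial.eval₂RingHom HahnSeries.C (s18_sep_red hℓ h hB (s18_coordB ℓ A t)))
        (s18_sep_red hℓ h hB x) := by
  letI := s18_chPolyAlgebra ℓ A t
  rw [Polynomial.eval₂_map, ← s18_sep_red_comp]
  exact Polynomial.hom_eval₂ P (algebraMap A[X] (s18_chAlg N ℓ A t)) (s18_sep_red hℓ h hB) x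

/-- Divisibility by `π` in the chart is detected by the reduction map. -/
theorem s18_sep_dvd_iff [IsDiscreteValuationRing A] {π : A} (hR : s18_ResBasis ℓ A π)
    (h : s18_cz_Coord N ℓ t) {B : Subring (LaurentSeries ℚ)} (hB : CoreData N ℓ B)
    (y : s18_chAlg N ℓ A t) :
    algebraMap A (s18_chAlg N ℓ A t) π ∣ y ↔ s18_sep_red hR.unit h hB y = 0 := by
  constructor
  · rintro ⟨z, rfl⟩
    rw [map_mul, s18_sep_red_algebraMap, s18_residue_uniformizer hR.irr, map_zero, zero_mul]
  · intro h0
    rw [s18_sep_red_apply] at h0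
    obtain ⟨y', hy', hyy'⟩ := s18_chRing_kernel hR h hB _ y.2 h0
    have hCπ : (HahnSeries.C (A.subtype π) : LaurentSeries K) =
        algebraMap K (LaurentSeries K) (π : K) := by
      rw [algebraMap_laurentSeries_eq_single, ← HahnSeries.C_apply]
      rfl
    have hπ0 : (HahnSeries.C (A.subtype π) : LaurentSeries K) ≠ 0 := by
      intro h1
      have h2 : A.subtype π = 0 := HahnSeries.C_injective (by rw [h1, map_zero])
      exact hR.irr.ne_zero (Subtype.ext h2)
    have hy'F : y' ∈ laurentBaseChange K (modularFunctionFieldFull N) := by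
      have h1 : y' = (HahnSeries.C (A.subtype π) : LaurentSeries K)⁻¹ *
          ((y : laurentBaseChange K (modularFunctionFieldFull N)) : LaurentSeries K) := by
        rw [hyy', inv_mul_cancel_left₀ hπ0]
      rw [h1]
      refine mul_mem (inv_mem ?_) (y : laurentBaseChange K (modularFunctionFieldFull N)).2
      rw [hCπ]
      exact (laurentBaseChange K (modularFunctionFieldFull N)).algebraMap_mem _
    refine ⟨⟨⟨y', hy'F⟩, hy'⟩, ?_⟩
    apply Subtype.ext
    apply Subtype.ext
    show ((y : laurentBaseChange K (modularFunctionFieldFull N)) : LaurentSeries K) =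
      algebraMap K (LaurentSeries K) (π : K) * y'
    rw [← hCπ]
    exact hyy'

/-- (H-a) separability of the residue extension, in the shape of `s18_sm`.
Hypothesis `hT`: `t` has an integral `q`-expansion with leading term `q^e`, `e = ±1`. -/
theorem s18_chAlg_hsep [IsDiscreteValuationRing A] {π : A} (hR : s18_ResBasis ℓ A π)
    (h : s18_cz_Coord N ℓ t) {B : Subring (LaurentSeries ℚ)} (hB : CoreData N ℓ B)
    (T : LaurentSeries ℤ) (hT : (t : LaurentSeries ℚ) = coeffMap (Int.castRingHom ℚ) T)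
    (e : ℤ) (he : e = 1 ∨ e = -1) (hlead : IsLeading T e 1) :
    letI := s18_chPolyAlgebra ℓ A t
    ∀ x : s18_chAlg N ℓ A t, ∃ P : A[X][X],
      (algebraMap A[X] (s18_chAlg N ℓ A t) (C π)) ∣ aeval x P ∧
      ¬ (algebraMap A[X] (s18_chAlg N ℓ A t) (C π)) ∣ aeval x (derivative P) := by
  letI := s18_chPolyAlgebra ℓ A t
  intro x
  have hℓp : ℓ.Prime := Fact.out
  have hfin : Finite (IsLocalRing.ResidueField A) := s18_sep_finite_res hR
  have hchar : CharP (IsLocalRing.ResidueField A) ℓ := s18_charP_res ℓ A hR.unit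
  -- the reduced coordinate and its order
  have hu := s18_sep_red_coord hR.unit h hB T hT
  have hord : (s18_sep_red hR.unit h hB (s18_coordB ℓ A t)).order = e := by
    rw [hu]
    apply s18_sep_order_of_isLeading
    · rw [coeffMap_coeff, hlead.1, map_one]
      exact one_ne_zero
    · intro n hn
      rw [coeffMap_coeff, hlead.2 n hn, map_zero]
  have hnd : ¬ ((ℓ : ℕ) : ℤ) ∣ (s18_sep_red hR.unit h hB (s18_coordB ℓ A t)).order := by
    rw [hord]
    intro hd
    have h1 : ((ℓ : ℕ) : ℤ) ∣ 1 := by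
      rcases he with rfl | rfl
      · exact hd
      · exact (dvd_neg.mp hd)
    have h2 : ((ℓ : ℕ) : ℤ) ≤ 1 := Int.le_of_dvd one_pos h1
    have h3 : 2 ≤ ℓ := hℓp.two_le
    omega
  -- an algebraic relation for `x`
  have hmodfin : Module.Finite A[X] (s18_chAlg N ℓ A t) :=
    s18_chAlg_finite (A := A) (h.exists_finset_span hB) hR.unit
  obtain ⟨Q0, hQ0m, hQ0⟩ : IsIntegral A[X] x := IsIntegral.of_finite A[X] x
  have hQ0' : aeval x Q0 = 0 := hQ0
  have hroot := s18_sep_red_aeval hR.unit h hB x Q0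
  rw [hQ0', map_zero] at hroot
  have hQne : Q0.map (Polynomial.mapRingHom (IsLocalRing.residue A)) ≠ 0 :=
    (hQ0m.map _).ne_zero
  obtain ⟨Pbar, hP1, hP2⟩ := s18_ch_sep ℓ (s18_sep_red hR.unit h hB (s18_coordB ℓ A t))
    (s18_sep_red hR.unit h hB x) hnd _ hQne hroot.symm
  -- lift
  obtain ⟨P, rfl⟩ := Polynomial.map_surjective (Polynomial.mapRingHom (IsLocalRing.residue A))
    (Polynomial.map_surjective (IsLocalRing.residue A) IsLocalRing.residue_surjective) Pbar
  have halg : algebraMap A[X] (s18_chAlg N ℓ A t) (C π) = algebraMap A (s18_chAlg N ℓ A t) π := by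
    show aeval (s18_coordB ℓ A t) (C π) = _
    rw [aeval_C]
  refine ⟨P, ?_, ?_⟩
  · rw [halg, s18_sep_dvd_iff hR h hB, s18_sep_red_aeval]
    exact hP1
  · rw [halg, s18_sep_dvd_iff hR h hB, s18_sep_red_aeval, ← Polynomial.derivative_map]
    exact hP2

end ChAlgSep

end Fermat.Agent.S18
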