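import Fermat.Agent.S18.ChAlgSep

/-!
# S18, block C: the `sep` and `noeth` fields of `s18_SmHyp` for the chart `s18_chAlg N ℓ A t`

Ambient (no `A[X]`-algebra instance) forms of the separability statement `s18_chAlg_hsep` and
noetherianity of the chart.
-/

set_option autoImplicit false
set_option synthInstance.maxHeartbeats 400000

open ModularCurve ModularCurve.IgusaScheme Fermat.Agent.S28 Polynomial

noncomputable section

namespace Fermat.Agent.S18

section ChAlgSm

variable {N : ℕ} [NeZero N] {ℓ : ℕ} [Fact ℓ.Prime]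
variable {K : Type*} [Field K] [Algebra ℚ K] {A : ValuationSubring K}
variable {t : modularFunctionFieldFull N}

/-- Divisibility by `π` in the chart (as an `A[X]`-algebra), in ambient terms. -/
theorem s18_sm_dvd_iff {π : A} (hπ0 : π ≠ 0) (y : s18_chAlg N ℓ A t) :
    letI := s18_chPolyAlgebra ℓ A t
    (algebraMap A[X] (s18_chAlg N ℓ A t) (C π)) ∣ y ↔
      (algebraMap A (laurentBaseChange K (modularFunctionFieldFull N)) π)⁻¹ *
        (y : laurentBaseChange K (modularFunctionFieldFull N)) ∈ s18_chAlg N ℓ A t := by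
  letI := s18_chPolyAlgebra ℓ A t
  have halg : algebraMap A[X] (s18_chAlg N ℓ A t) (C π) = algebraMap A (s18_chAlg N ℓ A t) π := by
    show aeval (s18_coordB ℓ A t) (C π) = _
    rw [aeval_C]
  have hcoe : ((algebraMap A (s18_chAlg N ℓ A t) π : s18_chAlg N ℓ A t) :
      laurentBaseChange K (modularFunctionFieldFull N)) =
      algebraMap A (laurentBaseChange K (modularFunctionFieldFull N)) π := rfl
  have hne : algebraMap A (laurentBaseChange K (modularFunctionFieldFull N)) π ≠ 0 := by
    intro h0
    have h1 : algebraMap K (laurentBaseChange K (modularFunctionFieldFull N)) (π : K) = 0 := h0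
    rw [map_eq_zero] at h1
    exact hπ0 (Subtype.ext h1)
  rw [halg]
  constructor
  · rintro ⟨z, rfl⟩
    have h1 : (algebraMap A (laurentBaseChange K (modularFunctionFieldFull N)) π)⁻¹ *
        ((algebraMap A (s18_chAlg N ℓ A t) π * z : s18_chAlg N ℓ A t) :
          laurentBaseChange K (modularFunctionFieldFull N)) = z := by
      rw [Subalgebra.coe_mul, hcoe, inv_mul_cancel_left₀ hne]
    rw [h1]
    exact z.2
  · intro hz
    refine ⟨⟨_, hz⟩, ?_⟩
    apply Subtype.ext
    rw [Subalgebra.coe_mul, hcoe]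
    show (y : laurentBaseChange K (modularFunctionFieldFull N)) =
      algebraMap A (laurentBaseChange K (modularFunctionFieldFull N)) π *
        ((algebraMap A (laurentBaseChange K (modularFunctionFieldFull N)) π)⁻¹ * y)
    rw [mul_inv_cancel_left₀ hne]

/-- Evaluation in the chart versus evaluation in the ambient field. -/
theorem s18_sm_coe_aeval (x : s18_chAlg N ℓ A t) (P : A[X][X]) :
    letI := s18_chPolyAlgebra ℓ A t
    ((aeval x P : s18_chAlg N ℓ A t) : laurentBaseChange K (modularFunctionFieldFull N)) =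
      P.eval₂ (aeval (s18_coord K t) : A[X] →ₐ[A]
        laurentBaseChange K (modularFunctionFieldFull N)).toRingHom
        (x : laurentBaseChange K (modularFunctionFieldFull N)) := by
  letI := s18_chPolyAlgebra ℓ A t
  have h1 := Polynomial.hom_eval₂ P (algebraMap A[X] (s18_chAlg N ℓ A t))
    (s18_chAlg N ℓ A t).val.toRingHom x
  have h2 : ((s18_chAlg N ℓ A t).val.toRingHom).comp (algebraMap A[X] (s18_chAlg N ℓ A t)) =
      (aeval (s18_coord K t) : A[X] →ₐ[A]
        laurentBaseChange K (modularFunctionFieldFull N)).toRingHom := by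
    refine RingHom.ext (fun p => ?_)
    exact (Subalgebra.aeval_coe (s18_chAlg N ℓ A t) (s18_coordB ℓ A t) p).symm
  rw [h2] at h1
  exact h1

/-- **Field `sep` of `s18_SmHyp`** for the chart of a coordinate with integral `q`-expansion of
order `±1`: every element of the chart is, modulo `π`, a simple root of a polynomial over
`A[t]`. -/
theorem s18_chAlg_sep [IsDiscreteValuationRing A] {π : A} (hR : s18_ResBasis ℓ A π)
    (h : s18_cz_Coord N ℓ t) {B : Subring (LaurentSeries ℚ)} (hB : CoreData N ℓ B)
    (T : LaurentSeries ℤ) (hT : (t : LaurentSeries ℚ) = coeffMap (Int.castRingHom ℚ) T)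
    (e : ℤ) (he : e = 1 ∨ e = -1) (hlead : IsLeading T e 1) :
    ∀ x ∈ s18_chAlg N ℓ A t, ∃ P : A[X][X],
      (algebraMap A (laurentBaseChange K (modularFunctionFieldFull N)) π)⁻¹ *
        P.eval₂ (aeval (s18_coord K t) : A[X] →ₐ[A]
          laurentBaseChange K (modularFunctionFieldFull N)).toRingHom x ∈ s18_chAlg N ℓ A t ∧
      (algebraMap A (laurentBaseChange K (modularFunctionFieldFull N)) π)⁻¹ *
        (derivative P).eval₂ (aeval (s18_coord K t) : A[X] →ₐ[A]
          laurentBaseChange K (modularFunctionFieldFull N)).toRingHom x ∉ s18_chAlg N ℓ A t := by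
  intro x hx
  obtain ⟨P, hP1, hP2⟩ := s18_chAlg_hsep hR h hB T hT e he hlead ⟨x, hx⟩
  rw [s18_sm_dvd_iff hR.irr.ne_zero, s18_sm_coe_aeval] at hP1 hP2
  exact ⟨P, hP1, hP2⟩

/-- **Field `noeth` of `s18_PreChart`**: the chart is a noetherian ring. -/
theorem s18_chAlg_noeth [IsDiscreteValuationRing A] (hℓ : ((ℓ : K))⁻¹ ∉ A)
    (h : s18_cz_Coord N ℓ t) {B : Subring (LaurentSeries ℚ)} (hB : CoreData N ℓ B) :
    IsNoetherianRing ↥(s18_chAlg N ℓ A t).toSubring := by
  letI := s18_chPolyAlgebra ℓ A t
  have hfin : Module.Finite A[X] (s18_chAlg N ℓ A t) :=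
    s18_chAlg_finite (A := A) (h.exists_finset_span hB) hℓ
  have h1 : IsNoetherianRing (s18_chAlg N ℓ A t) := IsNoetherianRing.of_finite A[X] _
  exact h1

end ChAlgSm

end Fermat.Agent.S18
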