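import Mathlib
import Fermat.Prelude.Def_ModularCurve_LaurentCoeff

/-!
# S18, block C (Ca): the coefficientwise Gauss ring in `L((q))`

For a commutative ring `R` with an injective ring hom `ι : R →+* L` into a field and a ring hom
`ρ : R →+* k` into a field, `s18_W ι ρ` is the subring of `L((q))` of all `x` with `s * x = y` for
some `s, y ∈ R((q))` with `ρ(s) ≠ 0`, and `s18_red` is the reduction map `y / s ↦ ρ(y) / ρ(s)` to
`k((q))`.  (Generalises `S28.Wring` / `S28.redW`.)
-/

set_option autoImplicit false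

open ModularCurve

noncomputable section

namespace Fermat.Agent.S18

section Gauss

variable {R L k : Type*} [CommRing R] [Field L] [Field k] (ι : R →+* L) (ρ : R →+* k)

theorem s18_coeffMap_injective {R S : Type*} [CommRing R] [CommRing S] (f : R →+* S)
    (hf : Function.Injective f) : Function.Injective (coeffMap f) := by
  intro x y hxy
  ext n
  have h2 := congrArg (fun z : LaurentSeries S => z.coeff n) hxy
  simp only [coeffMap_coeff] at h2
  exact hf h2

/-- The coefficientwise Gauss ring. -/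
def s18_W : Subring (LaurentSeries L) where
  carrier := {x | ∃ s y : LaurentSeries R, coeffMap ρ s ≠ 0 ∧ coeffMap ι s * x = coeffMap ι y}
  mul_mem' := by
    rintro a b ⟨s, y, hs, h⟩ ⟨s', y', hs', h'⟩
    refine ⟨s * s', y * y', ?_, ?_⟩
    · rw [map_mul]
      exact mul_ne_zero hs hs'
    · rw [map_mul, map_mul, ← h, ← h']
      ring
  one_mem' := ⟨1, 1, by rw [map_one]; exact one_ne_zero, by rw [map_one, one_mul]⟩
  add_mem' := by
    rintro a b ⟨s, y, hs, h⟩ ⟨s', y', hs', h'⟩
    refine ⟨s * s', s' * y + s * y', ?_, ?_⟩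
    · rw [map_mul]
      exact mul_ne_zero hs hs'
    · rw [map_mul, map_add, map_mul, map_mul, ← h, ← h']
      ring
  zero_mem' := ⟨1, 0, by rw [map_one]; exact one_ne_zero, by rw [map_zero, mul_zero]⟩
  neg_mem' := by
    rintro a ⟨s, y, hs, h⟩
    exact ⟨s, -y, hs, by rw [map_neg, ← h]; ring⟩

theorem s18_mem_W_iff (x : LaurentSeries L) :
    x ∈ s18_W ι ρ ↔ ∃ s y : LaurentSeries R,
      coeffMap ρ s ≠ 0 ∧ coeffMap ι s * x = coeffMap ι y := Iff.rfl

theorem s18_coeffMap_mem_W (y : LaurentSeries R) : coeffMap ι y ∈ s18_W ι ρ :=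
  ⟨1, y, by rw [map_one]; exact one_ne_zero, by rw [map_one, one_mul]⟩

variable {ι ρ}

theorem s18_W_exists_rep (x : s18_W ι ρ) : ∃ s y : LaurentSeries R,
    coeffMap ρ s ≠ 0 ∧ coeffMap ι s * (x : LaurentSeries L) = coeffMap ι y :=
  (s18_mem_W_iff ι ρ _).mp x.2

/-- Two fraction representations of the same series are cross-equal after reduction. -/
theorem s18_W_red_cross (hι : Function.Injective ι) {x : LaurentSeries L}
    {s y s' y' : LaurentSeries R}
    (h : coeffMap ι s * x = coeffMap ι y) (h' : coeffMap ι s' * x = coeffMap ι y') :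
    coeffMap ρ s' * coeffMap ρ y = coeffMap ρ s * coeffMap ρ y' := by
  have h1 : s' * y = s * y' := by
    apply s18_coeffMap_injective ι hι
    rw [map_mul, map_mul, ← h, ← h']
    ring
  rw [← map_mul, ← map_mul, h1]

/-- The underlying function of `s18_red`. -/
def s18_redFun (x : s18_W ι ρ) : LaurentSeries k :=
  coeffMap ρ (s18_W_exists_rep x).choose_spec.choose / coeffMap ρ (s18_W_exists_rep x).choose

theorem s18_redFun_eq (hι : Function.Injective ι) (x : s18_W ι ρ) (s y : LaurentSeries R)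
    (hs : coeffMap ρ s ≠ 0) (h : coeffMap ι s * (x : LaurentSeries L) = coeffMap ι y) :
    s18_redFun x = coeffMap ρ y / coeffMap ρ s := by
  obtain ⟨hs0, h0⟩ := (s18_W_exists_rep x).choose_spec.choose_spec
  rw [s18_redFun, div_eq_div_iff hs0 hs]
  have h2 := s18_W_red_cross (ρ := ρ) hι h0 h
  rw [mul_comm (coeffMap ρ (s18_W_exists_rep x).choose_spec.choose), mul_comm (coeffMap ρ y)]
  exact h2

/-- The reduction map `W → k((q))`, `y / s ↦ ρ(y) / ρ(s)`. -/
def s18_red (hι : Function.Injective ι) : s18_W ι ρ →+* LaurentSeries k where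
  toFun := s18_redFun
  map_one' := by
    rw [s18_redFun_eq hι 1 1 1 (by rw [map_one]; exact one_ne_zero)
      (by rw [map_one, one_mul]; rfl), map_one, div_one]
  map_mul' := by
    intro a b
    obtain ⟨s, y, hs, h⟩ := s18_W_exists_rep a
    obtain ⟨s', y', hs', h'⟩ := s18_W_exists_rep b
    rw [s18_redFun_eq hι a s y hs h, s18_redFun_eq hι b s' y' hs' h',
      s18_redFun_eq hι (a * b) (s * s') (y * y') (by rw [map_mul]; exact mul_ne_zero hs hs')
        (by rw [map_mul, map_mul, ← h, ← h', Subring.coe_mul]; ring),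
      map_mul, map_mul, mul_div_mul_comm]
  map_zero' := by
    rw [s18_redFun_eq hι 0 1 0 (by rw [map_one]; exact one_ne_zero)
      (by rw [map_zero, Subring.coe_zero, mul_zero]), map_zero, zero_div]
  map_add' := by
    intro a b
    obtain ⟨s, y, hs, h⟩ := s18_W_exists_rep a
    obtain ⟨s', y', hs', h'⟩ := s18_W_exists_rep b
    rw [s18_redFun_eq hι a s y hs h, s18_redFun_eq hι b s' y' hs' h',
      s18_redFun_eq hι (a + b) (s * s') (s' * y + s * y') (by rw [map_mul]; exact mul_ne_zero hs hs')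
        (by rw [map_mul, map_add, map_mul, map_mul, ← h, ← h', Subring.coe_add]; ring),
      map_mul, map_add, map_mul, map_mul, div_add_div _ _ hs hs']
    congr 1
    ring

theorem s18_red_eq (hι : Function.Injective ι) (x : s18_W ι ρ) (s y : LaurentSeries R)
    (hs : coeffMap ρ s ≠ 0) (h : coeffMap ι s * (x : LaurentSeries L) = coeffMap ι y) :
    s18_red hι x = coeffMap ρ y / coeffMap ρ s :=
  s18_redFun_eq hι x s y hs h

theorem s18_red_spec (hι : Function.Injective ι) (x : s18_W ι ρ) (s y : LaurentSeries R)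
    (h : coeffMap ι s * (x : LaurentSeries L) = coeffMap ι y) :
    coeffMap ρ s * s18_red hι x = coeffMap ρ y := by
  obtain ⟨s₀, y₀, hs₀, h₀⟩ := s18_W_exists_rep x
  have h1 : s18_red hι x = coeffMap ρ y₀ / coeffMap ρ s₀ := s18_red_eq hι x s₀ y₀ hs₀ h₀
  have h2 := s18_W_red_cross (ρ := ρ) hι h₀ h
  rw [h1, ← mul_div_assoc, h2]
  exact mul_div_cancel_left₀ _ hs₀

/-- Reduction of an integral series is the coefficientwise reduction. -/
theorem s18_red_coeffMap (hι : Function.Injective ι) (y : LaurentSeries R)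
    (hy : coeffMap ι y ∈ s18_W ι ρ) :
    s18_red hι ⟨coeffMap ι y, hy⟩ = coeffMap ρ y := by
  have h := s18_red_spec (ρ := ρ) hι ⟨coeffMap ι y, hy⟩ 1 y (by rw [map_one, one_mul])
  rwa [map_one, one_mul] at h

end Gauss

section Functorial

variable {R L k : Type*} [CommRing R] [Field L] [Field k] {ι : R →+* L} {ρ : R →+* k}
variable {R' L' k' : Type*} [CommRing R'] [Field L'] [Field k'] {ι' : R' →+* L'} {ρ' : R' →+* k'}

/-- Functoriality of the Gauss ring. -/
theorem s18_W_map (f : R →+* R') (φ : L →+* L') (ψ : k →+* k')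
    (hφ : φ.comp ι = ι'.comp f) (hψ : ψ.comp ρ = ρ'.comp f)
    {x : LaurentSeries L} (hx : x ∈ s18_W ι ρ) : coeffMap φ x ∈ s18_W ι' ρ' := by
  obtain ⟨s, y, hs, h⟩ := hx
  refine ⟨coeffMap f s, coeffMap f y, ?_, ?_⟩
  · rw [coeffMap_coeffMap, ← hψ, ← coeffMap_coeffMap]
    intro h0
    apply hs
    apply s18_coeffMap_injective ψ ψ.injective
    rw [h0, map_zero]
  · rw [coeffMap_coeffMap, coeffMap_coeffMap, ← hφ, ← coeffMap_coeffMap, ← coeffMap_coeffMap,
      ← map_mul, h]

/-- Functoriality of the reduction map. -/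
theorem s18_red_map (hι : Function.Injective ι) (hι' : Function.Injective ι')
    (f : R →+* R') (φ : L →+* L') (ψ : k →+* k')
    (hφ : φ.comp ι = ι'.comp f) (hψ : ψ.comp ρ = ρ'.comp f)
    (x : s18_W ι ρ) (hx' : coeffMap φ (x : LaurentSeries L) ∈ s18_W ι' ρ') :
    s18_red hι' ⟨coeffMap φ (x : LaurentSeries L), hx'⟩ = coeffMap ψ (s18_red hι x) := by
  obtain ⟨s, y, hs, h⟩ := s18_W_exists_rep x
  have hs' : coeffMap ρ' (coeffMap f s) ≠ 0 := by
    rw [coeffMap_coeffMap, ← hψ, ← coeffMap_coeffMap]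
    intro h0
    apply hs
    apply s18_coeffMap_injective ψ ψ.injective
    rw [h0, map_zero]
  have h' : coeffMap ι' (coeffMap f s) * coeffMap φ (x : LaurentSeries L) =
      coeffMap ι' (coeffMap f y) := by
    rw [coeffMap_coeffMap, coeffMap_coeffMap, ← hφ, ← coeffMap_coeffMap, ← coeffMap_coeffMap,
      ← map_mul, h]
  rw [s18_red_eq hι' ⟨_, hx'⟩ _ _ hs' h', s18_red_eq hι x s y hs h, map_div₀,
    coeffMap_coeffMap, coeffMap_coeffMap, coeffMap_coeffMap, coeffMap_coeffMap, hψ]

end Functorial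

end Fermat.Agent.S18
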