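import Mathlib
import Fermat.Agent.S18.ChGauss

/-!
# S18, block C (Cd-1): base change of a chart along an extension of coefficient rings

`C` a subring of `L₀((q))` contained in the Gauss ring of `(R₀, ρ₀)` with the `q`-expansion principle
"`red x = 0 → x ∈ p C`"; `R₁ ⊇ R₀` with a residue basis `a_1, …, a_n` modulo `π`.  Then the
`R₁`-span `S` of the image of `C` in `L₁((q))` lies in the Gauss ring of `(R₁, ρ₁)` and satisfies
"`red y = 0 → y ∈ π S`".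
-/

set_option autoImplicit false

open ModularCurve

noncomputable section

namespace Fermat.Agent.S18

section BaseChange

variable {R₀ L₀ k₀ : Type*} [CommRing R₀] [Field L₀] [Field k₀]
variable {R₁ L₁ k₁ : Type*} [CommRing R₁] [Field L₁] [Field k₁]

/-- The multiplicative monoid of products `c * φ(x)`, `c ∈ R₁`, `x ∈ C`. -/
def s18_chGen (ι₁ : R₁ →+* L₁) (φ : L₀ →+* L₁) (C : Subring (LaurentSeries L₀)) :
    Submonoid (LaurentSeries L₁) where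
  carrier := {z | ∃ r : R₁, ∃ x ∈ C, z = HahnSeries.C (ι₁ r) * coeffMap φ x}
  mul_mem' := by
    rintro _ _ ⟨r, x, hx, rfl⟩ ⟨r', x', hx', rfl⟩
    refine ⟨r * r', x * x', C.mul_mem hx hx', ?_⟩
    rw [map_mul, map_mul, map_mul]
    ring
  one_mem' := ⟨1, 1, C.one_mem, by rw [map_one, map_one, map_one, one_mul]⟩

/-- The `R₁`-span of `φ(C)` inside `L₁((q))`, as a subring. -/
def s18_chSpan (ι₁ : R₁ →+* L₁) (φ : L₀ →+* L₁) (C : Subring (LaurentSeries L₀)) :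
    Subring (LaurentSeries L₁) :=
  Subring.closure (s18_chGen ι₁ φ C : Set (LaurentSeries L₁))

variable {ι₁ : R₁ →+* L₁} {φ : L₀ →+* L₁} {C : Subring (LaurentSeries L₀)}

theorem s18_mem_chSpan_iff {z : LaurentSeries L₁} :
    z ∈ s18_chSpan ι₁ φ C ↔ z ∈ AddSubgroup.closure (s18_chGen ι₁ φ C : Set (LaurentSeries L₁)) := by
  rw [s18_chSpan, Subring.mem_closure_iff, Submonoid.closure_eq]

theorem s18_gen_mem_chSpan (r : R₁) {x : LaurentSeries L₀} (hx : x ∈ C) :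
    HahnSeries.C (ι₁ r) * coeffMap φ x ∈ s18_chSpan ι₁ φ C :=
  Subring.subset_closure ⟨r, x, hx, rfl⟩

theorem s18_const_mem_chSpan (r : R₁) :
    (HahnSeries.C (ι₁ r) : LaurentSeries L₁) ∈ s18_chSpan ι₁ φ C := by
  have h := s18_gen_mem_chSpan (ι₁ := ι₁) (φ := φ) r C.one_mem
  rwa [map_one, mul_one] at h

theorem s18_map_mem_chSpan {x : LaurentSeries L₀} (hx : x ∈ C) :
    coeffMap φ x ∈ s18_chSpan ι₁ φ C := by
  have h := s18_gen_mem_chSpan (ι₁ := ι₁) (φ := φ) 1 hx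
  rwa [map_one, map_one, one_mul] at h

/-- Induction principle for the span. -/
theorem s18_chSpan_induction {P : LaurentSeries L₁ → Prop}
    (hgen : ∀ (r : R₁) (x : LaurentSeries L₀), x ∈ C → P (HahnSeries.C (ι₁ r) * coeffMap φ x))
    (hzero : P 0) (hadd : ∀ y y', P y → P y' → P (y + y')) (hneg : ∀ y, P y → P (-y))
    {z : LaurentSeries L₁} (hz : z ∈ s18_chSpan ι₁ φ C) : P z := by
  rw [s18_mem_chSpan_iff] at hz
  induction hz using AddSubgroup.closure_induction with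
  | mem y hy =>
    obtain ⟨r, x, hx, rfl⟩ := hy
    exact hgen r x hx
  | zero => exact hzero
  | add y y' _ _ h h' => exact hadd y y' h h'
  | neg y _ h => exact hneg y h

theorem s18_C_eq_coeffMap {R S : Type*} [CommRing R] [CommRing S] (f : R →+* S) (r : R) :
    (HahnSeries.C (f r) : LaurentSeries S) = coeffMap f (HahnSeries.C r) := by
  rw [HahnSeries.C_apply, HahnSeries.C_apply, coeffMap_single]

variable {ι₀ : R₀ →+* L₀} {ρ₀ : R₀ →+* k₀} {ρ₁ : R₁ →+* k₁}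

/-- The span lies in the Gauss ring. -/
theorem s18_chSpan_le_W (f : R₀ →+* R₁) (ψ : k₀ →+* k₁)
    (hφ : φ.comp ι₀ = ι₁.comp f) (hψ : ψ.comp ρ₀ = ρ₁.comp f)
    (hCW : ∀ x ∈ C, x ∈ s18_W ι₀ ρ₀) :
    s18_chSpan ι₁ φ C ≤ s18_W ι₁ ρ₁ := by
  rw [s18_chSpan, Subring.closure_le]
  rintro _ ⟨r, x, hx, rfl⟩
  refine Subring.mul_mem _ ?_ (s18_W_map f φ ψ hφ hψ (hCW x hx))
  rw [s18_C_eq_coeffMap]
  exact s18_coeffMap_mem_W ι₁ ρ₁ _

/-- The `q`-expansion principle for the span: the kernel of reduction is `π S`. -/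
theorem s18_chSpan_kernel (hι₀ : Function.Injective ι₀) (hι₁ : Function.Injective ι₁)
    (f : R₀ →+* R₁) (ψ : k₀ →+* k₁)
    (hφ : φ.comp ι₀ = ι₁.comp f) (hψ : ψ.comp ρ₀ = ρ₁.comp f)
    (hCW : ∀ x ∈ C, x ∈ s18_W ι₀ ρ₀)
    (p : R₀)
    (hker : ∀ x (hx : x ∈ C), s18_red hι₀ ⟨x, hCW x hx⟩ = 0 →
      ∃ x' ∈ C, x = HahnSeries.C (ι₀ p) * x')
    (π e : R₁) (hπ : ρ₁ π = 0) (hpe : f p = π * e)
    (n : ℕ) (a : Fin n → R₁)
    (hgen : ∀ r : R₁, ∃ (c : Fin n → ℤ) (r' : R₁), r = ∑ i, (c i : R₁) * a i + π * r')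
    (hind : ∀ u : Fin n → k₀, ∑ i, ρ₁ (a i) * ψ (u i) = 0 → ∀ i, u i = 0)
    (y : LaurentSeries L₁) (hy : y ∈ s18_chSpan ι₁ φ C)
    (hred : s18_red hι₁ ⟨y, s18_chSpan_le_W f ψ hφ hψ hCW hy⟩ = 0) :
    ∃ y' ∈ s18_chSpan ι₁ φ C, y = HahnSeries.C (ι₁ π) * y' := by
  classical
  -- normal form
  have key : ∀ z ∈ s18_chSpan ι₁ φ C, ∃ (X : Fin n → LaurentSeries L₀) (z' : LaurentSeries L₁),
      (∀ i, X i ∈ C) ∧ z' ∈ s18_chSpan ι₁ φ C ∧
      z = ∑ i, HahnSeries.C (ι₁ (a i)) * coeffMap φ (X i) + HahnSeries.C (ι₁ π) * z' := by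
    intro z hz
    refine s18_chSpan_induction (P := fun z => ∃ (X : Fin n → LaurentSeries L₀)
      (z' : LaurentSeries L₁), (∀ i, X i ∈ C) ∧ z' ∈ s18_chSpan ι₁ φ C ∧
      z = ∑ i, HahnSeries.C (ι₁ (a i)) * coeffMap φ (X i) + HahnSeries.C (ι₁ π) * z')
      ?_ ?_ ?_ ?_ hz
    · intro r x hx
      obtain ⟨c, r', hr⟩ := hgen r
      refine ⟨fun i => (c i : LaurentSeries L₀) * x, HahnSeries.C (ι₁ r') * coeffMap φ x,
        fun i => C.mul_mem (intCast_mem C (c i)) hx, s18_gen_mem_chSpan r' hx, ?_⟩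
      rw [hr]
      simp only [map_add, map_sum, map_mul, map_intCast]
      rw [add_mul, Finset.sum_mul]
      congr 1
      · exact Finset.sum_congr rfl (fun i _ => by ring)
      · ring
    · exact ⟨fun _ => 0, 0, fun _ => C.zero_mem, Subring.zero_mem _, by simp⟩
    · rintro z₁ z₂ ⟨X₁, z₁', hX₁, hz₁', e₁⟩ ⟨X₂, z₂', hX₂, hz₂', e₂⟩
      refine ⟨fun i => X₁ i + X₂ i, z₁' + z₂', fun i => C.add_mem (hX₁ i) (hX₂ i),
        Subring.add_mem _ hz₁' hz₂', ?_⟩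
      rw [e₁, e₂]
      simp only [map_add, mul_add, Finset.sum_add_distrib]
      ring
    · rintro z ⟨X, z', hX, hz', e⟩
      refine ⟨fun i => -X i, -z', fun i => C.neg_mem (hX i), Subring.neg_mem _ hz', ?_⟩
      rw [e]
      simp only [map_neg, mul_neg, Finset.sum_neg_distrib]
      ring
  obtain ⟨X, z', hX, hz', heq⟩ := key y hy
  have hW := s18_chSpan_le_W (ι₁ := ι₁) (φ := φ) (C := C) f ψ hφ hψ hCW
  -- reduce the equation
  have hcπ : (HahnSeries.C (ι₁ π) : LaurentSeries L₁) ∈ s18_W ι₁ ρ₁ := hW (s18_const_mem_chSpan π)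
  have hredπ : s18_red hι₁ ⟨HahnSeries.C (ι₁ π), hcπ⟩ = 0 := by
    have h1 : (⟨HahnSeries.C (ι₁ π), hcπ⟩ : s18_W ι₁ ρ₁) =
        ⟨coeffMap ι₁ (HahnSeries.C π), by rw [← s18_C_eq_coeffMap]; exact hcπ⟩ :=
      Subtype.ext (s18_C_eq_coeffMap ι₁ π)
    rw [h1, s18_red_coeffMap, ← s18_C_eq_coeffMap, hπ, map_zero]
  have hca : ∀ i, (HahnSeries.C (ι₁ (a i)) : LaurentSeries L₁) ∈ s18_W ι₁ ρ₁ :=
    fun i => hW (s18_const_mem_chSpan (a i))
  have hreda : ∀ i, s18_red hι₁ ⟨HahnSeries.C (ι₁ (a i)), hca i⟩ = HahnSeries.C (ρ₁ (a i)) := by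
    intro i
    have h1 : (⟨HahnSeries.C (ι₁ (a i)), hca i⟩ : s18_W ι₁ ρ₁) =
        ⟨coeffMap ι₁ (HahnSeries.C (a i)), by rw [← s18_C_eq_coeffMap]; exact hca i⟩ :=
      Subtype.ext (s18_C_eq_coeffMap ι₁ (a i))
    rw [h1, s18_red_coeffMap, ← s18_C_eq_coeffMap]
  have hφX : ∀ i, coeffMap φ (X i) ∈ s18_W ι₁ ρ₁ := fun i => hW (s18_map_mem_chSpan (hX i))
  have hredX : ∀ i, s18_red hι₁ ⟨coeffMap φ (X i), hφX i⟩ =
      coeffMap ψ (s18_red hι₀ ⟨X i, hCW _ (hX i)⟩) := fun i =>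
    s18_red_map hι₀ hι₁ f φ ψ hφ hψ ⟨X i, hCW _ (hX i)⟩ (hφX i)
  have hz'W : z' ∈ s18_W ι₁ ρ₁ := hW hz'
  have hsum : (⟨y, hW hy⟩ : s18_W ι₁ ρ₁) =
      ∑ i, (⟨HahnSeries.C (ι₁ (a i)), hca i⟩ : s18_W ι₁ ρ₁) * ⟨coeffMap φ (X i), hφX i⟩ +
        ⟨HahnSeries.C (ι₁ π), hcπ⟩ * ⟨z', hz'W⟩ := by
    apply Subtype.ext
    rw [Subring.coe_add, Subring.coe_mul, AddSubmonoidClass.coe_finsetSum]
    exact heq
  have hred2 : ∑ i, HahnSeries.C (ρ₁ (a i)) *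
      coeffMap ψ (s18_red hι₀ ⟨X i, hCW _ (hX i)⟩) = 0 := by
    have h := hred
    rw [hsum, map_add, map_mul, hredπ, zero_mul, add_zero, map_sum] at h
    rw [← h]
    refine Finset.sum_congr rfl (fun i _ => ?_)
    rw [map_mul, hreda, hredX]
  -- coefficientwise independence
  have hzero : ∀ i, s18_red hι₀ ⟨X i, hCW _ (hX i)⟩ = 0 := by
    have hcoef : ∀ m : ℤ, ∀ i, (s18_red hι₀ ⟨X i, hCW _ (hX i)⟩).coeff m = 0 := by
      intro m
      apply hind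
      have h := congrArg (fun z : LaurentSeries k₁ => z.coeff m) hred2
      simp only [HahnSeries.coeff_sum, HahnSeries.coeff_zero] at h
      rw [← h]
      refine Finset.sum_congr rfl (fun i _ => ?_)
      rw [HahnSeries.C_mul_eq_smul, HahnSeries.coeff_smul, smul_eq_mul, coeffMap_coeff]
    intro i
    ext m
    rw [hcoef m i, HahnSeries.coeff_zero]
  choose X' hX' hXeq using fun i => hker (X i) (hX i) (hzero i)
  refine ⟨∑ i, HahnSeries.C (ι₁ (e * a i)) * coeffMap φ (X' i) + z',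
    Subring.add_mem _ (Subring.sum_mem _ (fun i _ => s18_gen_mem_chSpan _ (hX' i))) hz', ?_⟩
  rw [heq, mul_add, Finset.mul_sum]
  congr 1
  refine Finset.sum_congr rfl (fun i _ => ?_)
  have h1 : coeffMap φ (HahnSeries.C (ι₀ p)) = (HahnSeries.C (ι₁ (π * e)) : LaurentSeries L₁) := by
    rw [HahnSeries.C_apply, coeffMap_single, ← HahnSeries.C_apply, ← hpe]
    congr 1
    exact RingHom.congr_fun hφ p
  conv_lhs => rw [hXeq i, map_mul, h1]
  simp only [map_mul]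
  ring

end BaseChange

end Fermat.Agent.S18
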