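import Mathlib
import Fermat.Agent.S18.ChBase

/-!
# S18, block C (Cd-3): coefficientwise Galois averaging

`L₁ / L₀` finite Galois of characteristic zero.  The group `Gal(L₁/L₀)` acts coefficientwise on
`L₁((q))`; the trace `s18_tr z = ∑ σ z` takes values in the image of `L₀((q))`, and every series is
recovered from finitely many traces (dual basis).  For a subfield `F₀ ⊆ L₀((q))` containing the
constants, the `L₁`-span `V` of `F₀` in `L₁((q))` is a field, traces of elements of `V` lie in `F₀`,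
and elements of `V` integral over (the image of) a subring `T₀ ⊆ L₀((q))` are `L₁`-combinations of
elements of `F₀` integral over `T₀`.
-/

set_option autoImplicit false
set_option linter.unusedSectionVars false
set_option linter.unusedVariables false

open ModularCurve

noncomputable section

namespace Fermat.Agent.S18

section Galois

variable {L₀ L₁ : Type*} [Field L₀] [Field L₁] [Algebra L₀ L₁]

/-- Coefficientwise action of an automorphism. -/
def s18_gal (σ : L₁ ≃ₐ[L₀] L₁) : LaurentSeries L₁ →+* LaurentSeries L₁ :=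
  coeffMap (σ : L₁ →+* L₁)

theorem s18_gal_coeff (σ : L₁ ≃ₐ[L₀] L₁) (z : LaurentSeries L₁) (n : ℤ) :
    (s18_gal σ z).coeff n = σ (z.coeff n) := rfl

theorem s18_gal_iota (σ : L₁ ≃ₐ[L₀] L₁) (x : LaurentSeries L₀) :
    s18_gal σ (coeffMap (algebraMap L₀ L₁) x) = coeffMap (algebraMap L₀ L₁) x := by
  ext n
  rw [s18_gal_coeff, coeffMap_coeff, AlgEquiv.commutes]

theorem s18_gal_C (σ : L₁ ≃ₐ[L₀] L₁) (c : L₁) :
    s18_gal σ (HahnSeries.C c) = HahnSeries.C (σ c) := by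
  rw [s18_gal, HahnSeries.C_apply, coeffMap_single, HahnSeries.C_apply]
  rfl

variable [FiniteDimensional L₀ L₁] [IsGalois L₀ L₁]

/-- The coefficientwise trace (sum of Galois conjugates). -/
def s18_tr (z : LaurentSeries L₁) : LaurentSeries L₁ :=
  ∑ σ : L₁ ≃ₐ[L₀] L₁, s18_gal σ z

theorem s18_tr_coeff (z : LaurentSeries L₁) (n : ℤ) :
    (s18_tr (L₀ := L₀) z).coeff n = algebraMap L₀ L₁ (Algebra.trace L₀ L₁ (z.coeff n)) := by
  rw [s18_tr, HahnSeries.coeff_sum, trace_eq_sum_automorphisms]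
  rfl

theorem s18_tr_add (z z' : LaurentSeries L₁) :
    s18_tr (L₀ := L₀) (z + z') = s18_tr (L₀ := L₀) z + s18_tr (L₀ := L₀) z' := by
  simp only [s18_tr, map_add, Finset.sum_add_distrib]

theorem s18_tr_zero : s18_tr (L₀ := L₀) (0 : LaurentSeries L₁) = 0 := by
  simp only [s18_tr, map_zero, Finset.sum_const_zero]

theorem s18_tr_neg (z : LaurentSeries L₁) :
    s18_tr (L₀ := L₀) (-z) = -s18_tr (L₀ := L₀) z := by
  simp only [s18_tr, map_neg, Finset.sum_neg_distrib]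

/-- The trace of `c * ι(x)`. -/
theorem s18_tr_C_mul_iota (c : L₁) (x : LaurentSeries L₀) :
    s18_tr (L₀ := L₀) (HahnSeries.C c * coeffMap (algebraMap L₀ L₁) x) =
      coeffMap (algebraMap L₀ L₁) (HahnSeries.C (Algebra.trace L₀ L₁ c) * x) := by
  have h1 : ∀ σ : L₁ ≃ₐ[L₀] L₁, s18_gal σ (HahnSeries.C c * coeffMap (algebraMap L₀ L₁) x) =
      HahnSeries.C (σ c) * coeffMap (algebraMap L₀ L₁) x := fun σ => by
    rw [map_mul, s18_gal_C, s18_gal_iota]
  rw [s18_tr, Finset.sum_congr rfl (fun σ _ => h1 σ), ← Finset.sum_mul, ← map_sum,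
    ← trace_eq_sum_automorphisms, map_mul]
  congr 1
  rw [HahnSeries.C_apply, HahnSeries.C_apply, coeffMap_single]

/-- Dual basis expansion: every series is recovered from finitely many traces. -/
theorem s18_gal_expand : ∃ (n : ℕ) (e e' : Fin n → L₁), ∀ z : LaurentSeries L₁,
    z = ∑ j, HahnSeries.C (e j) * s18_tr (L₀ := L₀) (HahnSeries.C (e' j) * z) := by
  classical
  let b := Module.finBasis L₀ L₁
  have hB := traceForm_nondegenerate L₀ L₁
  let d := (Algebra.traceForm L₀ L₁).dualBasis hB b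
  refine ⟨_, fun j => d j, fun j => b j, fun z => ?_⟩
  ext m
  rw [HahnSeries.coeff_sum]
  have h1 : ∀ j, (HahnSeries.C (d j) * s18_tr (L₀ := L₀) (HahnSeries.C (b j) * z)).coeff m =
      ((d.repr (z.coeff m)) j) • d j := by
    intro j
    rw [HahnSeries.C_mul_eq_smul, HahnSeries.coeff_smul, s18_tr_coeff, HahnSeries.C_mul_eq_smul,
      HahnSeries.coeff_smul, smul_eq_mul, smul_eq_mul, LinearMap.BilinForm.dualBasis_repr_apply,
      Algebra.traceForm_apply, Algebra.smul_def, mul_comm (b j) (z.coeff m)]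
    ring
  rw [Finset.sum_congr rfl (fun j _ => h1 j)]
  exact (d.sum_repr (z.coeff m)).symm

end Galois

section Span

variable {L₀ L₁ : Type*} [Field L₀] [Field L₁] [Algebra L₀ L₁] [FiniteDimensional L₀ L₁]
  [IsGalois L₀ L₁] [CharZero L₀]

/-- The `L₁`-span of a subring `F₀` of `L₀((q))` inside `L₁((q))`. -/
abbrev s18_galSpan (F₀ : Subring (LaurentSeries L₀)) : Subring (LaurentSeries L₁) :=
  s18_chSpan (RingHom.id L₁) (algebraMap L₀ L₁) F₀

variable {F₀ : Subring (LaurentSeries L₀)}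

theorem s18_gal_mem_galSpan (σ : L₁ ≃ₐ[L₀] L₁) {z : LaurentSeries L₁}
    (hz : z ∈ s18_galSpan (L₁ := L₁) F₀) : s18_gal σ z ∈ s18_galSpan (L₁ := L₁) F₀ := by
  refine s18_chSpan_induction (P := fun z => s18_gal σ z ∈ s18_galSpan (L₁ := L₁) F₀)
    ?_ ?_ ?_ ?_ hz
  · intro r x hx
    rw [map_mul, RingHom.id_apply, s18_gal_C, s18_gal_iota]
    exact s18_gen_mem_chSpan (ι₁ := RingHom.id L₁) (σ r) hx
  · rw [map_zero]
    exact Subring.zero_mem _
  · intro y y' h h'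
    rw [map_add]
    exact Subring.add_mem _ h h'
  · intro y h
    rw [map_neg]
    exact Subring.neg_mem _ h

/-- Traces of elements of the span lie in `F₀`. -/
theorem s18_tr_mem_of_mem_galSpan (hC : ∀ a : L₀, HahnSeries.C a ∈ F₀) (c : L₁)
    {z : LaurentSeries L₁} (hz : z ∈ s18_galSpan (L₁ := L₁) F₀) :
    ∃ w ∈ F₀, s18_tr (L₀ := L₀) (HahnSeries.C c * z) = coeffMap (algebraMap L₀ L₁) w := by
  refine s18_chSpan_induction (P := fun z => ∃ w ∈ F₀,
    s18_tr (L₀ := L₀) (HahnSeries.C c * z) = coeffMap (algebraMap L₀ L₁) w) ?_ ?_ ?_ ?_ hz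
  · intro r x hx
    refine ⟨HahnSeries.C (Algebra.trace L₀ L₁ (c * r)) * x, F₀.mul_mem (hC _) hx, ?_⟩
    rw [RingHom.id_apply, ← mul_assoc, ← map_mul, s18_tr_C_mul_iota]
  · exact ⟨0, F₀.zero_mem, by rw [mul_zero, s18_tr_zero, map_zero]⟩
  · rintro y y' ⟨w, hw, e⟩ ⟨w', hw', e'⟩
    exact ⟨w + w', F₀.add_mem hw hw', by rw [mul_add, s18_tr_add, e, e', map_add]⟩
  · rintro y ⟨w, hw, e⟩
    exact ⟨-w, F₀.neg_mem hw, by rw [mul_neg, s18_tr_neg, e, map_neg]⟩

/-- A Galois-invariant element of the span lies in `F₀` (characteristic zero). -/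
theorem s18_mem_of_gal_invariant (hC : ∀ a : L₀, HahnSeries.C a ∈ F₀)
    {z : LaurentSeries L₁} (hz : z ∈ s18_galSpan (L₁ := L₁) F₀)
    (hinv : ∀ σ : L₁ ≃ₐ[L₀] L₁, s18_gal σ z = z) :
    ∃ w ∈ F₀, z = coeffMap (algebraMap L₀ L₁) w := by
  obtain ⟨w, hw, e⟩ := s18_tr_mem_of_mem_galSpan hC (1 : L₁) hz
  rw [map_one, one_mul] at e
  have h1 : s18_tr (L₀ := L₀) z = (Fintype.card (L₁ ≃ₐ[L₀] L₁) : LaurentSeries L₁) * z := by
    rw [s18_tr, Finset.sum_congr rfl (fun σ _ => hinv σ), Finset.sum_const, Finset.card_univ,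
      nsmul_eq_mul]
  have hcard : (Fintype.card (L₁ ≃ₐ[L₀] L₁) : L₀) ≠ 0 := by
    exact_mod_cast Fintype.card_ne_zero
  refine ⟨HahnSeries.C ((Fintype.card (L₁ ≃ₐ[L₀] L₁) : L₀)⁻¹) * w, F₀.mul_mem (hC _) hw, ?_⟩
  rw [map_mul, ← e, h1]
  have h2 : coeffMap (algebraMap L₀ L₁) (HahnSeries.C ((Fintype.card (L₁ ≃ₐ[L₀] L₁) : L₀)⁻¹)) *
      (Fintype.card (L₁ ≃ₐ[L₀] L₁) : LaurentSeries L₁) = 1 := by
    have h3 : (Fintype.card (L₁ ≃ₐ[L₀] L₁) : LaurentSeries L₁) =
        coeffMap (algebraMap L₀ L₁) (HahnSeries.C (Fintype.card (L₁ ≃ₐ[L₀] L₁) : L₀)) := by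
      rw [map_natCast, map_natCast]
    rw [h3, ← map_mul, ← map_mul, inv_mul_cancel₀ hcard, map_one, map_one]
  rw [← mul_assoc, h2, one_mul]

/-- The span of a subfield is closed under inverses. -/
theorem s18_inv_mem_galSpan (hC : ∀ a : L₀, HahnSeries.C a ∈ F₀)
    (hinv : ∀ x ∈ F₀, x⁻¹ ∈ F₀)
    {z : LaurentSeries L₁} (hz : z ∈ s18_galSpan (L₁ := L₁) F₀) :
    z⁻¹ ∈ s18_galSpan (L₁ := L₁) F₀ := by
  classical
  by_cases hz0 : z = 0
  · rw [hz0, inv_zero]
    exact Subring.zero_mem _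
  set Nm : LaurentSeries L₁ := ∏ σ : L₁ ≃ₐ[L₀] L₁, s18_gal σ z with hNm
  have hNmV : Nm ∈ s18_galSpan (L₁ := L₁) F₀ :=
    Subring.prod_mem _ (fun σ _ => s18_gal_mem_galSpan σ hz)
  have hNm0 : Nm ≠ 0 := by
    rw [hNm, Finset.prod_ne_zero_iff]
    intro σ _ h0
    apply hz0
    have : s18_gal σ z = s18_gal σ 0 := by rw [h0, map_zero]
    exact s18_coeffMap_injective _ (σ : L₁ →+* L₁).injective this
  have hNminv : ∀ τ : L₁ ≃ₐ[L₀] L₁, s18_gal τ Nm = Nm := by
    intro τ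
    rw [hNm, map_prod]
    refine Fintype.prod_equiv (Equiv.mulLeft τ) _ _ (fun σ => ?_)
    ext n
    rfl
  obtain ⟨w, hw, e⟩ := s18_mem_of_gal_invariant hC hNmV hNminv
  have hrest : (∏ σ ∈ Finset.univ.erase (1 : L₁ ≃ₐ[L₀] L₁), s18_gal σ z) ∈
      s18_galSpan (L₁ := L₁) F₀ :=
    Subring.prod_mem _ (fun σ _ => s18_gal_mem_galSpan σ hz)
  have hsplit : z * ∏ σ ∈ Finset.univ.erase (1 : L₁ ≃ₐ[L₀] L₁), s18_gal σ z = Nm := by
    have h1 : s18_gal (1 : L₁ ≃ₐ[L₀] L₁) z = z := by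
      ext n
      rfl
    rw [hNm, ← Finset.mul_prod_erase Finset.univ _ (Finset.mem_univ (1 : L₁ ≃ₐ[L₀] L₁)), h1]
  have hw0 : w ≠ 0 := by
    rintro rfl
    rw [map_zero] at e
    exact hNm0 e
  have hzinv : z⁻¹ = (∏ σ ∈ Finset.univ.erase (1 : L₁ ≃ₐ[L₀] L₁), s18_gal σ z) *
      coeffMap (algebraMap L₀ L₁) w⁻¹ := by
    have hz1 : z * ((∏ σ ∈ Finset.univ.erase (1 : L₁ ≃ₐ[L₀] L₁), s18_gal σ z) *
        coeffMap (algebraMap L₀ L₁) w⁻¹) = 1 := by
      rw [← mul_assoc, hsplit, e, ← map_mul, mul_inv_cancel₀ hw0, map_one]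
    exact inv_eq_of_mul_eq_one_right hz1
  rw [hzinv]
  exact Subring.mul_mem _ hrest (s18_map_mem_chSpan (hinv w hw))

/-- Integrality descends along the coefficient embedding. -/
theorem s18_isIntegralElem_of_iota (T₀ : Subring (LaurentSeries L₀)) (w : LaurentSeries L₀)
    (h : ((coeffMap (algebraMap L₀ L₁)).comp T₀.subtype).IsIntegralElem
      (coeffMap (algebraMap L₀ L₁) w)) : T₀.subtype.IsIntegralElem w := by
  obtain ⟨p, hp, h0⟩ := h
  refine ⟨p, hp, ?_⟩
  apply s18_coeffMap_injective _ (algebraMap L₀ L₁).injective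
  rw [map_zero, Polynomial.hom_eval₂]
  exact h0

/-- Constants are integral over the image of any subring containing the constants of `L₀`. -/
theorem s18_isIntegralElem_C (T₀ : Subring (LaurentSeries L₀))
    (hT : ∀ a : L₀, HahnSeries.C a ∈ T₀) (c : L₁) :
    ((coeffMap (algebraMap L₀ L₁)).comp T₀.subtype).IsIntegralElem
      (HahnSeries.C c : LaurentSeries L₁) := by
  have hc : IsIntegral L₀ c := Algebra.IsIntegral.isIntegral c
  obtain ⟨p, hp, h0⟩ := hc
  let g : L₀ →+* T₀ := (HahnSeries.C : L₀ →+* LaurentSeries L₀).codRestrict T₀ hT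
  refine ⟨p.map g, hp.map g, ?_⟩
  rw [Polynomial.eval₂_map]
  have hcomp : ((coeffMap (algebraMap L₀ L₁)).comp T₀.subtype).comp g =
      (HahnSeries.C : L₁ →+* LaurentSeries L₁).comp (algebraMap L₀ L₁) := by
    ext a : 1
    show coeffMap (algebraMap L₀ L₁) (HahnSeries.C a) = HahnSeries.C (algebraMap L₀ L₁ a)
    rw [HahnSeries.C_apply, HahnSeries.C_apply, coeffMap_single]
  rw [hcomp, ← Polynomial.hom_eval₂, h0, map_zero]

/-- Galois conjugates of integral elements are integral. -/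
theorem s18_isIntegralElem_gal (T₀ : Subring (LaurentSeries L₀)) (σ : L₁ ≃ₐ[L₀] L₁)
    {z : LaurentSeries L₁}
    (h : ((coeffMap (algebraMap L₀ L₁)).comp T₀.subtype).IsIntegralElem z) :
    ((coeffMap (algebraMap L₀ L₁)).comp T₀.subtype).IsIntegralElem (s18_gal σ z) := by
  obtain ⟨p, hp, h0⟩ := h
  refine ⟨p, hp, ?_⟩
  have hcomp : (s18_gal σ).comp ((coeffMap (algebraMap L₀ L₁)).comp T₀.subtype) =
      (coeffMap (algebraMap L₀ L₁)).comp T₀.subtype := by
    ext x : 1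
    exact s18_gal_iota σ _
  have h1 := Polynomial.hom_eval₂ p ((coeffMap (algebraMap L₀ L₁)).comp T₀.subtype) (s18_gal σ) z
  rw [hcomp] at h1
  rw [← h1, h0, map_zero]

/-- Elements of the span integral over (the image of) `T₀` are `L₁`-combinations of elements of
`F₀` integral over `T₀`. -/
theorem s18_galSpan_integral (hC : ∀ a : L₀, HahnSeries.C a ∈ F₀)
    (T₀ : Subring (LaurentSeries L₀)) (hT : ∀ a : L₀, HahnSeries.C a ∈ T₀) :
    ∃ (n : ℕ) (e : Fin n → L₁), ∀ z ∈ s18_galSpan (L₁ := L₁) F₀,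
      ((coeffMap (algebraMap L₀ L₁)).comp T₀.subtype).IsIntegralElem z →
      ∃ w : Fin n → LaurentSeries L₀, (∀ j, w j ∈ F₀) ∧ (∀ j, T₀.subtype.IsIntegralElem (w j)) ∧
        z = ∑ j, HahnSeries.C (e j) * coeffMap (algebraMap L₀ L₁) (w j) := by
  classical
  obtain ⟨n, e, e', hexp⟩ := s18_gal_expand (L₀ := L₀) (L₁ := L₁)
  refine ⟨n, e, fun z hz hint => ?_⟩
  have h1 : ∀ j, ∃ w ∈ F₀, s18_tr (L₀ := L₀) (HahnSeries.C (e' j) * z) =
      coeffMap (algebraMap L₀ L₁) w := fun j => s18_tr_mem_of_mem_galSpan hC (e' j) hz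
  choose w hw hwe using h1
  refine ⟨w, hw, fun j => ?_, ?_⟩
  · apply s18_isIntegralElem_of_iota (L₁ := L₁) T₀
    rw [← hwe j, s18_tr]
    have hsum : ∀ s : Finset (L₁ ≃ₐ[L₀] L₁),
        ((coeffMap (algebraMap L₀ L₁)).comp T₀.subtype).IsIntegralElem
          (∑ σ ∈ s, s18_gal σ (HahnSeries.C (e' j) * z)) := by
      intro s
      induction s using Finset.induction_on with
      | empty =>
        rw [Finset.sum_empty]
        exact ⟨Polynomial.X, Polynomial.monic_X, by rw [Polynomial.eval₂_X]⟩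
      | insert a s ha ih =>
        rw [Finset.sum_insert ha]
        exact RingHom.IsIntegralElem.add _
          (s18_isIntegralElem_gal T₀ a
            (RingHom.IsIntegralElem.mul _ (s18_isIntegralElem_C T₀ hT (e' j)) hint)) ih
    exact hsum Finset.univ
  · conv_lhs => rw [hexp z]
    exact Finset.sum_congr rfl (fun j _ => by rw [hwe j])

end Span

end Fermat.Agent.S18
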