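import Mathlib
import Fermat.Agent.S18.ChGauss

/-!
# S18, block C (Cd-2): Gauss valuation on a chart inside the coefficientwise Gauss ring

`R` a domain with an element `π` generating the kernel of `ρ : R →+* k` and such that every nonzero
`r` is `π ^ n * r'` with `ρ r' ≠ 0` (e.g. a DVR with its residue map).  For a subring `S` of the
Gauss ring `s18_W ι ρ` satisfying the `q`-expansion principle "`red y = 0 → y ∈ π S`":
every nonzero `y ∈ S` is `π ^ n * y'` with `y' ∈ S`, `red y' ≠ 0`; `π` is a prime non-unit of `S`.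
-/

set_option autoImplicit false
set_option linter.unusedSectionVars false
set_option linter.unusedVariables false

open ModularCurve

noncomputable section

namespace Fermat.Agent.S18

section Content

variable {R : Type*} [CommRing R] [IsDomain R]

theorem s18_coeff_C_mul (a : R) (s : LaurentSeries R) (n : ℤ) :
    (HahnSeries.C a * s).coeff n = a * s.coeff n := by
  rw [HahnSeries.C_mul_eq_smul, HahnSeries.coeff_smul, smul_eq_mul]

theorem s18_exists_eq_C_mul_of_coeff (a : R) (ha : a ≠ 0) (s : LaurentSeries R)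
    (h : ∀ n : ℤ, ∃ w : R, s.coeff n = a * w) : ∃ s' : LaurentSeries R, s = HahnSeries.C a * s' := by
  choose w hw using h
  refine ⟨⟨w, s.isPWO_support.mono fun n hn => ?_⟩, ?_⟩
  · simp only [Function.mem_support, ne_eq, HahnSeries.mem_support] at hn ⊢
    rw [hw n]
    exact mul_ne_zero ha hn
  · ext n
    rw [s18_coeff_C_mul, hw n]

variable {k : Type*} [Field k] {ρ : R →+* k} {π : R}

/-- Content of a Laurent series: `y = π ^ n * y'` with `ρ(y') ≠ 0`. -/
theorem s18_series_content (hπ0 : π ≠ 0) (hπ : ρ π = 0)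
    (hρπ : ∀ r : R, ρ r = 0 → ∃ r', r = π * r')
    (hval : ∀ r : R, r ≠ 0 → ∃ (n : ℕ) (r' : R), r = π ^ n * r' ∧ ρ r' ≠ 0)
    (y : LaurentSeries R) (hy : y ≠ 0) :
    ∃ (n : ℕ) (y' : LaurentSeries R), y = HahnSeries.C π ^ n * y' ∧ coeffMap ρ y' ≠ 0 := by
  have key : ∀ v : ℕ, ∀ y : LaurentSeries R, (∃ (m : ℤ) (r' : R), y.coeff m = π ^ v * r' ∧ ρ r' ≠ 0) →
      ∃ (n : ℕ) (y' : LaurentSeries R), y = HahnSeries.C π ^ n * y' ∧ coeffMap ρ y' ≠ 0 := by
    intro v
    induction v with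
    | zero =>
      rintro y ⟨m, r', hm, hr'⟩
      refine ⟨0, y, by rw [pow_zero, one_mul], fun h0 => hr' ?_⟩
      have h1 := congrArg (fun z : LaurentSeries k => z.coeff m) h0
      simp only [coeffMap_coeff, HahnSeries.coeff_zero] at h1
      rwa [hm, pow_zero, one_mul] at h1
    | succ v ih =>
      rintro y ⟨m, r', hm, hr'⟩
      by_cases h0 : coeffMap ρ y = 0
      · have hdiv : ∀ n : ℤ, ∃ w : R, y.coeff n = π * w := by
          intro n
          apply hρπ
          have h1 := congrArg (fun z : LaurentSeries k => z.coeff n) h0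
          simpa only [coeffMap_coeff, HahnSeries.coeff_zero] using h1
        obtain ⟨y₁, hy₁⟩ := s18_exists_eq_C_mul_of_coeff π hπ0 y hdiv
        have hm1 : y₁.coeff m = π ^ v * r' := by
          have h2 : π * y₁.coeff m = π * (π ^ v * r') := by
            rw [← s18_coeff_C_mul, ← hy₁, hm, pow_succ]
            ring
          exact mul_left_cancel₀ hπ0 h2
        obtain ⟨n, y', hy', hne⟩ := ih y₁ ⟨m, r', hm1, hr'⟩
        exact ⟨n + 1, y', by rw [hy₁, hy', pow_succ]; ring, hne⟩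
      · exact ⟨0, y, by rw [pow_zero, one_mul], h0⟩
  obtain ⟨m, hm⟩ : ∃ m : ℤ, y.coeff m ≠ 0 := by
    by_contra hcon
    push Not at hcon
    exact hy (HahnSeries.ext (funext hcon))
  obtain ⟨v, r', hv, hr'⟩ := hval _ hm
  exact key v y ⟨m, r', hv, hr'⟩

end Content

section Chart

variable {R L k : Type*} [CommRing R] [IsDomain R] [Field L] [Field k] {ι : R →+* L} {ρ : R →+* k}
variable {π : R} {S : Subring (LaurentSeries L)}

theorem s18_red_C (hι : Function.Injective ι) (r : R)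
    (h : (HahnSeries.C (ι r) : LaurentSeries L) ∈ s18_W ι ρ) :
    s18_red hι ⟨HahnSeries.C (ι r), h⟩ = HahnSeries.C (ρ r) := by
  have e1 : (HahnSeries.C (ι r) : LaurentSeries L) = coeffMap ι (HahnSeries.C r) := by
    rw [HahnSeries.C_apply, HahnSeries.C_apply, coeffMap_single]
  have e2 : (HahnSeries.C (ρ r) : LaurentSeries k) = coeffMap ρ (HahnSeries.C r) := by
    rw [HahnSeries.C_apply, HahnSeries.C_apply, coeffMap_single]
  have h1 : (⟨HahnSeries.C (ι r), h⟩ : s18_W ι ρ) =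
      ⟨coeffMap ι (HahnSeries.C r), by rw [← e1]; exact h⟩ := Subtype.ext e1
  rw [h1, s18_red_coeffMap, e2]

theorem s18_C_mem_W (r : R) : (HahnSeries.C (ι r) : LaurentSeries L) ∈ s18_W ι ρ := by
  have e1 : (HahnSeries.C (ι r) : LaurentSeries L) = coeffMap ι (HahnSeries.C r) := by
    rw [HahnSeries.C_apply, HahnSeries.C_apply, coeffMap_single]
  rw [e1]
  exact s18_coeffMap_mem_W ι ρ _

/-- If `y = π y'` in the Gauss ring then `red y = 0`. -/
theorem s18_red_C_mul_eq_zero (hι : Function.Injective ι) (hπ : ρ π = 0)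
    {y y' : LaurentSeries L} (hy : y ∈ s18_W ι ρ) (hy' : y' ∈ s18_W ι ρ)
    (h : y = HahnSeries.C (ι π) * y') : s18_red hι ⟨y, hy⟩ = 0 := by
  have h1 : (⟨y, hy⟩ : s18_W ι ρ) = ⟨HahnSeries.C (ι π), s18_C_mem_W π⟩ * ⟨y', hy'⟩ :=
    Subtype.ext h
  rw [h1, map_mul, s18_red_C, hπ, map_zero, zero_mul]

/-- Gauss decomposition in a chart with the `q`-expansion principle. -/
theorem s18_chart_decomp (hι : Function.Injective ι) (hπ0 : π ≠ 0) (hπ : ρ π = 0)
    (hρπ : ∀ r : R, ρ r = 0 → ∃ r', r = π * r')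
    (hval : ∀ r : R, r ≠ 0 → ∃ (n : ℕ) (r' : R), r = π ^ n * r' ∧ ρ r' ≠ 0)
    (hSW : ∀ y ∈ S, y ∈ s18_W ι ρ)
    (hker : ∀ y (hy : y ∈ S), s18_red hι ⟨y, hSW y hy⟩ = 0 →
      ∃ y' ∈ S, y = HahnSeries.C (ι π) * y')
    (y : LaurentSeries L) (hy : y ∈ S) (hy0 : y ≠ 0) :
    ∃ (n : ℕ) (y' : LaurentSeries L) (hy' : y' ∈ S),
      y = HahnSeries.C (ι π) ^ n * y' ∧ s18_red hι ⟨y', hSW y' hy'⟩ ≠ 0 := by
  have hCπ : (HahnSeries.C (ι π) : LaurentSeries L) ≠ 0 := by
    rw [Ne, map_eq_zero]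
    exact fun h => hπ0 (hι (by rw [h, map_zero]))
  have key : ∀ n : ℕ, ∀ (y : LaurentSeries L) (hy : y ∈ S),
      (∃ s b : LaurentSeries R, coeffMap ρ s ≠ 0 ∧ coeffMap ρ b ≠ 0 ∧
        coeffMap ι s * y = coeffMap ι (HahnSeries.C π ^ n * b)) →
      ∃ (y' : LaurentSeries L) (hy' : y' ∈ S),
        y = HahnSeries.C (ι π) ^ n * y' ∧ s18_red hι ⟨y', hSW y' hy'⟩ ≠ 0 := by
    intro n
    induction n with
    | zero =>
      rintro y hy ⟨s, b, hs, hb, h⟩
      refine ⟨y, hy, by rw [pow_zero, one_mul], ?_⟩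
      rw [pow_zero, one_mul] at h
      rw [s18_red_eq hι ⟨y, hSW y hy⟩ s b hs h]
      exact div_ne_zero hb hs
    | succ n ih =>
      rintro y hy ⟨s, b, hs, hb, h⟩
      have hred : s18_red hι ⟨y, hSW y hy⟩ = 0 := by
        rw [s18_red_eq hι ⟨y, hSW y hy⟩ s _ hs h, map_mul, map_pow]
        have : coeffMap ρ (HahnSeries.C π) = 0 := by
          rw [HahnSeries.C_apply, coeffMap_single, hπ, HahnSeries.single_eq_zero]
        rw [this, pow_succ, mul_zero, zero_mul, zero_div]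
      obtain ⟨y₁, hy₁, hyy₁⟩ := hker y hy hred
      have h2 : coeffMap ι s * y₁ = coeffMap ι (HahnSeries.C π ^ n * b) := by
        have h3 : HahnSeries.C (ι π) * (coeffMap ι s * y₁) =
            HahnSeries.C (ι π) * coeffMap ι (HahnSeries.C π ^ n * b) := by
          have e1 : (HahnSeries.C (ι π) : LaurentSeries L) = coeffMap ι (HahnSeries.C π) := by
            rw [HahnSeries.C_apply, HahnSeries.C_apply, coeffMap_single]
          calc HahnSeries.C (ι π) * (coeffMap ι s * y₁)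
              = coeffMap ι s * (HahnSeries.C (ι π) * y₁) := by ring
            _ = coeffMap ι s * y := by rw [← hyy₁]
            _ = coeffMap ι (HahnSeries.C π ^ (n + 1) * b) := h
            _ = HahnSeries.C (ι π) * coeffMap ι (HahnSeries.C π ^ n * b) := by
              rw [e1, ← map_mul]
              congr 1
              ring
        exact mul_left_cancel₀ hCπ h3
      obtain ⟨y', hy', e, hne⟩ := ih y₁ hy₁ ⟨s, b, hs, hb, h2⟩
      exact ⟨y', hy', by rw [hyy₁, e, pow_succ]; ring, hne⟩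
  obtain ⟨s, b, hs, h⟩ := hSW y hy
  have hs0 : coeffMap ι s ≠ 0 := by
    intro h0
    apply hs
    have : s = 0 := s18_coeffMap_injective ι hι (by rw [h0, map_zero])
    rw [this, map_zero]
  have hb0 : b ≠ 0 := by
    rintro rfl
    rw [map_zero] at h
    rcases mul_eq_zero.mp h with h | h
    · exact hs0 h
    · exact hy0 h
  obtain ⟨n, b', hb', hne⟩ := s18_series_content hπ0 hπ hρπ hval b hb0
  obtain ⟨y', hy', e, hne'⟩ := key n y hy ⟨s, b', hs, hne, by rw [h, hb']⟩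
  exact ⟨n, y', hy', e, hne'⟩

/-- `π` is prime in a chart with the `q`-expansion principle. -/
theorem s18_chart_prime (hι : Function.Injective ι)
    (hSW : ∀ y ∈ S, y ∈ s18_W ι ρ)
    (hker : ∀ y (hy : y ∈ S), s18_red hι ⟨y, hSW y hy⟩ = 0 →
      ∃ y' ∈ S, y = HahnSeries.C (ι π) * y')
    (hπ : ρ π = 0)
    (x y : LaurentSeries L) (hx : x ∈ S) (hy : y ∈ S)
    (hxy : ∃ z ∈ S, x * y = HahnSeries.C (ι π) * z) :
    (∃ x' ∈ S, x = HahnSeries.C (ι π) * x') ∨ (∃ y' ∈ S, y = HahnSeries.C (ι π) * y') := by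
  obtain ⟨z, hz, h⟩ := hxy
  have h0 : s18_red hι ⟨x * y, hSW _ (S.mul_mem hx hy)⟩ = 0 :=
    s18_red_C_mul_eq_zero hι hπ _ (hSW z hz) h
  have h1 : (⟨x * y, hSW _ (S.mul_mem hx hy)⟩ : s18_W ι ρ) = ⟨x, hSW x hx⟩ * ⟨y, hSW y hy⟩ := rfl
  rw [h1, map_mul] at h0
  rcases mul_eq_zero.mp h0 with h | h
  · exact Or.inl (hker x hx h)
  · exact Or.inr (hker y hy h)

/-- An element of a chart with nonzero reduction is not divisible by `π`. -/
theorem s18_chart_not_dvd (hι : Function.Injective ι)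
    (hSW : ∀ y ∈ S, y ∈ s18_W ι ρ) (hπ : ρ π = 0)
    (y : LaurentSeries L) (hy : y ∈ S) (hne : s18_red hι ⟨y, hSW y hy⟩ ≠ 0) :
    ¬ ∃ y' ∈ S, y = HahnSeries.C (ι π) * y' := by
  rintro ⟨y', hy', h⟩
  exact hne (s18_red_C_mul_eq_zero hι hπ _ (hSW y' hy') h)

end Chart

end Fermat.Agent.S18
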