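import Fermat.Agent.S18.ChartZFrac
import Fermat.Agent.S18.ChGal
import Fermat.Agent.S18.ChVal
import Fermat.Prelude.Def_ModularCurve_ReductionModL

/-!
# S18, block C (Cd-4): the concrete charts over a DVR `A ⊆ K`

`K` a field of characteristic zero, `A` a valuation subring in which `ℓ` is not a unit.
* `s18_czRing N ℓ t`     : the `ℤ_(ℓ)`-chart `chartAlg N ℓ {t}` as a subring of `ℚ((q))`;
* `s18_zToA`, `s18_zmodToRes` : `ℤ_(ℓ) → A` and `𝔽_ℓ → A/𝔪`, with the compatibilities;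
* `s18_chRing N ℓ A t`   : the `A`-span of the chart inside `K((q))`;
* `s18_chAlg N ℓ A t`    : the same as a subalgebra of `laurentBaseChange K (F_N)`;
* the `q`-expansion principle for `s18_chRing` (kernel of reduction = `π · chart`) from a residue
  basis (`s18_ResBasis`).
-/

set_option autoImplicit false
set_option synthInstance.maxHeartbeats 400000
set_option linter.unusedSectionVars false
set_option linter.unusedVariables false

open ModularCurve ModularCurve.IgusaScheme Fermat.Agent.S28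

noncomputable section

namespace Fermat.Agent.S18

section ZLevel

variable (N : ℕ) [NeZero N] (ℓ : ℕ) [Fact ℓ.Prime]

/-- The `ℤ_(ℓ)`-chart of a coordinate `t`, as a subring of `ℚ((q))`. -/
def s18_czRing (t : modularFunctionFieldFull N) : Subring (LaurentSeries ℚ) :=
  (chartAlg N ℓ {t}).toSubring.map (kerVal N)

variable {N ℓ}

theorem s18_mem_czRing {t : modularFunctionFieldFull N} {x : LaurentSeries ℚ} :
    x ∈ s18_czRing N ℓ t ↔ ∃ y ∈ chartAlg N ℓ {t}, (y : LaurentSeries ℚ) = x := by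
  rw [s18_czRing, Subring.mem_map]
  rfl

theorem s18_coe_mem_czRing {t y : modularFunctionFieldFull N} (hy : y ∈ chartAlg N ℓ {t}) :
    (y : LaurentSeries ℚ) ∈ s18_czRing N ℓ t :=
  s18_mem_czRing.mpr ⟨y, hy, rfl⟩

/-- `S28.Wring ℓ` is the Gauss ring of `(ℤ_(ℓ) ⊆ ℚ, redR)`. -/
theorem s18_Wring_eq : (Wring ℓ : Subring (LaurentSeries ℚ)) =
    s18_W (GaloisRep.ratLocalizedAt ℓ).subtype (redR ℓ) := by
  ext x
  exact Iff.rfl

theorem s18_subtype_injective :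
    Function.Injective (GaloisRep.ratLocalizedAt ℓ).subtype := Subtype.val_injective

/-- `S28.redW` is the reduction map of the Gauss ring. -/
theorem s18_redW_eq (x : LaurentSeries ℚ) (hx : x ∈ Wring ℓ)
    (hx' : x ∈ s18_W (GaloisRep.ratLocalizedAt ℓ).subtype (redR ℓ)) :
    s18_red (s18_subtype_injective (ℓ := ℓ)) ⟨x, hx'⟩ = redW ℓ ⟨x, hx⟩ := by
  obtain ⟨s, y, hs, h⟩ := (mem_Wring_iff ℓ x).mp hx
  rw [redW_eq ℓ ⟨x, hx⟩ s y hs h]
  exact s18_red_eq _ ⟨x, hx'⟩ s y hs h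

variable {t : modularFunctionFieldFull N}

/-- The chart lies in the Gauss ring. -/
theorem s18_czRing_le_W (h : s18_cz_Coord N ℓ t) {B : Subring (LaurentSeries ℚ)}
    (hB : CoreData N ℓ B) :
    ∀ x ∈ s18_czRing N ℓ t, x ∈ s18_W (GaloisRep.ratLocalizedAt ℓ).subtype (redR ℓ) := by
  intro x hx
  obtain ⟨y, hy, rfl⟩ := s18_mem_czRing.mp hx
  rw [← s18_Wring_eq]
  exact h.coe_mem_Wring_of_mem_chart hB y hy

/-- The `q`-expansion principle for the `ℤ_(ℓ)`-chart. -/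
theorem s18_czRing_kernel (h : s18_cz_Coord N ℓ t) {B : Subring (LaurentSeries ℚ)}
    (hB : CoreData N ℓ B) (x : LaurentSeries ℚ) (hx : x ∈ s18_czRing N ℓ t)
    (hred : s18_red (s18_subtype_injective (ℓ := ℓ)) ⟨x, s18_czRing_le_W h hB x hx⟩ = 0) :
    ∃ x' ∈ s18_czRing N ℓ t, x = HahnSeries.C ((GaloisRep.ratLocalizedAt ℓ).subtype
      (ℓ : GaloisRep.ratLocalizedAt ℓ)) * x' := by
  obtain ⟨y, hy, rfl⟩ := s18_mem_czRing.mp hx
  have hW : (y : LaurentSeries ℚ) ∈ Wring ℓ := h.coe_mem_Wring_of_mem_chart hB y hy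
  rw [s18_redW_eq _ hW] at hred
  have hk := h.kernel hB y hy hW hred
  refine ⟨_, s18_coe_mem_czRing hk, ?_⟩
  have h1 : ((GaloisRep.ratLocalizedAt ℓ).subtype (ℓ : GaloisRep.ratLocalizedAt ℓ) : ℚ) = (ℓ : ℚ) := by
    simp
  rw [h1]
  show (y : LaurentSeries ℚ) = HahnSeries.C (ℓ : ℚ) *
    kerVal N (((ℓ : ℕ) : modularFunctionFieldFull N)⁻¹ * y)
  rw [kerVal_ell_inv_mul, mul_inv_cancel_left₀ C_ell_ne_zero]

end ZLevel

section ALevel

variable (ℓ : ℕ) [Fact ℓ.Prime]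
variable {K : Type*} [Field K] [Algebra ℚ K] (A : ValuationSubring K)

/-- Integers prime to `ℓ` are units of `A`. -/
theorem s18_int_inv_mem (hℓ : ((ℓ : K))⁻¹ ∉ A) (m : ℤ) (hm : ¬ (ℓ : ℤ) ∣ m) : ((m : K))⁻¹ ∈ A := by
  have hℓp : ℓ.Prime := Fact.out
  by_contra hmi
  have hcop : IsCoprime m (ℓ : ℤ) := by
    rw [isCoprime_comm, (Nat.prime_iff_prime_int.mp hℓp).coprime_iff_not_dvd]
    exact hm
  obtain ⟨a, b, hab⟩ := hcop
  -- both `m` and `ℓ` are non-units of `A`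
  have hmA : (m : K) ∈ A := intCast_mem A m
  have hℓA : (ℓ : K) ∈ A := natCast_mem A ℓ
  have h1 : ¬ IsUnit (⟨(m : K), hmA⟩ : A) := by
    intro hu
    obtain ⟨u, hu⟩ := hu
    apply hmi
    have h2 : ((u⁻¹ : Aˣ) : A) * ⟨(m : K), hmA⟩ = 1 := by rw [← hu]; exact Units.inv_mul u
    have h3 : (((u⁻¹ : Aˣ) : A) : K) * (m : K) = 1 := congrArg Subtype.val h2
    have h4 : ((m : K))⁻¹ = (((u⁻¹ : Aˣ) : A) : K) := inv_eq_of_mul_eq_one_left h3
    rw [h4]
    exact ((u⁻¹ : Aˣ) : A).2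
  have h2 : ¬ IsUnit (⟨(ℓ : K), hℓA⟩ : A) := by
    intro hu
    obtain ⟨u, hu⟩ := hu
    apply hℓ
    have h2 : ((u⁻¹ : Aˣ) : A) * ⟨(ℓ : K), hℓA⟩ = 1 := by rw [← hu]; exact Units.inv_mul u
    have h3 : (((u⁻¹ : Aˣ) : A) : K) * (ℓ : K) = 1 := congrArg Subtype.val h2
    have h4 : ((ℓ : K))⁻¹ = (((u⁻¹ : Aˣ) : A) : K) := inv_eq_of_mul_eq_one_left h3
    rw [h4]
    exact ((u⁻¹ : Aˣ) : A).2
  have h3 : (⟨(m : K), hmA⟩ : A) ∈ IsLocalRing.maximalIdeal A := h1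
  have h4 : (⟨(ℓ : K), hℓA⟩ : A) ∈ IsLocalRing.maximalIdeal A := h2
  have h5 : (1 : A) ∈ IsLocalRing.maximalIdeal A := by
    have h6 : (1 : A) = (a : A) * ⟨(m : K), hmA⟩ + (b : A) * ⟨(ℓ : K), hℓA⟩ := by
      apply Subtype.ext
      have := congrArg (fun z : ℤ => (z : K)) hab
      push_cast at this ⊢
      exact this.symm
    rw [h6]
    exact Ideal.add_mem _ (Ideal.mul_mem_left _ _ h3) (Ideal.mul_mem_left _ _ h4)
  exact (IsLocalRing.maximalIdeal.isMaximal A).ne_top ((Ideal.eq_top_iff_one _).mpr h5)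

/-- `ℤ_(ℓ) ⊆ A`. -/
theorem s18_ratLoc_mem (hℓ : ((ℓ : K))⁻¹ ∉ A) (r : GaloisRep.ratLocalizedAt ℓ) :
    algebraMap ℚ K (r : ℚ) ∈ A := by
  have hℓp : ℓ.Prime := Fact.out
  have hden : ¬ (ℓ : ℤ) ∣ ((r : ℚ).den : ℤ) := by
    intro h
    have h2 : ℓ ∣ (r : ℚ).den := Int.natCast_dvd_natCast.mp h
    have h3 : (r : ℚ).den.Coprime ℓ := r.2
    exact (hℓp.coprime_iff_not_dvd.mp h3.symm) h2
  have h1 : algebraMap ℚ K (r : ℚ) = ((r : ℚ).num : K) * ((((r : ℚ).den : ℤ) : K))⁻¹ := by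
    conv_lhs => rw [← Rat.num_div_den (r : ℚ)]
    rw [map_div₀, map_intCast, map_natCast, div_eq_mul_inv]
    norm_num
  rw [h1]
  exact A.mul_mem _ _ (intCast_mem A _) (s18_int_inv_mem ℓ A hℓ _ hden)

/-- The inclusion `ℤ_(ℓ) → A`. -/
def s18_zToA (hℓ : ((ℓ : K))⁻¹ ∉ A) : GaloisRep.ratLocalizedAt ℓ →+* A :=
  ((algebraMap ℚ K).comp (GaloisRep.ratLocalizedAt ℓ).subtype).codRestrict A.toSubring
    (s18_ratLoc_mem ℓ A hℓ)

theorem s18_comp_sub (hℓ : ((ℓ : K))⁻¹ ∉ A) :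
    (algebraMap ℚ K).comp (GaloisRep.ratLocalizedAt ℓ).subtype =
      A.subtype.comp (s18_zToA ℓ A hℓ) := rfl

/-- `ℓ` lies in the maximal ideal. -/
theorem s18_ell_mem_maximalIdeal (hℓ : ((ℓ : K))⁻¹ ∉ A) :
    ((ℓ : ℕ) : A) ∈ IsLocalRing.maximalIdeal A := by
  show ¬ IsUnit ((ℓ : ℕ) : A)
  intro hu
  obtain ⟨u, hu⟩ := hu
  apply hℓ
  have h2 : ((u⁻¹ : Aˣ) : A) * ((ℓ : ℕ) : A) = 1 := by rw [← hu]; exact Units.inv_mul u
  have h3 : (((u⁻¹ : Aˣ) : A) : K) * (ℓ : K) = 1 := by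
    have := congrArg Subtype.val h2
    simpa using this
  have h4 : ((ℓ : K))⁻¹ = (((u⁻¹ : Aˣ) : A) : K) := inv_eq_of_mul_eq_one_left h3
  rw [h4]
  exact ((u⁻¹ : Aˣ) : A).2

theorem s18_charP_res (hℓ : ((ℓ : K))⁻¹ ∉ A) : CharP (IsLocalRing.ResidueField A) ℓ := by
  have hℓp : ℓ.Prime := Fact.out
  rw [CharP.charP_iff_prime_eq_zero hℓp]
  have h := (IsLocalRing.residue_eq_zero_iff ((ℓ : ℕ) : A)).mpr (s18_ell_mem_maximalIdeal ℓ A hℓ)
  rwa [map_natCast] at h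

/-- `𝔽_ℓ → A/𝔪`. -/
def s18_zmodToRes (hℓ : ((ℓ : K))⁻¹ ∉ A) : ZMod ℓ →+* IsLocalRing.ResidueField A :=
  haveI := s18_charP_res ℓ A hℓ
  ZMod.castHom (dvd_refl ℓ) (IsLocalRing.ResidueField A)

theorem s18_comp_res (hℓ : ((ℓ : K))⁻¹ ∉ A) :
    (s18_zmodToRes ℓ A hℓ).comp (redR ℓ) =
      (IsLocalRing.residue A).comp (s18_zToA ℓ A hℓ) := by
  apply IsLocalization.ringHom_ext (primeToSubmonoid ℓ)
  exact RingHom.ext_int _ _

end ALevel

section Chart

variable (N : ℕ) [NeZero N] (ℓ : ℕ) [Fact ℓ.Prime]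
variable {K : Type*} [Field K] [Algebra ℚ K] (A : ValuationSubring K)

/-- The `A`-span of the `ℤ_(ℓ)`-chart of `t` inside `K((q))`. -/
def s18_chRing (t : modularFunctionFieldFull N) : Subring (LaurentSeries K) :=
  s18_chSpan A.subtype (algebraMap ℚ K) (s18_czRing N ℓ t)

/-- Residue basis data for `(A, π)`: `ℓ` is not a unit, `π` is a uniformizer, and `A/π` has a
finite `𝔽_ℓ`-basis (represented by `a`). -/
structure s18_ResBasis (π : A) : Prop where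
  unit : ((ℓ : K))⁻¹ ∉ A
  irr : Irreducible π
  basis : ∃ (f : ℕ) (a : Fin f → A),
      (∀ x : A, ∃ (c : Fin f → ℤ) (y : A), x = ∑ i, (c i : A) * a i + π * y) ∧
      (∀ c : Fin f → ℤ, (∃ y : A, ∑ i, (c i : A) * a i = π * y) → ∀ i, (ℓ : ℤ) ∣ c i)

variable {N ℓ A}
variable {t : modularFunctionFieldFull N}

theorem s18_valSubtype_injective : Function.Injective A.subtype := Subtype.val_injective

/-- The chart lies in the Gauss ring of `A`. -/
theorem s18_chRing_le_W (hℓ : ((ℓ : K))⁻¹ ∉ A) (h : s18_cz_Coord N ℓ t)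
    {B : Subring (LaurentSeries ℚ)} (hB : CoreData N ℓ B) :
    s18_chRing N ℓ A t ≤ s18_W A.subtype (IsLocalRing.residue A) :=
  s18_chSpan_le_W (s18_zToA ℓ A hℓ) (s18_zmodToRes ℓ A hℓ) (s18_comp_sub ℓ A hℓ)
    (s18_comp_res ℓ A hℓ) (s18_czRing_le_W h hB)

/-- The reduction map on the chart. -/
def s18_chRed (hℓ : ((ℓ : K))⁻¹ ∉ A) (h : s18_cz_Coord N ℓ t)
    {B : Subring (LaurentSeries ℚ)} (hB : CoreData N ℓ B) :
    s18_chRing N ℓ A t →+* LaurentSeries (IsLocalRing.ResidueField A) :=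
  (s18_red (ρ := IsLocalRing.residue A) (s18_valSubtype_injective (A := A))).comp
    (Subring.inclusion (s18_chRing_le_W hℓ h hB))

theorem s18_chRed_apply (hℓ : ((ℓ : K))⁻¹ ∉ A) (h : s18_cz_Coord N ℓ t)
    {B : Subring (LaurentSeries ℚ)} (hB : CoreData N ℓ B) (y : s18_chRing N ℓ A t) :
    s18_chRed hℓ h hB y = s18_red (ρ := IsLocalRing.residue A)
      (s18_valSubtype_injective (A := A)) ⟨(y : LaurentSeries K), s18_chRing_le_W hℓ h hB y.2⟩ :=
  rfl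

theorem s18_residue_uniformizer {π : A} (hπ : Irreducible π) : IsLocalRing.residue A π = 0 :=
  (IsLocalRing.residue_eq_zero_iff π).mpr hπ.not_isUnit

/-- **`q`-expansion principle over `A`**: an element of the chart with zero reduction is
divisible by `π` in the chart. -/
theorem s18_chRing_kernel [IsDiscreteValuationRing A] {π : A} (hR : s18_ResBasis ℓ A π)
    (h : s18_cz_Coord N ℓ t) {B : Subring (LaurentSeries ℚ)} (hB : CoreData N ℓ B)
    (y : LaurentSeries K) (hy : y ∈ s18_chRing N ℓ A t)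
    (hred : s18_red (ρ := IsLocalRing.residue A) (s18_valSubtype_injective (A := A))
      ⟨y, s18_chRing_le_W hR.unit h hB hy⟩ = 0) :
    ∃ y' ∈ s18_chRing N ℓ A t, y = HahnSeries.C (A.subtype π) * y' := by
  obtain ⟨n, a, hgen, hind⟩ := hR.basis
  have hmax : IsLocalRing.maximalIdeal A = Ideal.span {π} :=
    (IsDiscreteValuationRing.irreducible_iff_uniformizer π).mp hR.irr
  obtain ⟨e, he⟩ : ∃ e : A, ((ℓ : ℕ) : A) = π * e := by
    have h1 := s18_ell_mem_maximalIdeal ℓ A hR.unit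
    rw [hmax, Ideal.mem_span_singleton'] at h1
    obtain ⟨e, he⟩ := h1
    exact ⟨e, by rw [← he, mul_comm]⟩
  refine s18_chSpan_kernel (s18_subtype_injective (ℓ := ℓ)) (s18_valSubtype_injective (A := A))
    (s18_zToA ℓ A hR.unit) (s18_zmodToRes ℓ A hR.unit) (s18_comp_sub ℓ A hR.unit)
    (s18_comp_res ℓ A hR.unit) (s18_czRing_le_W h hB) (ℓ : GaloisRep.ratLocalizedAt ℓ)
    (fun x hx hx0 => s18_czRing_kernel h hB x hx hx0) π e (s18_residue_uniformizer hR.irr)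
    (by rw [map_natCast]; exact he) n a hgen ?_ y hy hred
  intro u hu
  -- lift `u` to integers
  choose c hc using fun i => ZMod.intCast_surjective (u i)
  have h1 : IsLocalRing.residue A (∑ i, (c i : A) * a i) = 0 := by
    rw [map_sum, ← hu]
    refine Finset.sum_congr rfl (fun i _ => ?_)
    rw [map_mul, map_intCast, ← hc i, map_intCast, mul_comm]
  rw [IsLocalRing.residue_eq_zero_iff, hmax, Ideal.mem_span_singleton'] at h1
  obtain ⟨y', hy'⟩ := h1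
  have h2 := hind c ⟨y', by rw [← hy', mul_comm]⟩
  intro i
  rw [← hc i]
  exact (ZMod.intCast_zmod_eq_zero_iff_dvd (c i) ℓ).mpr (h2 i)

end Chart

end Fermat.Agent.S18
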