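import Mathlib

/-!
# S18 block C, piece (Z4): finiteness of the integral closure of `A₀[t]`

`A₀` a noetherian UFD of characteristic zero with fraction field `K`, `F ⊇ K(t)` a finite extension
(`t` transcendental over `K`).  Then the integral closure of `A₀[t]` in `F` is a finitely generated
`A₀[t]`-module.
-/

set_option autoImplicit false

namespace Fermat.Agent.S18

open Polynomial IntermediateField

/-- Every element of `K(t)` is the image of an element of `Frac(A₀[X])`. -/
theorem s18_ch_finite_aux {A₀ K F : Type*} [CommRing A₀] [IsDomain A₀] [Field K] [Algebra A₀ K]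
    [IsFractionRing A₀ K] [Field F] [Algebra K F] [Algebra A₀ F] [IsScalarTower A₀ K F] (t : F)
    (r : K[X]) : ∃ (P : A₀[X]) (d : A₀), algebraMap A₀ F d ≠ 0 ∧
      aeval t r = (algebraMap A₀ F d)⁻¹ * aeval t P := by
  obtain ⟨b, hb, hP⟩ := IsLocalization.integerNormalization_spec (nonZeroDivisors A₀) r
  have hb0 : algebraMap A₀ F b ≠ 0 := by
    rw [IsScalarTower.algebraMap_apply A₀ K F]
    intro h
    have h1 := (map_eq_zero (algebraMap K F)).mp h
    exact nonZeroDivisors.ne_zero hb ((IsFractionRing.injective A₀ K) (by rw [h1, map_zero]))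
  refine ⟨IsLocalization.integerNormalization (nonZeroDivisors A₀) r, b, hb0, ?_⟩
  have h2 : aeval t (IsLocalization.integerNormalization (nonZeroDivisors A₀) r)
      = algebraMap A₀ F b * aeval t r := by
    rw [← aeval_map_algebraMap K t, hP, ← IsScalarTower.algebraMap_smul K b r, map_smul,
      Algebra.smul_def, ← IsScalarTower.algebraMap_apply]
  rw [h2, ← mul_assoc, inv_mul_cancel₀ hb0, one_mul]

/-- (Z4) finiteness of the integral closure of `A₀[t]` in a finite extension of `K(t)`. -/
theorem s18_ch_finite {A₀ K F : Type*} [CommRing A₀] [IsDomain A₀] [IsNoetherianRing A₀]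
    [UniqueFactorizationMonoid A₀] [Field K] [CharZero K] [Algebra A₀ K] [IsFractionRing A₀ K]
    [Field F] [Algebra K F] [Algebra A₀ F] [IsScalarTower A₀ K F] (t : F)
    (ht : Transcendental K t) [FiniteDimensional K⟮t⟯ F]
    (S : Subalgebra A₀ F) (hS : S = Algebra.adjoin A₀ ({t} : Set F)) :
    ∃ gen : Finset F, (∀ m ∈ gen, IsIntegral S m) ∧
      ∀ x : F, IsIntegral S x → ∃ c : F → A₀[X], x = ∑ m ∈ gen, aeval t (c m) * m := by
  classical
  set φ : A₀[X] →ₐ[A₀] F := aeval t with hφ
  have hS' : S = φ.range := hS.trans (Algebra.adjoin_singleton_eq_range_aeval A₀ t)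
  subst hS'
  have hφinj : Function.Injective φ :=
    transcendental_iff_injective.mp (ht.restrictScalars (IsFractionRing.injective A₀ K))
  have hcz : CharZero A₀ := (algebraMap A₀ K).charZero
  -- `F` as an algebra over `R = A₀[X]` and over its fraction field
  letI algR : Algebra A₀[X] F := φ.toRingHom.toAlgebra
  have hRF : ∀ P : A₀[X], algebraMap A₀[X] F P = aeval t P := fun _ => rfl
  have hinjR : Function.Injective (algebraMap A₀[X] F) := hφinj
  letI algKR : Algebra (FractionRing A₀[X]) F := (IsFractionRing.lift hinjR).toAlgebra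
  haveI tower : IsScalarTower A₀[X] (FractionRing A₀[X]) F :=
    IsScalarTower.of_algebraMap_eq fun x => (IsFractionRing.lift_algebraMap hinjR x).symm
  have hczKR : CharZero (FractionRing A₀[X]) :=
    charZero_of_injective_algebraMap (IsFractionRing.injective A₀[X] (FractionRing A₀[X]))
  -- every element of `K(t)` comes from `Frac(A₀[X])`
  have himg : ∀ c : F, c ∈ K⟮t⟯ → ∃ z : FractionRing A₀[X], algebraMap (FractionRing A₀[X]) F z = c := by
    intro c hc
    obtain ⟨r, s, rfl⟩ := (mem_adjoin_simple_iff K c).mp hc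
    obtain ⟨P, d, hd, hP⟩ := s18_ch_finite_aux (A₀ := A₀) t r
    obtain ⟨P', d', hd', hP'⟩ := s18_ch_finite_aux (A₀ := A₀) t s
    refine ⟨(algebraMap A₀[X] (FractionRing A₀[X]) (C d))⁻¹ * algebraMap A₀[X] (FractionRing A₀[X]) P /
      ((algebraMap A₀[X] (FractionRing A₀[X]) (C d'))⁻¹ * algebraMap A₀[X] (FractionRing A₀[X]) P'), ?_⟩
    rw [map_div₀, map_mul, map_mul, map_inv₀, map_inv₀,
      ← IsScalarTower.algebraMap_apply A₀[X] (FractionRing A₀[X]) F,
      ← IsScalarTower.algebraMap_apply A₀[X] (FractionRing A₀[X]) F,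
      ← IsScalarTower.algebraMap_apply A₀[X] (FractionRing A₀[X]) F,
      ← IsScalarTower.algebraMap_apply A₀[X] (FractionRing A₀[X]) F,
      hRF, hRF, hRF, hRF, aeval_C, aeval_C, hP, hP']
  -- finiteness over `Frac(A₀[X])`
  haveI hfin : Module.Finite (FractionRing A₀[X]) F := by
    obtain ⟨s, hs⟩ := (Module.Finite.fg_top : (⊤ : Submodule K⟮t⟯ F).FG)
    refine ⟨⟨s, eq_top_iff.mpr fun x _ => ?_⟩⟩
    have hx : x ∈ Submodule.span K⟮t⟯ (s : Set F) := by rw [hs]; trivial
    obtain ⟨f, -, rfl⟩ := Submodule.mem_span_finset.mp hx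
    refine Submodule.sum_mem _ fun m hm => ?_
    obtain ⟨z, hz⟩ := himg (f m) (f m).2
    have : f m • m = z • m := by
      rw [Algebra.smul_def z m, hz]
      rfl
    rw [this]
    exact Submodule.smul_mem _ _ (Submodule.subset_span hm)
  -- Mathlib: the integral closure is noetherian over `A₀[X]`
  have hnoeth : IsNoetherian A₀[X] (integralClosure A₀[X] F) :=
    IsIntegralClosure.isNoetherian A₀[X] (FractionRing A₀[X]) F (integralClosure A₀[X] F)
  obtain ⟨s, hs⟩ := (Module.Finite.fg_top : (⊤ : Submodule A₀[X] (integralClosure A₀[X] F)).FG)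
  -- comparison of the two notions of integrality
  let f : A₀[X] →+* φ.range := φ.rangeRestrict
  have hto : ∀ x : F, IsIntegral A₀[X] x → IsIntegral φ.range x := fun x hx =>
    hx.map_of_comp_eq f (RingHom.id F) (by ext <;> rfl)
  let g : φ.range →+* A₀[X] := ((AlgEquiv.ofInjective φ hφinj).symm : φ.range →+* A₀[X])
  have hg : ∀ y : φ.range, algebraMap A₀[X] F (g y) = y := by
    intro y
    have h1 := AlgEquiv.apply_symm_apply (AlgEquiv.ofInjective φ hφinj) y
    have h2 := congrArg Subtype.val h1
    rw [AlgEquiv.ofInjective_apply] at h2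
    exact h2
  have hfrom : ∀ x : F, IsIntegral φ.range x → IsIntegral A₀[X] x := fun x hx =>
    hx.map_of_comp_eq g (RingHom.id F) (by
      ext y
      exact hg y)
  refine ⟨s.image (Subtype.val), ?_, ?_⟩
  · intro m hm
    obtain ⟨m', -, rfl⟩ := Finset.mem_image.mp hm
    exact hto _ m'.2
  · intro x hx
    have hx' : (⟨x, hfrom x hx⟩ : integralClosure A₀[X] F) ∈ Submodule.span A₀[X]
        (s : Set (integralClosure A₀[X] F)) := by rw [hs]; trivial
    obtain ⟨cf, -, hcf⟩ := Submodule.mem_span_finset.mp hx'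
    refine ⟨fun m => if h : IsIntegral A₀[X] m then cf ⟨m, h⟩ else 0, ?_⟩
    rw [Finset.sum_image (fun a _ b _ h => Subtype.ext h)]
    have h1 := congrArg Subtype.val hcf
    simp only at h1
    rw [← h1]
    rw [AddSubmonoidClass.coe_finsetSum]
    refine Finset.sum_congr rfl fun m _ => ?_
    have hm : IsIntegral A₀[X] (m : F) := m.2
    show ((cf m • m : integralClosure A₀[X] F) : F)
      = φ (if h : IsIntegral A₀[X] (m : F) then cf ⟨m, h⟩ else 0) * m
    rw [dif_pos hm]
    rfl
end Fermat.Agent.S18
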