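import Fermat.Agent.S18.ChProps

/-!
# S18, block C (Cd-7): `B[1/π]` is integrally closed (field `normal` of `s18_SmHyp`)

For `K/ℚ` finite Galois: an element of `K · F_N` integral over the chart `s18_chAlg N ℓ A t` lies
in the chart after multiplication by a power of `π`.  Proof by coefficientwise Galois averaging
(`ChGal.lean`) and helper22's `s18_cz_exists_pow_mul_mem_chart`.
-/

set_option autoImplicit false
set_option synthInstance.maxHeartbeats 400000
set_option maxHeartbeats 1000000
set_option linter.unusedSectionVars false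
set_option linter.unusedVariables false

open ModularCurve ModularCurve.IgusaScheme Fermat.Agent.S28 Polynomial

noncomputable section

namespace Fermat.Agent.S18

section Normal

variable {N : ℕ} [NeZero N] {ℓ : ℕ} [Fact ℓ.Prime]
variable {K : Type*} [Field K] [Algebra ℚ K] {A : ValuationSubring K}
variable {t : modularFunctionFieldFull N}

local notation "FK" => laurentBaseChange K (modularFunctionFieldFull N)

variable (N) in
/-- The function field as a subring of `ℚ((q))`. -/
def s18_ffRing : Subring (LaurentSeries ℚ) := (modularFunctionFieldFull N).toSubfield.toSubring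

omit [NeZero N] in
theorem s18_mem_ffRing {x : LaurentSeries ℚ} :
    x ∈ s18_ffRing N ↔ x ∈ modularFunctionFieldFull N := Iff.rfl

omit [NeZero N] in
theorem s18_C_mem_ffRing (a : ℚ) : (HahnSeries.C a : LaurentSeries ℚ) ∈ s18_ffRing N := by
  rw [s18_mem_ffRing, HahnSeries.C_apply, ← algebraMap_laurentSeries_eq_single]
  exact (modularFunctionFieldFull N).algebraMap_mem a

variable (N) in
/-- `ℚ[t]` as a subring of `ℚ((q))`. -/
def s18_qtHom (t : modularFunctionFieldFull N) : ℚ[X] →+* LaurentSeries ℚ :=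
  (kerVal N).comp (aeval t : ℚ[X] →ₐ[ℚ] modularFunctionFieldFull N).toRingHom

omit [NeZero N] in
theorem s18_qtHom_C (a : ℚ) : s18_qtHom N t (C a) = HahnSeries.C a := by
  show kerVal N (aeval t (C a)) = _
  rw [aeval_C, eq_ratCast (algebraMap ℚ (modularFunctionFieldFull N)) a, map_ratCast,
    eq_ratCast (HahnSeries.C : ℚ →+* LaurentSeries ℚ) a]

omit [NeZero N] in
theorem s18_C_mem_qtRange (a : ℚ) : (HahnSeries.C a : LaurentSeries ℚ) ∈ (s18_qtHom N t).range :=
  ⟨C a, s18_qtHom_C a⟩

/-- Elements of the `ℤ_(ℓ)`-chart are integral over `ℚ[t]`. -/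
theorem s18_czRing_integral (x : LaurentSeries ℚ) (hx : x ∈ s18_czRing N ℓ t) :
    (s18_qtHom N t).range.subtype.IsIntegralElem x := by
  obtain ⟨y₀, hy₀, rfl⟩ := s18_mem_czRing.mp hx
  rw [mem_chartAlg_iff, s18_cz_isIntegral_adjoin_singleton_iff] at hy₀
  obtain ⟨P, hPm, hP⟩ := hy₀
  let hh : Polynomial (GaloisRep.ratLocalizedAt ℓ) →+* (s18_qtHom N t).range :=
    (s18_qtHom N t).rangeRestrict.comp
      (Polynomial.mapRingHom (algebraMap (GaloisRep.ratLocalizedAt ℓ) ℚ))
  have hcomp : (s18_qtHom N t).range.subtype.comp hh =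
      (kerVal N).comp (aeval t : Polynomial (GaloisRep.ratLocalizedAt ℓ) →ₐ[
        GaloisRep.ratLocalizedAt ℓ] modularFunctionFieldFull N).toRingHom := by
    refine RingHom.ext (fun u => ?_)
    show kerVal N (aeval t (u.map (algebraMap (GaloisRep.ratLocalizedAt ℓ) ℚ))) =
      kerVal N (aeval t u)
    rw [Polynomial.aeval_map_algebraMap]
  refine ⟨P.map hh, hPm.map hh, ?_⟩
  rw [Polynomial.eval₂_map, hcomp]
  have h1 := Polynomial.hom_eval₂ P (aeval t : Polynomial (GaloisRep.ratLocalizedAt ℓ) →ₐ[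
    GaloisRep.ratLocalizedAt ℓ] modularFunctionFieldFull N).toRingHom (kerVal N) y₀
  rw [hP, map_zero] at h1
  exact h1.symm

/-- Integrality is preserved by the coefficient embedding. -/
theorem s18_isIntegralElem_iota (T₀ : Subring (LaurentSeries ℚ)) (w : LaurentSeries ℚ)
    (h : T₀.subtype.IsIntegralElem w) :
    ((coeffMap (algebraMap ℚ K)).comp T₀.subtype).IsIntegralElem (coeffMap (algebraMap ℚ K) w) := by
  obtain ⟨p, hp, h0⟩ := h
  refine ⟨p, hp, ?_⟩
  rw [← Polynomial.hom_eval₂, h0, map_zero]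

variable [FiniteDimensional ℚ K] [IsGalois ℚ K]

/-- Elements of the chart are integral over (the image of) `ℚ[t]`. -/
theorem s18_chRing_integral (y : LaurentSeries K) (hy : y ∈ s18_chRing N ℓ A t) :
    ((coeffMap (algebraMap ℚ K)).comp (s18_qtHom N t).range.subtype).IsIntegralElem y := by
  refine s18_chSpan_induction (P := fun y =>
    ((coeffMap (algebraMap ℚ K)).comp (s18_qtHom N t).range.subtype).IsIntegralElem y)
    ?_ ?_ ?_ ?_ hy
  · intro r x hx
    exact RingHom.IsIntegralElem.mul _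
      (s18_isIntegralElem_C (L₁ := K) (s18_qtHom N t).range s18_C_mem_qtRange (A.subtype r))
      (s18_isIntegralElem_iota _ x (s18_czRing_integral x hx))
  · exact ⟨X, monic_X, by rw [eval₂_X]⟩
  · intro y y' h h'
    exact RingHom.IsIntegralElem.add _ h h'
  · intro y h
    exact RingHom.IsIntegralElem.neg _ h

/-- An element of `K · F_N` integral over the chart is integral over (the image of) `ℚ[t]`. -/
theorem s18_integral_over_qt (z : FK) (hz : IsIntegral (s18_chAlg N ℓ A t) z) :
    ((coeffMap (algebraMap ℚ K)).comp (s18_qtHom N t).range.subtype).IsIntegralElem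
      (z : LaurentSeries K) := by
  let _ : Algebra (s18_qtHom N t).range (LaurentSeries K) :=
    ((coeffMap (algebraMap ℚ K)).comp (s18_qtHom N t).range.subtype).toAlgebra
  let I := integralClosure (s18_qtHom N t).range (LaurentSeries K)
  have hle : ∀ b : s18_chAlg N ℓ A t, ((b : FK) : LaurentSeries K) ∈ I := fun b =>
    s18_chRing_integral _ (s18_mem_chAlg.mp b.2)
  let j : s18_chAlg N ℓ A t →+* I :=
    { toFun := fun b => ⟨((b : FK) : LaurentSeries K), hle b⟩
      map_one' := rfl
      map_mul' := fun _ _ => rfl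
      map_zero' := rfl
      map_add' := fun _ _ => rfl }
  obtain ⟨p, hp, h0⟩ := hz
  have hI : IsIntegral I (z : LaurentSeries K) := by
    refine ⟨p.map j, hp.map j, ?_⟩
    rw [Polynomial.eval₂_map]
    have hcomp : (algebraMap I (LaurentSeries K)).comp j =
        (laurentBaseChange K (modularFunctionFieldFull N)).val.toRingHom.comp
          (algebraMap (s18_chAlg N ℓ A t) FK) := rfl
    rw [hcomp]
    have h1 := Polynomial.hom_eval₂ p (algebraMap (s18_chAlg N ℓ A t) FK)
      (laurentBaseChange K (modularFunctionFieldFull N)).val.toRingHom z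
    rw [h0, map_zero] at h1
    exact h1.symm
  exact isIntegral_trans (R := (s18_qtHom N t).range) (A := I) _ hI

omit [NeZero N] in
/-- `K · F_N` is contained in the `K`-span of `F_N`. -/
theorem s18_mem_galSpan_of_mem {z : LaurentSeries K} (hz : z ∈ FK) :
    z ∈ s18_galSpan (L₁ := K) (s18_ffRing N) := by
  rw [mem_laurentBaseChange_iff] at hz
  let V : Subfield (LaurentSeries K) :=
    { (s18_galSpan (L₁ := K) (s18_ffRing N)) with
      inv_mem' := fun x hx => s18_inv_mem_galSpan (F₀ := s18_ffRing N) s18_C_mem_ffRing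
        (fun x hx => (modularFunctionFieldFull N).inv_mem hx) hx }
  have hle : Subfield.closure (Set.range (algebraMap K (LaurentSeries K)) ∪
      (⇑(coeffEmb K) '' ((modularFunctionFieldFull N : IntermediateField ℚ (LaurentSeries ℚ)) :
        Set (LaurentSeries ℚ)))) ≤ V := by
    rw [Subfield.closure_le]
    rintro y (⟨c, rfl⟩ | ⟨x, hx, rfl⟩)
    · show algebraMap K (LaurentSeries K) c ∈ s18_galSpan (L₁ := K) (s18_ffRing N)
      rw [algebraMap_laurentSeries_eq_single, ← HahnSeries.C_apply]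
      exact s18_const_mem_chSpan (ι₁ := RingHom.id K) c
    · exact s18_map_mem_chSpan (ι₁ := RingHom.id K) (φ := algebraMap ℚ K) hx
  exact hle hz

omit [FiniteDimensional ℚ K] [IsGalois ℚ K] in
/-- Back from integrality over `ℚ[t]` inside `ℚ((q))` to integrality in `F_N`. -/
theorem s18_isIntegral_of_qt (x : modularFunctionFieldFull N)
    (h : (s18_qtHom N t).range.subtype.IsIntegralElem (x : LaurentSeries ℚ)) :
    IsIntegral (Algebra.adjoin ℚ ({t} : Set (modularFunctionFieldFull N))) x := by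
  rw [s18_cz_isIntegral_adjoin_singleton_iff]
  obtain ⟨p, hp, h0⟩ := h
  obtain ⟨P, hP, -, hPm⟩ := Polynomial.lifts_and_natDegree_eq_and_monic (p := p)
    (f := (s18_qtHom N t).rangeRestrict)
    ((Polynomial.mem_lifts p).mpr
      (Polynomial.map_surjective _ (s18_qtHom N t).rangeRestrict_surjective p)) hp
  refine ⟨P, hPm, ?_⟩
  apply kerVal_injective N
  rw [map_zero, Polynomial.hom_eval₂]
  have hcomp : (kerVal N).comp (aeval t : ℚ[X] →ₐ[ℚ] modularFunctionFieldFull N).toRingHom =
      (s18_qtHom N t).range.subtype.comp (s18_qtHom N t).rangeRestrict := rfl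
  rw [hcomp, ← Polynomial.eval₂_map, hP]
  exact h0

omit [NeZero N] [Fact ℓ.Prime] [FiniteDimensional ℚ K] [IsGalois ℚ K] in
/-- Every element of `K` lies in `A` after multiplication by a power of the uniformizer. -/
theorem s18_chn_exists_pow_mul_mem [IsDiscreteValuationRing A] {π : A} (hπ : Irreducible π) (c : K) :
    ∃ m : ℕ, ∀ m', m ≤ m' → (π : K) ^ m' * c ∈ A := by
  by_cases hc : c ∈ A
  · exact ⟨0, fun m' _ => A.mul_mem _ _ (pow_mem π.2 m') hc⟩
  · have hci : c⁻¹ ∈ A := (A.mem_or_inv_mem c).resolve_left hc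
    have hc0 : c ≠ 0 := fun h => hc (h ▸ A.zero_mem)
    have hci0 : (⟨c⁻¹, hci⟩ : A) ≠ 0 := fun h => inv_ne_zero hc0 (congrArg Subtype.val h)
    obtain ⟨m, u, hu⟩ := IsDiscreteValuationRing.eq_unit_mul_pow_irreducible hci0 hπ
    refine ⟨m, fun m' hm' => ?_⟩
    have h1 : c⁻¹ = ((u : A) : K) * (π : K) ^ m := by
      have := congrArg Subtype.val hu
      simpa using this
    have hu0 : ((u : A) : K) ≠ 0 := by
      intro h0
      rw [h0, zero_mul] at h1
      exact inv_ne_zero hc0 h1
    have hπ0 : (π : K) ≠ 0 := fun h => hπ.ne_zero (Subtype.ext h)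
    have h2 : (π : K) ^ m' * c = (π : K) ^ (m' - m) * (((u⁻¹ : Aˣ) : A) : K) := by
      have h3 : c = (((u : A) : K) * (π : K) ^ m)⁻¹ := by rw [← h1, inv_inv]
      have h4 : (((u⁻¹ : Aˣ) : A) : K) = (((u : A) : K))⁻¹ := by
        have h5' : ((((u⁻¹ : Aˣ) : A) * (u : A) : A) : K) = ((1 : A) : K) := by
          rw [Units.inv_mul]
        have h5 : (((u⁻¹ : Aˣ) : A) : K) * ((u : A) : K) = 1 := h5'
        exact eq_inv_of_mul_eq_one_left h5
      rw [h3, h4, mul_inv, ← Nat.sub_add_cancel hm', pow_add]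
      field_simp
      simp
    rw [h2]
    exact A.mul_mem _ _ (pow_mem π.2 _) ((u⁻¹ : Aˣ) : A).2

/-- **`B[1/π]` is integrally closed** (field `normal` of `s18_SmHyp`). -/
theorem s18_chAlg_normal [IsDiscreteValuationRing A] {π : A} (hπ : Irreducible π)
    (z : FK) (hz : IsIntegral (s18_chAlg N ℓ A t) z) :
    ∃ k : ℕ, (algebraMap A FK π) ^ k * z ∈ s18_chAlg N ℓ A t := by
  classical
  have hint := s18_integral_over_qt z hz
  obtain ⟨n, e, hn⟩ := s18_galSpan_integral (L₁ := K) (F₀ := s18_ffRing N) s18_C_mem_ffRing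
    (s18_qtHom N t).range s18_C_mem_qtRange
  obtain ⟨w, hw, hwint, hzw⟩ := hn _ (s18_mem_galSpan_of_mem z.2) hint
  -- each `w j` lies in the chart after multiplication by a power of `ℓ`
  have h1 : ∀ j, ∃ k : ℕ, ((ℓ : ℕ) : modularFunctionFieldFull N) ^ k *
      (⟨w j, hw j⟩ : modularFunctionFieldFull N) ∈ chartAlg N ℓ {t} := fun j =>
    s18_cz_exists_pow_mul_mem_chart t _ (s18_isIntegral_of_qt _ (hwint j))
  choose kk hkk using h1
  set k := ∑ j, kk j with hk
  have hkj : ∀ j, kk j ≤ k := fun j =>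
    Finset.single_le_sum (f := kk) (fun i _ => Nat.zero_le _) (Finset.mem_univ j)
  have hℓchart : ((ℓ : ℕ) : modularFunctionFieldFull N) ∈ chartAlg N ℓ {t} :=
    natCast_mem (chartAlg N ℓ {t}) ℓ
  have h2 : ∀ j, ((ℓ : ℕ) : modularFunctionFieldFull N) ^ k *
      (⟨w j, hw j⟩ : modularFunctionFieldFull N) ∈ chartAlg N ℓ {t} := by
    intro j
    have : ((ℓ : ℕ) : modularFunctionFieldFull N) ^ k * (⟨w j, hw j⟩ : modularFunctionFieldFull N) =
        ((ℓ : ℕ) : modularFunctionFieldFull N) ^ (k - kk j) *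
          (((ℓ : ℕ) : modularFunctionFieldFull N) ^ kk j *
            (⟨w j, hw j⟩ : modularFunctionFieldFull N)) := by
      rw [← mul_assoc, ← pow_add, Nat.sub_add_cancel (hkj j)]
    rw [this]
    exact (chartAlg N ℓ {t}).mul_mem ((chartAlg N ℓ {t}).pow_mem hℓchart _) (hkk j)
  -- denominators
  have h3 : ∀ j, ∃ m : ℕ, ∀ m', m ≤ m' → (π : K) ^ m' * (e j * ((ℓ : K))⁻¹ ^ k) ∈ A := fun j =>
    s18_chn_exists_pow_mul_mem hπ _
  choose mm hmm using h3
  set m := ∑ j, mm j with hm
  have hmj : ∀ j, mm j ≤ m := fun j =>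
    Finset.single_le_sum (f := mm) (fun i _ => Nat.zero_le _) (Finset.mem_univ j)
  refine ⟨m, ?_⟩
  rw [s18_mem_chAlg]
  have hcoe : (((algebraMap A FK π) ^ m * z : FK) : LaurentSeries K) =
      HahnSeries.C (A.subtype π) ^ m * (z : LaurentSeries K) := by
    rw [← s18_coe_algebraMap (N := N)]
    rfl
  rw [hcoe, hzw, Finset.mul_sum]
  refine Subring.sum_mem _ (fun j _ => ?_)
  have hℓK : (ℓ : K) ≠ 0 := by
    have hℓp : ℓ.Prime := Fact.out
    have h0 : (ℓ : K) = algebraMap ℚ K (ℓ : ℚ) := (map_natCast _ _).symm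
    rw [h0, Ne, map_eq_zero]
    exact_mod_cast hℓp.ne_zero
  have heq : HahnSeries.C (A.subtype π) ^ m * (HahnSeries.C (e j) * coeffMap (algebraMap ℚ K) (w j))
      = HahnSeries.C (A.subtype ⟨(π : K) ^ m * (e j * ((ℓ : K))⁻¹ ^ k), hmm j m (hmj j)⟩) *
        coeffMap (algebraMap ℚ K) (((((ℓ : ℕ) : modularFunctionFieldFull N) ^ k *
          (⟨w j, hw j⟩ : modularFunctionFieldFull N) : modularFunctionFieldFull N)) :
            LaurentSeries ℚ) := by
    have hc1 : ((((ℓ : ℕ) : modularFunctionFieldFull N) ^ k *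
        (⟨w j, hw j⟩ : modularFunctionFieldFull N) : modularFunctionFieldFull N) :
        LaurentSeries ℚ) = HahnSeries.C (ℓ : ℚ) ^ k * w j := by
      show kerVal N (((ℓ : ℕ) : modularFunctionFieldFull N) ^ k *
        (⟨w j, hw j⟩ : modularFunctionFieldFull N)) = _
      rw [map_mul, map_pow, kerVal_natCast_ell]
      rfl
    rw [hc1, map_mul, map_pow]
    have hc2 : coeffMap (algebraMap ℚ K) (HahnSeries.C (ℓ : ℚ)) =
        (HahnSeries.C (ℓ : K) : LaurentSeries K) := by
      rw [HahnSeries.C_apply, coeffMap_single, map_natCast, HahnSeries.C_apply]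
    rw [hc2]
    show HahnSeries.C (π : K) ^ m * (HahnSeries.C (e j) * coeffMap (algebraMap ℚ K) (w j)) =
      HahnSeries.C ((π : K) ^ m * (e j * ((ℓ : K))⁻¹ ^ k)) *
        (HahnSeries.C (ℓ : K) ^ k * coeffMap (algebraMap ℚ K) (w j))
    have hk1 : (π : K) ^ m * e j = ((π : K) ^ m * (e j * ((ℓ : K))⁻¹ ^ k)) * (ℓ : K) ^ k := by
      rw [mul_assoc, mul_assoc, inv_pow, inv_mul_cancel₀ (pow_ne_zero k hℓK), mul_one]
    rw [← map_pow, ← map_pow, ← mul_assoc, ← mul_assoc, ← map_mul, ← map_mul, hk1]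
  rw [heq]
  exact s18_gen_mem_chSpan _ (s18_coe_mem_czRing (h2 j))

end Normal

end Fermat.Agent.S18
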