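import Fermat.Agent.S18.ChNormal
import Fermat.Agent.S18.ChAlgSep
import Fermat.Agent.S18.ChAlgFrac
import Fermat.Agent.S18.ChartPre

/-!
# S18, block C: the chart package for the charts of `t` and `t⁻¹`

* `s18_ch_smhyp` : the hypotheses `s18_SmHyp` of the smoothness theorem for the chart
  `s18_chAlg N ℓ A t` with coordinate `s18_coord K t`;
* `s18_ch_pkg`   : the package `s18_ChartPkg` for the two charts of `t` and `t⁻¹`.
-/

set_option autoImplicit false
set_option synthInstance.maxHeartbeats 400000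
set_option linter.unusedSectionVars false
set_option linter.unusedVariables false

open ModularCurve ModularCurve.IgusaScheme Fermat.Agent.S28 Polynomial

noncomputable section

namespace Fermat.Agent.S18

section ChPkg

variable {N : ℕ} [NeZero N] {ℓ : ℕ} [Fact ℓ.Prime]
variable {K : Type*} [Field K] [Algebra ℚ K] {A : ValuationSubring K}
variable {t : modularFunctionFieldFull N}

local notation "FK" => laurentBaseChange K (modularFunctionFieldFull N)

omit [Fact ℓ.Prime] in
theorem s18_pkg_algebraMap_ne_zero {π : A} (hπ0 : π ≠ 0) : algebraMap A FK π ≠ 0 := by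
  intro h0
  have h1 := s18_coe_algebraMap (N := N) (K := K) π
  rw [h0] at h1
  exact s18_C_ne_zero (K := K) hπ0 h1.symm

/-- Divisibility by `π` in the chart: subtype form versus ambient form. -/
theorem s18_pkg_dvd_iff {π : A} (hπ0 : π ≠ 0) (y : s18_chAlg N ℓ A t) :
    letI := s18_chPolyAlgebra ℓ A t
    algebraMap A[X] (s18_chAlg N ℓ A t) (C π) ∣ y ↔
      (algebraMap A FK π)⁻¹ * (y : FK) ∈ s18_chAlg N ℓ A t := by
  letI := s18_chPolyAlgebra ℓ A t
  have halg : algebraMap A[X] (s18_chAlg N ℓ A t) (C π) =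
      algebraMap A (s18_chAlg N ℓ A t) π := by
    show aeval (s18_coordB ℓ A t) (C π) = _
    rw [aeval_C]
  have hne : algebraMap A FK π ≠ 0 := s18_pkg_algebraMap_ne_zero hπ0
  rw [halg]
  constructor
  · rintro ⟨z, rfl⟩
    have h1 : (algebraMap A FK π)⁻¹ *
        ((algebraMap A (s18_chAlg N ℓ A t) π * z : s18_chAlg N ℓ A t) : FK) = (z : FK) := by
      show (algebraMap A FK π)⁻¹ * (algebraMap A FK π * (z : FK)) = _
      rw [inv_mul_cancel_left₀ hne]
    rw [h1]
    exact z.2
  · intro hmem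
    refine ⟨⟨_, hmem⟩, ?_⟩
    apply Subtype.ext
    show (y : FK) = algebraMap A FK π * ((algebraMap A FK π)⁻¹ * (y : FK))
    rw [mul_inv_cancel_left₀ hne]

/-- The value of a bivariate polynomial expression in the chart, in ambient terms. -/
theorem s18_pkg_coe_aeval (x : s18_chAlg N ℓ A t) (P : A[X][X]) :
    letI := s18_chPolyAlgebra ℓ A t
    ((aeval x P : s18_chAlg N ℓ A t) : FK) =
      P.eval₂ (aeval (s18_coord K t) : A[X] →ₐ[A] FK).toRingHom (x : FK) := by
  letI := s18_chPolyAlgebra ℓ A t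
  have h1 := Polynomial.hom_eval₂ P (algebraMap A[X] (s18_chAlg N ℓ A t))
    (s18_chAlg N ℓ A t).val.toRingHom x
  have h2 : ((s18_chAlg N ℓ A t).val.toRingHom).comp (algebraMap A[X] (s18_chAlg N ℓ A t)) =
      (aeval (s18_coord K t) : A[X] →ₐ[A] FK).toRingHom := by
    refine Polynomial.ringHom_ext (fun a => ?_) ?_
    · show ((aeval (s18_coordB ℓ A t) (C a) : s18_chAlg N ℓ A t) : FK) =
        aeval (s18_coord K t) (C a)
      rw [aeval_C, aeval_C]
      rfl
    · show ((aeval (s18_coordB ℓ A t) X : s18_chAlg N ℓ A t) : FK) = aeval (s18_coord K t) X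
      rw [aeval_X, aeval_X]
      rfl
  rw [h2] at h1
  exact h1

/-- The chart is a noetherian ring. -/
theorem s18_pkg_noeth [IsDiscreteValuationRing A] {π : A} (hR : s18_ResBasis ℓ A π)
    (h : s18_cz_Coord N ℓ t) {B : Subring (LaurentSeries ℚ)} (hB : CoreData N ℓ B) :
    IsNoetherianRing (s18_chAlg N ℓ A t).toSubring := by
  letI := s18_chPolyAlgebra ℓ A t
  have hmodfin : Module.Finite A[X] (s18_chAlg N ℓ A t) :=
    s18_chAlg_finite (A := A) (h.exists_finset_span hB) hR.unit
  have h1 : IsNoetherianRing (s18_chAlg N ℓ A t) := IsNoetherianRing.of_finite A[X] _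
  exact h1

/-- **The hypotheses of the smoothness theorem for the chart of a coordinate `t`** whose
`q`-expansion is integral with leading term `q^e`, `e = ±1`. -/
theorem s18_ch_smhyp [FiniteDimensional ℚ K] [IsGalois ℚ K] [IsDiscreteValuationRing A] {π : A}
    (hR : s18_ResBasis ℓ A π) (h : s18_cz_Coord N ℓ t)
    {B : Subring (LaurentSeries ℚ)} (hB : CoreData N ℓ B)
    (T : LaurentSeries ℤ) (hT : (t : LaurentSeries ℚ) = coeffMap (Int.castRingHom ℚ) T)
    (e : ℤ) (he : e = 1 ∨ e = -1) (hlead : IsLeading T e 1) :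
    s18_SmHyp π (s18_coord K t) (s18_chAlg N ℓ A t) := by
  have hπ0 : π ≠ 0 := hR.irr.ne_zero
  have he0 : e ≠ 0 := by rcases he with rfl | rfl <;> decide
  refine
    { pre :=
        { ϖ_mem := (s18_chAlg N ℓ A t).algebraMap_mem π
          ϖ_ne := s18_pkg_algebraMap_ne_zero hπ0
          noeth := s18_pkg_noeth hR h hB
          frac := s18_chAlg_frac hR.unit h hB
          prime := s18_chAlg_prime hR h hB
          nonunit := s18_chAlg_nonunit hR h hB }
      t_mem := s18_coord_mem t
      finite := s18_chAlg_fg (A := A) (h.exists_finset_span hB) hR.unit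
      transc := s18_coord_transcendental T hT e he0 hlead
      sep := ?_
      normal := fun z hz => s18_chAlg_normal hR.irr z hz }
  intro x hx
  letI := s18_chPolyAlgebra ℓ A t
  obtain ⟨P, hP1, hP2⟩ := s18_chAlg_hsep hR h hB T hT e he hlead ⟨x, hx⟩
  refine ⟨P, ?_, ?_⟩
  · rw [s18_pkg_dvd_iff hπ0, s18_pkg_coe_aeval] at hP1
    exact hP1
  · rw [s18_pkg_dvd_iff hπ0, s18_pkg_coe_aeval] at hP2
    exact hP2

/-- The inverse of an integral series with leading term `q^e` has leading term `q^(-e)`. -/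
theorem s18_pkg_isLeading_inv (T T' : LaurentSeries ℤ) (hTT' : T * T' = 1) (e : ℤ)
    (hlead : IsLeading T e 1) : IsLeading T' (-e) 1 := by
  have hT0 : T ≠ 0 := by
    intro h0
    have h1 := hlead.1
    rw [h0, HahnSeries.coeff_zero] at h1
    exact zero_ne_one h1
  have hord : T.order = e := by
    apply le_antisymm
    · apply HahnSeries.order_le_of_coeff_ne_zero
      rw [hlead.1]
      exact one_ne_zero
    · by_contra hlt
      rw [not_le] at hlt
      have h3 := hlead.2 _ hlt
      rw [HahnSeries.coeff_order_eq_zero] at h3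
      exact hT0 h3
  have hlc : T.leadingCoeff = 1 := by
    rw [HahnSeries.leadingCoeff_eq, hord, hlead.1]
  have hlc' : T'.leadingCoeff = 1 := by
    have h1 := HahnSeries.leadingCoeff_mul T T'
    rw [hTT', HahnSeries.leadingCoeff_one, hlc, one_mul] at h1
    exact h1.symm
  have hord' : T'.order = -e := by
    have h1 := HahnSeries.order_mul_of_ne_zero (x := T) (y := T')
      (by rw [hlc, hlc', one_mul]; exact one_ne_zero)
    rw [hTT', HahnSeries.order_one, hord] at h1
    omega
  refine ⟨?_, fun n hn => ?_⟩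
  · rw [← hord', ← HahnSeries.leadingCoeff_eq, hlc']
  · apply HahnSeries.coeff_eq_zero_of_lt_order
    rw [hord']
    exact hn

omit [NeZero N] in
/-- The `q`-expansion of the inverse of the coordinate. -/
theorem s18_pkg_coe_inv (T T' : LaurentSeries ℤ) (hTT' : T * T' = 1)
    (hT : (t : LaurentSeries ℚ) = coeffMap (Int.castRingHom ℚ) T) :
    ((t⁻¹ : modularFunctionFieldFull N) : LaurentSeries ℚ) = coeffMap (Int.castRingHom ℚ) T' := by
  have h1 : coeffMap (Int.castRingHom ℚ) T * coeffMap (Int.castRingHom ℚ) T' = 1 := by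
    rw [← map_mul, hTT', map_one]
  show ((t : LaurentSeries ℚ))⁻¹ = _
  rw [hT]
  exact (eq_inv_of_mul_eq_one_right h1).symm

/-- **The chart package** for the charts of a coordinate `t` and of `t⁻¹`, where the `q`-expansions
of `t`, `t⁻¹` are integral with leading terms `q^e`, `q^e'`, `e, e' = ±1`. -/
theorem s18_ch_pkg_gen [FiniteDimensional ℚ K] [IsGalois ℚ K] [IsDiscreteValuationRing A] {π : A}
    (hR : s18_ResBasis ℓ A π) (h : s18_cz_Coord N ℓ t)
    {B : Subring (LaurentSeries ℚ)} (hB : CoreData N ℓ B)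
    (T : LaurentSeries ℤ) (hT : (t : LaurentSeries ℚ) = coeffMap (Int.castRingHom ℚ) T)
    (e : ℤ) (he : e = 1 ∨ e = -1) (hlead : IsLeading T e 1)
    (T' : LaurentSeries ℤ)
    (hT' : ((t⁻¹ : modularFunctionFieldFull N) : LaurentSeries ℚ) =
      coeffMap (Int.castRingHom ℚ) T')
    (e' : ℤ) (he' : e' = 1 ∨ e' = -1) (hlead' : IsLeading T' e' 1) :
    s18_ChartPkg π (s18_coord K t) (s18_chAlg N ℓ A t) (s18_chAlg N ℓ A t⁻¹) := by
  have hsm0 : s18_SmHyp π (s18_coord K t) (s18_chAlg N ℓ A t) :=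
    s18_ch_smhyp hR h hB T hT e he hlead
  have hsmInf : s18_SmHyp π (s18_coord K t)⁻¹ (s18_chAlg N ℓ A t⁻¹) := by
    rw [← s18_coord_inv]
    exact s18_ch_smhyp hR h.inv hB T' hT' e' he' hlead'
  have ht_ne : s18_coord K t ≠ 0 := by
    intro h0
    exact X_ne_zero (hsm0.transc X (by rw [aeval_X, h0]))
  have hglue0 : ∀ x ∈ s18_chAlg N ℓ A t, ∃ k : ℕ,
      (s18_coord K t)⁻¹ ^ k * x ∈ s18_chAlg N ℓ A t⁻¹ := s18_chAlg_glue h.ne_zero
  have hglueInf : ∀ x ∈ s18_chAlg N ℓ A t⁻¹, ∃ k : ℕ,
      (s18_coord K t) ^ k * x ∈ s18_chAlg N ℓ A t := by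
    have h1 := s18_chAlg_glue (K := K) (A := A) (ℓ := ℓ) (t := t⁻¹) (inv_ne_zero h.ne_zero)
    rw [inv_inv, s18_coord_inv, inv_inv] at h1
    exact h1
  obtain ⟨gen0, hgen0, hspan0⟩ := hsm0.finite
  obtain ⟨genInf, hgenInf, hspanInf⟩ := hsmInf.finite
  have hinj : Function.Injective (algebraMap A FK) := by
    intro a b hab
    have h1 : ((algebraMap A FK a : FK) : LaurentSeries K) =
        ((algebraMap A FK b : FK) : LaurentSeries K) := by rw [hab]
    rw [s18_coe_algebraMap, s18_coe_algebraMap] at h1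
    exact Subtype.ext (HahnSeries.C_injective h1)
  exact
    { sm0 := hsm0
      smInf := hsmInf
      t_ne := ht_ne
      t_unit0 := s18_chAlg_coord_not_dvd hR h hB
      t_unitInf := by
        rw [← s18_coord_inv]
        exact s18_chAlg_coord_not_dvd hR h.inv hB
      glue0 := hglue0
      glueInf := hglueInf
      h1 := s18_ch_h1 (s18_coord K t) ht_ne _ _ hsm0.t_mem hsmInf.t_mem gen0 hgen0 hspan0 hglue0
      fin := s18_ch_fin hinj (s18_coord K t) hsm0.transc _ _ hsm0.t_mem hsmInf.t_mem gen0 hgen0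
        hspan0 genInf hgenInf hspanInf hglue0 hglueInf }

/-- **The chart package** (block C): for a coordinate `t` with integral `q`-expansion `T` with
leading term `q^e`, `e = ±1`, whose inverse has the integral `q`-expansion `T'`. -/
theorem s18_ch_pkg [FiniteDimensional ℚ K] [IsGalois ℚ K] [IsDiscreteValuationRing A] {π : A}
    (hR : s18_ResBasis ℓ A π) (h : s18_cz_Coord N ℓ t)
    {B : Subring (LaurentSeries ℚ)} (hB : CoreData N ℓ B)
    (T T' : LaurentSeries ℤ) (hTT' : T * T' = 1)
    (hT : (t : LaurentSeries ℚ) = coeffMap (Int.castRingHom ℚ) T)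
    (e : ℤ) (he : e = 1 ∨ e = -1) (hlead : IsLeading T e 1) :
    s18_ChartPkg π (s18_coord K t) (s18_chAlg N ℓ A t) (s18_chAlg N ℓ A t⁻¹) :=
  s18_ch_pkg_gen hR h hB T hT e he hlead T' (s18_pkg_coe_inv T T' hTT' hT) (-e)
    (by rcases he with rfl | rfl <;> simp) (s18_pkg_isLeading_inv T T' hTT' e hlead)

end ChPkg

end Fermat.Agent.S18
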