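import Fermat.Agent.S18.ChProps
import Fermat.Agent.S18.ChAlgFg
import Fermat.Agent.S18.ChartZFin
import Fermat.Agent.S18.ChartPre

/-!
# S18, block C: the fields `h1`, `fin` of `s18_ChartPkg` and `noeth` of `s18_PreChart` for the
concrete charts

`B0 := s18_chAlg N ℓ A t`, `Binf := s18_chAlg N ℓ A t⁻¹`, coordinate `s18_coord K t`.
-/

set_option autoImplicit false
set_option synthInstance.maxHeartbeats 400000
set_option linter.unusedSectionVars false
set_option linter.unusedVariables false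

open ModularCurve ModularCurve.IgusaScheme Fermat.Agent.S28 Polynomial

noncomputable section

namespace Fermat.Agent.S18

section PkgFin

variable {N : ℕ} [NeZero N] {ℓ : ℕ} [Fact ℓ.Prime]
variable {K : Type*} [Field K] [Algebra ℚ K] {A : ValuationSubring K}
variable {t : modularFunctionFieldFull N}

local notation "FK" => laurentBaseChange K (modularFunctionFieldFull N)

/-- The coordinate is non-zero. -/
theorem s18_ch_pkg_coord_ne_zero (ht0 : t ≠ 0) : s18_coord K t ≠ 0 := by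
  intro h0
  apply ht0
  have h1 : s18_fg_emb K t = s18_fg_emb K (0 : modularFunctionFieldFull N) := by
    apply Subtype.ext
    show coeffEmb K (t : LaurentSeries ℚ) = coeffEmb K ((0 : modularFunctionFieldFull N) :
      LaurentSeries ℚ)
    have h2 : coeffEmb K (t : LaurentSeries ℚ) = 0 := congrArg Subtype.val h0
    rw [h2]
    exact (map_zero _).symm
  exact s18_fg_emb_injective h1

/-- The structure map `A → K · F_N` is injective. -/
theorem s18_ch_pkg_algebraMap_injective :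
    Function.Injective (algebraMap A FK) := by
  intro a b hab
  have h1 : algebraMap K FK (a : K) = algebraMap K FK (b : K) := hab
  exact Subtype.ext ((algebraMap K FK).injective h1)

/-- The inverse coordinate lies in the chart at infinity. -/
theorem s18_ch_pkg_inv_mem : (s18_coord K t)⁻¹ ∈ s18_chAlg N ℓ A t⁻¹ := by
  rw [← s18_coord_inv]
  exact s18_coord_mem t⁻¹

/-- Finite generation of the chart at `0` over `A[t]`. -/
theorem s18_ch_pkg_fg0 (hℓ : ((ℓ : K))⁻¹ ∉ A) (h : s18_cz_Coord N ℓ t)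
    {B : Subring (LaurentSeries ℚ)} (hB : CoreData N ℓ B) :
    ∃ gen : Finset FK, (∀ m ∈ gen, m ∈ s18_chAlg N ℓ A t) ∧
      ∀ x ∈ s18_chAlg N ℓ A t, ∃ c : FK → A[X],
        x = ∑ m ∈ gen, aeval (s18_coord K t) (c m) * m :=
  s18_chAlg_fg (A := A) (h.exists_finset_span hB) hℓ

/-- Finite generation of the chart at `∞` over `A[t⁻¹]`. -/
theorem s18_ch_pkg_fgInf (hℓ : ((ℓ : K))⁻¹ ∉ A) (h : s18_cz_Coord N ℓ t)
    {B : Subring (LaurentSeries ℚ)} (hB : CoreData N ℓ B) :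
    ∃ gen : Finset FK, (∀ m ∈ gen, m ∈ s18_chAlg N ℓ A t⁻¹) ∧
      ∀ x ∈ s18_chAlg N ℓ A t⁻¹, ∃ c : FK → A[X],
        x = ∑ m ∈ gen, aeval (s18_coord K t)⁻¹ (c m) * m := by
  have h1 := s18_chAlg_fg (A := A) (h.inv.exists_finset_span hB) hℓ
  rw [s18_coord_inv] at h1
  exact h1

/-- Gluing from the chart at `∞` to the chart at `0`. -/
theorem s18_ch_pkg_glueInf (ht0 : t ≠ 0) :
    ∀ x ∈ s18_chAlg N ℓ A t⁻¹, ∃ k : ℕ, (s18_coord K t) ^ k * x ∈ s18_chAlg N ℓ A t := by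
  have h1 := s18_chAlg_glue (ℓ := ℓ) (K := K) (A := A) (t := t⁻¹) (inv_ne_zero ht0)
  rw [s18_coord_inv, inv_inv, inv_inv] at h1
  exact h1

/-- Field `h1` of `s18_ChartPkg` for the concrete charts. -/
theorem s18_ch_pkg_h1 [IsDiscreteValuationRing A] (hℓ : ((ℓ : K))⁻¹ ∉ A)
    (h : s18_cz_Coord N ℓ t) {B : Subring (LaurentSeries ℚ)} (hB : CoreData N ℓ B) :
    ∃ c₁ : ℕ, ∀ c, c₁ ≤ c → ∀ x ∈ s18_chAlg N ℓ A t, ∀ k : ℕ,
      ∃ a ∈ s18_chAlg N ℓ A t, ∃ b ∈ s18_chAlg N ℓ A t⁻¹,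
        (s18_coord K t)⁻¹ ^ k * x = a + (s18_coord K t) ^ c * b := by
  obtain ⟨gen, hgen, hspan⟩ := s18_ch_pkg_fg0 (A := A) hℓ h hB
  exact s18_ch_h1 (s18_coord K t) (s18_ch_pkg_coord_ne_zero h.ne_zero) (s18_chAlg N ℓ A t)
    (s18_chAlg N ℓ A t⁻¹) (s18_coord_mem t) s18_ch_pkg_inv_mem gen hgen hspan
    (s18_chAlg_glue h.ne_zero)

/-- Field `fin` of `s18_ChartPkg` for the concrete charts. -/
theorem s18_ch_pkg_fin [IsDiscreteValuationRing A] (hℓ : ((ℓ : K))⁻¹ ∉ A)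
    (h : s18_cz_Coord N ℓ t) {B : Subring (LaurentSeries ℚ)} (hB : CoreData N ℓ B)
    (T : LaurentSeries ℤ) (hT : (t : LaurentSeries ℚ) = coeffMap (Int.castRingHom ℚ) T)
    (e : ℤ) (he : e ≠ 0) (hlead : IsLeading T e 1) :
    ∀ c : ℕ, ∃ s : Finset FK, ∀ x ∈ s18_chAlg N ℓ A t,
      (s18_coord K t)⁻¹ ^ c * x ∈ s18_chAlg N ℓ A t⁻¹ → x ∈ Submodule.span A (s : Set FK) := by
  obtain ⟨gen0, hgen0, hspan0⟩ := s18_ch_pkg_fg0 (A := A) hℓ h hB
  obtain ⟨genInf, hgenInf, hspanInf⟩ := s18_ch_pkg_fgInf (A := A) hℓ h hB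
  exact s18_ch_fin s18_ch_pkg_algebraMap_injective (s18_coord K t)
    (s18_coord_transcendental T hT e he hlead) (s18_chAlg N ℓ A t)
    (s18_chAlg N ℓ A t⁻¹) (s18_coord_mem t) s18_ch_pkg_inv_mem gen0 hgen0 hspan0
    genInf hgenInf hspanInf (s18_chAlg_glue h.ne_zero) (s18_ch_pkg_glueInf h.ne_zero)

/-- Field `noeth` of `s18_PreChart` for the concrete chart. -/
theorem s18_ch_pkg_noeth [IsDiscreteValuationRing A] (hℓ : ((ℓ : K))⁻¹ ∉ A)
    (h : s18_cz_Coord N ℓ t) {B : Subring (LaurentSeries ℚ)} (hB : CoreData N ℓ B) :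
    IsNoetherianRing ↥(s18_chAlg N ℓ A t).toSubring := by
  let _ := s18_chPolyAlgebra ℓ A t
  have : Module.Finite A[X] (s18_chAlg N ℓ A t) :=
    s18_chAlg_finite (A := A) (h.exists_finset_span hB) hℓ
  have h1 : IsNoetherian A[X] (s18_chAlg N ℓ A t) := isNoetherian_of_isNoetherianRing_of_finite _ _
  have h2 : IsNoetherianRing (s18_chAlg N ℓ A t) :=
    isNoetherian_of_tower A[X] h1
  exact h2

end PkgFin

end Fermat.Agent.S18
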