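import Fermat.Agent.S18.ChAlg
import Fermat.Agent.S18.ChSep

/-!
# S18, block C (Cd-6): first properties of the chart `s18_chAlg N ℓ A t`

* `π` is a prime non-unit of the chart (fields `prime`, `nonunit` of `s18_Chart`);
* the coordinate is not divisible by `π` (`t_unit`);
* the coordinate is transcendental over `A` (`hinj` of `s18_sm`);
* gluing between the charts of `t` and `t⁻¹`.
-/

set_option autoImplicit false
set_option synthInstance.maxHeartbeats 400000
set_option linter.unusedSectionVars false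
set_option linter.unusedVariables false

open ModularCurve ModularCurve.IgusaScheme Fermat.Agent.S28 Polynomial

noncomputable section

namespace Fermat.Agent.S18

section Props

variable {N : ℕ} [NeZero N] {ℓ : ℕ} [Fact ℓ.Prime]
variable {K : Type*} [Field K] [Algebra ℚ K] {A : ValuationSubring K}
variable {t : modularFunctionFieldFull N}

local notation "FK" => laurentBaseChange K (modularFunctionFieldFull N)

omit [NeZero N] in
theorem s18_coe_algebraMap (r : A) :
    ((algebraMap A FK r : FK) : LaurentSeries K) = HahnSeries.C (A.subtype r) := by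
  show algebraMap K (LaurentSeries K) (r : K) = _
  rw [algebraMap_laurentSeries_eq_single, ← HahnSeries.C_apply]
  rfl

theorem s18_C_ne_zero {π : A} (hπ0 : π ≠ 0) :
    (HahnSeries.C (A.subtype π) : LaurentSeries K) ≠ 0 := by
  rw [Ne, map_eq_zero]
  intro h
  exact hπ0 (Subtype.ext h)

/-- Divisibility by `π` in the chart, in ambient terms. -/
theorem s18_inv_mul_mem_chAlg_iff {π : A} (hπ0 : π ≠ 0) (x : FK) :
    (algebraMap A FK π)⁻¹ * x ∈ s18_chAlg N ℓ A t ↔
      ∃ y' ∈ s18_chRing N ℓ A t, (x : LaurentSeries K) = HahnSeries.C (A.subtype π) * y' := by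
  have hC := s18_C_ne_zero (K := K) hπ0
  have hcoe : (((algebraMap A FK π)⁻¹ * x : FK) : LaurentSeries K) =
      (HahnSeries.C (A.subtype π))⁻¹ * (x : LaurentSeries K) := by
    rw [← s18_coe_algebraMap (N := N)]
    rfl
  constructor
  · intro h
    refine ⟨_, s18_mem_chAlg.mp h, ?_⟩
    rw [hcoe, mul_inv_cancel_left₀ hC]
  · rintro ⟨y', hy', e⟩
    rw [s18_mem_chAlg, hcoe, e, inv_mul_cancel_left₀ hC]
    exact hy'

variable [IsDiscreteValuationRing A] {π : A}

/-- `π` is prime in the chart (field `prime` of `s18_Chart`). -/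
theorem s18_chAlg_prime (hR : s18_ResBasis ℓ A π) (h : s18_cz_Coord N ℓ t)
    {B : Subring (LaurentSeries ℚ)} (hB : CoreData N ℓ B) :
    ∀ x ∈ s18_chAlg N ℓ A t, ∀ y ∈ s18_chAlg N ℓ A t,
      (algebraMap A FK π)⁻¹ * (x * y) ∈ s18_chAlg N ℓ A t →
      (algebraMap A FK π)⁻¹ * x ∈ s18_chAlg N ℓ A t ∨
        (algebraMap A FK π)⁻¹ * y ∈ s18_chAlg N ℓ A t := by
  intro x hx y hy hxy
  have hπ0 : π ≠ 0 := hR.irr.ne_zero
  rw [s18_inv_mul_mem_chAlg_iff hπ0] at hxy ⊢
  rw [s18_inv_mul_mem_chAlg_iff hπ0]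
  exact s18_chart_prime (s18_valSubtype_injective (A := A))
    (fun y hy => s18_chRing_le_W hR.unit h hB hy)
    (fun y hy hred => s18_chRing_kernel hR h hB y hy hred)
    (s18_residue_uniformizer hR.irr) _ _ (s18_mem_chAlg.mp hx) (s18_mem_chAlg.mp hy) hxy

/-- An element of the chart with nonzero reduction is not divisible by `π`. -/
theorem s18_chAlg_not_dvd (hR : s18_ResBasis ℓ A π) (h : s18_cz_Coord N ℓ t)
    {B : Subring (LaurentSeries ℚ)} (hB : CoreData N ℓ B) (x : FK)
    (hx : x ∈ s18_chAlg N ℓ A t)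
    (hne : s18_red (ρ := IsLocalRing.residue A) (s18_valSubtype_injective (A := A))
      ⟨(x : LaurentSeries K), s18_chRing_le_W hR.unit h hB (s18_mem_chAlg.mp hx)⟩ ≠ 0) :
    (algebraMap A FK π)⁻¹ * x ∉ s18_chAlg N ℓ A t := by
  rw [s18_inv_mul_mem_chAlg_iff hR.irr.ne_zero]
  exact s18_chart_not_dvd (s18_valSubtype_injective (A := A))
    (fun y hy => s18_chRing_le_W hR.unit h hB hy) (s18_residue_uniformizer hR.irr) _
    (s18_mem_chAlg.mp hx) hne

/-- An element of the chart with zero reduction is divisible by `π`. -/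
theorem s18_chAlg_dvd (hR : s18_ResBasis ℓ A π) (h : s18_cz_Coord N ℓ t)
    {B : Subring (LaurentSeries ℚ)} (hB : CoreData N ℓ B) (x : FK)
    (hx : x ∈ s18_chAlg N ℓ A t)
    (hred : s18_red (ρ := IsLocalRing.residue A) (s18_valSubtype_injective (A := A))
      ⟨(x : LaurentSeries K), s18_chRing_le_W hR.unit h hB (s18_mem_chAlg.mp hx)⟩ = 0) :
    (algebraMap A FK π)⁻¹ * x ∈ s18_chAlg N ℓ A t := by
  rw [s18_inv_mul_mem_chAlg_iff hR.irr.ne_zero]
  exact s18_chRing_kernel hR h hB _ (s18_mem_chAlg.mp hx) hred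

/-- `π` is not a unit of the chart (field `nonunit` of `s18_Chart`). -/
theorem s18_chAlg_nonunit (hR : s18_ResBasis ℓ A π) (h : s18_cz_Coord N ℓ t)
    {B : Subring (LaurentSeries ℚ)} (hB : CoreData N ℓ B) :
    (algebraMap A FK π)⁻¹ ∉ s18_chAlg N ℓ A t := by
  have h1 := s18_chAlg_not_dvd hR h hB (1 : FK) (Subalgebra.one_mem _) (by
    have : (⟨((1 : FK) : LaurentSeries K), s18_chRing_le_W hR.unit h hB
        (s18_mem_chAlg.mp (Subalgebra.one_mem _))⟩ : s18_W A.subtype (IsLocalRing.residue A)) = 1 :=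
      rfl
    rw [this, map_one]
    exact one_ne_zero)
  rwa [mul_one] at h1

omit [IsDiscreteValuationRing A] in
theorem s18_coord_inv (t : modularFunctionFieldFull N) :
    s18_coord K t⁻¹ = (s18_coord K t)⁻¹ := by
  apply Subtype.ext
  show coeffEmb K ((t⁻¹ : modularFunctionFieldFull N) : LaurentSeries ℚ) =
    (coeffEmb K (t : LaurentSeries ℚ))⁻¹
  rw [← map_inv₀]
  rfl

omit [IsDiscreteValuationRing A] in
/-- The reduction of the coordinate is nonzero. -/
theorem s18_red_coord_ne_zero (hℓ : ((ℓ : K))⁻¹ ∉ A) (h : s18_cz_Coord N ℓ t)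
    {B : Subring (LaurentSeries ℚ)} (hB : CoreData N ℓ B) :
    s18_red (ρ := IsLocalRing.residue A) (s18_valSubtype_injective (A := A))
      ⟨((s18_coord K t : FK) : LaurentSeries K),
        s18_chRing_le_W hℓ h hB (s18_mem_chAlg.mp (s18_coord_mem t))⟩ ≠ 0 := by
  intro h0
  have hinvW : ((s18_coord K t⁻¹ : FK) : LaurentSeries K) ∈
      s18_W A.subtype (IsLocalRing.residue A) :=
    s18_chRing_le_W hℓ h.inv hB (s18_mem_chAlg.mp (s18_coord_mem t⁻¹))
  have h1 : (⟨((s18_coord K t : FK) : LaurentSeries K),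
      s18_chRing_le_W hℓ h hB (s18_mem_chAlg.mp (s18_coord_mem t))⟩ :
      s18_W A.subtype (IsLocalRing.residue A)) * ⟨_, hinvW⟩ = 1 := by
    apply Subtype.ext
    show ((s18_coord K t : FK) : LaurentSeries K) * ((s18_coord K t⁻¹ : FK) : LaurentSeries K) = 1
    rw [s18_coord_inv]
    have hne : (s18_coord K t : FK) ≠ 0 := by
      intro h2
      have h3 : coeffEmb K (t : LaurentSeries ℚ) = 0 := congrArg Subtype.val h2
      have h4 : (t : LaurentSeries ℚ) = 0 :=
        s18_coeffMap_injective _ (algebraMap ℚ K).injective (by rw [map_zero]; exact h3)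
      exact h.ne_zero (Subtype.ext h4)
    have h5 : (s18_coord K t : FK) * (s18_coord K t)⁻¹ = 1 := mul_inv_cancel₀ hne
    exact congrArg Subtype.val h5
  have h2 := congrArg (s18_red (ρ := IsLocalRing.residue A) (s18_valSubtype_injective (A := A))) h1
  rw [map_mul, h0, zero_mul, map_one] at h2
  exact zero_ne_one h2

/-- The coordinate is not divisible by `π` in its chart (`t_unit` of `s18_TwoChart`). -/
theorem s18_chAlg_coord_not_dvd (hR : s18_ResBasis ℓ A π) (h : s18_cz_Coord N ℓ t)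
    {B : Subring (LaurentSeries ℚ)} (hB : CoreData N ℓ B) :
    (algebraMap A FK π)⁻¹ * s18_coord K t ∉ s18_chAlg N ℓ A t :=
  s18_chAlg_not_dvd hR h hB _ (s18_coord_mem t) (s18_red_coord_ne_zero hR.unit h hB)

omit [NeZero N] [Fact ℓ.Prime] [IsDiscreteValuationRing A] in
/-- The order of a series with unit leading term. -/
theorem s18_chp_order_of_isLeading {R : Type*} [CommRing R] [Nontrivial R] (T : LaurentSeries ℤ)
    (e : ℤ) (hlead : IsLeading T e 1) : (coeffMap (Int.castRingHom R) T).order = e := by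
  have hc : (coeffMap (Int.castRingHom R) T).coeff e ≠ 0 := by
    rw [coeffMap_coeff, hlead.1]
    simp
  have hne : coeffMap (Int.castRingHom R) T ≠ 0 := by
    intro h0
    rw [h0] at hc
    exact hc rfl
  refine le_antisymm (HahnSeries.order_le_of_coeff_ne_zero hc) ?_
  by_contra hlt
  push Not at hlt
  have h1 : (coeffMap (Int.castRingHom R) T).coeff (coeffMap (Int.castRingHom R) T).order ≠ 0 :=
    fun h0 => hne (HahnSeries.coeff_order_eq_zero.mp h0)
  rw [coeffMap_coeff, hlead.2 _ hlt] at h1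
  simp at h1

omit [IsDiscreteValuationRing A] [Fact ℓ.Prime] in
theorem s18_coe_coord_eq (T : LaurentSeries ℤ)
    (hT : (t : LaurentSeries ℚ) = coeffMap (Int.castRingHom ℚ) T) :
    ((s18_coord K t : FK) : LaurentSeries K) = coeffMap (Int.castRingHom K) T := by
  show coeffEmb K (t : LaurentSeries ℚ) = _
  rw [hT, coeffEmb, coeffMap_coeffMap]
  exact coeffMap_congr (RingHom.ext_int _ _) T

omit [IsDiscreteValuationRing A] [Fact ℓ.Prime] in
/-- Evaluation of `A`-polynomials at the coordinate, in ambient terms. -/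
theorem s18_chp_coe_aeval_coord (P : A[X]) :
    ((aeval (s18_coord K t) P : FK) : LaurentSeries K) =
      Polynomial.eval₂RingHom (HahnSeries.C : K →+* LaurentSeries K)
        ((s18_coord K t : FK) : LaurentSeries K) (P.map A.subtype) := by
  have h : ((laurentBaseChange K (modularFunctionFieldFull N)).val.toRingHom.comp
      (aeval (s18_coord K t) : A[X] →ₐ[A] FK).toRingHom) =
      (Polynomial.eval₂RingHom (HahnSeries.C : K →+* LaurentSeries K)
        ((s18_coord K t : FK) : LaurentSeries K)).comp (Polynomial.mapRingHom A.subtype) := by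
    apply Polynomial.ringHom_ext
    · intro r
      show ((aeval (s18_coord K t) (C r) : FK) : LaurentSeries K) = _
      rw [aeval_C, s18_coe_algebraMap]
      simp
    · show ((aeval (s18_coord K t) (X : A[X]) : FK) : LaurentSeries K) = _
      rw [aeval_X]
      simp
  exact RingHom.congr_fun h P

omit [IsDiscreteValuationRing A] [Fact ℓ.Prime] in
/-- The coordinate is transcendental over `A`. -/
theorem s18_coord_transcendental (T : LaurentSeries ℤ)
    (hT : (t : LaurentSeries ℚ) = coeffMap (Int.castRingHom ℚ) T)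
    (e : ℤ) (he : e ≠ 0) (hlead : IsLeading T e 1) :
    ∀ P : A[X], aeval (s18_coord K t) P = 0 → P = 0 := by
  intro P hP
  have h1 := s18_chp_coe_aeval_coord (t := t) P
  rw [hP] at h1
  by_contra hP0
  have hmap : P.map A.subtype ≠ 0 := by
    intro h0
    apply hP0
    exact Polynomial.map_injective _ (s18_valSubtype_injective (A := A)) (by rw [h0, Polynomial.map_zero])
  have hord : (((s18_coord K t : FK) : LaurentSeries K)).order ≠ 0 := by
    rw [s18_coe_coord_eq T hT, s18_chp_order_of_isLeading T e hlead]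
    exact he
  exact s18_ch_transc _ hord _ hmap h1.symm

omit [IsDiscreteValuationRing A] in
/-- `hinj` of `s18_sm`. -/
theorem s18_chAlg_hinj (T : LaurentSeries ℤ)
    (hT : (t : LaurentSeries ℚ) = coeffMap (Int.castRingHom ℚ) T)
    (e : ℤ) (he : e ≠ 0) (hlead : IsLeading T e 1) :
    letI := s18_chPolyAlgebra ℓ A t
    Function.Injective (algebraMap A[X] (s18_chAlg N ℓ A t)) := by
  let _ := s18_chPolyAlgebra ℓ A t
  rw [injective_iff_map_eq_zero]
  intro P hP
  apply s18_coord_transcendental (t := t) T hT e he hlead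
  have h1 : ((aeval (s18_coordB ℓ A t) P : s18_chAlg N ℓ A t) : FK) = aeval (s18_coord K t) P :=
    Polynomial.aeval_subalgebra_coe P _ (s18_coordB ℓ A t)
  rw [← h1]
  exact congrArg Subtype.val hP

omit [IsDiscreteValuationRing A] in
/-- Gluing: an element of the chart of `t` lies in the chart of `t⁻¹` after multiplication by a
power of `t⁻¹`. -/
theorem s18_chAlg_glue (ht0 : t ≠ 0) :
    ∀ x ∈ s18_chAlg N ℓ A t, ∃ k : ℕ, (s18_coord K t)⁻¹ ^ k * x ∈ s18_chAlg N ℓ A t⁻¹ := by
  have key : ∀ y ∈ s18_chRing N ℓ A t, ∃ k : ℕ, ∀ k', k ≤ k' →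
      (coeffEmb K (t : LaurentSeries ℚ))⁻¹ ^ k' * y ∈ s18_chRing N ℓ A t⁻¹ := by
    intro y hy
    refine s18_chSpan_induction (P := fun y => ∃ k : ℕ, ∀ k', k ≤ k' →
      (coeffEmb K (t : LaurentSeries ℚ))⁻¹ ^ k' * y ∈ s18_chRing N ℓ A t⁻¹) ?_ ?_ ?_ ?_ hy
    · intro r x hx
      obtain ⟨y₀, hy₀, rfl⟩ := s18_mem_czRing.mp hx
      obtain ⟨n, hn⟩ := s18_cz_glue0 (ℓ := ℓ) ht0 y₀ hy₀
      refine ⟨n, fun k' hk' => ?_⟩
      have hmem : t⁻¹ ^ (k' - n) * (t⁻¹ ^ n * y₀) ∈ chartAlg N ℓ {t⁻¹} :=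
        (chartAlg N ℓ {t⁻¹}).mul_mem ((chartAlg N ℓ {t⁻¹}).pow_mem
          (subset_chartAlg N ℓ {t⁻¹} (Set.mem_singleton _)) _) hn
      have heq : (coeffEmb K (t : LaurentSeries ℚ))⁻¹ ^ k' *
          (HahnSeries.C (A.subtype r) * coeffMap (algebraMap ℚ K) (y₀ : LaurentSeries ℚ)) =
          HahnSeries.C (A.subtype r) * coeffMap (algebraMap ℚ K)
            ((t⁻¹ ^ (k' - n) * (t⁻¹ ^ n * y₀) : modularFunctionFieldFull N) : LaurentSeries ℚ) := by
        have h1 : ((t⁻¹ ^ (k' - n) * (t⁻¹ ^ n * y₀) : modularFunctionFieldFull N) :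
            LaurentSeries ℚ) = ((t : LaurentSeries ℚ))⁻¹ ^ k' * (y₀ : LaurentSeries ℚ) := by
          rw [← mul_assoc, ← pow_add, Nat.sub_add_cancel hk']
          rfl
        rw [h1, map_mul, map_pow, map_inv₀]
        show _ = HahnSeries.C (A.subtype r) * ((coeffEmb K (t : LaurentSeries ℚ))⁻¹ ^ k' *
          coeffMap (algebraMap ℚ K) (y₀ : LaurentSeries ℚ))
        ring
      rw [heq]
      exact s18_gen_mem_chSpan r (s18_coe_mem_czRing hmem)
    · exact ⟨0, fun k' _ => by rw [mul_zero]; exact Subring.zero_mem _⟩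
    · rintro y y' ⟨k, hk⟩ ⟨k', hk'⟩
      refine ⟨max k k', fun m hm => ?_⟩
      rw [mul_add]
      exact Subring.add_mem _ (hk m (le_trans (le_max_left _ _) hm))
        (hk' m (le_trans (le_max_right _ _) hm))
    · rintro y ⟨k, hk⟩
      exact ⟨k, fun m hm => by rw [mul_neg]; exact Subring.neg_mem _ (hk m hm)⟩
  intro x hx
  obtain ⟨k, hk⟩ := key _ (s18_mem_chAlg.mp hx)
  exact ⟨k, hk k le_rfl⟩

end Props

end Fermat.Agent.S18
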