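import Fermat.Agent.S28.Kernel

/-!
# S18 block C, piece (Cc): the `ℤ_(ℓ)`-charts of a coordinate `t` on the modular curve

For a "coordinate" `t` of the function field `F_N = modularFunctionFieldFull N` (this covers
`t = j` and the Hauptmoduln of `X₀(2)`, `X₀(3)`), we study the two charts
`chartAlg N ℓ {t}` and `chartAlg N ℓ {t⁻¹}` (integral closures of `ℤ_(ℓ)[t]`, `ℤ_(ℓ)[t⁻¹]`
in `F_N`): they lie in the middle `j`-chart (so have `ℓ`-integral `q`-expansions), they glue,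
and the kernel of the reduction map on each of them is generated by `ℓ`
(`q`-expansion principle).
-/

set_option autoImplicit false

open ModularCurve ModularCurve.IgusaScheme

noncomputable section

namespace Fermat.Agent.S18

open Fermat.Agent.S28

/-- Transitivity of integrality for two subalgebras of a common ring. -/
theorem s18_cz_isIntegral_trans {R F : Type*} [CommRing R] [CommRing F] [Algebra R F]
    (S₁ S₂ : Subalgebra R F) (h : ∀ y ∈ S₁, IsIntegral S₂ y) (x : F) (hx : IsIntegral S₁ x) :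
    IsIntegral S₂ x := by
  let C : Subalgebra S₂ F := integralClosure S₂ F
  let φ : S₁ →+* C := RingHom.codRestrict (S₁.val : S₁ →+* F) C.toSubring (fun y => h y y.2)
  have h1 : IsIntegral C x :=
    hx.map_of_comp_eq φ (RingHom.id F) (by ext; rfl)
  have h2 : x ∈ integralClosure C F := h1
  rw [integralClosure_idem] at h2
  obtain ⟨c, rfl⟩ := h2
  exact c.2

variable {N : ℕ} [NeZero N] {ℓ : ℕ} [Fact ℓ.Prime]

/-- Transitivity for the charts: if `S` is integral over `ℤ_(ℓ)[S']` then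
`chartAlg S ≤ chartAlg S'`. -/
theorem s18_cz_chartAlg_le {S S' : Set (modularFunctionFieldFull N)}
    (h : S ⊆ (chartAlg N ℓ S' : Set (modularFunctionFieldFull N))) :
    chartAlg N ℓ S ≤ chartAlg N ℓ S' := by
  intro x hx
  rw [mem_chartAlg_iff] at hx ⊢
  exact s18_cz_isIntegral_trans _ _
    (fun y hy => (Algebra.adjoin_le (S := chartAlg N ℓ S') h) hy) x hx

/-- A *coordinate* of the modular curve of level `N` over `ℤ_(ℓ)`: a nonzero function `t` with
`t`, `t⁻¹` integral over `ℤ_(ℓ)[j, j⁻¹]` and `j ∈ ℤ_(ℓ)[t, t⁻¹]`.  Examples: `t = j`; any `t`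
with `t`, `t⁻¹` integral over `ℤ_(ℓ)[j]` and `j ∈ ℤ_(ℓ)[t, t⁻¹]` (Hauptmoduln of `X₀(2)`,
`X₀(3)` for `ℓ ≠ 2`, resp. `ℓ ≠ 3`). -/
structure s18_cz_Coord (N ℓ : ℕ) [NeZero N] [Fact ℓ.Prime] (t : modularFunctionFieldFull N) :
    Prop where
  ne_zero : t ≠ 0
  mem_mid : t ∈ chartAlgMid N ℓ
  inv_mem_mid : t⁻¹ ∈ chartAlgMid N ℓ
  j_mem : jFull N ∈ Algebra.adjoin (GaloisRep.ratLocalizedAt ℓ)
    ({t, t⁻¹} : Set (modularFunctionFieldFull N))

/-- The inverse of a coordinate is a coordinate. -/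
theorem s18_cz_Coord.inv {t : modularFunctionFieldFull N} (h : s18_cz_Coord N ℓ t) :
    s18_cz_Coord N ℓ t⁻¹ where
  ne_zero := inv_ne_zero h.ne_zero
  mem_mid := h.inv_mem_mid
  inv_mem_mid := by rw [inv_inv]; exact h.mem_mid
  j_mem := by rw [inv_inv, Set.pair_comm]; exact h.j_mem

variable (N ℓ) in
/-- `j` itself is a coordinate. -/
theorem s18_cz_coord_j : s18_cz_Coord N ℓ (jFull N) where
  ne_zero := jFull_ne_zero N
  mem_mid := subset_chartAlg N ℓ _ (by simp)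
  inv_mem_mid := subset_chartAlg N ℓ _ (by simp)
  j_mem := Algebra.subset_adjoin (by simp)

/-- A function `t` with `t`, `t⁻¹` integral over `ℤ_(ℓ)[j]` and `j ∈ ℤ_(ℓ)[t, t⁻¹]` is a
coordinate. -/
theorem s18_cz_coord_of_fin {t : modularFunctionFieldFull N} (ht0 : t ≠ 0)
    (ht : t ∈ chartAlgFin N ℓ) (hti : t⁻¹ ∈ chartAlgFin N ℓ)
    (hj : jFull N ∈ Algebra.adjoin (GaloisRep.ratLocalizedAt ℓ)
      ({t, t⁻¹} : Set (modularFunctionFieldFull N))) : s18_cz_Coord N ℓ t where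
  ne_zero := ht0
  mem_mid := chartAlg_mono N ℓ (sFin_subset N) ht
  inv_mem_mid := chartAlg_mono N ℓ (sFin_subset N) hti
  j_mem := hj

namespace s18_cz_Coord

variable {t : modularFunctionFieldFull N} (h : s18_cz_Coord N ℓ t)
include h

/-- The chart `ℤ_(ℓ)[t, t⁻¹]^~` lies in the middle `j`-chart. -/
theorem chart_pair_le_mid : chartAlg N ℓ {t, t⁻¹} ≤ chartAlgMid N ℓ :=
  s18_cz_chartAlg_le (by
    rintro y (rfl | rfl)
    · exact h.mem_mid
    · exact h.inv_mem_mid)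

omit h in
theorem chart_le_pair (t : modularFunctionFieldFull N) :
    chartAlg N ℓ {t} ≤ chartAlg N ℓ {t, t⁻¹} :=
  chartAlg_mono N ℓ (by simp)

omit h in
theorem chart_inv_le_pair (t : modularFunctionFieldFull N) :
    chartAlg N ℓ {t⁻¹} ≤ chartAlg N ℓ {t, t⁻¹} :=
  chartAlg_mono N ℓ (by simp)

/-- The chart `ℤ_(ℓ)[t]^~` lies in the middle `j`-chart. -/
theorem chart_le_mid : chartAlg N ℓ {t} ≤ chartAlgMid N ℓ :=
  (chartAlg_mono N ℓ (by simp)).trans h.chart_pair_le_mid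

/-- The chart `ℤ_(ℓ)[t⁻¹]^~` lies in the middle `j`-chart. -/
theorem chart_inv_le_mid : chartAlg N ℓ {t⁻¹} ≤ chartAlgMid N ℓ :=
  (chartAlg_mono N ℓ (by simp)).trans h.chart_pair_le_mid

/-- The finite `j`-chart lies in `ℤ_(ℓ)[t, t⁻¹]^~`. -/
theorem fin_le_chart_pair : chartAlgFin N ℓ ≤ chartAlg N ℓ {t, t⁻¹} :=
  s18_cz_chartAlg_le (by
    rintro y rfl
    exact adjoin_le_chartAlg N ℓ _ h.j_mem)

omit h in
/-- Gluing: elements of `ℤ_(ℓ)[t, t⁻¹]^~` become integral over `ℤ_(ℓ)[t]` after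
multiplication by a power of `t`. -/
theorem exists_pow_mul_mem {t : modularFunctionFieldFull N} (ht0 : t ≠ 0)
    (x : modularFunctionFieldFull N) (hx : x ∈ chartAlg N ℓ {t, t⁻¹}) :
    ∃ n : ℕ, t ^ n * x ∈ chartAlg N ℓ {t} := by
  have hz : x ∈ chartAlg N ℓ (insert t⁻¹ {t}) := by
    rw [show insert t⁻¹ ({t} : Set (modularFunctionFieldFull N)) = {t, t⁻¹} from
      Set.pair_comm _ _]
    exact hx
  exact exists_pow_mul_mem_chartAlg (Set.mem_singleton _) ht0 hz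

omit h in
/-- Gluing: elements of `ℤ_(ℓ)[t, t⁻¹]^~` become integral over `ℤ_(ℓ)[t⁻¹]` after
multiplication by a power of `t⁻¹`. -/
theorem exists_inv_pow_mul_mem {t : modularFunctionFieldFull N} (ht0 : t ≠ 0)
    (x : modularFunctionFieldFull N) (hx : x ∈ chartAlg N ℓ {t, t⁻¹}) :
    ∃ n : ℕ, t⁻¹ ^ n * x ∈ chartAlg N ℓ {t⁻¹} := by
  have hz : x ∈ chartAlg N ℓ (insert t⁻¹⁻¹ {t⁻¹}) := by
    rw [inv_inv]
    exact hx
  exact exists_pow_mul_mem_chartAlg (Set.mem_singleton _) (inv_ne_zero ht0) hz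

/-- A coordinate is transcendental over `ℤ_(ℓ)`. -/
theorem aeval_injective : Function.Injective
    (Polynomial.aeval t : Polynomial (GaloisRep.ratLocalizedAt ℓ) →ₐ[GaloisRep.ratLocalizedAt ℓ]
      modularFunctionFieldFull N) := by
  rw [injective_iff_map_eq_zero]
  intro Q hQ
  by_contra hQ0
  have halg : IsAlgebraic (GaloisRep.ratLocalizedAt ℓ) t := ⟨Q, hQ0, hQ⟩
  have hall : (Algebra.adjoin (GaloisRep.ratLocalizedAt ℓ)
      ({t, t⁻¹} : Set (modularFunctionFieldFull N))).IsAlgebraic := by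
    rw [Algebra.isAlgebraic_adjoin_iff]
    rintro y (rfl | rfl)
    · exact halg
    · exact halg.inv
  obtain ⟨R, hR0, hR⟩ := hall _ h.j_mem
  apply hR0
  apply evJ_injective ℓ
  rw [evJ_eq_kerVal_aeval N ℓ R, hR, map_zero, map_zero]

/-- Elements of `ℤ_(ℓ)[t, t⁻¹]^~` have `ℓ`-integral `q`-expansions (they lie in the Gauss
valuation ring `Wring ℓ`). -/
theorem coe_mem_Wring {B : Subring (LaurentSeries ℚ)} (hB : CoreData N ℓ B)
    (x : modularFunctionFieldFull N) (hx : x ∈ chartAlg N ℓ {t, t⁻¹}) :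
    (x : LaurentSeries ℚ) ∈ Wring ℓ :=
  hB.coe_mem_Wring_of_mem_chartAlgMid x (h.chart_pair_le_mid hx)

omit h in
/-- A unit of the middle chart has nonzero reduction. -/
theorem s18_cz_red_ne_zero {B : Subring (LaurentSeries ℚ)} (hB : CoreData N ℓ B)
    (y : modularFunctionFieldFull N) (hy0 : y ≠ 0) (hy : y ∈ chartAlgMid N ℓ)
    (hyi : y⁻¹ ∈ chartAlgMid N ℓ) :
    redChart hB (chartAlgMid N ℓ) le_rfl ⟨y, hy⟩ ≠ 0 := by
  intro h0
  have h1 : (⟨y, hy⟩ : chartAlgMid N ℓ) * ⟨y⁻¹, hyi⟩ = 1 :=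
    Subtype.ext (mul_inv_cancel₀ hy0)
  have h2 := congrArg (redChart hB (chartAlgMid N ℓ) le_rfl) h1
  rw [map_mul, h0, zero_mul, map_one] at h2
  exact zero_ne_one h2

/-- **`q`-expansion principle on the chart `ℤ_(ℓ)[t]^~`**: an element whose `q`-expansion
reduces to zero modulo `ℓ` is divisible by `ℓ` in the chart. -/
theorem kernel {B : Subring (LaurentSeries ℚ)} (hB : CoreData N ℓ B)
    (x : modularFunctionFieldFull N) (hx : x ∈ chartAlg N ℓ {t})
    (hW : (x : LaurentSeries ℚ) ∈ Wring ℓ) (hred : redW ℓ ⟨(x : LaurentSeries ℚ), hW⟩ = 0) :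
    ((ℓ : ℕ) : modularFunctionFieldFull N)⁻¹ * x ∈ chartAlg N ℓ {t} := by
  have hxmid : x ∈ chartAlgMid N ℓ := h.chart_le_mid hx
  obtain ⟨n, hn⟩ := exists_pow_mul_mem_fin N ℓ x hxmid
  have hWg := hB.coe_mem_Wring_of_mem_chartAlgFin _ hn
  have hjW : (jq : LaurentSeries ℚ) ∈ Wring ℓ :=
    hB.coe_mem_Wring_of_mem_chartAlgFin (jFull N) (jChartFin N ℓ).2
  have hredg : redW ℓ ⟨((jFull N ^ n * x : modularFunctionFieldFull N) : LaurentSeries ℚ), hWg⟩
      = 0 := by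
    have h' : (⟨((jFull N ^ n * x : modularFunctionFieldFull N) : LaurentSeries ℚ), hWg⟩ :
        Wring ℓ) = ⟨jq, hjW⟩ ^ n * ⟨(x : LaurentSeries ℚ), hW⟩ := by
      apply Subtype.ext
      show kerVal N (jFull N ^ n * x) = _
      rw [map_mul, map_pow]
      rfl
    rw [h', map_mul, hred, mul_zero]
  have hg' := hB.fin_kernel _ hn hWg hredg
  obtain ⟨E, hE⟩ := exists_pow_mul_mem h.ne_zero _ (h.fin_le_chart_pair hg')
  -- `t ^ m * j ∈ ℤ_(ℓ)[t]`
  have hj' : jFull N ∈ Algebra.adjoin (GaloisRep.ratLocalizedAt ℓ)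
      (insert t⁻¹ ({t} : Set (modularFunctionFieldFull N))) := by
    rw [show insert t⁻¹ ({t} : Set (modularFunctionFieldFull N)) = {t, t⁻¹} from
      Set.pair_comm _ _]
    exact h.j_mem
  obtain ⟨m, hm⟩ := exists_pow_mul_mem_adjoin (Set.mem_singleton t) h.ne_zero hj'
  have htA : t ∈ Algebra.adjoin (GaloisRep.ratLocalizedAt ℓ)
      ({t} : Set (modularFunctionFieldFull N)) := Algebra.subset_adjoin rfl
  have hu : t ^ E * (t ^ m * jFull N) ^ n ∈ Algebra.adjoin (GaloisRep.ratLocalizedAt ℓ)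
      ({t} : Set (modularFunctionFieldFull N)) := mul_mem (pow_mem htA E) (pow_mem hm n)
  rw [Algebra.adjoin_singleton_eq_range_aeval] at hu
  obtain ⟨U, hU'⟩ := hu
  have hU : Polynomial.aeval t U = t ^ E * (t ^ m * jFull N) ^ n := hU'
  clear hU'
  -- `U` is prime to `ℓ`
  have hUdvd : ¬ (Polynomial.C (ℓ : GaloisRep.ratLocalizedAt ℓ) ∣ U) := by
    rintro ⟨U', rfl⟩
    rw [map_mul, Polynomial.aeval_C] at hU
    have hvA : Polynomial.aeval t U' ∈ chartAlgMid N ℓ :=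
      h.chart_le_mid (adjoin_le_chartAlg N ℓ _ (by
        rw [Algebra.adjoin_singleton_eq_range_aeval]
        exact ⟨U', rfl⟩))
    have hjM : jFull N ∈ chartAlgMid N ℓ := subset_chartAlg N ℓ _ (by simp)
    have hjiM : (jFull N)⁻¹ ∈ chartAlgMid N ℓ := subset_chartAlg N ℓ _ (by simp)
    have heq : (⟨t, h.mem_mid⟩ : chartAlgMid N ℓ) ^ E *
        ((⟨t, h.mem_mid⟩ : chartAlgMid N ℓ) ^ m * ⟨jFull N, hjM⟩) ^ n =
        algebraMap (GaloisRep.ratLocalizedAt ℓ) (chartAlgMid N ℓ)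
          (ℓ : GaloisRep.ratLocalizedAt ℓ) * ⟨Polynomial.aeval t U', hvA⟩ := by
      apply Subtype.ext
      show t ^ E * (t ^ m * jFull N) ^ n =
        algebraMap (GaloisRep.ratLocalizedAt ℓ) (modularFunctionFieldFull N)
          (ℓ : GaloisRep.ratLocalizedAt ℓ) * Polynomial.aeval t U'
      rw [← hU]
    have h2 := congrArg (redChart hB (chartAlgMid N ℓ) le_rfl) heq
    rw [map_mul, map_pow, map_pow, map_mul, map_pow, map_mul, redChart_algebraMap,
      map_natCast, ZMod.natCast_self, map_zero, zero_mul] at h2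
    exact mul_ne_zero (pow_ne_zero _ (s18_cz_red_ne_zero hB t h.ne_zero h.mem_mid h.inv_mem_mid))
      (pow_ne_zero _ (mul_ne_zero
        (pow_ne_zero _ (s18_cz_red_ne_zero hB t h.ne_zero h.mem_mid h.inv_mem_mid))
        (s18_cz_red_ne_zero hB (jFull N) (jFull_ne_zero N) hjM hjiM))) h2
  -- conclusion by the coprimality lemma over `ℤ_(ℓ)[t]`
  let ev : Polynomial (GaloisRep.ratLocalizedAt ℓ) →+* LaurentSeries ℚ :=
    (kerVal N).comp (Polynomial.aeval t : Polynomial (GaloisRep.ratLocalizedAt ℓ) →ₐ[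
      GaloisRep.ratLocalizedAt ℓ] modularFunctionFieldFull N).toRingHom
  have hev : ∀ c, ev c = kerVal N (Polynomial.aeval t c) := fun _ => rfl
  have hevinj : Function.Injective ev := (kerVal_injective N).comp h.aeval_injective
  have hell : Polynomial.aeval t (Polynomial.C (ℓ : GaloisRep.ratLocalizedAt ℓ)) =
      ((ℓ : ℕ) : modularFunctionFieldFull N) := by
    rw [Polynomial.aeval_C, map_natCast]
  rw [mem_chartAlg_singleton_iff N ℓ t ev hev]
  show ev.IsIntegralElem (kerVal N (((ℓ : ℕ) : modularFunctionFieldFull N)⁻¹ * x))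
  apply isIntegralElem_of_ell_mul_of_mul ℓ ev hevinj U hUdvd
  · have h3 : ev (Polynomial.C (ℓ : GaloisRep.ratLocalizedAt ℓ)) *
        kerVal N (((ℓ : ℕ) : modularFunctionFieldFull N)⁻¹ * x) = kerVal N x := by
      rw [hev, ← map_mul, hell, mul_inv_cancel_left₀ (natCast_ell_ne_zero_full N ℓ)]
    rw [h3]
    exact (mem_chartAlg_singleton_iff N ℓ t ev hev x).mp hx
  · have h3 : ev U * kerVal N (((ℓ : ℕ) : modularFunctionFieldFull N)⁻¹ * x) =
        kerVal N ((t ^ m) ^ n * (t ^ E * (((ℓ : ℕ) : modularFunctionFieldFull N)⁻¹ *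
          (jFull N ^ n * x)))) := by
      rw [hev, ← map_mul, hU]
      congr 1
      ring
    rw [h3]
    have htC : t ∈ chartAlg N ℓ {t} := subset_chartAlg N ℓ {t} (Set.mem_singleton t)
    have h4 : (t ^ m) ^ n * (t ^ E * (((ℓ : ℕ) : modularFunctionFieldFull N)⁻¹ *
        (jFull N ^ n * x))) ∈ chartAlg N ℓ {t} :=
      (chartAlg N ℓ {t}).mul_mem
        ((chartAlg N ℓ {t}).pow_mem ((chartAlg N ℓ {t}).pow_mem htC m) n) hE
    exact (mem_chartAlg_singleton_iff N ℓ t ev hev _).mp h4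

/-- **`q`-expansion principle on the chart `ℤ_(ℓ)[t⁻¹]^~`**. -/
theorem kernel_inv {B : Subring (LaurentSeries ℚ)} (hB : CoreData N ℓ B)
    (x : modularFunctionFieldFull N) (hx : x ∈ chartAlg N ℓ {t⁻¹})
    (hW : (x : LaurentSeries ℚ) ∈ Wring ℓ) (hred : redW ℓ ⟨(x : LaurentSeries ℚ), hW⟩ = 0) :
    ((ℓ : ℕ) : modularFunctionFieldFull N)⁻¹ * x ∈ chartAlg N ℓ {t⁻¹} :=
  h.inv.kernel hB x hx hW hred

/-- **`q`-expansion principle on the chart `ℤ_(ℓ)[t, t⁻¹]^~`**. -/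
theorem kernel_pair {B : Subring (LaurentSeries ℚ)} (hB : CoreData N ℓ B)
    (x : modularFunctionFieldFull N) (hx : x ∈ chartAlg N ℓ {t, t⁻¹})
    (hW : (x : LaurentSeries ℚ) ∈ Wring ℓ) (hred : redW ℓ ⟨(x : LaurentSeries ℚ), hW⟩ = 0) :
    ((ℓ : ℕ) : modularFunctionFieldFull N)⁻¹ * x ∈ chartAlg N ℓ {t, t⁻¹} := by
  obtain ⟨n, hn⟩ := exists_pow_mul_mem h.ne_zero x hx
  have htW : ((t : modularFunctionFieldFull N) : LaurentSeries ℚ) ∈ Wring ℓ :=
    hB.coe_mem_Wring_of_mem_chartAlgMid t h.mem_mid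
  have hWg : ((t ^ n * x : modularFunctionFieldFull N) : LaurentSeries ℚ) ∈ Wring ℓ :=
    h.coe_mem_Wring hB _ (chart_le_pair t hn)
  have hredg : redW ℓ ⟨((t ^ n * x : modularFunctionFieldFull N) : LaurentSeries ℚ), hWg⟩
      = 0 := by
    have h' : (⟨((t ^ n * x : modularFunctionFieldFull N) : LaurentSeries ℚ), hWg⟩ :
        Wring ℓ) = ⟨(t : LaurentSeries ℚ), htW⟩ ^ n * ⟨(x : LaurentSeries ℚ), hW⟩ := by
      apply Subtype.ext
      show kerVal N (t ^ n * x) = _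
      rw [map_mul, map_pow]
      rfl
    rw [h', map_mul, hred, mul_zero]
  have h1 := chart_le_pair t (h.kernel hB _ hn hWg hredg)
  have h2 : ((ℓ : ℕ) : modularFunctionFieldFull N)⁻¹ * x =
      t⁻¹ ^ n * (((ℓ : ℕ) : modularFunctionFieldFull N)⁻¹ * (t ^ n * x)) := by
    rw [mul_left_comm (t⁻¹ ^ n), ← mul_assoc (t⁻¹ ^ n), ← mul_pow, inv_mul_cancel₀ h.ne_zero,
      one_pow, one_mul]
  rw [h2]
  exact mul_mem (pow_mem (subset_chartAlg N ℓ _ (by simp)) n) h1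

/-! ### The reduction map on the charts of a coordinate -/

/-- The reduction map (`q`-expansion modulo `ℓ`) on the chart `ℤ_(ℓ)[t, t⁻¹]^~`, which
contains both `ℤ_(ℓ)[t]^~` and `ℤ_(ℓ)[t⁻¹]^~`. -/
def red {B : Subring (LaurentSeries ℚ)} (hB : CoreData N ℓ B) :
    chartAlg N ℓ {t, t⁻¹} →+* LaurentSeries (ZMod ℓ) :=
  redChart hB (chartAlg N ℓ {t, t⁻¹}) h.chart_pair_le_mid

theorem red_apply {B : Subring (LaurentSeries ℚ)} (hB : CoreData N ℓ B)
    (x : chartAlg N ℓ {t, t⁻¹}) :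
    h.red hB x = redW ℓ ⟨((x : modularFunctionFieldFull N) : LaurentSeries ℚ),
      h.coe_mem_Wring hB _ x.2⟩ := rfl

theorem red_algebraMap {B : Subring (LaurentSeries ℚ)} (hB : CoreData N ℓ B)
    (r : GaloisRep.ratLocalizedAt ℓ) :
    h.red hB (algebraMap (GaloisRep.ratLocalizedAt ℓ) (chartAlg N ℓ {t, t⁻¹}) r) =
      HahnSeries.C (redR ℓ r) :=
  redChart_algebraMap hB _ _ r

/-- The reduction of an element whose `q`-expansion has coefficients in `ℤ_(ℓ)` is the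
coefficientwise reduction. -/
theorem red_eq_redL {B : Subring (LaurentSeries ℚ)} (hB : CoreData N ℓ B)
    (x : chartAlg N ℓ {t, t⁻¹}) (y : LaurentSeries (GaloisRep.ratLocalizedAt ℓ))
    (hy : incL ℓ y = ((x : modularFunctionFieldFull N) : LaurentSeries ℚ)) :
    h.red hB x = redL ℓ y := by
  have h1 := redW_spec ℓ ⟨((x : modularFunctionFieldFull N) : LaurentSeries ℚ),
    h.coe_mem_Wring hB _ x.2⟩ 1 y (by rw [map_one, one_mul, hy])
  rw [map_one, one_mul] at h1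
  rw [red_apply, h1]

/-- More generally: if `s · x = y` with `s`, `y` integral series then
`s̄ · red x = ȳ`. -/
theorem red_spec {B : Subring (LaurentSeries ℚ)} (hB : CoreData N ℓ B)
    (x : chartAlg N ℓ {t, t⁻¹}) (s y : LaurentSeries (GaloisRep.ratLocalizedAt ℓ))
    (hy : incL ℓ s * ((x : modularFunctionFieldFull N) : LaurentSeries ℚ) = incL ℓ y) :
    redL ℓ s * h.red hB x = redL ℓ y :=
  redW_spec ℓ ⟨((x : modularFunctionFieldFull N) : LaurentSeries ℚ),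
    h.coe_mem_Wring hB _ x.2⟩ s y hy

omit h in
/-- The coordinate as an element of the chart `ℤ_(ℓ)[t, t⁻¹]^~`. -/
def tPair (N ℓ : ℕ) [NeZero N] [Fact ℓ.Prime] (t : modularFunctionFieldFull N) :
    chartAlg N ℓ {t, t⁻¹} := ⟨t, subset_chartAlg N ℓ _ (by simp)⟩

omit h in
/-- The inverse coordinate as an element of the chart `ℤ_(ℓ)[t, t⁻¹]^~`. -/
def tInvPair (N ℓ : ℕ) [NeZero N] [Fact ℓ.Prime] (t : modularFunctionFieldFull N) :
    chartAlg N ℓ {t, t⁻¹} := ⟨t⁻¹, subset_chartAlg N ℓ _ (by simp)⟩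

theorem tPair_mul_tInvPair : tPair N ℓ t * tInvPair N ℓ t = 1 :=
  Subtype.ext (mul_inv_cancel₀ h.ne_zero)

/-- The reduction of the coordinate is invertible. -/
theorem red_tPair_mul {B : Subring (LaurentSeries ℚ)} (hB : CoreData N ℓ B) :
    h.red hB (tPair N ℓ t) * h.red hB (tInvPair N ℓ t) = 1 := by
  rw [← map_mul, h.tPair_mul_tInvPair, map_one]

theorem red_tPair_ne_zero {B : Subring (LaurentSeries ℚ)} (hB : CoreData N ℓ B) :
    h.red hB (tPair N ℓ t) ≠ 0 := by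
  intro h0
  have h1 := h.red_tPair_mul hB
  rw [h0, zero_mul] at h1
  exact zero_ne_one h1

/-- The reduction of a multiple of `ℓ` vanishes. -/
theorem red_natCast_ell_mul {B : Subring (LaurentSeries ℚ)} (hB : CoreData N ℓ B)
    (x y : chartAlg N ℓ {t, t⁻¹})
    (hxy : (x : modularFunctionFieldFull N) = ((ℓ : ℕ) : modularFunctionFieldFull N) * y) :
    h.red hB x = 0 := by
  have h1 : x = algebraMap (GaloisRep.ratLocalizedAt ℓ) (chartAlg N ℓ {t, t⁻¹})
      (ℓ : GaloisRep.ratLocalizedAt ℓ) * y := by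
    apply Subtype.ext
    rw [hxy]
    show ((ℓ : ℕ) : modularFunctionFieldFull N) * y =
      algebraMap (GaloisRep.ratLocalizedAt ℓ) (modularFunctionFieldFull N)
        (ℓ : GaloisRep.ratLocalizedAt ℓ) * y
    rw [map_natCast]
  rw [h1, map_mul, red_algebraMap, map_natCast, ZMod.natCast_self, map_zero, zero_mul]

/-- **Kernel of the reduction on `ℤ_(ℓ)[t]^~`**: for `x` in this chart, `red x = 0` iff
`x = ℓ · y` with `y` in the chart. -/
theorem red_eq_zero_iff {B : Subring (LaurentSeries ℚ)} (hB : CoreData N ℓ B)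
    (x : chartAlg N ℓ {t, t⁻¹}) (hx : (x : modularFunctionFieldFull N) ∈ chartAlg N ℓ {t}) :
    h.red hB x = 0 ↔ ∃ y ∈ chartAlg N ℓ {t},
      (x : modularFunctionFieldFull N) = ((ℓ : ℕ) : modularFunctionFieldFull N) * y := by
  constructor
  · intro h0
    refine ⟨_, h.kernel hB x hx (h.coe_mem_Wring hB _ x.2) h0, ?_⟩
    rw [mul_inv_cancel_left₀ (natCast_ell_ne_zero_full N ℓ)]
  · rintro ⟨y, hy, hxy⟩
    exact h.red_natCast_ell_mul hB x ⟨y, chart_le_pair t hy⟩ hxy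

/-- **Kernel of the reduction on `ℤ_(ℓ)[t⁻¹]^~`**. -/
theorem red_eq_zero_iff_inv {B : Subring (LaurentSeries ℚ)} (hB : CoreData N ℓ B)
    (x : chartAlg N ℓ {t, t⁻¹}) (hx : (x : modularFunctionFieldFull N) ∈ chartAlg N ℓ {t⁻¹}) :
    h.red hB x = 0 ↔ ∃ y ∈ chartAlg N ℓ {t⁻¹},
      (x : modularFunctionFieldFull N) = ((ℓ : ℕ) : modularFunctionFieldFull N) * y := by
  constructor
  · intro h0
    refine ⟨_, h.kernel_inv hB x hx (h.coe_mem_Wring hB _ x.2) h0, ?_⟩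
    rw [mul_inv_cancel_left₀ (natCast_ell_ne_zero_full N ℓ)]
  · rintro ⟨y, hy, hxy⟩
    exact h.red_natCast_ell_mul hB x ⟨y, chart_inv_le_pair t hy⟩ hxy

/-- **Kernel of the reduction on `ℤ_(ℓ)[t, t⁻¹]^~`**. -/
theorem red_eq_zero_iff_pair {B : Subring (LaurentSeries ℚ)} (hB : CoreData N ℓ B)
    (x : chartAlg N ℓ {t, t⁻¹}) :
    h.red hB x = 0 ↔ ∃ y ∈ chartAlg N ℓ {t, t⁻¹},
      (x : modularFunctionFieldFull N) = ((ℓ : ℕ) : modularFunctionFieldFull N) * y := by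
  constructor
  · intro h0
    refine ⟨_, h.kernel_pair hB x x.2 (h.coe_mem_Wring hB _ x.2) h0, ?_⟩
    rw [mul_inv_cancel_left₀ (natCast_ell_ne_zero_full N ℓ)]
  · rintro ⟨y, hy, hxy⟩
    exact h.red_natCast_ell_mul hB x ⟨y, hy⟩ hxy

end s18_cz_Coord

end Fermat.Agent.S18
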