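import Fermat.Agent.S18.ChartZ

/-!
# S18 block C, piece (Cc), part 2: fractions and `ℚ`-integral elements of the `t`-charts

* `s18_cz_Coord.exists_frac`: every element of `F_N` is a quotient of two elements of the chart
  `chartAlg N ℓ {t}`;
* `s18_cz_exists_pow_mul_mem_chart`: an element of `F_N` integral over `ℚ[t]` lies in the chart
  `chartAlg N ℓ {t}` after multiplication by a power of `ℓ`.
-/

set_option autoImplicit false

open ModularCurve ModularCurve.IgusaScheme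

noncomputable section

namespace Fermat.Agent.S18

open Fermat.Agent.S28

/-- Integrality over `R[t]` in terms of monic polynomials over the polynomial ring. -/
theorem s18_cz_isIntegral_adjoin_singleton_iff {R F : Type*} [CommRing R] [CommRing F]
    [Algebra R F] (t x : F) :
    IsIntegral (Algebra.adjoin R ({t} : Set F)) x ↔
      (Polynomial.aeval t : Polynomial R →ₐ[R] F).toRingHom.IsIntegralElem x := by
  let t' : Algebra.adjoin R ({t} : Set F) := ⟨t, Algebra.subset_adjoin rfl⟩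
  let f : Polynomial R →+* Algebra.adjoin R ({t} : Set F) := (Polynomial.aeval t').toRingHom
  have hfval : ∀ c, ((f c : Algebra.adjoin R ({t} : Set F)) : F) = Polynomial.aeval t c :=
    fun c => Polynomial.aeval_subalgebra_coe c _ t'
  have hf : Function.Surjective f := by
    rintro ⟨y, hy⟩
    rw [Algebra.adjoin_singleton_eq_range_aeval] at hy
    obtain ⟨c, hc⟩ := hy
    exact ⟨c, Subtype.ext ((hfval c).trans hc)⟩
  have hcomp : (Polynomial.aeval t : Polynomial R →ₐ[R] F).toRingHom =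
      (algebraMap (Algebra.adjoin R ({t} : Set F)) F).comp f := by
    refine RingHom.ext (fun c => ?_)
    exact (hfval c).symm
  constructor
  · rintro ⟨Q, hQm, hQ⟩
    obtain ⟨P, hP, -, hPm⟩ := Polynomial.lifts_and_natDegree_eq_and_monic (p := Q) (f := f)
      ((Polynomial.mem_lifts Q).mpr (Polynomial.map_surjective f hf Q)) hQm
    refine ⟨P, hPm, ?_⟩
    rw [hcomp, ← Polynomial.eval₂_map, hP]
    exact hQ
  · rintro ⟨P, hPm, hP⟩
    refine ⟨P.map f, hPm.map f, ?_⟩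
    rw [Polynomial.eval₂_map, ← hcomp]
    exact hP

attribute [local instance] Polynomial.algebra in
/-- Clearing denominators in an integrality relation over a polynomial ring: if `K` is the
localization of `R` at `M` and `x` is integral over `K[X]` (acting through `g`), then `m x` is
integral over `R[X]` for some `m ∈ M`. -/
theorem s18_cz_exists_mul_isIntegralElem {R K S : Type*} [CommRing R] [CommRing K] [CommRing S]
    [Algebra R K] (M : Submonoid R) [IsLocalization M K]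
    (f : Polynomial R →+* S) (g : Polynomial K →+* S)
    (hfg : ∀ P : Polynomial R, f P = g (P.map (algebraMap R K))) (x : S)
    (hx : g.IsIntegralElem x) : ∃ m ∈ M, f.IsIntegralElem (f (Polynomial.C m) * x) := by
  let _ : Algebra (Polynomial R) S := f.toAlgebra
  let _ : Algebra (Polynomial K) S := g.toAlgebra
  have : IsScalarTower (Polynomial R) (Polynomial K) S :=
    IsScalarTower.of_algebraMap_eq (fun P => hfg P)
  have : IsLocalization (M.map (Polynomial.C : R →+* Polynomial R)) (Polynomial K) :=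
    Polynomial.isLocalization M K
  obtain ⟨⟨m, hm⟩, h⟩ := IsIntegral.exists_multiple_integral_of_isLocalization
    (M.map (Polynomial.C : R →+* Polynomial R)) x hx
  obtain ⟨m0, hm0, rfl⟩ := hm
  exact ⟨m0, hm0, h⟩

variable {N : ℕ} [NeZero N] {ℓ : ℕ} [Fact ℓ.Prime]

variable (ℓ) in
/-- Every rational number becomes `ℓ`-integral after multiplication by a power of `ℓ`. -/
theorem s18_cz_exists_pow_mul_mem_ratLocalizedAt (r : ℚ) :
    ∃ (k : ℕ) (a : GaloisRep.ratLocalizedAt ℓ), (ℓ : ℚ) ^ k * r = (a : ℚ) := by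
  have hℓ : ℓ.Prime := Fact.out
  obtain ⟨k, d, hd, hden⟩ := Nat.exists_eq_pow_mul_and_not_dvd r.den_ne_zero ℓ hℓ.ne_one
  obtain ⟨u, hu⟩ := natCast_isUnit_ratLocalizedAt ℓ d hd
  refine ⟨k, (r.num : GaloisRep.ratLocalizedAt ℓ) * ((u⁻¹ : (GaloisRep.ratLocalizedAt ℓ)ˣ) :
    GaloisRep.ratLocalizedAt ℓ), ?_⟩
  have hd0 : (d : ℚ) ≠ 0 := by
    intro h0
    have : d = 0 := by exact_mod_cast h0
    exact hd (this ▸ dvd_zero ℓ)
  have hu' : (((u⁻¹ : (GaloisRep.ratLocalizedAt ℓ)ˣ) : GaloisRep.ratLocalizedAt ℓ) : ℚ) =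
      (d : ℚ)⁻¹ := by
    have h1 : ((u : GaloisRep.ratLocalizedAt ℓ) : ℚ) *
        (((u⁻¹ : (GaloisRep.ratLocalizedAt ℓ)ˣ) : GaloisRep.ratLocalizedAt ℓ) : ℚ) = 1 := by
      rw [← Subring.coe_mul, Units.mul_inv, Subring.coe_one]
    rw [hu, Subring.coe_natCast] at h1
    exact eq_inv_of_mul_eq_one_right h1
  rw [Subring.coe_mul, hu', Subring.coe_intCast]
  have hℓ0 : (ℓ : ℚ) ≠ 0 := by exact_mod_cast hℓ.ne_zero
  have hden' : (r.den : ℚ) = (ℓ : ℚ) ^ k * (d : ℚ) := by exact_mod_cast hden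
  calc (ℓ : ℚ) ^ k * r = (ℓ : ℚ) ^ k * ((r.num : ℚ) / (r.den : ℚ)) := by rw [Rat.num_div_den]
    _ = (r.num : ℚ) * (d : ℚ)⁻¹ := by
      rw [hden']
      field_simp

variable (ℓ) in
/-- `ℚ` is the localization of `ℤ_(ℓ)` at the powers of `ℓ`. -/
theorem s18_cz_isLocalization_away :
    IsLocalization (Submonoid.powers (ℓ : GaloisRep.ratLocalizedAt ℓ)) ℚ where
  map_units y := by
    have hℓ : ℓ.Prime := Fact.out
    obtain ⟨y, k, rfl⟩ := y
    refine isUnit_iff_ne_zero.mpr ?_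
    show ((((ℓ : GaloisRep.ratLocalizedAt ℓ) ^ k : GaloisRep.ratLocalizedAt ℓ)) : ℚ) ≠ 0
    rw [Subring.coe_pow, Subring.coe_natCast]
    exact pow_ne_zero _ (by exact_mod_cast hℓ.ne_zero)
  surj z := by
    obtain ⟨k, a, hka⟩ := s18_cz_exists_pow_mul_mem_ratLocalizedAt ℓ z
    refine ⟨(a, ⟨(ℓ : GaloisRep.ratLocalizedAt ℓ) ^ k, k, rfl⟩), ?_⟩
    show z * ((((ℓ : GaloisRep.ratLocalizedAt ℓ) ^ k : GaloisRep.ratLocalizedAt ℓ)) : ℚ) = (a : ℚ)
    rw [Subring.coe_pow, Subring.coe_natCast, mul_comm]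
    exact hka
  exists_of_eq {x y} hxy := ⟨1, by rw [Subtype.ext hxy]⟩

/-- **`ℚ`-integral elements**: an element of `F_N` integral over `ℚ[t]` lies in the chart
`ℤ_(ℓ)[t]^~` after multiplication by a power of `ℓ`.  (No hypothesis on `t`.) -/
theorem s18_cz_exists_pow_mul_mem_chart (t x : modularFunctionFieldFull N)
    (hx : IsIntegral (Algebra.adjoin ℚ ({t} : Set (modularFunctionFieldFull N))) x) :
    ∃ k : ℕ, ((ℓ : ℕ) : modularFunctionFieldFull N) ^ k * x ∈ chartAlg N ℓ {t} := by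
  have h1 := (s18_cz_isIntegral_adjoin_singleton_iff (R := ℚ) t x).mp hx
  have hloc := s18_cz_isLocalization_away ℓ
  obtain ⟨m, ⟨k, rfl⟩, hm⟩ := s18_cz_exists_mul_isIntegralElem
    (Submonoid.powers (ℓ : GaloisRep.ratLocalizedAt ℓ))
    (Polynomial.aeval t : Polynomial (GaloisRep.ratLocalizedAt ℓ) →ₐ[GaloisRep.ratLocalizedAt ℓ]
      modularFunctionFieldFull N).toRingHom
    (Polynomial.aeval t : Polynomial ℚ →ₐ[ℚ] modularFunctionFieldFull N).toRingHom
    (fun P => (Polynomial.aeval_map_algebraMap ℚ t P).symm) x h1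
  refine ⟨k, ?_⟩
  rw [mem_chartAlg_iff, s18_cz_isIntegral_adjoin_singleton_iff]
  have h2 : (Polynomial.aeval t : Polynomial (GaloisRep.ratLocalizedAt ℓ) →ₐ[
      GaloisRep.ratLocalizedAt ℓ] modularFunctionFieldFull N).toRingHom
      (Polynomial.C ((ℓ : GaloisRep.ratLocalizedAt ℓ) ^ k)) =
      ((ℓ : ℕ) : modularFunctionFieldFull N) ^ k := by
    show Polynomial.aeval t (Polynomial.C ((ℓ : GaloisRep.ratLocalizedAt ℓ) ^ k)) = _
    rw [Polynomial.aeval_C, map_pow, map_natCast]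
  rw [← h2]
  exact hm

/-- **Fractions**: every element of `F_N` is a quotient of two elements of the chart
`ℤ_(ℓ)[t]^~`. -/
theorem s18_cz_Coord.exists_frac {t : modularFunctionFieldFull N} (h : s18_cz_Coord N ℓ t)
    {B : Subring (LaurentSeries ℚ)} (hB : CoreData N ℓ B) (x : modularFunctionFieldFull N) :
    ∃ a ∈ chartAlg N ℓ {t}, ∃ b ∈ chartAlg N ℓ {t}, b ≠ 0 ∧ x = a / b := by
  obtain ⟨c, hc0, hcx⟩ := exists_mul_mem_of_mem_full hB (x : LaurentSeries ℚ) x.2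
  have hc' : Polynomial.aeval (jFull N) c ∈ chartAlgFin N ℓ :=
    adjoin_le_chartAlg N ℓ _ (by
      rw [Algebra.adjoin_singleton_eq_range_aeval]
      exact ⟨c, rfl⟩)
  have hc'0 : Polynomial.aeval (jFull N) c ≠ 0 := by
    intro h0
    apply hc0
    apply evJ_injective ℓ
    rw [evJ_eq_kerVal_aeval N ℓ c, h0, map_zero, map_zero]
  have ha' : Polynomial.aeval (jFull N) c * x ∈ chartAlgFin N ℓ := by
    rw [mem_chartAlgFin_iff]
    have h1 : ((Polynomial.aeval (jFull N) c * x : modularFunctionFieldFull N) :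
        LaurentSeries ℚ) = evJ ℓ c * (x : LaurentSeries ℚ) := by
      rw [evJ_eq_kerVal_aeval N ℓ c]
      rfl
    rw [h1]
    exact hB.integral _ hcx
  obtain ⟨n, hn⟩ := s18_cz_Coord.exists_pow_mul_mem h.ne_zero _ (h.fin_le_chart_pair ha')
  obtain ⟨m, hm⟩ := s18_cz_Coord.exists_pow_mul_mem h.ne_zero _ (h.fin_le_chart_pair hc')
  have htC : t ∈ chartAlg N ℓ {t} := subset_chartAlg N ℓ {t} (Set.mem_singleton t)
  have hb0 : t ^ n * (t ^ m * Polynomial.aeval (jFull N) c) ≠ 0 :=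
    mul_ne_zero (pow_ne_zero _ h.ne_zero) (mul_ne_zero (pow_ne_zero _ h.ne_zero) hc'0)
  refine ⟨t ^ m * (t ^ n * (Polynomial.aeval (jFull N) c * x)),
    (chartAlg N ℓ {t}).mul_mem ((chartAlg N ℓ {t}).pow_mem htC m) hn,
    t ^ n * (t ^ m * Polynomial.aeval (jFull N) c),
    (chartAlg N ℓ {t}).mul_mem ((chartAlg N ℓ {t}).pow_mem htC n) hm, hb0, ?_⟩
  rw [eq_div_iff hb0]
  ring

/-- Fractions for the chart `ℤ_(ℓ)[t⁻¹]^~`. -/
theorem s18_cz_Coord.exists_frac_inv {t : modularFunctionFieldFull N} (h : s18_cz_Coord N ℓ t)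
    {B : Subring (LaurentSeries ℚ)} (hB : CoreData N ℓ B) (x : modularFunctionFieldFull N) :
    ∃ a ∈ chartAlg N ℓ {t⁻¹}, ∃ b ∈ chartAlg N ℓ {t⁻¹}, b ≠ 0 ∧ x = a / b :=
  h.inv.exists_frac hB x

/-! ### Convenience forms -/

/-- Elements of `ℤ_(ℓ)[t]^~` have `ℓ`-integral `q`-expansions. -/
theorem s18_cz_Coord.coe_mem_Wring_of_mem_chart {t : modularFunctionFieldFull N}
    (h : s18_cz_Coord N ℓ t) {B : Subring (LaurentSeries ℚ)} (hB : CoreData N ℓ B)
    (x : modularFunctionFieldFull N) (hx : x ∈ chartAlg N ℓ {t}) :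
    (x : LaurentSeries ℚ) ∈ Wring ℓ :=
  h.coe_mem_Wring hB x (s18_cz_Coord.chart_le_pair t hx)

/-- Elements of `ℤ_(ℓ)[t⁻¹]^~` have `ℓ`-integral `q`-expansions. -/
theorem s18_cz_Coord.coe_mem_Wring_of_mem_chart_inv {t : modularFunctionFieldFull N}
    (h : s18_cz_Coord N ℓ t) {B : Subring (LaurentSeries ℚ)} (hB : CoreData N ℓ B)
    (x : modularFunctionFieldFull N) (hx : x ∈ chartAlg N ℓ {t⁻¹}) :
    (x : LaurentSeries ℚ) ∈ Wring ℓ :=
  h.coe_mem_Wring hB x (s18_cz_Coord.chart_inv_le_pair t hx)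

/-- Gluing `ℤ_(ℓ)[t]^~ → ℤ_(ℓ)[t⁻¹]^~`. -/
theorem s18_cz_glue0 {t : modularFunctionFieldFull N} (ht0 : t ≠ 0)
    (x : modularFunctionFieldFull N) (hx : x ∈ chartAlg N ℓ {t}) :
    ∃ n : ℕ, t⁻¹ ^ n * x ∈ chartAlg N ℓ {t⁻¹} :=
  s18_cz_Coord.exists_inv_pow_mul_mem ht0 x (s18_cz_Coord.chart_le_pair t hx)

/-- Gluing `ℤ_(ℓ)[t⁻¹]^~ → ℤ_(ℓ)[t]^~`. -/
theorem s18_cz_glueInf {t : modularFunctionFieldFull N} (ht0 : t ≠ 0)
    (x : modularFunctionFieldFull N) (hx : x ∈ chartAlg N ℓ {t⁻¹}) :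
    ∃ n : ℕ, t ^ n * x ∈ chartAlg N ℓ {t} :=
  s18_cz_Coord.exists_pow_mul_mem ht0 x (s18_cz_Coord.chart_inv_le_pair t hx)

end Fermat.Agent.S18
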