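import Fermat.Agent.S18.ChartZHaupt

/-!
# S18 block C: leading terms of the integral `q`-expansions of the Hauptmoduln and their inverses

`IsLeading s18_t2 (-1) 1`, `IsLeading s18_t2inv 1 1`, and the same for level `3`: the inputs
`hT`, `hlead` of the chart lemmas (`s18_chAlg_sep`, `s18_coord_transcendental`, ...).
-/

set_option autoImplicit false

open ModularCurve ModularCurve.IgusaScheme

noncomputable section

namespace Fermat.Agent.S18

open Fermat.Agent.S28

/-- From helper25's leading-term predicate to `S28.IsLeading`. -/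
theorem s18_cz_isLeading_of_lead {R : Type*} [CommRing R] {x : LaurentSeries R} {n : ℤ}
    (hx : s18h_lead n x) : IsLeading x (-n) 1 :=
  ⟨s18h_lead_coeff hx _ rfl, fun m hm => s18h_lead_coeff_lt hx m hm⟩

theorem s18_cz_isLeading_t2 : IsLeading s18_t2 (-1) 1 := by
  have h := s18_cz_isLeading_of_lead (s18h_lead_t2R ℤ)
  rwa [s18_t2R_int] at h

theorem s18_cz_isLeading_t3 : IsLeading s18_t3 (-1) 1 := by
  have h := s18_cz_isLeading_of_lead (s18h_lead_t3R ℤ)
  rwa [s18_t3R_int] at h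

theorem s18_cz_lead_t2inv : s18h_lead (-1) s18_t2inv :=
  ⟨s18_A2' * s18_B2.invOfUnit 1, by
    rw [map_mul, s18_constantCoeff_A2', PowerSeries.constantCoeff_invOfUnit, one_mul]
    simp, by
    rw [s18_t2inv, neg_neg]⟩

theorem s18_cz_lead_t3inv : s18h_lead (-1) s18_t3inv :=
  ⟨s18_A3' * s18_C3.invOfUnit 1, by
    rw [map_mul, s18_constantCoeff_A3', PowerSeries.constantCoeff_invOfUnit, one_mul]
    simp, by
    rw [s18_t3inv, neg_neg]⟩

theorem s18_cz_isLeading_t2inv : IsLeading s18_t2inv 1 1 := by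
  have h := s18_cz_isLeading_of_lead s18_cz_lead_t2inv
  rwa [neg_neg] at h

theorem s18_cz_isLeading_t3inv : IsLeading s18_t3inv 1 1 := by
  have h := s18_cz_isLeading_of_lead s18_cz_lead_t3inv
  rwa [neg_neg] at h

variable (N : ℕ) [NeZero N]

/-- `hT` for `t₂`. -/
theorem s18_cz_hT_t2 (hN : 2 ∣ N) :
    ((s18_cz_t2 N hN : modularFunctionFieldFull N) : LaurentSeries ℚ) =
      coeffMap (Int.castRingHom ℚ) s18_t2 := rfl

/-- `hT` for `t₂⁻¹`. -/
theorem s18_cz_hT_t2_inv (hN : 2 ∣ N) :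
    (((s18_cz_t2 N hN)⁻¹ : modularFunctionFieldFull N) : LaurentSeries ℚ) =
      coeffMap (Int.castRingHom ℚ) s18_t2inv := s18_cz_coe_t2_inv N hN

/-- `hT` for `t₃`. -/
theorem s18_cz_hT_t3 (hN : 3 ∣ N) :
    ((s18_cz_t3 N hN : modularFunctionFieldFull N) : LaurentSeries ℚ) =
      coeffMap (Int.castRingHom ℚ) s18_t3 := rfl

/-- `hT` for `t₃⁻¹`. -/
theorem s18_cz_hT_t3_inv (hN : 3 ∣ N) :
    (((s18_cz_t3 N hN)⁻¹ : modularFunctionFieldFull N) : LaurentSeries ℚ) =
      coeffMap (Int.castRingHom ℚ) s18_t3inv := s18_cz_coe_t3_inv N hN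

end Fermat.Agent.S18
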