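import Mathlib
import Fermat.Prelude.Def_FLTPrelim_Ramification
import Fermat.Prelude.Def_ModularCurve_ReductionModL

/-!
# S18: the residue field of a valuation ring of an algebraically closed field (helper24)

* `s18_res_isAlgClosed` : the residue field of a valuation subring of an algebraically closed
  field is algebraically closed;
* `s18_res_charP` : if `A.LiesOverPrime ℓ` then the residue field has characteristic `ℓ`;
* `s18_res_inv_notMem`, `s18_res_inv_notMem_comap` : `ℓ⁻¹ ∉ A` (and the same for `A ∩ K₁`).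
-/

set_option autoImplicit false

noncomputable section

namespace Fermat.Agent.S18

open Polynomial

section Generic

variable {L : Type*} [Field L] (A : ValuationSubring L)

/-- A root in `A` of a monic polynomial over `A` having a root in `L`. -/
theorem s18_res_root_mem (q : Polynomial A) (hq : q.Monic) (α : L)
    (hα : (q.map (algebraMap A L)).eval α = 0) : ∃ a : A, q.eval a = 0 ∧ (a : L) = α := by
  have hint : IsIntegral A α := ⟨q, hq, by rwa [← Polynomial.eval_map]⟩
  obtain ⟨a, ha⟩ := (IsIntegrallyClosed.isIntegral_iff (R := A) (K := L)).mp hint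
  refine ⟨a, ?_, ha⟩
  have h1 : algebraMap A L (q.eval a) = 0 := by
    rw [← Polynomial.eval₂_at_apply, ha, ← Polynomial.eval_map]
    exact hα
  exact (FaithfulSMul.algebraMap_injective A L) (by rw [h1, map_zero])

/-- The residue field of a valuation subring of an algebraically closed field is algebraically
closed. -/
theorem s18_res_isAlgClosed [IsAlgClosed L] : IsAlgClosed (IsLocalRing.ResidueField A) := by
  apply IsAlgClosed.of_exists_root
  intro p hp hirr
  have hsurj : Function.Surjective (IsLocalRing.residue A) := IsLocalRing.residue_surjective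
  have hlift : p ∈ Polynomial.lifts (IsLocalRing.residue A) := by
    rw [Polynomial.mem_lifts]
    exact Polynomial.map_surjective _ hsurj p
  obtain ⟨q, hqp, hqdeg, hqm⟩ := Polynomial.lifts_and_natDegree_eq_and_monic hlift hp
  have hdeg : (q.map (algebraMap A L)).degree ≠ 0 := by
    rw [Polynomial.degree_map_eq_of_injective (FaithfulSMul.algebraMap_injective A L)]
    intro h0
    have h1 : q.natDegree = 0 := Polynomial.natDegree_eq_zero_iff_degree_le_zero.mpr h0.le
    rw [hqdeg] at h1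
    have : p = 1 := by
      have h2 := Polynomial.eq_C_of_natDegree_eq_zero h1
      have h3 : p.coeff 0 = 1 := by
        have := hp.coeff_natDegree
        rwa [h1] at this
      rw [h2, h3, Polynomial.C_1]
    exact hirr.not_isUnit (this ▸ isUnit_one)
  obtain ⟨α, hα⟩ := IsAlgClosed.exists_root _ hdeg
  obtain ⟨a, ha, -⟩ := s18_res_root_mem A q hqm α hα
  refine ⟨IsLocalRing.residue A a, ?_⟩
  rw [← hqp, Polynomial.eval_map, Polynomial.eval₂_at_apply, ha, map_zero]

/-- `ℓ` is in the maximal ideal, hence the residue field has characteristic `ℓ`. -/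
theorem s18_res_charP (ℓ : ℕ) [Fact ℓ.Prime] (hA : A.LiesOverPrime ℓ) :
    CharP (IsLocalRing.ResidueField A) ℓ := by
  have hℓp : ℓ.Prime := Fact.out
  rw [CharP.charP_iff_prime_eq_zero hℓp]
  obtain ⟨hmem, hmax⟩ := (ValuationSubring.mem_nonunits_iff_exists_mem_maximalIdeal).mp hA
  have h0 : IsLocalRing.residue A ⟨(ℓ : L), hmem⟩ = 0 :=
    (IsLocalRing.residue_eq_zero_iff _).mpr hmax
  have h1 : (⟨(ℓ : L), hmem⟩ : A) = ((ℓ : ℕ) : A) := Subtype.ext (by simp)
  rw [h1, map_natCast] at h0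
  exact h0

/-- If `ℓ` is a nonunit of `A` and `ℓ ≠ 0` in `L` then `ℓ⁻¹ ∉ A`. -/
theorem s18_res_inv_notMem (ℓ : ℕ) (hℓ : (ℓ : L) ≠ 0) (hA : A.LiesOverPrime ℓ) :
    ((ℓ : L))⁻¹ ∉ A := by
  intro hinv
  obtain ⟨hmem, hmax⟩ := (ValuationSubring.mem_nonunits_iff_exists_mem_maximalIdeal).mp hA
  have hunit : IsUnit (⟨(ℓ : L), hmem⟩ : A) :=
    IsUnit.of_mul_eq_one ⟨((ℓ : L))⁻¹, hinv⟩ (Subtype.ext (by
      show (ℓ : L) * ((ℓ : L))⁻¹ = 1
      exact mul_inv_cancel₀ hℓ))
  exact (IsLocalRing.mem_maximalIdeal _).mp hmax hunit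

end Generic

section Comap

variable (A : ValuationSubring (AlgebraicClosure ℚ)) (K₁ : IntermediateField ℚ (AlgebraicClosure ℚ))

/-- `ℓ⁻¹ ∉ A` for a valuation ring of `Q̄` over `ℓ`. -/
theorem s18_res_inv_notMem_bar (ℓ : ℕ) [Fact ℓ.Prime] (hA : A.LiesOverPrime ℓ) :
    ((ℓ : AlgebraicClosure ℚ))⁻¹ ∉ A :=
  s18_res_inv_notMem A ℓ (Nat.cast_ne_zero.mpr (Fact.out : ℓ.Prime).ne_zero) hA

/-- `ℓ⁻¹ ∉ A ∩ K₁`. -/
theorem s18_res_inv_notMem_comap (ℓ : ℕ) [Fact ℓ.Prime] (hA : A.LiesOverPrime ℓ) :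
    ((ℓ : K₁))⁻¹ ∉ A.comap (algebraMap K₁ (AlgebraicClosure ℚ)) := by
  intro h
  rw [ValuationSubring.mem_comap] at h
  rw [map_inv₀, map_natCast] at h
  exact s18_res_inv_notMem_bar A ℓ hA h

/-- `A ∩ K₁` lies over `ℓ`. -/
theorem s18_res_liesOver_comap (ℓ : ℕ) (hA : A.LiesOverPrime ℓ) :
    (A.comap (algebraMap K₁ (AlgebraicClosure ℚ))).LiesOverPrime ℓ := by
  obtain ⟨hmem, hmax⟩ := (ValuationSubring.mem_nonunits_iff_exists_mem_maximalIdeal).mp hA
  refine (ValuationSubring.mem_nonunits_iff_exists_mem_maximalIdeal).mpr ⟨?_, ?_⟩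
  · rw [ValuationSubring.mem_comap, map_natCast]
    exact hmem
  · rw [IsLocalRing.mem_maximalIdeal, mem_nonunits_iff]
    intro hu
    apply (IsLocalRing.mem_maximalIdeal _).mp hmax
    obtain ⟨u, hu⟩ := hu
    refine IsUnit.of_mul_eq_one (⟨algebraMap K₁ (AlgebraicClosure ℚ) ((u⁻¹ : Units _) : _), ?_⟩) ?_
    · exact ValuationSubring.mem_comap.mp (u⁻¹ : Units _).1.2
    · apply Subtype.ext
      have h1 := congrArg (fun x : (A.comap (algebraMap K₁ (AlgebraicClosure ℚ))) =>
        algebraMap K₁ (AlgebraicClosure ℚ) (x : K₁)) (u.mul_inv)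
      simp only [hu] at h1
      simpa using h1

end Comap

end Fermat.Agent.S18
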