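import Fermat.Agent.S18.PlaceMk
import Fermat.Agent.S18.ResField
import Fermat.Agent.S24

/-!
# S18: constants of `modularFunctionFieldBar N` and of the residue field (helper24)

* `s18_const_of_ord_eq_zero_bar` : a function of `Q̄ · F_N` with zero divisor is a constant;
* `s18_eq_const_mul_of_ord_eq` : two nonzero functions with the same divisor differ by a constant;
* `s18_res_exists_unit_lift` : nonzero residues lift to units of `A`;
* `s18_res_exists_root` : `m`-th roots in the residue field (it is algebraically closed).
-/

set_option autoImplicit false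
set_option synthInstance.maxHeartbeats 400000

open ModularCurve AlgebraicCurve IntermediateField

noncomputable section

namespace Fermat.Agent.S18

/-- A function of `Q̄ · F_N` with zero divisor is a constant. -/
theorem s18_const_of_ord_eq_zero_bar (N : ℕ) [NeZero N] (f : modularFunctionFieldBar N)
    (h : ∀ P : Place (AlgebraicClosure ℚ) (modularFunctionFieldBar N), P.ord f = 0) :
    ∃ c : AlgebraicClosure ℚ, f = algebraMap (AlgebraicClosure ℚ) (modularFunctionFieldBar N) c := by
  have := (Fermat.Agent.S24.asm_generic N).1
  exact s18_const_of_ord_eq_zero_of_finite (Fermat.Agent.S24.jF N) f h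

/-- Two nonzero functions of `Q̄ · F_N` with the same divisor differ by a nonzero constant. -/
theorem s18_eq_const_mul_of_ord_eq (N : ℕ) [NeZero N] (f g : modularFunctionFieldBar N)
    (hf : f ≠ 0) (hg : g ≠ 0)
    (h : ∀ P : Place (AlgebraicClosure ℚ) (modularFunctionFieldBar N), P.ord f = P.ord g) :
    ∃ c : AlgebraicClosure ℚ, c ≠ 0 ∧
      f = algebraMap (AlgebraicClosure ℚ) (modularFunctionFieldBar N) c * g := by
  obtain ⟨c, hc⟩ := s18_const_of_ord_eq_zero_bar N (f / g) (fun P => by
    rw [div_eq_mul_inv, P.ord_mul hf (inv_ne_zero hg), P.ord_inv, h P, add_neg_cancel])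
  refine ⟨c, ?_, ?_⟩
  · rintro rfl
    rw [map_zero] at hc
    exact div_ne_zero hf hg hc
  · rw [← hc, div_mul_cancel₀ f hg]

section Res

variable {L : Type*} [Field L] (A : ValuationSubring L)

/-- A nonzero element of the residue field lifts to a unit of `A`. -/
theorem s18_res_exists_unit_lift (c : IsLocalRing.ResidueField A) (hc : c ≠ 0) :
    ∃ a : A, IsUnit a ∧ IsLocalRing.residue A a = c := by
  obtain ⟨a, rfl⟩ := IsLocalRing.residue_surjective c
  refine ⟨a, ?_, rfl⟩
  by_contra hu
  exact hc ((IsLocalRing.residue_eq_zero_iff a).mpr ((IsLocalRing.mem_maximalIdeal a).mpr hu))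

/-- `m`-th roots exist in the residue field of a valuation ring of an algebraically closed
field. -/
theorem s18_res_exists_root [IsAlgClosed L] (c : IsLocalRing.ResidueField A) (m : ℕ) (hm : 0 < m) :
    ∃ d : IsLocalRing.ResidueField A, d ^ m = c := by
  have := s18_res_isAlgClosed A
  exact IsAlgClosed.exists_pow_nat_eq c hm

end Res

end Fermat.Agent.S18
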