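import Fermat.Agent.S18.HauptCore

/-!
# S18 block C0: the Hauptmodul `t₂ = Δ(q)/Δ(q²) = q⁻¹ - 24 + 276 q - …` of `X₀(2)`

With `A = (E₄(q) - E₄(q²))/240 = q + 8q² + …` and `B = E₄(q) - 256 A = 1 - 16 q + …`
(weight 4 on `Γ₀(2)`), the Sturm bound gives `Δ(q) = A B²` and `Δ(q²) = A² B`; hence
`t₂ := B / A` satisfies `j t₂² = (t₂ + 256)³` and `j(q²) t₂ = (t₂ + 16)³`.
-/

set_option autoImplicit false

namespace Fermat.Agent.S18

open UpperHalfPlane ModularForm CongruenceSubgroup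
open scoped MatrixGroups Manifold
open Fermat.Agent.S20 Fermat.Agent.S23 Fermat.Agent.S16

/-! ### The integral power series -/

/-- `A₂ = (E₄(q) - E₄(q²)) / 240 = q + 8 q² + 28 q³ + …`. -/
noncomputable def s18_A2 : PowerSeries ℤ :=
  PowerSeries.mk fun n => (∑ d ∈ n.divisors, (d : ℤ) ^ 3) -
    if 2 ∣ n then ∑ d ∈ (n / 2).divisors, (d : ℤ) ^ 3 else 0

/-- `B₂ = E₄(q) - 256 A₂ = 1 - 16 q + 112 q² - …`. -/
noncomputable def s18_B2 : PowerSeries ℤ := e4Z - 256 * s18_A2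

theorem s18_coeff_A2 (n : ℕ) : PowerSeries.coeff n s18_A2 = (∑ d ∈ n.divisors, (d : ℤ) ^ 3) -
    if 2 ∣ n then ∑ d ∈ (n / 2).divisors, (d : ℤ) ^ 3 else 0 := by
  rw [s18_A2, PowerSeries.coeff_mk]

theorem s18_coeff_B2 (n : ℕ) :
    PowerSeries.coeff n s18_B2 = PowerSeries.coeff n e4Z - 256 * PowerSeries.coeff n s18_A2 := by
  rw [s18_B2, map_sub, s18h_coeff_ofNat_mul]

theorem s18_e4Z_sub_exp2 : e4Z - s18_exp 2 e4Z = 240 * s18_A2 := by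
  ext n
  rw [map_sub, s18_coeff_exp, s18h_coeff_ofNat_mul, s18_coeff_A2, s18h_coeff_e4Z_eq]
  by_cases h2 : 2 ∣ n
  · rw [if_pos h2, if_pos h2, s18h_coeff_e4Z_eq]
    have hn : n / 2 = 0 ↔ n = 0 := by omega
    by_cases h0 : n = 0
    · subst h0; simp
    · rw [if_neg h0, if_neg (fun h => h0 (hn.mp h))]
      ring
  · rw [if_neg h2, if_neg h2]
    have h0 : n ≠ 0 := fun h => h2 (h ▸ dvd_zero 2)
    rw [if_neg h0]
    ring

theorem s18_e4Z_eq2 : e4Z = s18_B2 + 256 * s18_A2 := by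
  rw [s18_B2]; ring

theorem s18_exp2_e4Z : s18_exp 2 e4Z = s18_B2 + 16 * s18_A2 := by
  have h := s18_e4Z_sub_exp2
  rw [s18_B2]
  linear_combination -h

theorem s18_vals_e4Z : PowerSeries.coeff 0 e4Z = 1 ∧ PowerSeries.coeff 1 e4Z = 240 ∧
    PowerSeries.coeff 2 e4Z = 2160 ∧ PowerSeries.coeff 3 e4Z = 6720 ∧
    PowerSeries.coeff 4 e4Z = 17520 ∧ PowerSeries.coeff 5 e4Z = 30240 := by
  refine ⟨?_, ?_, ?_, ?_, ?_, ?_⟩ <;> rw [coeff_e4Z] <;> decide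

theorem s18_vals_e6Z : PowerSeries.coeff 0 e6Z = 1 ∧ PowerSeries.coeff 1 e6Z = -504 ∧
    PowerSeries.coeff 2 e6Z = -16632 ∧ PowerSeries.coeff 3 e6Z = -122976 ∧
    PowerSeries.coeff 4 e6Z = -532728 ∧ PowerSeries.coeff 5 e6Z = -1575504 := by
  refine ⟨?_, ?_, ?_, ?_, ?_, ?_⟩ <;> rw [coeff_e6Z] <;> decide

theorem s18_vals_A2 : PowerSeries.coeff 0 s18_A2 = 0 ∧ PowerSeries.coeff 1 s18_A2 = 1 ∧
    PowerSeries.coeff 2 s18_A2 = 8 ∧ PowerSeries.coeff 3 s18_A2 = 28 := by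
  refine ⟨?_, ?_, ?_, ?_⟩ <;> rw [s18_coeff_A2] <;> decide

theorem s18_vals_B2 : PowerSeries.coeff 0 s18_B2 = 1 ∧ PowerSeries.coeff 1 s18_B2 = -16 ∧
    PowerSeries.coeff 2 s18_B2 = 112 ∧ PowerSeries.coeff 3 s18_B2 = -448 := by
  obtain ⟨e0, e1, e2, e3, -, -⟩ := s18_vals_e4Z
  obtain ⟨a0, a1, a2, a3⟩ := s18_vals_A2
  refine ⟨?_, ?_, ?_, ?_⟩ <;> rw [s18_coeff_B2] <;> simp only [e0, e1, e2, e3, a0, a1, a2, a3] <;>
    norm_num

theorem s18_vals_exp2_e4Z : PowerSeries.coeff 0 (s18_exp 2 e4Z) = 1 ∧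
    PowerSeries.coeff 1 (s18_exp 2 e4Z) = 0 ∧ PowerSeries.coeff 2 (s18_exp 2 e4Z) = 240 ∧
    PowerSeries.coeff 3 (s18_exp 2 e4Z) = 0 := by
  obtain ⟨e0, e1, -⟩ := s18_vals_e4Z
  refine ⟨?_, ?_, ?_, ?_⟩ <;> rw [s18_coeff_exp] <;> simp [e0, e1]

theorem s18_vals_exp2_e6Z : PowerSeries.coeff 0 (s18_exp 2 e6Z) = 1 ∧
    PowerSeries.coeff 1 (s18_exp 2 e6Z) = 0 ∧ PowerSeries.coeff 2 (s18_exp 2 e6Z) = -504 ∧
    PowerSeries.coeff 3 (s18_exp 2 e6Z) = 0 := by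
  obtain ⟨e0, e1, -⟩ := s18_vals_e6Z
  refine ⟨?_, ?_, ?_, ?_⟩ <;> rw [s18_coeff_exp] <;> simp [e0, e1]

/-! ### The two identities modulo `X ^ 4` -/

open PowerSeries in
theorem s18_dvd_lvl2_one :
    (X : PowerSeries ℤ) ^ 4 ∣ e4Z ^ 3 - e6Z ^ 2 - 1728 * (s18_A2 * s18_B2 ^ 2) := by
  obtain ⟨e0, e1, e2, e3, -, -⟩ := s18_vals_e4Z
  obtain ⟨f0, f1, f2, f3, -, -⟩ := s18_vals_e6Z
  obtain ⟨a0, a1, a2, a3⟩ := s18_vals_A2
  obtain ⟨b0, b1, b2, b3⟩ := s18_vals_B2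
  have h1 := s18h_trunc4 e4Z
  have h2 := s18h_trunc4 e6Z
  have h3 := s18h_trunc4 s18_A2
  have h4 := s18h_trunc4 s18_B2
  rw [e0, e1, e2, e3] at h1
  rw [f0, f1, f2, f3] at h2
  rw [a0, a1, a2, a3] at h3
  rw [b0, b1, b2, b3] at h4
  rw [← Ideal.mem_span_singleton, ← Ideal.Quotient.eq_zero_iff_mem]
  have key : (Ideal.Quotient.mk (Ideal.span {(X : PowerSeries ℤ) ^ 4}))
      (e4Z ^ 3 - e6Z ^ 2 - 1728 * (s18_A2 * s18_B2 ^ 2)) =
      (Ideal.Quotient.mk (Ideal.span {(X : PowerSeries ℤ) ^ 4}))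
      ((C (1 : ℤ) + C (240 : ℤ) * X + C (2160 : ℤ) * X ^ 2 + C (6720 : ℤ) * X ^ 3) ^ 3 -
        (C (1 : ℤ) + C (-504 : ℤ) * X + C (-16632 : ℤ) * X ^ 2 + C (-122976 : ℤ) * X ^ 3) ^ 2 -
        1728 * ((C (0 : ℤ) + C (1 : ℤ) * X + C (8 : ℤ) * X ^ 2 + C (28 : ℤ) * X ^ 3) *
          (C (1 : ℤ) + C (-16 : ℤ) * X + C (112 : ℤ) * X ^ 2 + C (-448 : ℤ) * X ^ 3) ^ 2)) := by
    rw [map_sub, map_sub, map_mul, map_mul, map_pow, map_pow, map_pow, h1, h2, h3, h4,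
      map_sub, map_sub, map_mul, map_mul, map_pow, map_pow, map_pow]
  rw [key, Ideal.Quotient.eq_zero_iff_mem, Ideal.mem_span_singleton]
  refine ⟨(-1007424) + (509124096) * X + (16010542080) * X ^ 2 + (126312431616) * X ^ 3 +
    (294707331072) * X ^ 4 + (293753585664) * X ^ 5, ?_⟩
  simp only [eq_intCast]
  push_cast
  ring

open PowerSeries in
theorem s18_dvd_lvl2_two :
    (X : PowerSeries ℤ) ^ 4 ∣ s18_exp 2 e4Z ^ 3 - s18_exp 2 e6Z ^ 2 -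
      1728 * (s18_A2 ^ 2 * s18_B2) := by
  obtain ⟨e0, e1, e2, e3⟩ := s18_vals_exp2_e4Z
  obtain ⟨f0, f1, f2, f3⟩ := s18_vals_exp2_e6Z
  obtain ⟨a0, a1, a2, a3⟩ := s18_vals_A2
  obtain ⟨b0, b1, b2, b3⟩ := s18_vals_B2
  have h1 := s18h_trunc4 (s18_exp 2 e4Z)
  have h2 := s18h_trunc4 (s18_exp 2 e6Z)
  have h3 := s18h_trunc4 s18_A2
  have h4 := s18h_trunc4 s18_B2
  rw [e0, e1, e2, e3] at h1
  rw [f0, f1, f2, f3] at h2
  rw [a0, a1, a2, a3] at h3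
  rw [b0, b1, b2, b3] at h4
  rw [← Ideal.mem_span_singleton, ← Ideal.Quotient.eq_zero_iff_mem]
  have key : (Ideal.Quotient.mk (Ideal.span {(X : PowerSeries ℤ) ^ 4}))
      (s18_exp 2 e4Z ^ 3 - s18_exp 2 e6Z ^ 2 - 1728 * (s18_A2 ^ 2 * s18_B2)) =
      (Ideal.Quotient.mk (Ideal.span {(X : PowerSeries ℤ) ^ 4}))
      ((C (1 : ℤ) + C (0 : ℤ) * X + C (240 : ℤ) * X ^ 2 + C (0 : ℤ) * X ^ 3) ^ 3 -
        (C (1 : ℤ) + C (0 : ℤ) * X + C (-504 : ℤ) * X ^ 2 + C (0 : ℤ) * X ^ 3) ^ 2 -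
        1728 * ((C (0 : ℤ) + C (1 : ℤ) * X + C (8 : ℤ) * X ^ 2 + C (28 : ℤ) * X ^ 3) ^ 2 *
          (C (1 : ℤ) + C (-16 : ℤ) * X + C (112 : ℤ) * X ^ 2 + C (-448 : ℤ) * X ^ 3))) := by
    rw [map_sub, map_sub, map_mul, map_mul, map_pow, map_pow, map_pow, h1, h2, h3, h4,
      map_sub, map_sub, map_mul, map_mul, map_pow, map_pow, map_pow]
  rw [key, Ideal.Quotient.eq_zero_iff_mem, Ideal.mem_span_singleton]
  refine ⟨(-39744) + (221184) * X + (14017536) * X ^ 2 + (27869184) * X ^ 3 +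
    (195084288) * X ^ 4 + (606928896) * X ^ 5, ?_⟩
  simp only [eq_intCast]
  push_cast
  ring

/-! ### The modular forms of level `Γ₀(2)` -/

/-- `E₄(2τ)`. -/
noncomputable def s18E4b : ℍ → ℂ := (8 : ℂ)⁻¹ • ⇑(u8V 2 E₄)

/-- `E₆(2τ)`. -/
noncomputable def s18E6b : ℍ → ℂ := (32 : ℂ)⁻¹ • ⇑(u8V 2 E₆)

/-- `A = (E₄(τ) - E₄(2τ)) / 240`. -/
noncomputable def s18A : ℍ → ℂ := (240 : ℂ)⁻¹ • (⇑E₄ - s18E4b)

/-- `B = E₄(τ) - 256 A`. -/
noncomputable def s18B : ℍ → ℂ := ⇑E₄ - (256 : ℂ) • s18A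

theorem s18_E4_mem2 : ⇑E₄ ∈ MF (G0 2) 4 := MF_levelOne_le 2 ⟨E₄, rfl⟩

theorem s18_E6_mem2 : ⇑E₆ ∈ MF (G0 2) 6 := MF_levelOne_le 2 ⟨E₆, rfl⟩

theorem s18E4b_mem : s18E4b ∈ MF (G0 2) 4 := Submodule.smul_mem _ _ ⟨u8V 2 E₄, rfl⟩

theorem s18E6b_mem : s18E6b ∈ MF (G0 2) 6 := Submodule.smul_mem _ _ ⟨u8V 2 E₆, rfl⟩

theorem s18A_mem : s18A ∈ MF (G0 2) 4 :=
  Submodule.smul_mem _ _ (Submodule.sub_mem _ s18_E4_mem2 s18E4b_mem)

theorem s18B_mem : s18B ∈ MF (G0 2) 4 :=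
  Submodule.sub_mem _ s18_E4_mem2 (Submodule.smul_mem _ _ s18A_mem)

theorem s18E4b_qexp : qExpansion 1 s18E4b = (s18_exp 2 e4Z).map (Int.castRingHom ℂ) := by
  ext n
  rw [s18E4b, QNice.qExpansion_smul _ (qnice_Gamma0 (u8V 2 E₄)), PowerSeries.coeff_smul,
    u8V_coeff, PowerSeries.coeff_map, s18_coeff_exp]
  split_ifs
  · rw [did_qExpansion_E4, PowerSeries.coeff_map]
    norm_num
    ring
  · norm_num

theorem s18E6b_qexp : qExpansion 1 s18E6b = (s18_exp 2 e6Z).map (Int.castRingHom ℂ) := by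
  ext n
  rw [s18E6b, QNice.qExpansion_smul _ (qnice_Gamma0 (u8V 2 E₆)), PowerSeries.coeff_smul,
    u8V_coeff, PowerSeries.coeff_map, s18_coeff_exp]
  split_ifs
  · rw [did_qExpansion_E6, PowerSeries.coeff_map]
    norm_num
    ring
  · norm_num

theorem s18A_qexp : qExpansion 1 s18A = s18_A2.map (Int.castRingHom ℂ) := by
  rw [s18A, QNice.qExpansion_smul _ ((u8_qnice s18_E4_mem2).sub (u8_qnice s18E4b_mem)),
    QNice.qExpansion_sub (u8_qnice s18_E4_mem2) (u8_qnice s18E4b_mem), did_qExpansion_E4,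
    s18E4b_qexp, ← map_sub, s18_e4Z_sub_exp2]
  ext n
  rw [PowerSeries.coeff_smul, PowerSeries.coeff_map, PowerSeries.coeff_map, s18h_coeff_ofNat_mul]
  simp only [eq_intCast, smul_eq_mul]
  push_cast
  ring

theorem s18B_qexp : qExpansion 1 s18B = s18_B2.map (Int.castRingHom ℂ) := by
  have hA : QNice ((256 : ℂ) • s18A) := (u8_qnice s18A_mem).smul 256
  rw [s18B, QNice.qExpansion_sub (u8_qnice s18_E4_mem2) hA,
    QNice.qExpansion_smul _ (u8_qnice s18A_mem), did_qExpansion_E4, s18A_qexp]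
  ext n
  rw [map_sub, PowerSeries.coeff_smul, PowerSeries.coeff_map, PowerSeries.coeff_map,
    PowerSeries.coeff_map, s18_coeff_B2]
  simp only [eq_intCast, smul_eq_mul]
  push_cast
  ring

theorem s18h_index2 : (Gamma0 2).index = 3 := by
  rw [Fermat.Agent.S24.idx_index_eq 2 (by norm_num)]
  have h := Fermat.Agent.S24.idx_dedekindPsi_mul_of_not_dvd (M := 1) (p := 2) one_ne_zero
    (by norm_num) (by norm_num)
  rw [ModularCurve.dedekindPsi_one] at h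
  exact h

/-- `E₄³ - E₆² = 1728 A B²` as integral power series (i.e. `Δ(q) = A B²`). -/
theorem s18_lvl2_one : e4Z ^ 3 - e6Z ^ 2 = 1728 * (s18_A2 * s18_B2 ^ 2) := by
  have hA := u8_qnice s18A_mem
  have hB := u8_qnice s18B_mem
  have h4 := u8_qnice s18_E4_mem2
  have h6 := u8_qnice s18_E6_mem2
  have hmem : (⇑E₄ ^ 3 - ⇑E₆ ^ 2 - (1728 : ℂ) • (s18A * s18B ^ 2)) ∈ MF (G0 2) 12 :=
    Submodule.sub_mem _ (Submodule.sub_mem _ (MF_congr (by norm_num) (MF_pow s18_E4_mem2 3))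
      (MF_congr (by norm_num) (MF_pow s18_E6_mem2 2)))
      (Submodule.smul_mem _ _ (MF_congr (by norm_num) (MF_mul s18A_mem (MF_pow s18B_mem 2))))
  have hq : qExpansion 1 (⇑E₄ ^ 3 - ⇑E₆ ^ 2 - (1728 : ℂ) • (s18A * s18B ^ 2)) =
      (e4Z ^ 3 - e6Z ^ 2 - 1728 * (s18_A2 * s18_B2 ^ 2)).map (Int.castRingHom ℂ) := by
    rw [QNice.qExpansion_sub ((h4.pow 3).sub (h6.pow 2)) ((hA.mul (hB.pow 2)).smul 1728),
      QNice.qExpansion_sub (h4.pow 3) (h6.pow 2), QNice.qExpansion_pow h4, QNice.qExpansion_pow h6,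
      QNice.qExpansion_smul _ (hA.mul (hB.pow 2)), QNice.qExpansion_mul hA (hB.pow 2),
      QNice.qExpansion_pow hB, did_qExpansion_E4, did_qExpansion_E6, s18A_qexp, s18B_qexp,
      s18h_smul_eq, map_sub, map_sub, map_mul, map_mul, map_pow, map_pow, map_pow, map_ofNat,
      map_ofNat]
  have h0 := s18h_sturm 2 12 3 (by rw [s18h_index2]; decide) _ hmem _ hq s18_dvd_lvl2_one
  exact sub_eq_zero.mp h0

/-- `E₄(q²)³ - E₆(q²)² = 1728 A² B` as integral power series (i.e. `Δ(q²) = A² B`). -/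
theorem s18_lvl2_two :
    s18_exp 2 e4Z ^ 3 - s18_exp 2 e6Z ^ 2 = 1728 * (s18_A2 ^ 2 * s18_B2) := by
  have hA := u8_qnice s18A_mem
  have hB := u8_qnice s18B_mem
  have h4 := u8_qnice s18E4b_mem
  have h6 := u8_qnice s18E6b_mem
  have hmem : (s18E4b ^ 3 - s18E6b ^ 2 - (1728 : ℂ) • (s18A ^ 2 * s18B)) ∈ MF (G0 2) 12 :=
    Submodule.sub_mem _ (Submodule.sub_mem _ (MF_congr (by norm_num) (MF_pow s18E4b_mem 3))
      (MF_congr (by norm_num) (MF_pow s18E6b_mem 2)))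
      (Submodule.smul_mem _ _ (MF_congr (by norm_num) (MF_mul (MF_pow s18A_mem 2) s18B_mem)))
  have hq : qExpansion 1 (s18E4b ^ 3 - s18E6b ^ 2 - (1728 : ℂ) • (s18A ^ 2 * s18B)) =
      (s18_exp 2 e4Z ^ 3 - s18_exp 2 e6Z ^ 2 - 1728 * (s18_A2 ^ 2 * s18_B2)).map
        (Int.castRingHom ℂ) := by
    rw [QNice.qExpansion_sub ((h4.pow 3).sub (h6.pow 2)) (((hA.pow 2).mul hB).smul 1728),
      QNice.qExpansion_sub (h4.pow 3) (h6.pow 2), QNice.qExpansion_pow h4, QNice.qExpansion_pow h6,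
      QNice.qExpansion_smul _ ((hA.pow 2).mul hB), QNice.qExpansion_mul (hA.pow 2) hB,
      QNice.qExpansion_pow hA, s18E4b_qexp, s18E6b_qexp, s18A_qexp, s18B_qexp,
      s18h_smul_eq, map_sub, map_sub, map_mul, map_mul, map_pow, map_pow, map_pow, map_ofNat,
      map_ofNat]
  have h0 := s18h_sturm 2 12 3 (by rw [s18h_index2]; decide) _ hmem _ hq s18_dvd_lvl2_two
  exact sub_eq_zero.mp h0

/-- `Δ(q) = A₂ B₂²`. -/
theorem s18_delta_eq2 : deltaZ = s18_A2 * s18_B2 ^ 2 := by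
  have h := did_deltaZ_identity
  rw [s18_lvl2_one] at h
  exact mul_left_cancel₀ s18h_ofNat_ne_zero h

/-- `Δ(q²) = A₂² B₂`. -/
theorem s18_delta_exp2 : s18_exp 2 deltaZ = s18_A2 ^ 2 * s18_B2 := by
  have h := congrArg (s18_expHom ℤ 2) did_deltaZ_identity
  rw [map_mul, map_sub, map_pow, map_pow, map_ofNat, s18_expHom_apply, s18_expHom_apply,
    s18_expHom_apply, s18_lvl2_two] at h
  exact mul_left_cancel₀ s18h_ofNat_ne_zero h

/-! ### The Hauptmodul as an integral Laurent series -/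

/-- `A₂ / q = 1 + 8 q + …`. -/
noncomputable def s18_A2' : PowerSeries ℤ :=
  PowerSeries.mk fun n => PowerSeries.coeff (n + 1) s18_A2

theorem s18_A2_eq : s18_A2 = PowerSeries.X * s18_A2' := by
  ext n
  cases n with
  | zero =>
    rw [s18_vals_A2.1, PowerSeries.coeff_zero_eq_constantCoeff_apply, map_mul,
      PowerSeries.constantCoeff_X, zero_mul]
  | succ n => rw [PowerSeries.coeff_succ_X_mul, s18_A2', PowerSeries.coeff_mk]

theorem s18_constantCoeff_A2' : PowerSeries.constantCoeff s18_A2' = 1 := by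
  rw [← PowerSeries.coeff_zero_eq_constantCoeff_apply, s18_A2', PowerSeries.coeff_mk]
  exact s18_vals_A2.2.1

theorem s18_constantCoeff_B2 : PowerSeries.constantCoeff s18_B2 = 1 := by
  rw [← PowerSeries.coeff_zero_eq_constantCoeff_apply]
  exact s18_vals_B2.1

/-- The Hauptmodul `t₂ = B₂ / A₂ = Δ(q)/Δ(q²) = q⁻¹ - 24 + 276 q - …` of `X₀(2)`, over `ℤ`. -/
noncomputable def s18_t2 : LaurentSeries ℤ :=
  HahnSeries.single (-1 : ℤ) 1 * HahnSeries.ofPowerSeries ℤ ℤ (s18_B2 * s18_A2'.invOfUnit 1)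

/-- The inverse `1 / t₂ = A₂ / B₂ = q + 24 q² + …`. -/
noncomputable def s18_t2inv : LaurentSeries ℤ :=
  HahnSeries.single (1 : ℤ) 1 * HahnSeries.ofPowerSeries ℤ ℤ (s18_A2' * s18_B2.invOfUnit 1)

/-- The inverse of `A₂` as a Laurent series. -/
noncomputable def s18_a2inv : LaurentSeries ℤ :=
  HahnSeries.single (-1 : ℤ) 1 * HahnSeries.ofPowerSeries ℤ ℤ (s18_A2'.invOfUnit 1)

theorem s18h_single_neg_one_mul :
    (HahnSeries.single (-1 : ℤ) (1 : ℤ) : LaurentSeries ℤ) * HahnSeries.single (1 : ℤ) 1 = 1 := by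
  rw [HahnSeries.single_mul_single, mul_one]
  rfl

theorem s18_A2'_mul_inv : s18_A2' * s18_A2'.invOfUnit 1 = 1 :=
  PowerSeries.mul_invOfUnit _ _ (by rw [s18_constantCoeff_A2']; rfl)

theorem s18_B2_mul_inv : s18_B2 * s18_B2.invOfUnit 1 = 1 :=
  PowerSeries.mul_invOfUnit _ _ (by rw [s18_constantCoeff_B2]; rfl)

theorem s18_a2_mul_inv : HahnSeries.ofPowerSeries ℤ ℤ s18_A2 * s18_a2inv = 1 := by
  have h1 := congrArg (HahnSeries.ofPowerSeries ℤ ℤ) s18_A2'_mul_inv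
  rw [map_mul, map_one] at h1
  rw [s18_a2inv, s18_A2_eq, map_mul, HahnSeries.ofPowerSeries_X]
  linear_combination (HahnSeries.single (-1 : ℤ) (1 : ℤ) * HahnSeries.single (1 : ℤ) 1) * h1 +
    s18h_single_neg_one_mul

theorem s18_t2_mul_a2 :
    s18_t2 * HahnSeries.ofPowerSeries ℤ ℤ s18_A2 = HahnSeries.ofPowerSeries ℤ ℤ s18_B2 := by
  have h1 := congrArg (HahnSeries.ofPowerSeries ℤ ℤ) s18_A2'_mul_inv
  rw [map_mul, map_one] at h1
  rw [s18_t2, s18_A2_eq, map_mul, map_mul, HahnSeries.ofPowerSeries_X]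
  linear_combination (HahnSeries.ofPowerSeries ℤ ℤ s18_B2 *
    (HahnSeries.single (-1 : ℤ) (1 : ℤ) * HahnSeries.single (1 : ℤ) 1)) * h1 +
    (HahnSeries.ofPowerSeries ℤ ℤ s18_B2) * s18h_single_neg_one_mul

theorem s18_t2_mul_inv : s18_t2 * s18_t2inv = 1 := by
  have h1 := congrArg (HahnSeries.ofPowerSeries ℤ ℤ) s18_A2'_mul_inv
  have h2 := congrArg (HahnSeries.ofPowerSeries ℤ ℤ) s18_B2_mul_inv
  rw [map_mul, map_one] at h1 h2
  rw [s18_t2, s18_t2inv, map_mul, map_mul]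
  linear_combination (HahnSeries.single (-1 : ℤ) (1 : ℤ) * HahnSeries.single (1 : ℤ) 1 *
    (HahnSeries.ofPowerSeries ℤ ℤ s18_B2 * HahnSeries.ofPowerSeries ℤ ℤ (s18_B2.invOfUnit 1))) * h1
    + (HahnSeries.single (-1 : ℤ) (1 : ℤ) * HahnSeries.single (1 : ℤ) 1) * h2 +
    s18h_single_neg_one_mul

/-- **Level 2, first identity**: `j · t₂² = (t₂ + 256)³`. -/
theorem s18_t2_j : ModularCurve.jqModC ℤ * s18_t2 ^ 2 = (s18_t2 + 256) ^ 3 := by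
  have hJ := s18_jq_mul_delta
  rw [s18_delta_eq2, s18_e4Z_eq2, map_mul, map_pow, map_add, map_mul, map_ofNat,
    ← s18_t2_mul_a2] at hJ
  have hu := s18_a2_mul_inv
  linear_combination (s18_a2inv ^ 3) * hJ +
    (-(1 + HahnSeries.ofPowerSeries ℤ ℤ s18_A2 * s18_a2inv +
      (HahnSeries.ofPowerSeries ℤ ℤ s18_A2 * s18_a2inv) ^ 2) *
      (ModularCurve.jqModC ℤ * s18_t2 ^ 2 - (s18_t2 + 256) ^ 3)) * hu

/-- **Level 2, second identity**: `j(q²) · t₂ = (t₂ + 16)³`. -/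
theorem s18_t2_j2 :
    ModularCurve.qExpand ℤ 2 (ModularCurve.jqModC ℤ) * s18_t2 = (s18_t2 + 16) ^ 3 := by
  have hJ := congrArg (ModularCurve.qExpand ℤ 2) s18_jq_mul_delta
  rw [map_mul, map_pow, ← s18_ofPowerSeries_exp, ← s18_ofPowerSeries_exp, s18_delta_exp2,
    s18_exp2_e4Z, map_mul, map_pow, map_add, map_mul, map_ofNat, ← s18_t2_mul_a2] at hJ
  have hu := s18_a2_mul_inv
  linear_combination (s18_a2inv ^ 3) * hJ +
    (-(1 + HahnSeries.ofPowerSeries ℤ ℤ s18_A2 * s18_a2inv +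
      (HahnSeries.ofPowerSeries ℤ ℤ s18_A2 * s18_a2inv) ^ 2) *
      (ModularCurve.qExpand ℤ 2 (ModularCurve.jqModC ℤ) * s18_t2 - (s18_t2 + 16) ^ 3)) * hu

end Fermat.Agent.S18
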