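import Fermat.Agent.S18.Haupt2

/-!
# S18 block C0: the Hauptmodul `t₃ = (η(q)/η(q³))¹² = q⁻¹ - 12 + 54 q - …` of `X₀(3)`

With `A = (E₄(q) - E₄(q³))/240 = q + 9q² + …`, `B = E₄(q) - 216 A = 1 + 24 q + …` and
`C = B - 27 A = 1 - 3 q + …` (weight 4 on `Γ₀(3)`), the Sturm bound gives `B Δ(q) = A C³` and
`B Δ(q³) = A³ C`; hence `t₃ := C / A` satisfies `j t₃³ = (t₃ + 27)(t₃ + 243)³` and
`j(q³) t₃ = (t₃ + 27)(t₃ + 3)³`.
-/

set_option autoImplicit false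

namespace Fermat.Agent.S18

open UpperHalfPlane ModularForm CongruenceSubgroup
open scoped MatrixGroups Manifold
open Fermat.Agent.S20 Fermat.Agent.S23 Fermat.Agent.S16

/-! ### The integral power series -/

/-- `A₃ = (E₄(q) - E₄(q³)) / 240 = q + 9 q² + 27 q³ + …`. -/
noncomputable def s18_A3 : PowerSeries ℤ :=
  PowerSeries.mk fun n => (∑ d ∈ n.divisors, (d : ℤ) ^ 3) -
    if 3 ∣ n then ∑ d ∈ (n / 3).divisors, (d : ℤ) ^ 3 else 0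

/-- `B₃ = E₄(q) - 216 A₃ = 1 + 24 q + 216 q² + …`. -/
noncomputable def s18_B3 : PowerSeries ℤ := e4Z - 216 * s18_A3

/-- `C₃ = B₃ - 27 A₃ = 1 - 3 q - 27 q² + …`. -/
noncomputable def s18_C3 : PowerSeries ℤ := s18_B3 - 27 * s18_A3

theorem s18_coeff_A3 (n : ℕ) : PowerSeries.coeff n s18_A3 = (∑ d ∈ n.divisors, (d : ℤ) ^ 3) -
    if 3 ∣ n then ∑ d ∈ (n / 3).divisors, (d : ℤ) ^ 3 else 0 := by
  rw [s18_A3, PowerSeries.coeff_mk]

theorem s18_coeff_B3 (n : ℕ) :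
    PowerSeries.coeff n s18_B3 = PowerSeries.coeff n e4Z - 216 * PowerSeries.coeff n s18_A3 := by
  rw [s18_B3, map_sub, s18h_coeff_ofNat_mul]

theorem s18_coeff_C3 (n : ℕ) :
    PowerSeries.coeff n s18_C3 = PowerSeries.coeff n s18_B3 - 27 * PowerSeries.coeff n s18_A3 := by
  rw [s18_C3, map_sub, s18h_coeff_ofNat_mul]

theorem s18_e4Z_sub_exp3 : e4Z - s18_exp 3 e4Z = 240 * s18_A3 := by
  ext n
  rw [map_sub, s18_coeff_exp, s18h_coeff_ofNat_mul, s18_coeff_A3, s18h_coeff_e4Z_eq]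
  by_cases h3 : 3 ∣ n
  · rw [if_pos h3, if_pos h3, s18h_coeff_e4Z_eq]
    have hn : n / 3 = 0 ↔ n = 0 := by omega
    by_cases h0 : n = 0
    · subst h0; simp
    · rw [if_neg h0, if_neg (fun h => h0 (hn.mp h))]
      ring
  · rw [if_neg h3, if_neg h3]
    have h0 : n ≠ 0 := fun h => h3 (h ▸ dvd_zero 3)
    rw [if_neg h0]
    ring

theorem s18_B3_eq : s18_B3 = s18_C3 + 27 * s18_A3 := by
  rw [s18_C3]; ring

theorem s18_e4Z_eq3 : e4Z = s18_C3 + 243 * s18_A3 := by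
  rw [s18_C3, s18_B3]; ring

theorem s18_exp3_e4Z : s18_exp 3 e4Z = s18_C3 + 3 * s18_A3 := by
  have h := s18_e4Z_sub_exp3
  rw [s18_C3, s18_B3]
  linear_combination -h

theorem s18_vals_A3 : PowerSeries.coeff 0 s18_A3 = 0 ∧ PowerSeries.coeff 1 s18_A3 = 1 ∧
    PowerSeries.coeff 2 s18_A3 = 9 ∧ PowerSeries.coeff 3 s18_A3 = 27 ∧
    PowerSeries.coeff 4 s18_A3 = 73 ∧ PowerSeries.coeff 5 s18_A3 = 126 := by
  refine ⟨?_, ?_, ?_, ?_, ?_, ?_⟩ <;> rw [s18_coeff_A3] <;> decide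

theorem s18_vals_B3 : PowerSeries.coeff 0 s18_B3 = 1 ∧ PowerSeries.coeff 1 s18_B3 = 24 ∧
    PowerSeries.coeff 2 s18_B3 = 216 ∧ PowerSeries.coeff 3 s18_B3 = 888 ∧
    PowerSeries.coeff 4 s18_B3 = 1752 ∧ PowerSeries.coeff 5 s18_B3 = 3024 := by
  obtain ⟨e0, e1, e2, e3, e4, e5⟩ := s18_vals_e4Z
  obtain ⟨a0, a1, a2, a3, a4, a5⟩ := s18_vals_A3
  refine ⟨?_, ?_, ?_, ?_, ?_, ?_⟩ <;> rw [s18_coeff_B3] <;>
    simp only [e0, e1, e2, e3, e4, e5, a0, a1, a2, a3, a4, a5] <;> norm_num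

theorem s18_vals_exp3_e4Z : PowerSeries.coeff 0 (s18_exp 3 e4Z) = 1 ∧
    PowerSeries.coeff 1 (s18_exp 3 e4Z) = 0 ∧ PowerSeries.coeff 2 (s18_exp 3 e4Z) = 0 ∧
    PowerSeries.coeff 3 (s18_exp 3 e4Z) = 240 ∧ PowerSeries.coeff 4 (s18_exp 3 e4Z) = 0 ∧
    PowerSeries.coeff 5 (s18_exp 3 e4Z) = 0 := by
  obtain ⟨e0, e1, -⟩ := s18_vals_e4Z
  refine ⟨?_, ?_, ?_, ?_, ?_, ?_⟩ <;> rw [s18_coeff_exp] <;> simp [e0, e1]

theorem s18_vals_exp3_e6Z : PowerSeries.coeff 0 (s18_exp 3 e6Z) = 1 ∧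
    PowerSeries.coeff 1 (s18_exp 3 e6Z) = 0 ∧ PowerSeries.coeff 2 (s18_exp 3 e6Z) = 0 ∧
    PowerSeries.coeff 3 (s18_exp 3 e6Z) = -504 ∧ PowerSeries.coeff 4 (s18_exp 3 e6Z) = 0 ∧
    PowerSeries.coeff 5 (s18_exp 3 e6Z) = 0 := by
  obtain ⟨e0, e1, -⟩ := s18_vals_e6Z
  refine ⟨?_, ?_, ?_, ?_, ?_, ?_⟩ <;> rw [s18_coeff_exp] <;> simp [e0, e1]

/-! ### The two identities modulo `X ^ 6` -/

open PowerSeries in
theorem s18_dvd_lvl3_one :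
    (X : PowerSeries ℤ) ^ 6 ∣ s18_B3 * (e4Z ^ 3 - e6Z ^ 2) -
      1728 * (s18_A3 * (s18_B3 - 27 * s18_A3) ^ 3) := by
  obtain ⟨e0, e1, e2, e3, e4, e5⟩ := s18_vals_e4Z
  obtain ⟨f0, f1, f2, f3, f4, f5⟩ := s18_vals_e6Z
  obtain ⟨a0, a1, a2, a3, a4, a5⟩ := s18_vals_A3
  obtain ⟨b0, b1, b2, b3, b4, b5⟩ := s18_vals_B3
  have h1 := s18h_trunc6 e4Z
  have h2 := s18h_trunc6 e6Z
  have h3 := s18h_trunc6 s18_A3
  have h4 := s18h_trunc6 s18_B3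
  rw [e0, e1, e2, e3, e4, e5] at h1
  rw [f0, f1, f2, f3, f4, f5] at h2
  rw [a0, a1, a2, a3, a4, a5] at h3
  rw [b0, b1, b2, b3, b4, b5] at h4
  rw [← Ideal.mem_span_singleton, ← Ideal.Quotient.eq_zero_iff_mem]
  have key : (Ideal.Quotient.mk (Ideal.span {(X : PowerSeries ℤ) ^ 6}))
      (s18_B3 * (e4Z ^ 3 - e6Z ^ 2) - 1728 * (s18_A3 * (s18_B3 - 27 * s18_A3) ^ 3)) =
      (Ideal.Quotient.mk (Ideal.span {(X : PowerSeries ℤ) ^ 6}))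
      ((C (1 : ℤ) + C (24 : ℤ) * X + C (216 : ℤ) * X ^ 2 + C (888 : ℤ) * X ^ 3 +
          C (1752 : ℤ) * X ^ 4 + C (3024 : ℤ) * X ^ 5) *
        ((C (1 : ℤ) + C (240 : ℤ) * X + C (2160 : ℤ) * X ^ 2 + C (6720 : ℤ) * X ^ 3 +
          C (17520 : ℤ) * X ^ 4 + C (30240 : ℤ) * X ^ 5) ^ 3 -
        (C (1 : ℤ) + C (-504 : ℤ) * X + C (-16632 : ℤ) * X ^ 2 + C (-122976 : ℤ) * X ^ 3 +
          C (-532728 : ℤ) * X ^ 4 + C (-1575504 : ℤ) * X ^ 5) ^ 2) -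
        1728 * ((C (0 : ℤ) + C (1 : ℤ) * X + C (9 : ℤ) * X ^ 2 + C (27 : ℤ) * X ^ 3 +
          C (73 : ℤ) * X ^ 4 + C (126 : ℤ) * X ^ 5) *
          ((C (1 : ℤ) + C (24 : ℤ) * X + C (216 : ℤ) * X ^ 2 + C (888 : ℤ) * X ^ 3 +
          C (1752 : ℤ) * X ^ 4 + C (3024 : ℤ) * X ^ 5) -
          27 * (C (0 : ℤ) + C (1 : ℤ) * X + C (9 : ℤ) * X ^ 2 + C (27 : ℤ) * X ^ 3 +
          C (73 : ℤ) * X ^ 4 + C (126 : ℤ) * X ^ 5)) ^ 3)) := by
    simp only [map_sub, map_mul, map_pow, h1, h2, h3, h4]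
  rw [key, Ideal.Quotient.eq_zero_iff_mem, Ideal.mem_span_singleton]
  refine ⟨(-7877952) + (3777667200) * X + (226331212608) * X ^ 2 + (5112698832000) * X ^ 3 +
    (63547900382592) * X ^ 4 + (504425275695936) * X ^ 5 + (2812893877346688) * X ^ 6 +
    (11676484653607296) * X ^ 7 + (36577136930424192) * X ^ 8 + (87355268261823744) * X ^ 9 +
    (163227637241884224) * X ^ 10 + (228510516809304576) * X ^ 11 +
    (248732126125604352) * X ^ 12 + (193820862577047552) * X ^ 13 +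
    (83635029742150656) * X ^ 14, ?_⟩
  simp only [eq_intCast]
  push_cast
  ring

open PowerSeries in
theorem s18_dvd_lvl3_two :
    (X : PowerSeries ℤ) ^ 6 ∣ s18_B3 * (s18_exp 3 e4Z ^ 3 - s18_exp 3 e6Z ^ 2) -
      1728 * (s18_A3 ^ 3 * (s18_B3 - 27 * s18_A3)) := by
  obtain ⟨e0, e1, e2, e3, e4, e5⟩ := s18_vals_exp3_e4Z
  obtain ⟨f0, f1, f2, f3, f4, f5⟩ := s18_vals_exp3_e6Z
  obtain ⟨a0, a1, a2, a3, a4, a5⟩ := s18_vals_A3
  obtain ⟨b0, b1, b2, b3, b4, b5⟩ := s18_vals_B3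
  have h1 := s18h_trunc6 (s18_exp 3 e4Z)
  have h2 := s18h_trunc6 (s18_exp 3 e6Z)
  have h3 := s18h_trunc6 s18_A3
  have h4 := s18h_trunc6 s18_B3
  rw [e0, e1, e2, e3, e4, e5] at h1
  rw [f0, f1, f2, f3, f4, f5] at h2
  rw [a0, a1, a2, a3, a4, a5] at h3
  rw [b0, b1, b2, b3, b4, b5] at h4
  rw [← Ideal.mem_span_singleton, ← Ideal.Quotient.eq_zero_iff_mem]
  have key : (Ideal.Quotient.mk (Ideal.span {(X : PowerSeries ℤ) ^ 6}))
      (s18_B3 * (s18_exp 3 e4Z ^ 3 - s18_exp 3 e6Z ^ 2) -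
        1728 * (s18_A3 ^ 3 * (s18_B3 - 27 * s18_A3))) =
      (Ideal.Quotient.mk (Ideal.span {(X : PowerSeries ℤ) ^ 6}))
      ((C (1 : ℤ) + C (24 : ℤ) * X + C (216 : ℤ) * X ^ 2 + C (888 : ℤ) * X ^ 3 +
          C (1752 : ℤ) * X ^ 4 + C (3024 : ℤ) * X ^ 5) *
        ((C (1 : ℤ) + C (0 : ℤ) * X + C (0 : ℤ) * X ^ 2 + C (240 : ℤ) * X ^ 3 +
          C (0 : ℤ) * X ^ 4 + C (0 : ℤ) * X ^ 5) ^ 3 -
        (C (1 : ℤ) + C (0 : ℤ) * X + C (0 : ℤ) * X ^ 2 + C (-504 : ℤ) * X ^ 3 +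
          C (0 : ℤ) * X ^ 4 + C (0 : ℤ) * X ^ 5) ^ 2) -
        1728 * ((C (0 : ℤ) + C (1 : ℤ) * X + C (9 : ℤ) * X ^ 2 + C (27 : ℤ) * X ^ 3 +
          C (73 : ℤ) * X ^ 4 + C (126 : ℤ) * X ^ 5) ^ 3 *
          ((C (1 : ℤ) + C (24 : ℤ) * X + C (216 : ℤ) * X ^ 2 + C (888 : ℤ) * X ^ 3 +
          C (1752 : ℤ) * X ^ 4 + C (3024 : ℤ) * X ^ 5) -
          27 * (C (0 : ℤ) + C (1 : ℤ) * X + C (9 : ℤ) * X ^ 2 + C (27 : ℤ) * X ^ 3 +
          C (73 : ℤ) * X ^ 4 + C (126 : ℤ) * X ^ 5)))) := by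
    simp only [map_sub, map_mul, map_pow, h1, h2, h3, h4]
  rw [key, Ideal.Quotient.eq_zero_iff_mem, Ideal.mem_span_singleton]
  refine ⟨(-39744) + (-953856) * X + (-7324992) * X ^ 2 + (-12562560) * X ^ 3 +
    (400215168) * X ^ 4 + (3517069248) * X ^ 5 + (16767205632) * X ^ 6 +
    (49538107008) * X ^ 7 + (148139051904) * X ^ 8 + (362415368448) * X ^ 9 +
    (956621192256) * X ^ 10 + (1894387751424) * X ^ 11 + (2921856634368) * X ^ 12 +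
    (3028025161728) * X ^ 13 + (1306613597184) * X ^ 14, ?_⟩
  simp only [eq_intCast]
  push_cast
  ring

/-! ### The modular forms of level `Γ₀(3)` -/

/-- `A = (E₄(τ) - E₄(3τ)) / 240`. -/
noncomputable def s18A3f : ℍ → ℂ := (240 : ℂ)⁻¹ • (⇑E₄ - u8E4')

/-- `B = E₄(τ) - 216 A`. -/
noncomputable def s18B3f : ℍ → ℂ := ⇑E₄ - (216 : ℂ) • s18A3f

theorem s18A3f_mem : s18A3f ∈ MF (G0 3) 4 :=
  Submodule.smul_mem _ _ (Submodule.sub_mem _ u8_E4_mem u8E4'_mem)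

theorem s18B3f_mem : s18B3f ∈ MF (G0 3) 4 :=
  Submodule.sub_mem _ u8_E4_mem (Submodule.smul_mem _ _ s18A3f_mem)

theorem s18E4c_qexp : qExpansion 1 u8E4' = (s18_exp 3 e4Z).map (Int.castRingHom ℂ) := by
  ext n
  rw [u8E4'_coeff, PowerSeries.coeff_map, s18_coeff_exp]
  split_ifs
  · rw [did_qExpansion_E4, PowerSeries.coeff_map]
  · rw [map_zero]

theorem s18E6c_qexp : qExpansion 1 u8E6' = (s18_exp 3 e6Z).map (Int.castRingHom ℂ) := by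
  ext n
  rw [u8E6'_coeff, PowerSeries.coeff_map, s18_coeff_exp]
  split_ifs
  · rw [did_qExpansion_E6, PowerSeries.coeff_map]
  · rw [map_zero]

theorem s18A3f_qexp : qExpansion 1 s18A3f = s18_A3.map (Int.castRingHom ℂ) := by
  rw [s18A3f, QNice.qExpansion_smul _ ((u8_qnice u8_E4_mem).sub (u8_qnice u8E4'_mem)),
    QNice.qExpansion_sub (u8_qnice u8_E4_mem) (u8_qnice u8E4'_mem), did_qExpansion_E4,
    s18E4c_qexp, ← map_sub, s18_e4Z_sub_exp3]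
  ext n
  rw [PowerSeries.coeff_smul, PowerSeries.coeff_map, PowerSeries.coeff_map, s18h_coeff_ofNat_mul]
  simp only [eq_intCast, smul_eq_mul]
  push_cast
  ring

theorem s18B3f_qexp : qExpansion 1 s18B3f = s18_B3.map (Int.castRingHom ℂ) := by
  have hA : QNice ((216 : ℂ) • s18A3f) := (u8_qnice s18A3f_mem).smul 216
  rw [s18B3f, QNice.qExpansion_sub (u8_qnice u8_E4_mem) hA,
    QNice.qExpansion_smul _ (u8_qnice s18A3f_mem), did_qExpansion_E4, s18A3f_qexp]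
  ext n
  rw [map_sub, PowerSeries.coeff_smul, PowerSeries.coeff_map, PowerSeries.coeff_map,
    PowerSeries.coeff_map, s18_coeff_B3]
  simp only [eq_intCast, smul_eq_mul]
  push_cast
  ring

/-- `B (E₄³ - E₆²) = 1728 A (B - 27 A)³` as integral power series (i.e. `B Δ(q) = A C³`). -/
theorem s18_lvl3_one :
    s18_B3 * (e4Z ^ 3 - e6Z ^ 2) = 1728 * (s18_A3 * (s18_B3 - 27 * s18_A3) ^ 3) := by
  have hA := u8_qnice s18A3f_mem
  have hB := u8_qnice s18B3f_mem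
  have h4 := u8_qnice u8_E4_mem
  have h6 := u8_qnice u8_E6_mem
  have hCm : s18B3f - (27 : ℂ) • s18A3f ∈ MF (G0 3) 4 :=
    Submodule.sub_mem _ s18B3f_mem (Submodule.smul_mem _ _ s18A3f_mem)
  have hC := u8_qnice hCm
  have hmem : (s18B3f * (⇑E₄ ^ 3 - ⇑E₆ ^ 2) -
      (1728 : ℂ) • (s18A3f * (s18B3f - (27 : ℂ) • s18A3f) ^ 3)) ∈ MF (G0 3) 16 :=
    Submodule.sub_mem _ (MF_congr (by norm_num) (MF_mul s18B3f_mem
      (Submodule.sub_mem _ (MF_congr (by norm_num) (MF_pow u8_E4_mem 3))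
        (MF_congr (by norm_num : ((2 : ℕ) : ℤ) * 6 = 12) (MF_pow u8_E6_mem 2)))))
      (Submodule.smul_mem _ _ (MF_congr (by norm_num) (MF_mul s18A3f_mem (MF_pow hCm 3))))
  have hq : qExpansion 1 (s18B3f * (⇑E₄ ^ 3 - ⇑E₆ ^ 2) -
      (1728 : ℂ) • (s18A3f * (s18B3f - (27 : ℂ) • s18A3f) ^ 3)) =
      (s18_B3 * (e4Z ^ 3 - e6Z ^ 2) - 1728 * (s18_A3 * (s18_B3 - 27 * s18_A3) ^ 3)).map
        (Int.castRingHom ℂ) := by
    rw [QNice.qExpansion_sub (hB.mul ((h4.pow 3).sub (h6.pow 2))) ((hA.mul (hC.pow 3)).smul 1728),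
      QNice.qExpansion_mul hB ((h4.pow 3).sub (h6.pow 2)),
      QNice.qExpansion_sub (h4.pow 3) (h6.pow 2), QNice.qExpansion_pow h4, QNice.qExpansion_pow h6,
      QNice.qExpansion_smul _ (hA.mul (hC.pow 3)), QNice.qExpansion_mul hA (hC.pow 3),
      QNice.qExpansion_pow hC, QNice.qExpansion_sub hB (hA.smul 27),
      QNice.qExpansion_smul _ hA, did_qExpansion_E4, did_qExpansion_E6, s18A3f_qexp, s18B3f_qexp,
      s18h_smul_eq, s18h_smul_eq]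
    simp only [map_sub, map_mul, map_pow, map_ofNat]
  have h0 := s18h_sturm 3 16 5 (by rw [u8_index]; decide) _ hmem _ hq s18_dvd_lvl3_one
  exact sub_eq_zero.mp h0

/-- `B (E₄(q³)³ - E₆(q³)²) = 1728 A³ (B - 27 A)` (i.e. `B Δ(q³) = A³ C`). -/
theorem s18_lvl3_two :
    s18_B3 * (s18_exp 3 e4Z ^ 3 - s18_exp 3 e6Z ^ 2) =
      1728 * (s18_A3 ^ 3 * (s18_B3 - 27 * s18_A3)) := by
  have hA := u8_qnice s18A3f_mem
  have hB := u8_qnice s18B3f_mem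
  have h4 := u8_qnice u8E4'_mem
  have h6 := u8_qnice u8E6'_mem
  have hCm : s18B3f - (27 : ℂ) • s18A3f ∈ MF (G0 3) 4 :=
    Submodule.sub_mem _ s18B3f_mem (Submodule.smul_mem _ _ s18A3f_mem)
  have hC := u8_qnice hCm
  have hmem : (s18B3f * (u8E4' ^ 3 - u8E6' ^ 2) -
      (1728 : ℂ) • (s18A3f ^ 3 * (s18B3f - (27 : ℂ) • s18A3f))) ∈ MF (G0 3) 16 :=
    Submodule.sub_mem _ (MF_congr (by norm_num) (MF_mul s18B3f_mem
      (Submodule.sub_mem _ (MF_congr (by norm_num) (MF_pow u8E4'_mem 3))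
        (MF_congr (by norm_num : ((2 : ℕ) : ℤ) * 6 = 12) (MF_pow u8E6'_mem 2)))))
      (Submodule.smul_mem _ _ (MF_congr (by norm_num) (MF_mul (MF_pow s18A3f_mem 3) hCm)))
  have hq : qExpansion 1 (s18B3f * (u8E4' ^ 3 - u8E6' ^ 2) -
      (1728 : ℂ) • (s18A3f ^ 3 * (s18B3f - (27 : ℂ) • s18A3f))) =
      (s18_B3 * (s18_exp 3 e4Z ^ 3 - s18_exp 3 e6Z ^ 2) -
        1728 * (s18_A3 ^ 3 * (s18_B3 - 27 * s18_A3))).map (Int.castRingHom ℂ) := by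
    rw [QNice.qExpansion_sub (hB.mul ((h4.pow 3).sub (h6.pow 2))) (((hA.pow 3).mul hC).smul 1728),
      QNice.qExpansion_mul hB ((h4.pow 3).sub (h6.pow 2)),
      QNice.qExpansion_sub (h4.pow 3) (h6.pow 2), QNice.qExpansion_pow h4, QNice.qExpansion_pow h6,
      QNice.qExpansion_smul _ ((hA.pow 3).mul hC), QNice.qExpansion_mul (hA.pow 3) hC,
      QNice.qExpansion_pow hA, QNice.qExpansion_sub hB (hA.smul 27),
      QNice.qExpansion_smul _ hA, s18E4c_qexp, s18E6c_qexp, s18A3f_qexp, s18B3f_qexp,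
      s18h_smul_eq, s18h_smul_eq]
    simp only [map_sub, map_mul, map_pow, map_ofNat]
  have h0 := s18h_sturm 3 16 5 (by rw [u8_index]; decide) _ hmem _ hq s18_dvd_lvl3_two
  exact sub_eq_zero.mp h0

/-- `B₃ Δ(q) = A₃ C₃³`. -/
theorem s18_delta_eq3 : s18_B3 * deltaZ = s18_A3 * s18_C3 ^ 3 := by
  have h := did_deltaZ_identity
  have h1 := s18_lvl3_one
  rw [← h] at h1
  have h2 : (1728 : PowerSeries ℤ) * (s18_B3 * deltaZ) = 1728 * (s18_A3 * s18_C3 ^ 3) := by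
    rw [s18_C3]
    linear_combination h1
  exact mul_left_cancel₀ s18h_ofNat_ne_zero h2

/-- `B₃ Δ(q³) = A₃³ C₃`. -/
theorem s18_delta_exp3 : s18_B3 * s18_exp 3 deltaZ = s18_A3 ^ 3 * s18_C3 := by
  have h := congrArg (s18_expHom ℤ 3) did_deltaZ_identity
  rw [map_mul, map_sub, map_pow, map_pow, map_ofNat, s18_expHom_apply, s18_expHom_apply,
    s18_expHom_apply] at h
  have h1 := s18_lvl3_two
  rw [← h] at h1
  have h2 : (1728 : PowerSeries ℤ) * (s18_B3 * s18_exp 3 deltaZ) =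
      1728 * (s18_A3 ^ 3 * s18_C3) := by
    rw [s18_C3]
    linear_combination h1
  exact mul_left_cancel₀ s18h_ofNat_ne_zero h2

/-! ### The Hauptmodul as an integral Laurent series -/

/-- `A₃ / q = 1 + 9 q + …`. -/
noncomputable def s18_A3' : PowerSeries ℤ :=
  PowerSeries.mk fun n => PowerSeries.coeff (n + 1) s18_A3

theorem s18_A3_eq : s18_A3 = PowerSeries.X * s18_A3' := by
  ext n
  cases n with
  | zero =>
    rw [s18_vals_A3.1, PowerSeries.coeff_zero_eq_constantCoeff_apply, map_mul,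
      PowerSeries.constantCoeff_X, zero_mul]
  | succ n => rw [PowerSeries.coeff_succ_X_mul, s18_A3', PowerSeries.coeff_mk]

theorem s18_constantCoeff_A3' : PowerSeries.constantCoeff s18_A3' = 1 := by
  rw [← PowerSeries.coeff_zero_eq_constantCoeff_apply, s18_A3', PowerSeries.coeff_mk]
  exact s18_vals_A3.2.1

theorem s18_constantCoeff_C3 : PowerSeries.constantCoeff s18_C3 = 1 := by
  rw [← PowerSeries.coeff_zero_eq_constantCoeff_apply, s18_coeff_C3, s18_vals_B3.1,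
    s18_vals_A3.1]
  norm_num

/-- The Hauptmodul `t₃ = C₃ / A₃ = (η(q)/η(q³))¹² = q⁻¹ - 12 + 54 q - …` of `X₀(3)`, over `ℤ`. -/
noncomputable def s18_t3 : LaurentSeries ℤ :=
  HahnSeries.single (-1 : ℤ) 1 * HahnSeries.ofPowerSeries ℤ ℤ (s18_C3 * s18_A3'.invOfUnit 1)

/-- The inverse `1 / t₃ = A₃ / C₃ = q + 12 q² + …`. -/
noncomputable def s18_t3inv : LaurentSeries ℤ :=
  HahnSeries.single (1 : ℤ) 1 * HahnSeries.ofPowerSeries ℤ ℤ (s18_A3' * s18_C3.invOfUnit 1)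

/-- The inverse of `A₃` as a Laurent series. -/
noncomputable def s18_a3inv : LaurentSeries ℤ :=
  HahnSeries.single (-1 : ℤ) 1 * HahnSeries.ofPowerSeries ℤ ℤ (s18_A3'.invOfUnit 1)

theorem s18_A3'_mul_inv : s18_A3' * s18_A3'.invOfUnit 1 = 1 :=
  PowerSeries.mul_invOfUnit _ _ (by rw [s18_constantCoeff_A3']; rfl)

theorem s18_C3_mul_inv : s18_C3 * s18_C3.invOfUnit 1 = 1 :=
  PowerSeries.mul_invOfUnit _ _ (by rw [s18_constantCoeff_C3]; rfl)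

theorem s18_a3_mul_inv : HahnSeries.ofPowerSeries ℤ ℤ s18_A3 * s18_a3inv = 1 := by
  have h1 := congrArg (HahnSeries.ofPowerSeries ℤ ℤ) s18_A3'_mul_inv
  rw [map_mul, map_one] at h1
  rw [s18_a3inv, s18_A3_eq, map_mul, HahnSeries.ofPowerSeries_X]
  linear_combination (HahnSeries.single (-1 : ℤ) (1 : ℤ) * HahnSeries.single (1 : ℤ) 1) * h1 +
    s18h_single_neg_one_mul

theorem s18_t3_mul_a3 :
    s18_t3 * HahnSeries.ofPowerSeries ℤ ℤ s18_A3 = HahnSeries.ofPowerSeries ℤ ℤ s18_C3 := by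
  have h1 := congrArg (HahnSeries.ofPowerSeries ℤ ℤ) s18_A3'_mul_inv
  rw [map_mul, map_one] at h1
  rw [s18_t3, s18_A3_eq, map_mul, map_mul, HahnSeries.ofPowerSeries_X]
  linear_combination (HahnSeries.ofPowerSeries ℤ ℤ s18_C3 *
    (HahnSeries.single (-1 : ℤ) (1 : ℤ) * HahnSeries.single (1 : ℤ) 1)) * h1 +
    (HahnSeries.ofPowerSeries ℤ ℤ s18_C3) * s18h_single_neg_one_mul

theorem s18_t3_mul_inv : s18_t3 * s18_t3inv = 1 := by
  have h1 := congrArg (HahnSeries.ofPowerSeries ℤ ℤ) s18_A3'_mul_inv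
  have h2 := congrArg (HahnSeries.ofPowerSeries ℤ ℤ) s18_C3_mul_inv
  rw [map_mul, map_one] at h1 h2
  rw [s18_t3, s18_t3inv, map_mul, map_mul]
  linear_combination (HahnSeries.single (-1 : ℤ) (1 : ℤ) * HahnSeries.single (1 : ℤ) 1 *
    (HahnSeries.ofPowerSeries ℤ ℤ s18_C3 * HahnSeries.ofPowerSeries ℤ ℤ (s18_C3.invOfUnit 1))) * h1
    + (HahnSeries.single (-1 : ℤ) (1 : ℤ) * HahnSeries.single (1 : ℤ) 1) * h2 +
    s18h_single_neg_one_mul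

/-- **Level 3, first identity**: `j · t₃³ = (t₃ + 27)(t₃ + 243)³`. -/
theorem s18_t3_j :
    ModularCurve.jqModC ℤ * s18_t3 ^ 3 = (s18_t3 + 27) * (s18_t3 + 243) ^ 3 := by
  have hJ := congrArg (fun x => HahnSeries.ofPowerSeries ℤ ℤ s18_B3 * x) s18_jq_mul_delta
  have hD := congrArg (HahnSeries.ofPowerSeries ℤ ℤ) s18_delta_eq3
  simp only [map_mul, map_pow] at hD
  rw [s18_e4Z_eq3, s18_B3_eq] at hJ
  rw [s18_B3_eq] at hD
  simp only [map_mul, map_add, map_ofNat] at hJ hD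
  rw [← s18_t3_mul_a3] at hJ hD
  have hu := s18_a3_mul_inv
  linear_combination (s18_a3inv ^ 4) * hJ - (ModularCurve.jqModC ℤ * s18_a3inv ^ 4) * hD +
    (-(1 + HahnSeries.ofPowerSeries ℤ ℤ s18_A3 * s18_a3inv +
      (HahnSeries.ofPowerSeries ℤ ℤ s18_A3 * s18_a3inv) ^ 2 +
      (HahnSeries.ofPowerSeries ℤ ℤ s18_A3 * s18_a3inv) ^ 3) *
      (ModularCurve.jqModC ℤ * s18_t3 ^ 3 - (s18_t3 + 27) * (s18_t3 + 243) ^ 3)) * hu

/-- **Level 3, second identity**: `j(q³) · t₃ = (t₃ + 27)(t₃ + 3)³`. -/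
theorem s18_t3_j3 :
    ModularCurve.qExpand ℤ 3 (ModularCurve.jqModC ℤ) * s18_t3 =
      (s18_t3 + 27) * (s18_t3 + 3) ^ 3 := by
  have hJ0 := congrArg (ModularCurve.qExpand ℤ 3) s18_jq_mul_delta
  rw [map_mul, map_pow, ← s18_ofPowerSeries_exp, ← s18_ofPowerSeries_exp, s18_exp3_e4Z] at hJ0
  have hJ := congrArg (fun x => HahnSeries.ofPowerSeries ℤ ℤ s18_B3 * x) hJ0
  have hD := congrArg (HahnSeries.ofPowerSeries ℤ ℤ) s18_delta_exp3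
  rw [s18_B3_eq] at hJ hD
  simp only [map_mul, map_pow, map_add, map_ofNat] at hJ hD
  rw [← s18_t3_mul_a3] at hJ hD
  have hu := s18_a3_mul_inv
  linear_combination (s18_a3inv ^ 4) * hJ -
    (ModularCurve.qExpand ℤ 3 (ModularCurve.jqModC ℤ) * s18_a3inv ^ 4) * hD +
    (-(1 + HahnSeries.ofPowerSeries ℤ ℤ s18_A3 * s18_a3inv +
      (HahnSeries.ofPowerSeries ℤ ℤ s18_A3 * s18_a3inv) ^ 2 +
      (HahnSeries.ofPowerSeries ℤ ℤ s18_A3 * s18_a3inv) ^ 3) *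
      (ModularCurve.qExpand ℤ 3 (ModularCurve.jqModC ℤ) * s18_t3 -
        (s18_t3 + 27) * (s18_t3 + 3) ^ 3)) * hu

end Fermat.Agent.S18
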