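import Fermat.Agent.S16.U8Level3
import Fermat.Agent.S16.DeltaId

/-!
# S18 block C0 (Hauptmoduln): shared bookkeeping

* `s18_exp N P` : the substitution `q ↦ q ^ N` on power series, compatible with the Prelude's
  `qExpand` on Laurent series;
* truncation lemmas modulo `X ^ 4` and `X ^ 6`;
* a Sturm-bound wrapper for integral `q`-expansions.
-/

set_option autoImplicit false

namespace Fermat.Agent.S18

open UpperHalfPlane ModularForm CongruenceSubgroup
open scoped MatrixGroups Manifold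
open Fermat.Agent.S20 Fermat.Agent.S23 Fermat.Agent.S16

/-- The substitution `q ↦ q ^ N` on power series. -/
noncomputable def s18_exp {R : Type*} [Semiring R] (N : ℕ) (P : PowerSeries R) : PowerSeries R :=
  PowerSeries.mk fun n => if N ∣ n then PowerSeries.coeff (n / N) P else 0

theorem s18_coeff_exp {R : Type*} [Semiring R] (N : ℕ) (P : PowerSeries R) (n : ℕ) :
    PowerSeries.coeff n (s18_exp N P) = if N ∣ n then PowerSeries.coeff (n / N) P else 0 := by
  rw [s18_exp, PowerSeries.coeff_mk]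

theorem s18_ofPowerSeries_exp {R : Type*} [CommRing R] (N : ℕ) [NeZero N] (P : PowerSeries R) :
    HahnSeries.ofPowerSeries ℤ R (s18_exp N P) =
      ModularCurve.qExpand R N (HahnSeries.ofPowerSeries ℤ R P) := by
  have hN : (0 : ℤ) < (N : ℤ) := by exact_mod_cast Nat.pos_of_ne_zero (NeZero.ne N)
  ext k
  rcases lt_or_ge k 0 with hk | hk
  · rw [ModularCurve.ofPowerSeries_coeff_of_neg _ hk]
    by_cases hd : (N : ℤ) ∣ k
    · obtain ⟨m, rfl⟩ := hd
      have hm : m < 0 := by
        by_contra hm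
        push Not at hm
        have := mul_nonneg hN.le hm
        omega
      rw [ModularCurve.qExpand_coeff_mul, ModularCurve.ofPowerSeries_coeff_of_neg _ hm]
    · rw [ModularCurve.qExpand_coeff_of_not_dvd _ _ hd]
  · lift k to ℕ using hk
    rw [HahnSeries.ofPowerSeries_apply_coeff, s18_coeff_exp]
    by_cases hd : N ∣ k
    · obtain ⟨m, rfl⟩ := hd
      rw [if_pos (dvd_mul_right N m), Nat.mul_div_cancel_left m (Nat.pos_of_ne_zero (NeZero.ne N)),
        Nat.cast_mul, ModularCurve.qExpand_coeff_mul, HahnSeries.ofPowerSeries_apply_coeff]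
    · rw [if_neg hd, ModularCurve.qExpand_coeff_of_not_dvd]
      exact fun h => hd (Int.natCast_dvd_natCast.mp h)

theorem s18_exp_map {R S : Type*} [Semiring R] [Semiring S] (f : R →+* S) (N : ℕ)
    (P : PowerSeries R) : (s18_exp N P).map f = s18_exp N (P.map f) := by
  ext n
  rw [PowerSeries.coeff_map, s18_coeff_exp, s18_coeff_exp]
  split_ifs
  · rw [PowerSeries.coeff_map]
  · rw [map_zero]

theorem s18h_map_int_injective :
    Function.Injective (PowerSeries.map (Int.castRingHom ℂ)) := by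
  intro a b hab
  ext n
  have := congrArg (PowerSeries.coeff n) hab
  simpa using this

theorem s18h_smul_eq (c : ℂ) (P : PowerSeries ℂ) : c • P = PowerSeries.C c * P := by
  ext n
  rw [PowerSeries.coeff_smul, PowerSeries.coeff_C_mul, smul_eq_mul]

theorem s18h_coeff_ofNat_mul (m : ℕ) [m.AtLeastTwo] (P : PowerSeries ℤ) (n : ℕ) :
    PowerSeries.coeff n ((OfNat.ofNat m : PowerSeries ℤ) * P) =
      (OfNat.ofNat m : ℤ) * PowerSeries.coeff n P := by
  rw [← map_ofNat (PowerSeries.C (R := ℤ)) m, PowerSeries.coeff_C_mul]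

open PowerSeries in
theorem s18h_trunc4 (P : PowerSeries ℤ) :
    (Ideal.Quotient.mk (Ideal.span {(X : PowerSeries ℤ) ^ 4})) P =
    (Ideal.Quotient.mk (Ideal.span {(X : PowerSeries ℤ) ^ 4}))
      (C (coeff 0 P) + C (coeff 1 P) * X + C (coeff 2 P) * X ^ 2 + C (coeff 3 P) * X ^ 3) := by
  rw [Ideal.Quotient.eq, Ideal.mem_span_singleton, PowerSeries.X_pow_dvd_iff]
  intro m hm
  interval_cases m <;>
    simp only [map_sub, map_add, PowerSeries.coeff_C_mul, PowerSeries.coeff_C,
      PowerSeries.coeff_X_pow, PowerSeries.coeff_X] <;> norm_num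

open PowerSeries in
theorem s18h_trunc6 (P : PowerSeries ℤ) :
    (Ideal.Quotient.mk (Ideal.span {(X : PowerSeries ℤ) ^ 6})) P =
    (Ideal.Quotient.mk (Ideal.span {(X : PowerSeries ℤ) ^ 6}))
      (C (coeff 0 P) + C (coeff 1 P) * X + C (coeff 2 P) * X ^ 2 + C (coeff 3 P) * X ^ 3
        + C (coeff 4 P) * X ^ 4 + C (coeff 5 P) * X ^ 5) := by
  rw [Ideal.Quotient.eq, Ideal.mem_span_singleton, PowerSeries.X_pow_dvd_iff]
  intro m hm
  interval_cases m <;>
    simp only [map_sub, map_add, PowerSeries.coeff_C_mul, PowerSeries.coeff_C,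
      PowerSeries.coeff_X_pow, PowerSeries.coeff_X] <;> norm_num

theorem s18h_coeff_e4Z_eq (n : ℕ) :
    PowerSeries.coeff n e4Z = (if n = 0 then 1 else 0) + 240 * ∑ d ∈ n.divisors, (d : ℤ) ^ 3 := by
  rw [coeff_e4Z]
  split_ifs with h
  · subst h; simp
  · simp

theorem s18h_coeff_e6Z_eq (n : ℕ) :
    PowerSeries.coeff n e6Z = (if n = 0 then 1 else 0) - 504 * ∑ d ∈ n.divisors, (d : ℤ) ^ 5 := by
  rw [coeff_e6Z]
  split_ifs with h
  · subst h; simp
  · simp

/-- Sturm bound for a form on `Γ₀(N)` of weight `k` with an integral `q`-expansion divisible by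
`X ^ (B + 1)`, where `B` is the Sturm bound. -/
theorem s18h_sturm (N : ℕ) [NeZero N] (k : ℤ) (B : ℕ)
    (hB : (k * (Gamma0 N).index).toNat / 12 ≤ B) (F : ℍ → ℂ) (hF : F ∈ MF (G0 N) k)
    (P : PowerSeries ℤ) (hq : qExpansion 1 F = P.map (Int.castRingHom ℂ))
    (hdvd : PowerSeries.X ^ (B + 1) ∣ P) : P = 0 := by
  obtain ⟨Hf, hHf⟩ := hF
  have hHf' : ⇑Hf = F := hHf
  have h0 : Hf = 0 := by
    refine ModularForm.sturm_bound_Gamma0 N Hf fun n hn => ?_
    rw [hHf', hq, PowerSeries.coeff_map, PowerSeries.X_pow_dvd_iff.mp hdvd n (by omega), map_zero]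
  have hF0 : F = 0 := by
    rw [← hHf', h0]
    rfl
  apply s18h_map_int_injective
  rw [← hq, hF0, map_zero]
  simpa using UpperHalfPlane.qExpansion_zero 1

/-- The substitution `q ↦ q ^ N` as a ring homomorphism. -/
noncomputable def s18_expHom (R : Type*) [CommRing R] (N : ℕ) [NeZero N] :
    PowerSeries R →+* PowerSeries R where
  toFun := s18_exp N
  map_one' := by
    apply HahnSeries.ofPowerSeries_injective (Γ := ℤ)
    rw [s18_ofPowerSeries_exp, map_one, map_one]
  map_mul' P Q := by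
    apply HahnSeries.ofPowerSeries_injective (Γ := ℤ)
    rw [s18_ofPowerSeries_exp, map_mul, map_mul, map_mul, s18_ofPowerSeries_exp,
      s18_ofPowerSeries_exp]
  map_zero' := by
    apply HahnSeries.ofPowerSeries_injective (Γ := ℤ)
    rw [s18_ofPowerSeries_exp, map_zero, map_zero]
  map_add' P Q := by
    apply HahnSeries.ofPowerSeries_injective (Γ := ℤ)
    rw [s18_ofPowerSeries_exp, map_add, map_add, map_add, s18_ofPowerSeries_exp,
      s18_ofPowerSeries_exp]

@[simp]
theorem s18_expHom_apply (R : Type*) [CommRing R] (N : ℕ) [NeZero N] (P : PowerSeries R) :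
    s18_expHom R N P = s18_exp N P := rfl

theorem s18h_ofNat_ne_zero : (1728 : PowerSeries ℤ) ≠ 0 := by
  rw [← map_ofNat (PowerSeries.C (R := ℤ)) 1728]
  exact (map_ne_zero_iff _ PowerSeries.C_injective).mpr (by norm_num)

/-- `j Δ = E₄³` for the integral Laurent series. -/
theorem s18_jq_mul_delta :
    ModularCurve.jqModC ℤ * HahnSeries.ofPowerSeries ℤ ℤ deltaZ =
      HahnSeries.ofPowerSeries ℤ ℤ e4Z ^ 3 := by
  have hid : ModularCurve.jNum.map (Int.castRingHom ℤ) = ModularCurve.jNum := by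
    ext n
    rw [PowerSeries.coeff_map]
    rfl
  rw [ModularCurve.jqModC, hid, ModularCurve.jNum, deltaZ, e4Z, map_mul, map_mul, map_pow,
    HahnSeries.ofPowerSeries_X]
  have h1 : HahnSeries.ofPowerSeries ℤ ℤ ModularCurve.dedekindEtaUnitInv *
      HahnSeries.ofPowerSeries ℤ ℤ ModularCurve.dedekindEtaUnit = 1 := by
    rw [← map_mul, mul_comm, ModularCurve.dedekindEtaUnit_mul_inv, map_one]
  have h2 : (HahnSeries.single (-1 : ℤ) (1 : ℤ) : LaurentSeries ℤ) * HahnSeries.single (1 : ℤ) 1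
      = 1 := by
    rw [HahnSeries.single_mul_single, mul_one]
    rfl
  linear_combination (HahnSeries.ofPowerSeries ℤ ℤ ModularCurve.eisenstein4 ^ 3 *
    (HahnSeries.single (-1 : ℤ) (1 : ℤ) * HahnSeries.single (1 : ℤ) 1)) * h1 +
    (HahnSeries.ofPowerSeries ℤ ℤ ModularCurve.eisenstein4 ^ 3) * h2

end Fermat.Agent.S18
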