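import Mathlib
import Fermat.Prelude.Def_ModularCurve_ReductionModL

/-!
# S18: lifting functions of the characteristic-`ℓ` function field (helper24)

Every element of `modularFunctionFieldFullC κ N` (`κ` the residue field of a valuation ring `A` of
`Q̄`) is a quotient `ū / v̄` of reductions of integral series `u, v : A((q))` lying in
`modularFunctionFieldBar N`.
-/

set_option autoImplicit false

noncomputable section

namespace Fermat.Agent.S18

open ModularCurve HahnSeries

section Lift

variable (A : ValuationSubring (AlgebraicClosure ℚ)) (N : ℕ)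

/-- The property "`u : A((q))` is an integral series of the function field `F_bar(N)` whose
reduction lies in the characteristic-`ℓ` function field". -/
def s18_IsIntSeries (u : LaurentSeries A) : Prop :=
  coeffMap A.subtype u ∈ modularFunctionFieldBar N ∧
    coeffMap (IsLocalRing.residue A) u ∈ modularFunctionFieldFullC (IsLocalRing.ResidueField A) N

variable {A N}

theorem s18_isIntSeries_zero : s18_IsIntSeries A N 0 := by
  refine ⟨?_, ?_⟩
  · rw [map_zero]; exact zero_mem _
  · rw [map_zero]; exact zero_mem _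

theorem s18_isIntSeries_one : s18_IsIntSeries A N 1 := by
  refine ⟨?_, ?_⟩
  · rw [map_one]; exact one_mem _
  · rw [map_one]; exact one_mem _

theorem s18_isIntSeries_mul {u v : LaurentSeries A} (hu : s18_IsIntSeries A N u)
    (hv : s18_IsIntSeries A N v) : s18_IsIntSeries A N (u * v) := by
  refine ⟨?_, ?_⟩
  · rw [map_mul]; exact mul_mem hu.1 hv.1
  · rw [map_mul]; exact mul_mem hu.2 hv.2

theorem s18_isIntSeries_add {u v : LaurentSeries A} (hu : s18_IsIntSeries A N u)
    (hv : s18_IsIntSeries A N v) : s18_IsIntSeries A N (u + v) := by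
  refine ⟨?_, ?_⟩
  · rw [map_add]; exact add_mem hu.1 hv.1
  · rw [map_add]; exact add_mem hu.2 hv.2

theorem s18_isIntSeries_pow {u : LaurentSeries A} (hu : s18_IsIntSeries A N u) (n : ℕ) :
    s18_IsIntSeries A N (u ^ n) := by
  refine ⟨?_, ?_⟩
  · rw [map_pow]; exact pow_mem hu.1 n
  · rw [map_pow]; exact pow_mem hu.2 n

/-- Constants are integral series. -/
theorem s18_isIntSeries_const (a : A) : s18_IsIntSeries A N (HahnSeries.single 0 a) := by
  refine ⟨?_, ?_⟩
  · rw [coeffMap_single, ← algebraMap_laurentSeries_eq_single]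
    exact (modularFunctionFieldBar N).algebraMap_mem _
  · rw [coeffMap_single, ← algebraMap_laurentSeries_eq_single]
    exact (modularFunctionFieldFullC (IsLocalRing.ResidueField A) N).algebraMap_mem _

/-- The generators `j(q^d)`, `d ∣ N`, are integral series. -/
theorem s18_isIntSeries_gen (d : ℕ) [NeZero d] (hd : d ∣ N) :
    s18_IsIntSeries A N (jqNModC A d) := by
  refine ⟨?_, ?_⟩
  · rw [coeffMap_jqNModC, ← coeffMap_jqNModC (algebraMap ℚ (AlgebraicClosure ℚ))]
    exact coeffEmb_mem_laurentBaseChange (AlgebraicClosure ℚ) (jqModCd_mem_full ℚ N hd)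
  · rw [coeffMap_jqNModC]
    exact jqModCd_mem_full (IsLocalRing.ResidueField A) N hd

/-- **Lifting.** Every element of the characteristic-`ℓ` function field is a quotient of
reductions of integral series of `F_bar(N)`. -/
theorem s18_lift_fullC (g : LaurentSeries (IsLocalRing.ResidueField A))
    (hg : g ∈ modularFunctionFieldFullC (IsLocalRing.ResidueField A) N) :
    ∃ u v : LaurentSeries A, s18_IsIntSeries A N u ∧ s18_IsIntSeries A N v ∧
      coeffMap (IsLocalRing.residue A) v ≠ 0 ∧
      g * coeffMap (IsLocalRing.residue A) v = coeffMap (IsLocalRing.residue A) u := by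
  unfold modularFunctionFieldFullC at hg
  induction hg using IntermediateField.adjoin_induction with
  | mem x hx =>
    obtain ⟨d, hne, hd, rfl⟩ := hx
    have := hne
    refine ⟨jqNModC A d, 1, s18_isIntSeries_gen d hd, s18_isIntSeries_one, ?_, ?_⟩
    · rw [map_one]; exact one_ne_zero
    · rw [map_one, mul_one, coeffMap_jqNModC]; rfl
  | algebraMap c =>
    obtain ⟨a, rfl⟩ := IsLocalRing.residue_surjective c
    refine ⟨HahnSeries.single 0 a, 1, s18_isIntSeries_const a, s18_isIntSeries_one, ?_, ?_⟩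
    · rw [map_one]; exact one_ne_zero
    · rw [map_one, mul_one, coeffMap_single, ← algebraMap_laurentSeries_eq_single]
  | add x y hx hy ihx ihy =>
    obtain ⟨u₁, v₁, hu₁, hv₁, hne₁, h₁⟩ := ihx
    obtain ⟨u₂, v₂, hu₂, hv₂, hne₂, h₂⟩ := ihy
    refine ⟨u₁ * v₂ + u₂ * v₁, v₁ * v₂,
      s18_isIntSeries_add (s18_isIntSeries_mul hu₁ hv₂) (s18_isIntSeries_mul hu₂ hv₁),
      s18_isIntSeries_mul hv₁ hv₂, ?_, ?_⟩
    · rw [map_mul]; exact mul_ne_zero hne₁ hne₂
    · rw [map_add, map_mul, map_mul, map_mul, ← h₁, ← h₂]; ring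
  | inv x hx ih =>
    obtain ⟨u, v, hu, hv, hne, h⟩ := ih
    by_cases hx0 : x = 0
    · refine ⟨0, 1, s18_isIntSeries_zero, s18_isIntSeries_one, ?_, ?_⟩
      · rw [map_one]; exact one_ne_zero
      · rw [hx0, inv_zero, zero_mul, map_zero]
    · have hu0 : coeffMap (IsLocalRing.residue A) u ≠ 0 := by
        rw [← h]; exact mul_ne_zero hx0 hne
      refine ⟨v, u, hv, hu, hu0, ?_⟩
      rw [← h]
      field_simp
  | mul x y hx hy ihx ihy =>
    obtain ⟨u₁, v₁, hu₁, hv₁, hne₁, h₁⟩ := ihx
    obtain ⟨u₂, v₂, hu₂, hv₂, hne₂, h₂⟩ := ihy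
    refine ⟨u₁ * u₂, v₁ * v₂, s18_isIntSeries_mul hu₁ hu₂, s18_isIntSeries_mul hv₁ hv₂, ?_, ?_⟩
    · rw [map_mul]; exact mul_ne_zero hne₁ hne₂
    · rw [map_mul, map_mul, ← h₁, ← h₂]; ring

end Lift

end Fermat.Agent.S18
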