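import Mathlib
import Fermat.Prelude.Def_AlgebraicCurve_DivisorClassGroup

/-!
# S18, block D (helper24): places of a function field from valuation subrings

Generic layer (Mathlib + the Prelude's `AlgebraicCurve.Place` only).

* `s18_val_pow_mem` : if `F` is finite over a subfield `K0`, then for every `x ≠ 0` in `F` some power
  `x ^ e` (`1 ≤ e ≤ [F : K0]`) has the valuation of an element of `K0`.
* `s18_isPrincipalIdealRing_of_discrete_on` : a valuation subring of `F` whose restriction to `K0`
  has value group generated by the value of one element `ϖ` (a nonunit) is a PIR.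
* `s18_exists_place_of_valuationSubring` : `k` algebraically closed, `F` finite over `k(j)`:
  every valuation subring `V ≠ ⊤` of `F` containing `k` is (the ring of) a `Place k F`.
* `s18_const_of_ord_eq_zero_of_finite` : in that situation a function with `ord_Q f = 0` at all
  places `Q` is a constant.
-/

set_option autoImplicit false

namespace Fermat.Agent.S18

open Polynomial IntermediateField AlgebraicCurve

section Generic

variable {k F : Type*} [Field k] [Field F] [Algebra k F]

/-- A finite sum of terms whose nonzero members have pairwise distinct valuations, not all zero,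
is nonzero. -/
theorem s18_sum_ne_zero_of_val_inj (V : ValuationSubring F)
    {ι : Type*} (s : Finset ι) (g : ι → F) (hne : ∃ i ∈ s, g i ≠ 0)
    (hinj : ∀ i ∈ s, ∀ j ∈ s, g i ≠ 0 → g j ≠ 0 → V.valuation (g i) = V.valuation (g j) → i = j) :
    ∑ i ∈ s, g i ≠ 0 := by
  classical
  obtain ⟨i1, hi1, hg1⟩ := hne
  obtain ⟨i0, hi0, hmax⟩ := s.exists_max_image (fun i => V.valuation (g i)) ⟨i1, hi1⟩
  have hv1 : V.valuation (g i1) ≠ 0 := (Valuation.ne_zero_iff _).mpr hg1
  have hv0 : V.valuation (g i0) ≠ 0 := by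
    intro h0
    have := hmax i1 hi1
    rw [h0] at this
    exact hv1 (le_antisymm this zero_le)
  have hg0 : g i0 ≠ 0 := (Valuation.ne_zero_iff _).mp hv0
  have hlt : V.valuation (∑ i ∈ s.erase i0, g i) < V.valuation (g i0) := by
    refine Valuation.map_sum_lt _ hv0 fun i hi => ?_
    have hi' := Finset.mem_erase.mp hi
    refine lt_of_le_of_ne (hmax i hi'.2) fun heq => ?_
    have hgi : g i ≠ 0 := (Valuation.ne_zero_iff _).mp (heq ▸ hv0)
    exact hi'.1 (hinj i hi'.2 i0 hi0 hgi hg0 heq)
  intro hsum
  rw [← Finset.add_sum_erase s g hi0] at hsum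
  have := Valuation.map_add_eq_of_lt_left _ hlt
  rw [hsum, map_zero] at this
  exact hv0 this.symm

/-- If `F` is finite over the subfield `K0`, then for `x ≠ 0` some power `x ^ e`, `1 ≤ e ≤ [F : K0]`,
has the same valuation as a nonzero element of `K0`. -/
theorem s18_val_pow_mem (K0 : IntermediateField k F) [FiniteDimensional K0 F]
    (V : ValuationSubring F) (x : F) (hx : x ≠ 0) :
    ∃ e : ℕ, 0 < e ∧ e ≤ Module.finrank K0 F ∧ ∃ a : K0, a ≠ 0 ∧
      V.valuation x ^ e = V.valuation (a : F) := by
  classical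
  have hint : IsIntegral K0 x := IsIntegral.of_finite K0 x
  set p := minpoly K0 x with hp
  have hmonic : p.Monic := minpoly.monic hint
  have hdeg : p.natDegree ≤ Module.finrank K0 F := minpoly.natDegree_le x
  have hsum : ∑ i ∈ Finset.range (p.natDegree + 1), ((p.coeff i : K0) : F) * x ^ i = 0 := by
    have h0 : aeval x p = 0 := minpoly.aeval K0 x
    rw [aeval_eq_sum_range] at h0
    rw [← h0]
    refine Finset.sum_congr rfl fun i _ => ?_
    rw [Algebra.smul_def]
    rfl
  have key : ∀ i j : ℕ, i < j → j ≤ p.natDegree → p.coeff i ≠ 0 → p.coeff j ≠ 0 →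
      V.valuation (((p.coeff i : K0) : F) * x ^ i) = V.valuation (((p.coeff j : K0) : F) * x ^ j) →
      ∃ e : ℕ, 0 < e ∧ e ≤ Module.finrank K0 F ∧ ∃ a : K0, a ≠ 0 ∧
        V.valuation x ^ e = V.valuation (a : F) := by
    intro i j hij hj hci hcj hv
    refine ⟨j - i, Nat.sub_pos_of_lt hij, le_trans (Nat.sub_le j i) (le_trans hj hdeg),
      p.coeff i / p.coeff j, div_ne_zero hci hcj, ?_⟩
    have hcjF : ((p.coeff j : K0) : F) ≠ 0 := by
      simpa using hcj
    have hvx : V.valuation x ≠ 0 := (Valuation.ne_zero_iff _).mpr hx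
    have hvcj : V.valuation ((p.coeff j : K0) : F) ≠ 0 := (Valuation.ne_zero_iff _).mpr hcjF
    rw [map_mul, map_mul, map_pow, map_pow] at hv
    have hpow : V.valuation x ^ j = V.valuation x ^ (j - i) * V.valuation x ^ i := by
      rw [← pow_add]
      congr 1
      omega
    rw [hpow, ← mul_assoc] at hv
    have hxi : V.valuation x ^ i ≠ 0 := pow_ne_zero _ hvx
    have h2 : V.valuation ((p.coeff i : K0) : F) =
        V.valuation ((p.coeff j : K0) : F) * V.valuation x ^ (j - i) :=
      mul_right_cancel₀ hxi hv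
    have h3 : (((p.coeff i / p.coeff j : K0) : K0) : F) =
        ((p.coeff i : K0) : F) / ((p.coeff j : K0) : F) := by
      push_cast
      rfl
    rw [h3, map_div₀, h2]
    field_simp
  by_contra hcon
  apply s18_sum_ne_zero_of_val_inj V (Finset.range (p.natDegree + 1))
    (fun i => ((p.coeff i : K0) : F) * x ^ i) ?_ ?_ hsum
  · refine ⟨p.natDegree, Finset.self_mem_range_succ _, ?_⟩
    have : p.coeff p.natDegree = 1 := hmonic
    rw [this]
    simpa using pow_ne_zero _ hx
  · intro i hi j hj hgi hgj hv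
    have hci : p.coeff i ≠ 0 := by
      rintro h
      apply hgi
      rw [h]
      simp
    have hcj : p.coeff j ≠ 0 := by
      rintro h
      apply hgj
      rw [h]
      simp
    have hi' : i ≤ p.natDegree := Nat.lt_succ_iff.mp (Finset.mem_range.mp hi)
    have hj' : j ≤ p.natDegree := Nat.lt_succ_iff.mp (Finset.mem_range.mp hj)
    by_contra hne
    rcases Nat.lt_or_gt_of_ne hne with h | h
    · exact hcon (key i j h hj' hci hcj hv)
    · exact hcon (key j i h hi' hcj hci hv.symm)

/-- A valuation subring of `F` whose values on the subfield `K0` (with `F` finite over `K0`) are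
integral powers of the value of a single nonunit `ϖ` is a principal ideal ring. -/
theorem s18_isPrincipalIdealRing_of_discrete_on (K0 : IntermediateField k F) [FiniteDimensional K0 F]
    (V : ValuationSubring F) (ϖ : F) (hϖ0 : ϖ ≠ 0) (hϖ : ϖ ∈ V.nonunits)
    (H : ∀ a : K0, a ≠ 0 → ∃ m : ℤ, V.valuation (a : F) = V.valuation ϖ ^ m) :
    IsPrincipalIdealRing V := by
  classical
  set n := Module.finrank K0 F with hn
  have hvϖ0 : V.valuation ϖ ≠ 0 := (Valuation.ne_zero_iff _).mpr hϖ0
  have hvϖ1 : V.valuation ϖ < 1 := hϖ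
  -- every nonzero element has `v x ^ n! ∈ v ϖ ^ ℤ`
  have hZ : ∀ x : F, x ≠ 0 → ∃ m : ℤ, V.valuation x ^ n.factorial = V.valuation ϖ ^ m := by
    intro x hx
    obtain ⟨e, he0, hen, a, ha, hva⟩ := s18_val_pow_mem K0 V x hx
    obtain ⟨m, hm⟩ := H a ha
    obtain ⟨t, ht⟩ := Nat.dvd_factorial he0 hen
    refine ⟨m * t, ?_⟩
    rw [ht, pow_mul, hva, hm, zpow_mul, zpow_natCast]
  -- for elements of `V` the exponent is a natural number
  have hN : ∀ x : F, x ≠ 0 → x ∈ V → ∃ t : ℕ, V.valuation x ^ n.factorial = V.valuation ϖ ^ t := by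
    intro x hx hxV
    obtain ⟨m, hm⟩ := hZ x hx
    have hle : V.valuation x ^ n.factorial ≤ 1 :=
      pow_le_one₀ zero_le ((V.valuation_le_one_iff x).mpr hxV)
    rcases lt_or_ge m 0 with hneg | hpos
    · exfalso
      rw [hm] at hle
      have : 1 < V.valuation ϖ ^ m := by
        have h1 : 1 < (V.valuation ϖ)⁻¹ := (one_lt_inv₀ (zero_lt_iff.mpr hvϖ0)).mpr hvϖ1
        have h2 : V.valuation ϖ ^ m = (V.valuation ϖ)⁻¹ ^ (-m).toNat := by
          rw [inv_pow, ← zpow_natCast, Int.toNat_of_nonneg (by omega), ← zpow_neg, neg_neg]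
        rw [h2]
        exact one_lt_pow₀ h1 (by omega)
      exact absurd hle (not_le.mpr this)
    · refine ⟨m.toNat, ?_⟩
      rw [hm, ← zpow_natCast, Int.toNat_of_nonneg hpos]
  refine ⟨fun I => ?_⟩
  by_cases hI : I = ⊥
  · exact ⟨⟨0, by rw [hI]; simp⟩⟩
  have hex : ∃ t : ℕ, ∃ x : V, x ∈ I ∧ x ≠ 0 ∧
      V.valuation (x : F) ^ n.factorial = V.valuation ϖ ^ t := by
    obtain ⟨x, hxI, hx0⟩ := Submodule.exists_mem_ne_zero_of_ne_bot hI
    have hxF : (x : F) ≠ 0 := by simpa using hx0
    obtain ⟨t, ht⟩ := hN x hxF x.2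
    exact ⟨t, x, hxI, hx0, ht⟩
  obtain ⟨x0, hx0I, hx00, hx0t⟩ := Nat.find_spec hex
  have hmin := fun t (h : t < Nat.find hex) => Nat.find_min hex h
  refine ⟨⟨x0, le_antisymm (fun y hyI => ?_) ?_⟩⟩
  · by_cases hy0 : y = 0
    · rw [hy0]; exact Submodule.zero_mem _
    have hyF : (y : F) ≠ 0 := by simpa using hy0
    have hx0F : (x0 : F) ≠ 0 := by simpa using hx00
    obtain ⟨t, ht⟩ := hN y hyF y.2
    have hge : Nat.find hex ≤ t := Nat.find_min' hex ⟨y, hyI, hy0, ht⟩
    have hpowle : V.valuation (y : F) ^ n.factorial ≤ V.valuation (x0 : F) ^ n.factorial := by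
      rw [ht, hx0t]
      exact pow_le_pow_of_le_one zero_le hvϖ1.le hge
    have hle : V.valuation (y : F) ≤ V.valuation (x0 : F) := by
      by_contra hlt
      rw [not_le] at hlt
      exact absurd hpowle (not_le.mpr (pow_lt_pow_left₀ hlt zero_le (Nat.factorial_ne_zero n)))
    have hdiv : (y : F) / (x0 : F) ∈ V := by
      rw [← V.valuation_le_one_iff, map_div₀]
      exact div_le_one_of_le₀ hle zero_le
    rw [Submodule.mem_span_singleton]
    refine ⟨⟨(y : F) / (x0 : F), hdiv⟩, ?_⟩
    apply Subtype.ext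
    show (y : F) / (x0 : F) * (x0 : F) = (y : F)
    field_simp
  · rw [Submodule.span_le, Set.singleton_subset_iff]
    exact hx0I

/-- Polynomials in an element of `V` with coefficients in `k ⊆ V` lie in `V`. -/
theorem s18_aeval_mem (V : ValuationSubring F) (hk : ∀ a : k, algebraMap k F a ∈ V) {ϖ : F}
    (hϖV : ϖ ∈ V) (R : k[X]) : aeval ϖ R ∈ V := by
  rw [aeval_eq_sum_range]
  refine sum_mem fun i _ => ?_
  rw [Algebra.smul_def]
  exact mul_mem (hk _) (pow_mem hϖV i)

/-- Nonzero constants have valuation one. -/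
theorem s18_val_const (V : ValuationSubring F) (hk : ∀ a : k, algebraMap k F a ∈ V) (c : k)
    (hc : c ≠ 0) : V.valuation (algebraMap k F c) = 1 := by
  have h1 : V.valuation (algebraMap k F c) ≤ 1 := (V.valuation_le_one_iff _).mpr (hk c)
  have h2 : V.valuation (algebraMap k F c⁻¹) ≤ 1 := (V.valuation_le_one_iff _).mpr (hk c⁻¹)
  have h3 : V.valuation (algebraMap k F c) * V.valuation (algebraMap k F c⁻¹) = 1 := by
    rw [← map_mul, ← map_mul, mul_inv_cancel₀ hc, map_one, map_one]
  refine le_antisymm h1 ?_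
  by_contra hlt
  rw [not_le] at hlt
  have : V.valuation (algebraMap k F c) * V.valuation (algebraMap k F c⁻¹) < 1 := by
    calc V.valuation (algebraMap k F c) * V.valuation (algebraMap k F c⁻¹)
        ≤ V.valuation (algebraMap k F c) * 1 := mul_le_mul_right h2 _
      _ = V.valuation (algebraMap k F c) := mul_one _
      _ < 1 := hlt
  exact absurd h3 (ne_of_lt this)

/-- The value of a polynomial in a nonunit `ϖ` is a power of the value of `ϖ`. -/
theorem s18_val_aeval_nonunit (V : ValuationSubring F) (hk : ∀ a : k, algebraMap k F a ∈ V) {ϖ : F}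
    (hϖ : ϖ ∈ V.nonunits) (P : k[X]) (hP : aeval ϖ P ≠ 0) :
    ∃ m : ℕ, V.valuation (aeval ϖ P) = V.valuation ϖ ^ m := by
  have hP0 : P ≠ 0 := fun h => hP (by rw [h, map_zero])
  have hϖ1 : V.valuation ϖ < 1 := hϖ
  have hϖV : ϖ ∈ V := (V.valuation_le_one_iff ϖ).mp hϖ1.le
  obtain ⟨q, hq, hndvd⟩ := exists_eq_pow_rootMultiplicity_mul_and_not_dvd P hP0 0
  refine ⟨P.rootMultiplicity 0, ?_⟩
  have hc : q.coeff 0 ≠ 0 := by
    rw [map_zero, sub_zero] at hndvd
    exact fun h => hndvd (X_dvd_iff.mpr h)
  have hqe : aeval ϖ q = aeval ϖ (divX q) * ϖ + algebraMap k F (q.coeff 0) := by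
    conv_lhs => rw [← divX_mul_X_add q]
    simp
  have hlt : V.valuation (aeval ϖ (divX q) * ϖ) < V.valuation (algebraMap k F (q.coeff 0)) := by
    rw [s18_val_const V hk _ hc, map_mul]
    calc V.valuation (aeval ϖ (divX q)) * V.valuation ϖ ≤ 1 * V.valuation ϖ :=
          mul_le_mul_left ((V.valuation_le_one_iff _).mpr (s18_aeval_mem V hk hϖV _)) _
      _ = V.valuation ϖ := one_mul _
      _ < 1 := hϖ1
  have hvq : V.valuation (aeval ϖ q) = 1 := by
    rw [hqe, Valuation.map_add_eq_of_lt_right _ hlt, s18_val_const V hk _ hc]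
  have hPe : aeval ϖ P = ϖ ^ P.rootMultiplicity 0 * aeval ϖ q := by
    conv_lhs => rw [hq]
    simp
  rw [hPe, map_mul, map_pow, hvq, mul_one]

/-- The value of a polynomial in an element `j ∉ V`. -/
theorem s18_val_aeval_of_not_mem (V : ValuationSubring F) (hk : ∀ a : k, algebraMap k F a ∈ V)
    {j : F} (hj : j ∉ V) (P : k[X]) (hP : P ≠ 0) :
    V.valuation (aeval j P) = V.valuation j ^ P.natDegree := by
  have hj1 : 1 < V.valuation j := by
    rw [← not_le, V.valuation_le_one_iff]
    exact hj
  have hlead : P.leadingCoeff ≠ 0 := leadingCoeff_ne_zero.mpr hP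
  rw [aeval_eq_sum_range, Finset.sum_range_succ]
  have htop : V.valuation (P.coeff P.natDegree • j ^ P.natDegree) = V.valuation j ^ P.natDegree := by
    rw [Algebra.smul_def, map_mul, map_pow]
    have : P.coeff P.natDegree = P.leadingCoeff := rfl
    rw [this, s18_val_const V hk _ hlead, one_mul]
  have hpos : V.valuation j ^ P.natDegree ≠ 0 :=
    pow_ne_zero _ (ne_of_gt (lt_trans zero_lt_one hj1))
  have hlt : V.valuation (∑ i ∈ Finset.range P.natDegree, P.coeff i • j ^ i) <
      V.valuation (P.coeff P.natDegree • j ^ P.natDegree) := by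
    rw [htop]
    refine Valuation.map_sum_lt _ hpos fun i hi => ?_
    rw [Algebra.smul_def, map_mul, map_pow]
    calc V.valuation (algebraMap k F (P.coeff i)) * V.valuation j ^ i
        ≤ 1 * V.valuation j ^ i :=
          mul_le_mul_left ((V.valuation_le_one_iff _).mpr (hk _)) _
      _ = V.valuation j ^ i := one_mul _
      _ < V.valuation j ^ P.natDegree := pow_lt_pow_right₀ hj1 (Finset.mem_range.mp hi)
  rw [Valuation.map_add_eq_of_lt_right _ hlt, htop]

/-- From polynomials in `j` to the field `k(j)`. -/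
theorem s18_val_adjoin_of_poly (V : ValuationSubring F) (j ϖ : F) (hϖ0 : ϖ ≠ 0)
    (hpoly : ∀ P : k[X], aeval j P ≠ 0 → ∃ m : ℤ, V.valuation (aeval j P) = V.valuation ϖ ^ m)
    (a : k⟮j⟯) (ha : a ≠ 0) : ∃ m : ℤ, V.valuation (a : F) = V.valuation ϖ ^ m := by
  have hvϖ0 : V.valuation ϖ ≠ 0 := (Valuation.ne_zero_iff _).mpr hϖ0
  obtain ⟨r, s, hrs⟩ := (mem_adjoin_simple_iff k (a : F)).mp a.2
  have haF : (a : F) ≠ 0 := by simpa using ha
  have hr : aeval j r ≠ 0 := by
    intro h
    rw [h, zero_div] at hrs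
    exact haF hrs
  have hs : aeval j s ≠ 0 := by
    intro h
    rw [h, div_zero] at hrs
    exact haF hrs
  obtain ⟨m1, h1⟩ := hpoly r hr
  obtain ⟨m2, h2⟩ := hpoly s hs
  refine ⟨m1 - m2, ?_⟩
  rw [hrs, map_div₀, h1, h2, zpow_sub₀ hvϖ0]

/-- If the valuation is trivial on a subfield `K0` over which `F` is finite, it is trivial. -/
theorem s18_eq_top_of_trivial_on (K0 : IntermediateField k F) [FiniteDimensional K0 F]
    (V : ValuationSubring F) (H : ∀ a : K0, a ≠ 0 → V.valuation (a : F) = 1) : V = ⊤ := by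
  refine eq_top_iff.mpr fun x _ => ?_
  by_cases hx : x = 0
  · rw [hx]; exact zero_mem _
  obtain ⟨e, he0, -, a, ha, hva⟩ := s18_val_pow_mem K0 V x hx
  rw [H a ha] at hva
  rw [← V.valuation_le_one_iff]
  by_contra hlt
  rw [not_le] at hlt
  exact absurd hva (ne_of_gt (one_lt_pow₀ hlt (Nat.pos_iff_ne_zero.mp he0)))

/-- `k` algebraically closed, `F` finite over `k(j)`: every nontrivial valuation subring of `F`
containing `k` is discrete, i.e. is the valuation ring of a `Place k F`. -/
theorem s18_isPrincipalIdealRing_of_valuationSubring [IsAlgClosed k] (j : F)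
    [FiniteDimensional k⟮j⟯ F] (V : ValuationSubring F) (hk : ∀ a : k, algebraMap k F a ∈ V)
    (hV : V ≠ ⊤) : IsPrincipalIdealRing V := by
  by_cases hj : j ∈ V
  · by_cases hc : ∃ c : k, j - algebraMap k F c ∈ V.nonunits ∧ j - algebraMap k F c ≠ 0
    · obtain ⟨c, hcn, hc0⟩ := hc
      refine s18_isPrincipalIdealRing_of_discrete_on k⟮j⟯ V (j - algebraMap k F c) hc0 hcn ?_
      refine s18_val_adjoin_of_poly V j _ hc0 fun P hP => ?_
      have hcomp : aeval (j - algebraMap k F c) (P.comp (X + C c)) = aeval j P := by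
        rw [aeval_comp]
        simp
      rw [← hcomp] at hP ⊢
      obtain ⟨m, hm⟩ := s18_val_aeval_nonunit V hk hcn _ hP
      exact ⟨m, by rw [hm, zpow_natCast]⟩
    · exfalso
      apply hV
      refine s18_eq_top_of_trivial_on k⟮j⟯ V fun a ha => ?_
      have hpoly : ∀ P : k[X], aeval j P ≠ 0 →
          ∃ m : ℤ, V.valuation (aeval j P) = V.valuation (1 : F) ^ m := by
        intro P hP
        refine ⟨0, ?_⟩
        rw [zpow_zero]
        have hP0 : P ≠ 0 := fun h => hP (by rw [h, map_zero])
        have hsplit := IsAlgClosed.splits P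
        have hprod := hsplit.eq_prod_roots
        have hval : ∀ s : Multiset k, (∀ c ∈ s, j - algebraMap k F c ≠ 0) →
            V.valuation ((s.map fun c => j - algebraMap k F c).prod) = 1 := by
          intro s
          induction s using Multiset.induction_on with
          | empty => intro _; simp
          | cons c s ih =>
            intro hs
            rw [Multiset.map_cons, Multiset.prod_cons, map_mul,
              ih fun d hd => hs d (Multiset.mem_cons_of_mem hd), mul_one]
            have h0 := hs c (Multiset.mem_cons_self c s)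
            have hle : V.valuation (j - algebraMap k F c) ≤ 1 :=
              (V.valuation_le_one_iff _).mpr (sub_mem hj (hk c))
            refine le_antisymm hle ?_
            by_contra hlt
            rw [not_le] at hlt
            exact hc ⟨c, hlt, h0⟩
        have hev : aeval j P = algebraMap k F P.leadingCoeff *
            (P.roots.map fun c => j - algebraMap k F c).prod := by
          conv_lhs => rw [hprod]
          rw [map_mul, aeval_C, map_multiset_prod, Multiset.map_map]
          congr 2
          refine Multiset.map_congr rfl fun c _ => ?_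
          simp
        rw [hev] at hP ⊢
        rw [map_mul, s18_val_const V hk _ (leadingCoeff_ne_zero.mpr hP0), one_mul]
        refine hval _ fun c hcmem h0 => hP ?_
        rw [Multiset.prod_eq_zero (Multiset.mem_map.mpr ⟨c, hcmem, h0⟩), mul_zero]
      obtain ⟨m, hm⟩ := s18_val_adjoin_of_poly V j 1 one_ne_zero hpoly a ha
      rw [hm, map_one, one_zpow]
  · have hj0 : j ≠ 0 := fun h => hj (h ▸ zero_mem _)
    have hj1 : 1 < V.valuation j := by
      rw [← not_le, V.valuation_le_one_iff]
      exact hj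
    have hinv : j⁻¹ ∈ V.nonunits := by
      show V.valuation j⁻¹ < 1
      rw [map_inv₀]
      exact inv_lt_one_of_one_lt₀ hj1
    refine s18_isPrincipalIdealRing_of_discrete_on k⟮j⟯ V j⁻¹ (inv_ne_zero hj0) hinv ?_
    refine s18_val_adjoin_of_poly V j _ (inv_ne_zero hj0) fun P hP => ?_
    have hP0 : P ≠ 0 := fun h => hP (by rw [h, map_zero])
    refine ⟨-(P.natDegree : ℤ), ?_⟩
    rw [s18_val_aeval_of_not_mem V hk hj P hP0, map_inv₀, zpow_neg, zpow_natCast, inv_pow, inv_inv]

/-- `k` algebraically closed, `F` finite over `k(j)`: every valuation subring `V ≠ ⊤` of `F`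
containing `k` is the valuation ring of a `Place k F`. -/
theorem s18_exists_place_of_valuationSubring [IsAlgClosed k] (j : F)
    [FiniteDimensional k⟮j⟯ F] (V : ValuationSubring F) (hk : ∀ a : k, algebraMap k F a ∈ V)
    (hV : V ≠ ⊤) : ∃ Q : Place k F, Q.toValuationSubring = V :=
  ⟨⟨V, hk, hV, s18_isPrincipalIdealRing_of_valuationSubring j V hk hV⟩, rfl⟩

/-- For a place `Q`, a nonunit of the valuation ring has nonzero order. -/
theorem s18_ord_ne_zero_of_mem_nonunits (Q : Place k F) {f : F} (hf0 : f ≠ 0)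
    (hf : f ∈ Q.toValuationSubring.nonunits) : Q.ord f ≠ 0 := by
  have hf1 : Q.toValuationSubring.valuation f < 1 := hf
  have hfV : f ∈ Q.toValuationSubring := (Q.toValuationSubring.valuation_le_one_iff f).mp hf1.le
  intro h0
  have hlog : WithZero.log (Q.adicValuation f) = 0 := by
    have : Q.ord f = -(WithZero.log (Q.adicValuation f)) := rfl
    rw [this, neg_eq_zero] at h0
    exact h0
  have hne : Q.adicValuation f ≠ 0 := Q.adicValuation_ne_zero hf0
  have h1 : Q.adicValuation f = 1 := by
    have := WithZero.exp_log hne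
    rw [hlog] at this
    rw [← this]
    rfl
  have hunit : IsUnit (⟨f, hfV⟩ : Q.toValuationSubring) :=
    (Q.adicValuation_coe_eq_one_iff ⟨f, hfV⟩).mp h1
  have := (Q.toValuationSubring.valuation_eq_one_iff ⟨f, hfV⟩).mp hunit
  exact absurd this (ne_of_lt hf1)

/-- An element of `F` not in `k` (algebraically closed) is transcendental over `k`. -/
theorem s18_transcendental_of_not_mem_range [IsAlgClosed k] (f : F)
    (hf : ¬ ∃ c : k, f = algebraMap k F c) : Transcendental k f := by
  intro halg
  have hint : IsIntegral k f := halg.isIntegral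
  have hmem := minpoly.mem_range_of_degree_eq_one k f
    (IsAlgClosed.degree_eq_one_of_irreducible k (minpoly.irreducible hint))
  obtain ⟨c, hc⟩ := hmem
  exact hf ⟨c, hc.symm⟩

/-- Chevalley: for `f` transcendental over `k` there is a valuation subring of `F` containing `k`
in which `f` is a nonunit. -/
theorem s18_exists_valuationSubring_nonunit (f : F) (hf : Transcendental k f) :
    ∃ V : ValuationSubring F, (∀ a : k, algebraMap k F a ∈ V) ∧ f ∈ V.nonunits := by
  set A : Subring F := (Algebra.adjoin k {f}).toSubring with hA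
  have hfA : f ∈ A := Algebra.subset_adjoin (Set.mem_singleton f)
  have hI : Ideal.span {(⟨f, hfA⟩ : A)} ≠ ⊤ := by
    intro htop
    have h1 : (1 : A) ∈ Ideal.span {(⟨f, hfA⟩ : A)} := by rw [htop]; trivial
    obtain ⟨g, hg⟩ := Ideal.mem_span_singleton'.mp h1
    have hgmem : (g : F) ∈ Algebra.adjoin k {f} := g.2
    rw [Algebra.adjoin_singleton_eq_range_aeval] at hgmem
    obtain ⟨P, hP⟩ := hgmem
    have hgf : (g : F) * f = 1 := congrArg Subtype.val hg
    apply hf
    refine ⟨P * X - 1, ?_, ?_⟩
    · intro h0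
      have := congrArg (fun R : k[X] => R.coeff 0) h0
      simp at this
    · have hP' : aeval f P = (g : F) := hP
      rw [map_sub, map_mul, aeval_X, map_one, hP', hgf, sub_self]
  obtain ⟨V, hAV, hsub⟩ := Ideal.image_subset_nonunits_valuationSubring _ hI
  refine ⟨V, fun a => hAV ?_, hsub ⟨⟨f, hfA⟩, Ideal.subset_span rfl, rfl⟩⟩
  exact (Algebra.adjoin k {f}).algebraMap_mem a

/-- **D4, generic form.** `k` algebraically closed, `F` finite over `k(j)`.  A function whose
order vanishes at every place is a constant. -/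
theorem s18_const_of_ord_eq_zero_of_finite [IsAlgClosed k] (j : F) [FiniteDimensional k⟮j⟯ F]
    (f : F) (h : ∀ Q : Place k F, Q.ord f = 0) : ∃ c : k, f = algebraMap k F c := by
  by_contra hc
  have htr := s18_transcendental_of_not_mem_range f hc
  have hf0 : f ≠ 0 := fun h0 => hc ⟨0, by rw [h0, map_zero]⟩
  obtain ⟨V, hk, hfV⟩ := s18_exists_valuationSubring_nonunit f htr
  have hV : V ≠ ⊤ := by
    intro htop
    have hf1 : V.valuation f < 1 := hfV
    have hinv : f⁻¹ ∈ V := by rw [htop]; trivial
    have h2 : V.valuation f⁻¹ ≤ 1 := (V.valuation_le_one_iff _).mpr hinv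
    have h3 : V.valuation f * V.valuation f⁻¹ = 1 := by
      rw [← map_mul, mul_inv_cancel₀ hf0, map_one]
    have : V.valuation f * V.valuation f⁻¹ < 1 := by
      calc V.valuation f * V.valuation f⁻¹ ≤ V.valuation f * 1 := mul_le_mul_right h2 _
        _ = V.valuation f := mul_one _
        _ < 1 := hf1
    exact absurd h3 (ne_of_lt this)
  obtain ⟨Q, hQ⟩ := s18_exists_place_of_valuationSubring j V hk hV
  exact s18_ord_ne_zero_of_mem_nonunits Q hf0 (by rw [hQ]; exact hfV) (h Q)

/-- Existence of a place at which a nonconstant function has a zero. -/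
theorem s18_exists_place_nonunit [IsAlgClosed k] (j : F) [FiniteDimensional k⟮j⟯ F]
    (f : F) (hf : ¬ ∃ c : k, f = algebraMap k F c) :
    ∃ Q : Place k F, f ∈ Q.toValuationSubring.nonunits := by
  have htr := s18_transcendental_of_not_mem_range f hf
  have hf0 : f ≠ 0 := fun h0 => hf ⟨0, by rw [h0, map_zero]⟩
  obtain ⟨V, hk, hfV⟩ := s18_exists_valuationSubring_nonunit f htr
  have hV : V ≠ ⊤ := by
    intro htop
    have hf1 : V.valuation f < 1 := hfV
    have hinv : f⁻¹ ∈ V := by rw [htop]; trivial
    have h2 : V.valuation f⁻¹ ≤ 1 := (V.valuation_le_one_iff _).mpr hinv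
    have h3 : V.valuation f * V.valuation f⁻¹ = 1 := by
      rw [← map_mul, mul_inv_cancel₀ hf0, map_one]
    have : V.valuation f * V.valuation f⁻¹ < 1 := by
      calc V.valuation f * V.valuation f⁻¹ ≤ V.valuation f * 1 := mul_le_mul_right h2 _
        _ = V.valuation f := mul_one _
        _ < 1 := hf1
    exact absurd h3 (ne_of_lt this)
  obtain ⟨Q, hQ⟩ := s18_exists_place_of_valuationSubring j V hk hV
  exact ⟨Q, by rw [hQ]; exact hfV⟩

end Generic

end Fermat.Agent.S18
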