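import Fermat.Agent.S18.PlaceMk
import Fermat.Agent.S24.PlaceBasic

/-!
# S18, block D (D7): restriction of places along an extension of function fields

`k` algebraically closed, `φ : F →ₐ[k] F'` an embedding of function fields of one variable
(`F` finite over `k(j)`, `F'` finite over `k(φ j)`).  Every place `P'` of `F'` restricts to a place
`P` of `F`, with a ramification index `e > 0`: `P'.ord (φ x) = e * P.ord x` for all `x : F`.
Consequently divisibility of all orders by `m` passes from `F` to `F'`.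
-/

set_option autoImplicit false

namespace Fermat.Agent.S18

open IntermediateField AlgebraicCurve

/-- Restriction of a place along `φ : F →ₐ[k] F'`, with its ramification index. -/
theorem s18_place_restrict {k F F' : Type*} [Field k] [IsAlgClosed k] [Field F] [Field F']
    [Algebra k F] [Algebra k F'] (φ : F →ₐ[k] F') (j : F) [FiniteDimensional k⟮j⟯ F]
    [FiniteDimensional k⟮φ j⟯ F'] (P' : Place k F') :
    ∃ (P : Place k F) (e : ℕ), 0 < e ∧ ∀ x : F, P'.ord (φ x) = e * P.ord x := by
  classical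
  set W' := P'.toValuationSubring with hW'
  let W : ValuationSubring F := W'.comap (φ : F →+* F')
  have hmemW : ∀ x : F, x ∈ W ↔ φ x ∈ W' := fun x => Iff.rfl
  have hk : ∀ a : k, algebraMap k F a ∈ W := by
    intro a
    rw [hmemW, φ.commutes]
    exact P'.algebraMap_mem' a
  -- `W ≠ ⊤`
  have hV : W ≠ ⊤ := by
    intro htop
    apply P'.ne_top'
    refine s18_eq_top_of_trivial_on k⟮φ j⟯ W' fun a ha => ?_
    -- `a ∈ k(φ j)` is the image of an element of `k(j) ⊆ F`
    have hamem : (a : F') ∈ (k⟮j⟯).map φ := by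
      rw [IntermediateField.adjoin_map, Set.image_singleton]
      exact a.2
    obtain ⟨b, -, hb⟩ := hamem
    have hb0 : b ≠ 0 := by
      rintro rfl
      apply ha
      apply Subtype.ext
      rw [← hb]; simp
    have h1 : φ b ∈ W' := (hmemW b).mp (by rw [htop]; trivial)
    have h2 : φ b⁻¹ ∈ W' := (hmemW b⁻¹).mp (by rw [htop]; trivial)
    have hb' : (φ : F →+* F') b = (a : F') := hb
    have e1 : W'.valuation (a : F') ≤ 1 := by
      rw [W'.valuation_le_one_iff, ← hb']; exact h1
    have e2 : W'.valuation ((a : F')⁻¹) ≤ 1 := by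
      rw [W'.valuation_le_one_iff, ← hb', ← map_inv₀]; exact h2
    rw [map_inv₀] at e2
    have ha0 : W'.valuation (a : F') ≠ 0 := by
      rw [Valuation.ne_zero_iff, ← hb']
      exact (map_ne_zero (φ : F →+* F')).mpr hb0
    have e3 : 1 ≤ W'.valuation (a : F') := by
      have := (inv_le_one₀ (zero_lt_iff.mpr ha0)).mp e2
      exact this
    exact le_antisymm e1 e3
  obtain ⟨P, hP⟩ := s18_exists_place_of_valuationSubring j W hk hV
  obtain ⟨ϖ, hϖ⟩ := IsDiscreteValuationRing.exists_irreducible P.toValuationSubring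
  have hϖ0 : (ϖ : F) ≠ 0 := by
    intro h0
    exact hϖ.ne_zero (Subtype.ext h0)
  have hφϖ0 : φ (ϖ : F) ≠ 0 := (map_ne_zero φ).mpr hϖ0
  -- `φ ϖ` is a nonunit of `W'`
  have hϖnu : φ (ϖ : F) ∈ W'.nonunits := by
    have h0 : (ϖ : F) ∈ P.toValuationSubring.nonunits :=
      (Fermat.Agent.S24.mem_nonunits_iff_ord_pos P hϖ0).mpr (by
        rw [P.ord_coe_irreducible hϖ]; exact one_pos)
    have htr : ∀ y : F, y ∈ P.toValuationSubring.nonunits → y ∈ W.nonunits := by
      rw [hP]; exact fun y hy => hy
    have h1 := htr _ h0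
    rw [ValuationSubring.mem_nonunits_iff_or] at h1 ⊢
    rcases h1 with h1 | h1
    · exact absurd h1 hϖ0
    · right
      intro h2
      apply h1
      rw [hmemW, map_inv₀]
      exact h2
  have hpos : 0 < P'.ord (φ (ϖ : F)) :=
    (Fermat.Agent.S24.mem_nonunits_iff_ord_pos P' hφϖ0).mp hϖnu
  refine ⟨P, (P'.ord (φ (ϖ : F))).toNat, by omega, fun x => ?_⟩
  rcases eq_or_ne x 0 with rfl | hx
  · simp
  obtain ⟨u, hu⟩ := P.exists_unit_mul_zpow hx hϖ
  -- `φ u` is a unit of `W'`
  have hu1 : φ ((u : P.toValuationSubring) : F) ∈ W' := by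
    have : ((u : P.toValuationSubring) : F) ∈ W := by rw [← hP]; exact (u : P.toValuationSubring).2
    exact (hmemW _).mp this
  have hu2 : (φ ((u : P.toValuationSubring) : F))⁻¹ ∈ W' := by
    have : (((u⁻¹ : P.toValuationSubringˣ) : P.toValuationSubring) : F) ∈ W := by
      rw [← hP]; exact ((u⁻¹ : P.toValuationSubringˣ) : P.toValuationSubring).2
    have h3 := (hmemW _).mp this
    have h4 : (((u⁻¹ : P.toValuationSubringˣ) : P.toValuationSubring) : F) =
        (((u : P.toValuationSubring) : F))⁻¹ := by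
      have h5 : ((u : P.toValuationSubring) : F) *
          (((u⁻¹ : P.toValuationSubringˣ) : P.toValuationSubring) : F) = 1 := by
        have := congrArg (Subtype.val : P.toValuationSubring → F) (Units.mul_inv u)
        exact this
      exact eq_inv_of_mul_eq_one_right h5
    rw [h4, map_inv₀] at h3
    exact h3
  have hu0 : φ ((u : P.toValuationSubring) : F) ≠ 0 := by
    apply (map_ne_zero φ).mpr
    intro h0
    exact u.ne_zero (Subtype.ext h0)
  have hordu : P'.ord (φ ((u : P.toValuationSubring) : F)) = 0 := by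
    have h6 := (Fermat.Agent.S24.mem_iff_ord_nonneg P' _).mp hu1
    have h7 := (Fermat.Agent.S24.mem_iff_ord_nonneg P' _).mp hu2
    rw [P'.ord_inv] at h7
    omega
  have hxφ : φ x = φ ((u : P.toValuationSubring) : F) * φ (ϖ : F) ^ (P.ord x) := by
    conv_lhs => rw [hu]
    rw [map_mul, map_zpow₀]
  rw [hxφ, P'.ord_mul hu0 (zpow_ne_zero _ hφϖ0), hordu, zero_add, P'.ord_zpow, Int.toNat_of_nonneg hpos.le]
  ring

/-- Divisibility of all orders passes to an extension of function fields. -/
theorem s18_dvd_ord_of_restrict {k F F' : Type*} [Field k] [IsAlgClosed k] [Field F] [Field F']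
    [Algebra k F] [Algebra k F'] (φ : F →ₐ[k] F') (j : F) [FiniteDimensional k⟮j⟯ F]
    [FiniteDimensional k⟮φ j⟯ F'] (m : ℤ) (h : F) (hdiv : ∀ P : Place k F, m ∣ P.ord h)
    (P' : Place k F') : m ∣ P'.ord (φ h) := by
  obtain ⟨P, e, -, he⟩ := s18_place_restrict φ j P'
  rw [he h]
  exact Dvd.dvd.mul_left (hdiv P) _

end Fermat.Agent.S18
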