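import Mathlib
import Fermat.Agent.S18.SmOrder

/-!
# S18, block SM, piece T3: the tame bound for the discriminant in residue characteristic zero

`sm_tame`: let `O` be a DVR with uniformizer `τ` whose residue field has characteristic zero, and
`T` an integrally closed domain which is a free `O`-module of rank `n`.  If `ρ` elements of `T` are
linearly independent modulo `rad(τ T)`, then the discriminant of `T` divides `τ ^ (n - ρ)`.
-/

set_option autoImplicit false
set_option linter.unusedSectionVars false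

namespace Fermat.Agent.S18

open Matrix IsLocalRing Polynomial

attribute [local instance] Ideal.Quotient.field

/-- A square matrix over a field of characteristic zero all of whose positive powers have trace
zero is nilpotent. -/
theorem sm_isNilpotent_of_trace_pow {κ : Type*} [Field κ] [CharZero κ] {ι : Type*} [Fintype ι]
    [DecidableEq ι] (M : Matrix ι ι κ) (h : ∀ k : ℕ, 1 ≤ k → (M ^ k).trace = 0) :
    IsNilpotent M := by
  classical
  set p := M.charpoly with hp
  have hp0 : p ≠ 0 := (Matrix.charpoly_monic M).ne_zero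
  have hpM : aeval M p = 0 := Matrix.aeval_self_charpoly M
  obtain ⟨q, hq, hXq⟩ := Polynomial.exists_eq_pow_rootMultiplicity_mul_and_not_dvd p hp0 (0 : κ)
  rw [C_0, sub_zero] at hq hXq
  set a := p.rootMultiplicity 0 with ha
  have hcop : IsCoprime (X ^ (a + 1) : κ[X]) q :=
    ((Polynomial.irreducible_X (R := κ)).coprime_iff_not_dvd.mpr hXq).pow_left
  obtain ⟨u, v, huv⟩ := hcop
  -- the polynomial `X^(a+1) q` kills `M`
  have hp' : aeval M (X ^ (a + 1) * q) = 0 := by
    have : (X ^ (a + 1) * q : κ[X]) = X * p := by rw [hq]; ring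
    rw [this, map_mul, hpM, mul_zero]
  set E := aeval M (u * X ^ (a + 1)) with hE
  have hEE : E * E = E := by
    have h1 : (u * X ^ (a + 1)) * (u * X ^ (a + 1)) - u * X ^ (a + 1)
        = -(u * v) * (X ^ (a + 1) * q) := by
      linear_combination (u * X ^ (a + 1)) * huv
    have h2 := congrArg (aeval M) h1
    rw [map_sub, map_mul, map_mul (aeval M) (-(u * v)), hp', mul_zero, sub_eq_zero] at h2
    exact h2
  -- the trace of `E` vanishes
  have htr : E.trace = 0 := by
    rw [hE, Polynomial.aeval_eq_sum_range, Matrix.trace_sum]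
    refine Finset.sum_eq_zero (fun i _ => ?_)
    rw [Matrix.trace_smul]
    rcases Nat.eq_zero_or_pos i with hi | hi
    · rw [hi, Polynomial.coeff_mul_X_pow', if_neg (by omega), zero_smul]
    · rw [h i hi, smul_zero]
  -- hence `E = 0`
  have hE0 : E = 0 := by
    have hidem : IsIdempotentElem (Matrix.toLin' E) := by
      show Matrix.toLin' E * Matrix.toLin' E = Matrix.toLin' E
      rw [Module.End.mul_eq_comp, ← Matrix.toLin'_mul, hEE]
    have h3 : LinearMap.trace κ (ι → κ) (Matrix.toLin' E) = 0 := by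
      rw [Matrix.trace_toLin'_eq, htr]
    have h4 := (LinearMap.IsIdempotentElem.trace_eq_zero_iff hidem).mp h3
    have h5 : Matrix.toLin' E = Matrix.toLin' (0 : Matrix ι ι κ) := by rw [h4, map_zero]
    exact Matrix.toLin'.injective h5
  refine ⟨a + 1, ?_⟩
  have h6 : (X ^ (a + 1) : κ[X]) = X ^ (a + 1) * (u * X ^ (a + 1)) + v * (X ^ (a + 1) * q) := by
    linear_combination (-(X ^ (a + 1) : κ[X])) * huv
  have h7 := congrArg (aeval M) h6
  rw [map_add, map_mul, map_mul (aeval M) v, hp', mul_zero, add_zero, ← hE, hE0, mul_zero,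
    map_pow, aeval_X] at h7
  exact h7

section Tame

variable {O : Type*} [CommRing O] [IsDomain O] [IsDiscreteValuationRing O]
  [CharZero (O ⧸ maximalIdeal O)]
  {T : Type*} [CommRing T] [Algebra O T]
  {ι : Type*} [Fintype ι] [DecidableEq ι]

/-- An element all of whose positive powers have trace divisible by `τ` is nilpotent modulo
`τ` (residue characteristic zero). -/
theorem sm_nil_of_trace {τ : O} (hτ : maximalIdeal O = Ideal.span {τ}) (b : Module.Basis ι O T)
    (x : T) (hx : ∀ k : ℕ, 1 ≤ k → τ ∣ Algebra.trace O T (x ^ k)) :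
    ∃ (m : ℕ) (z : T), x ^ m = τ • z := by
  set mk := Ideal.Quotient.mk (maximalIdeal O) with hmk
  set M := Algebra.leftMulMatrix b x with hM
  have hmap : ∀ k : ℕ, (M.map mk) ^ k = (M ^ k).map mk := by
    intro k
    have := map_pow (RingHom.mapMatrix mk (m := ι)) M k
    simpa [RingHom.mapMatrix_apply] using this.symm
  have htr : ∀ k : ℕ, 1 ≤ k → ((M.map mk) ^ k).trace = 0 := by
    intro k hk
    rw [hmap k, hM, ← map_pow]
    have h1 : ((Algebra.leftMulMatrix b (x ^ k)).map mk).trace
        = mk (Algebra.leftMulMatrix b (x ^ k)).trace := by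
      simp [Matrix.trace]
    rw [h1, ← Algebra.trace_eq_matrix_trace b, Ideal.Quotient.eq_zero_iff_mem, hτ]
    exact Ideal.mem_span_singleton.mpr (hx k hk)
  obtain ⟨m, hm⟩ := sm_isNilpotent_of_trace_pow (M.map mk) htr
  refine ⟨m, ?_⟩
  apply sm_red_eq_zero τ b hτ (x ^ m)
  rw [hmap m, hM, ← map_pow] at hm
  ext i
  have h2 : b.repr (x ^ m) i = (Algebra.leftMulMatrix b (x ^ m) *ᵥ (b.repr 1)) i := by
    rw [Algebra.leftMulMatrix_mulVec_repr, mul_one]
  rw [sm_red, h2, Pi.zero_apply]
  simp only [Matrix.mulVec, dotProduct, map_sum, map_mul]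
  refine Finset.sum_eq_zero (fun j _ => ?_)
  have h3 := congrFun (congrFun hm i) j
  rw [Matrix.map_apply, Matrix.zero_apply] at h3
  rw [h3, zero_mul]

variable [IsDomain T] [IsIntegrallyClosed T]

/-- If all traces `Tr(s t)` are divisible by `τ²`, then `s` is divisible by `τ`. -/
theorem sm_mem_of_trace_sq {τ : O} (hτ : Irreducible τ) (b : Module.Basis ι O T)
    (s : T) (hs : ∀ t : T, τ ^ 2 ∣ Algebra.trace O T (s * t)) : ∃ z : T, s = τ • z := by
  classical
  have hτmax : maximalIdeal O = Ideal.span {τ} :=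
    (IsDiscreteValuationRing.irreducible_iff_uniformizer τ).mp hτ
  have hτ0 : τ ≠ 0 := hτ.ne_zero
  have hfin : Module.Finite O T := Module.Finite.of_basis b
  have hnoeth : IsNoetherianRing T := IsNoetherianRing.of_finite O T
  have hinj : Function.Injective (algebraMap O T) := b.algebraMap_injective
  set ϖ := algebraMap O T τ with hϖ
  have hϖ0 : ϖ ≠ 0 := by
    rw [hϖ, Ne, map_eq_zero_iff _ hinj]
    exact hτ0
  by_contra hcon
  push Not at hcon
  let I : Ideal T := Ideal.span {ϖ}
  have hI : ∀ x : T, x ∈ I ↔ ∃ z, x = ϖ * z := fun x => Ideal.mem_span_singleton'.trans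
    ⟨fun ⟨z, hz⟩ => ⟨z, by rw [← hz, mul_comm]⟩, fun ⟨z, hz⟩ => ⟨z, by rw [hz, mul_comm]⟩⟩
  have hsI : s ∉ I := by
    intro h
    obtain ⟨z, hz⟩ := (hI s).mp h
    exact hcon z (by rw [hz, Algebra.smul_def])
  -- a maximal colon ideal
  let 𝒮 : Set (Ideal T) := {J | ∃ w : T, w * s ∉ I ∧ J = Submodule.colon I {w * s}}
  have h𝒮 : 𝒮.Nonempty := ⟨_, 1, by rwa [one_mul], rfl⟩
  obtain ⟨P, ⟨w, hw, rfl⟩, hPmax⟩ := set_has_maximal_iff_noetherian.mpr hnoeth 𝒮 h𝒮
  set s' := w * s with hs'
  have hmemP : ∀ u : T, u ∈ Submodule.colon I {s'} ↔ u * s' ∈ I := fun u => by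
    rw [Submodule.mem_colon_singleton, smul_eq_mul]
  -- `P` is prime
  have hprime : ∀ a c : T, a * c ∈ Submodule.colon I {s'} → a ∉ Submodule.colon I {s'} →
      c ∈ Submodule.colon I {s'} := by
    intro a c hac ha
    have ha' : (a * w) * s ∉ I := by
      rw [mul_assoc]
      exact fun h => ha ((hmemP a).mpr h)
    have hmem : Submodule.colon I {(a * w) * s} ∈ 𝒮 := ⟨a * w, ha', rfl⟩
    have hle : Submodule.colon I {s'} ≤ Submodule.colon I {(a * w) * s} := by
      intro u hu
      rw [Submodule.mem_colon_singleton, smul_eq_mul]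
      have := I.mul_mem_left a ((hmemP u).mp hu)
      rw [hs'] at this
      convert this using 1
      ring
    have hnlt := hPmax _ hmem
    have heq : Submodule.colon I {s'} = Submodule.colon I {(a * w) * s} :=
      le_antisymm hle (by
        by_contra hnle
        exact hnlt (lt_of_le_not_ge hle hnle))
    rw [heq, Submodule.mem_colon_singleton, smul_eq_mul]
    have := (hmemP (a * c)).mp hac
    rw [hs'] at this
    convert this using 1
    ring
  have hpow : ∀ (m : ℕ) (v : T), v ^ m ∈ Submodule.colon I {s'} → v ∈ Submodule.colon I {s'} := by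
    intro m v
    induction m with
    | zero =>
      intro h
      exfalso
      rw [pow_zero, hmemP, one_mul] at h
      exact hw h
    | succ m ih =>
      intro h
      by_contra hv
      rw [pow_succ'] at h
      exact hv (ih (hprime v (v ^ m) h hv))
  have hϖP : ϖ ∈ Submodule.colon I {s'} := (hmemP ϖ).mpr ((hI _).mpr ⟨s', rfl⟩)
  by_cases hstab : ∀ u ∈ Submodule.colon I {s'}, ∀ v : T, u * s' = ϖ * v →
      v ∈ Submodule.colon I {s'}
  · -- then `s' / ϖ` is integral, hence in `T`
    apply hw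
    set E := FractionRing T
    set yy : E := algebraMap T E s' / algebraMap T E ϖ with hyy
    have hϖE : algebraMap T E ϖ ≠ 0 := by
      rw [Ne, map_eq_zero_iff _ (IsFractionRing.injective T E)]
      exact hϖ0
    let N : Submodule T E := Submodule.map (Algebra.linearMap T E) (Submodule.colon I {s'})
    have hN0 : N ≠ ⊥ := by
      intro h0
      have : algebraMap T E ϖ ∈ N := ⟨ϖ, hϖP, rfl⟩
      rw [h0, Submodule.mem_bot] at this
      exact hϖE this
    have hNfg : N.FG := (IsNoetherian.noetherian (Submodule.colon I {s'})).map _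
    have hint : IsIntegral T yy := by
      refine isIntegral_of_smul_mem_submodule N hN0 hNfg yy ?_
      rintro _ ⟨u, hu, rfl⟩
      obtain ⟨v, hv⟩ := (hI _).mp ((hmemP u).mp hu)
      refine ⟨v, hstab u hu v hv, ?_⟩
      rw [Algebra.linearMap_apply, Algebra.linearMap_apply, smul_eq_mul, hyy,
        div_mul_eq_mul_div, eq_div_iff hϖE, ← map_mul, ← map_mul, mul_comm s' u, hv, mul_comm]
    obtain ⟨t, ht⟩ := IsIntegrallyClosed.isIntegral_iff.mp hint
    rw [hI]
    refine ⟨t, ?_⟩
    have h9 : algebraMap T E s' = algebraMap T E (ϖ * t) := by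
      rw [map_mul (algebraMap T E) ϖ t, ht, hyy, mul_div_cancel₀ _ hϖE]
    exact IsFractionRing.injective T E h9
  · push Not at hstab
    obtain ⟨u, hu, v, huv, hv⟩ := hstab
    apply hv
    -- `v` is nilpotent modulo `τ`
    have htrv : ∀ t : T, τ ∣ Algebra.trace O T (v * t) := by
      intro t
      have h1 : τ * Algebra.trace O T (v * t) = Algebra.trace O T (s * (w * u * t)) := by
        rw [← smul_eq_mul, ← map_smul, Algebra.smul_def]
        congr 1
        rw [← mul_assoc, ← hϖ, ← huv, hs']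
        ring
      obtain ⟨q, hq⟩ := hs (w * u * t)
      rw [hq, pow_two, mul_assoc] at h1
      exact ⟨q, mul_left_cancel₀ hτ0 h1⟩
    obtain ⟨m, z, hmz⟩ := sm_nil_of_trace hτmax b v (fun k hk => by
      have := htrv (v ^ (k - 1))
      rwa [← pow_succ', Nat.sub_add_cancel hk] at this)
    apply hpow m
    rw [hmemP, hmz, hI]
    exact ⟨z * s', by rw [Algebra.smul_def]; ring⟩

/-- If all traces `Tr(t t')` are divisible by `τ^(k+1)`, then `t = τ^k s` with `s` nilpotent
modulo `τ`. -/
theorem sm_dual_step {τ : O} (hτ : Irreducible τ) (b : Module.Basis ι O T) (k : ℕ) (t : T)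
    (ht : ∀ t' : T, τ ^ (k + 1) ∣ Algebra.trace O T (t * t')) :
    ∃ s : T, t = τ ^ k • s ∧ ∃ (m : ℕ) (z : T), s ^ m = τ • z := by
  have hτmax : maximalIdeal O = Ideal.span {τ} :=
    (IsDiscreteValuationRing.irreducible_iff_uniformizer τ).mp hτ
  have hτ0 : τ ≠ 0 := hτ.ne_zero
  have key : ∀ (k : ℕ) (t : T), (∀ t' : T, τ ^ (k + 1) ∣ Algebra.trace O T (t * t')) →
      ∃ s : T, t = τ ^ k • s := by
    intro k
    induction k with
    | zero => intro t _; exact ⟨t, by rw [pow_zero, one_smul]⟩
    | succ k ih =>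
      intro t ht
      obtain ⟨s, hs⟩ := ih t (fun t' => (pow_dvd_pow τ (Nat.le_succ _)).trans (ht t'))
      have h2 : ∀ t' : T, τ ^ 2 ∣ Algebra.trace O T (s * t') := by
        intro t'
        obtain ⟨q, hq⟩ := ht t'
        rw [hs, smul_mul_assoc, map_smul, smul_eq_mul] at hq
        refine ⟨q, mul_left_cancel₀ (pow_ne_zero k hτ0) ?_⟩
        rw [hq]
        ring
      obtain ⟨z, hz⟩ := sm_mem_of_trace_sq hτ b s h2
      exact ⟨z, by rw [hs, hz, smul_smul, ← pow_succ]⟩
  obtain ⟨s, hs⟩ := key k t ht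
  refine ⟨s, hs, ?_⟩
  have h1 : ∀ t' : T, τ ∣ Algebra.trace O T (s * t') := by
    intro t'
    obtain ⟨q, hq⟩ := ht t'
    rw [hs, smul_mul_assoc, map_smul, smul_eq_mul] at hq
    refine ⟨q, mul_left_cancel₀ (pow_ne_zero k hτ0) ?_⟩
    rw [hq]
    ring
  exact sm_nil_of_trace hτmax b s (fun j hj => by
    have := h1 (s ^ (j - 1))
    rwa [← pow_succ', Nat.sub_add_cancel hj] at this)

end Tame

section Nil

variable {O : Type*} [CommRing O] [IsLocalRing O] {T : Type*} [CommRing T] [Algebra O T]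

/-- `x` is nilpotent modulo `τ`. -/
def SmNil (τ : O) (x : T) : Prop := ∃ (m : ℕ) (z : T), x ^ m = τ • z

theorem smNil_iff (τ : O) (x : T) :
    SmNil τ x ↔ IsNilpotent (Ideal.Quotient.mk (Ideal.span {algebraMap O T τ}) x) := by
  constructor
  · rintro ⟨m, z, h⟩
    refine ⟨m, ?_⟩
    rw [← map_pow, h, Ideal.Quotient.eq_zero_iff_mem, Algebra.smul_def]
    exact Ideal.mul_mem_right _ _ (Ideal.mem_span_singleton_self _)
  · rintro ⟨m, h⟩
    rw [← map_pow, Ideal.Quotient.eq_zero_iff_mem, Ideal.mem_span_singleton] at h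
    obtain ⟨z, hz⟩ := h
    exact ⟨m, z, by rw [hz, Algebra.smul_def]⟩

theorem SmNil.add {τ : O} {x y : T} (hx : SmNil τ x) (hy : SmNil τ y) : SmNil τ (x + y) := by
  rw [smNil_iff] at hx hy ⊢
  rw [map_add]
  exact (nilradical _).add_mem (mem_nilradical.mpr hx) (mem_nilradical.mpr hy)

theorem SmNil.mul_left {τ : O} {x : T} (hx : SmNil τ x) (a : T) : SmNil τ (a * x) := by
  rw [smNil_iff] at hx ⊢
  rw [map_mul]
  exact (nilradical _).mul_mem_left _ (mem_nilradical.mpr hx)

theorem SmNil.smul {τ : O} {x : T} (hx : SmNil τ x) (a : O) : SmNil τ (a • x) := by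
  rw [Algebra.smul_def]
  exact hx.mul_left _

theorem smNil_zero (τ : O) : SmNil τ (0 : T) := ⟨1, 0, by simp⟩

theorem smNil_smul_self (τ : O) (z : T) : SmNil τ (τ • z) := ⟨1, z, by rw [pow_one]⟩

variable {ι : Type*} [Fintype ι] [DecidableEq ι]

/-- Every element of `sm_nilSpan` is the reduction of an element which is nilpotent mod `τ`. -/
theorem sm_nilSpan_exists (τ : O) (b : Module.Basis ι O T) (v : ι → O ⧸ maximalIdeal O)
    (hv : v ∈ sm_nilSpan τ b) : ∃ z : T, SmNil τ z ∧ v = sm_red b z := by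
  induction hv using Submodule.span_induction with
  | mem v hv =>
    obtain ⟨z, m, z₁, hz, rfl⟩ := hv
    exact ⟨z, ⟨m, z₁, hz⟩, rfl⟩
  | zero =>
    refine ⟨0, smNil_zero τ, ?_⟩
    ext i
    simp [sm_red]
  | add v w _ _ hv hw =>
    obtain ⟨z, hz, rfl⟩ := hv
    obtain ⟨z', hz', rfl⟩ := hw
    exact ⟨z + z', hz.add hz', (sm_red_add b z z').symm⟩
  | smul a v _ hv =>
    obtain ⟨z, hz, rfl⟩ := hv
    obtain ⟨a₀, rfl⟩ := Ideal.Quotient.mk_surjective a
    exact ⟨a₀ • z, hz.smul a₀, (sm_red_smul b a₀ z).symm⟩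

end Nil

/-- **Tame bound for the discriminant.**  Let `O` be a DVR with uniformizer `τ` in which every
non-zero natural number is a unit, and `T` an integrally closed domain which is free of rank `n`
over `O`.  If `y₁,…,y_ρ ∈ T` are linearly independent modulo `rad(τ T)`, then the discriminant of
`T` divides `τ ^ (n - ρ)`. -/
theorem sm_tame {O : Type*} [CommRing O] [IsDomain O] [IsDiscreteValuationRing O]
    (hchar : ∀ m : ℕ, m ≠ 0 → IsUnit (m : O)) {τ : O} (hτ : Irreducible τ)
    {T : Type*} [CommRing T] [IsDomain T] [IsIntegrallyClosed T] [Algebra O T]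
    {n ρ : ℕ} (β : Module.Basis (Fin n) O T) (y : Fin ρ → T)
    (hy : ∀ cf : Fin ρ → O, (∃ N : ℕ, algebraMap O T τ ∣ (∑ j, cf j • y j) ^ N) → ∀ j, τ ∣ cf j) :
    Algebra.discr O β ∣ τ ^ (n - ρ) := by
  classical
  have hτmax : maximalIdeal O = Ideal.span {τ} :=
    (IsDiscreteValuationRing.irreducible_iff_uniformizer τ).mp hτ
  have hτ0 : τ ≠ 0 := hτ.ne_zero
  have : CharZero (O ⧸ maximalIdeal O) := by
    apply charZero_of_inj_zero
    intro m hm
    by_contra hm0
    have hu := hchar m hm0
    have h1 : ((m : ℕ) : O) ∈ maximalIdeal O := by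
      rw [← Ideal.Quotient.eq_zero_iff_mem]
      simpa using hm
    exact (mem_maximalIdeal _).mp h1 hu
  set mk := Ideal.Quotient.mk (maximalIdeal O) with hmk
  set G := Algebra.traceMatrix O β with hG
  -- traces in coordinates
  have htrace : ∀ (v : Fin n → O) (k : Fin n),
      Algebra.trace O T ((∑ i, v i • β i) * β k) = (G *ᵥ v) k := by
    intro v k
    rw [Finset.sum_mul, map_sum]
    simp only [Matrix.mulVec, dotProduct, hG, Algebra.traceMatrix_apply, Algebra.traceForm_apply]
    refine Finset.sum_congr rfl (fun i _ => ?_)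
    rw [smul_mul_assoc, map_smul, smul_eq_mul, mul_comm (β i) (β k), mul_comm]
  have hdvd_of : ∀ (v : Fin n → O) (N : ℕ), (∀ k, τ ^ N ∣ (G *ᵥ v) k) →
      ∀ t' : T, τ ^ N ∣ Algebra.trace O T ((∑ i, v i • β i) * t') := by
    intro v N hv t'
    conv_rhs => rw [← β.sum_repr t', Finset.mul_sum, map_sum]
    refine Finset.dvd_sum (fun k _ => ?_)
    rw [mul_smul_comm, map_smul, smul_eq_mul, htrace]
    exact Dvd.dvd.mul_left (hv k) _
  have hrepr : ∀ (v : Fin n → O) (i : Fin n), β.repr (∑ j, v j • β j) i = v i := by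
    intro v i
    have := β.repr_sum_self v
    rw [this]
  -- the discriminant is non-zero
  have hd0 : G.det ≠ 0 := by
    intro h0
    obtain ⟨v, hv, hv0⟩ := Matrix.exists_mulVec_eq_zero_iff.mpr h0
    apply hv
    funext i
    by_contra hvi
    have hfin : FiniteMultiplicity τ (v i) := FiniteMultiplicity.of_not_isUnit hτ.not_isUnit hvi
    obtain ⟨k, hk⟩ := hfin
    apply hk
    obtain ⟨s, hs, -⟩ := sm_dual_step hτ β (k + 1) (∑ i, v i • β i)
      (hdvd_of v _ (fun j => by rw [hv0]; exact dvd_zero _))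
    have h1 := congrArg (fun t => β.repr t i) hs
    simp only [hrepr, map_smul, Finsupp.smul_apply, smul_eq_mul] at h1
    exact ⟨_, h1⟩
  obtain ⟨a, u, hau⟩ := IsDiscreteValuationRing.eq_unit_mul_pow_irreducible hd0 hτ
  rw [Algebra.discr_def, ← hG]
  rcases Nat.eq_zero_or_pos a with ha | ha
  · rw [ha, pow_zero, mul_one] at hau
    rw [hau]
    exact u.isUnit.dvd
  obtain ⟨a', rfl⟩ : ∃ a', a = a' + 1 := ⟨a - 1, by omega⟩
  set A := G.adjugate with hA
  -- the columns of the adjugate
  have hGA : ∀ k j, (G *ᵥ (fun i => A i j)) k = if k = j then G.det else 0 := by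
    intro k j
    have h1 : (G *ᵥ (fun i => A i j)) k = (G * A) k j := by
      simp [Matrix.mulVec, dotProduct, Matrix.mul_apply]
    rw [h1, hA, Matrix.mul_adjugate, Matrix.smul_apply, Matrix.one_apply, smul_eq_mul]
    split_ifs <;> simp
  have hcol : ∀ j, ∃ s : T, (∑ i, A i j • β i) = τ ^ a' • s ∧ SmNil τ s := by
    intro j
    refine sm_dual_step hτ β a' (∑ i, A i j • β i) (hdvd_of _ _ (fun k => ?_))
    rw [hGA]
    split_ifs
    · rw [hau]
      exact Dvd.intro_left _ rfl
    · exact dvd_zero _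
  choose sfun hs1 hs2 using hcol
  set S : Matrix (Fin n) (Fin n) O := fun i j => β.repr (sfun j) i with hS
  have hAS : ∀ i j, A i j = τ ^ a' * S i j := by
    intro i j
    have h1 := congrArg (fun t => β.repr t i) (hs1 j)
    simp only [hrepr, map_smul, Finsupp.smul_apply, smul_eq_mul] at h1
    exact h1
  have hGS : G * S = (↑u * τ) • (1 : Matrix (Fin n) (Fin n) O) := by
    ext k j
    apply mul_left_cancel₀ (pow_ne_zero a' hτ0)
    have h1 : τ ^ a' * (G * S) k j = (G * A) k j := by
      rw [Matrix.mul_apply, Matrix.mul_apply, Finset.mul_sum]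
      refine Finset.sum_congr rfl (fun i _ => ?_)
      rw [hAS]
      ring
    rw [h1, hA, Matrix.mul_adjugate, hau, Matrix.smul_apply, Matrix.smul_apply, smul_eq_mul,
      smul_eq_mul]
    ring
  have hdet : G.det * S.det = (↑u * τ) ^ n := by
    rw [← Matrix.det_mul, hGS, Matrix.det_smul, Matrix.det_one, mul_one, Fintype.card_fin]
  -- the dimension count
  set φ : (Fin n → (O ⧸ maximalIdeal O)) →ₗ[(O ⧸ maximalIdeal O)] (Fin n → (O ⧸ maximalIdeal O)) := Matrix.mulVecLin (S.map mk) with hφ
  have hrange : LinearMap.range φ ≤ sm_nilSpan τ β := by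
    rintro _ ⟨w, rfl⟩
    have h1 : φ w = ∑ j, w j • sm_red β (sfun j) := by
      ext i
      simp only [hφ, Matrix.mulVecLin_apply, Matrix.mulVec, dotProduct,
        Finset.sum_apply, Pi.smul_apply, smul_eq_mul, sm_red, hS]
      refine Finset.sum_congr rfl (fun j _ => ?_)
      rw [mul_comm]
      rfl
    rw [h1]
    refine Submodule.sum_mem _ (fun j _ => Submodule.smul_mem _ _ ?_)
    obtain ⟨m, z, hz⟩ := hs2 j
    exact Submodule.subset_span ⟨sfun j, m, z, hz, rfl⟩
  have hli : LinearIndependent (O ⧸ maximalIdeal O)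
      (fun j : Fin ρ => (sm_nilSpan τ β).mkQ (sm_red β (y j))) := by
    rw [Fintype.linearIndependent_iff]
    intro g hg j
    choose c hc using fun j => Ideal.Quotient.mk_surjective (g j)
    have h1 : ∑ j, g j • (sm_nilSpan τ β).mkQ (sm_red β (y j))
        = (sm_nilSpan τ β).mkQ (sm_red β (∑ j, c j • y j)) := by
      rw [sm_red_sum, map_sum]
      refine Finset.sum_congr rfl (fun j _ => ?_)
      rw [sm_red_smul, map_smul, hc]
    rw [h1, Submodule.mkQ_apply, Submodule.Quotient.mk_eq_zero] at hg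
    obtain ⟨z, hz, hzred⟩ := sm_nilSpan_exists τ β _ hg
    have h2 : sm_red β (∑ j, c j • y j - z) = 0 := by
      have : ∑ j, c j • y j = (∑ j, c j • y j - z) + z := by ring
      have h3 := sm_red_add β (∑ j, c j • y j - z) z
      rw [← this, hzred] at h3
      exact add_eq_right.mp h3.symm
    obtain ⟨z', hz'⟩ := sm_red_eq_zero τ β hτmax _ h2
    have h4 : SmNil τ (∑ j, c j • y j) := by
      have : ∑ j, c j • y j = τ • z' + z := by rw [← hz']; ring
      rw [this]
      exact (smNil_smul_self τ z').add hz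
    obtain ⟨N, z'', hN⟩ := h4
    have h5 := hy c ⟨N, z'', by rw [hN, Algebra.smul_def]⟩ j
    rw [← hc j]
    rw [Ideal.Quotient.eq_zero_iff_mem, hτmax]
    exact Ideal.mem_span_singleton.mpr h5
  have hρ : ρ + Module.finrank (O ⧸ maximalIdeal O) (sm_nilSpan τ β) ≤ n := by
    have h1 := hli.fintype_card_le_finrank
    have h2 := Submodule.finrank_quotient_add_finrank (sm_nilSpan τ β)
    rw [Module.finrank_fintype_fun_eq_card, Fintype.card_fin] at h2
    rw [Fintype.card_fin] at h1
    omega
  have hker : ρ ≤ Module.finrank (O ⧸ maximalIdeal O) (LinearMap.ker φ) := by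
    have h1 := LinearMap.finrank_range_add_finrank_ker φ
    rw [Module.finrank_fintype_fun_eq_card, Fintype.card_fin] at h1
    have h2 := Submodule.finrank_mono hrange
    omega
  have hSdet : τ ^ ρ ∣ S.det := by
    have h1 := sm_pow_dvd_det τ hτmax S (LinearMap.ker φ) (fun w hw => by
      have := LinearMap.mem_ker.mp hw
      simpa [hφ] using this)
    exact (pow_dvd_pow τ hker).trans h1
  obtain ⟨q, hq⟩ := hSdet
  have hρn : ρ ≤ n := by omega
  have hfinal : G.det * q = (↑u) ^ n * τ ^ (n - ρ) := by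
    apply mul_right_cancel₀ (pow_ne_zero ρ hτ0)
    have : τ ^ n = τ ^ (n - ρ) * τ ^ ρ := by rw [← pow_add, Nat.sub_add_cancel hρn]
    calc G.det * q * τ ^ ρ = G.det * S.det := by rw [hq]; ring
      _ = (↑u * τ) ^ n := hdet
      _ = (↑u) ^ n * τ ^ (n - ρ) * τ ^ ρ := by rw [mul_pow, this]; ring
  have hunit : IsUnit ((↑u : O) ^ n) := (u.isUnit).pow n
  exact (hunit.dvd_mul_left).mp ⟨q, hfinal.symm⟩

end Fermat.Agent.S18
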