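import Mathlib
import Fermat.Agent.S18.PlaceMk
import Fermat.Agent.S24.PlaceBasic

/-!
# S18, block D3 (helper24): constant field extensions are unramified

Abstract setting: fields `K1 ⊆ Ω` (`Ω` algebraic over `K1`, characteristic zero), function fields
`F1 ⊇ K1`, `Fb ⊇ Ω` with a ring embedding `ι : F1 → Fb` compatible with the constants, `Fb`
generated by `Ω` and `ι F1`, and `Fb` finite over `Ω(j)`.

`s18_unram_const_ext` : every discrete valuation subring `W` of `F1` containing `K1` is dominated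
by a place `P` of `Fb / Ω` in which a uniformizer of `W` stays a uniformizer.
-/

set_option autoImplicit false

namespace Fermat.Agent.S18

open Polynomial IntermediateField AlgebraicCurve

section Unram

variable {K1 Ω F1 Fb : Type*} [Field K1] [Field Ω] [Field F1] [Field Fb]
  [Algebra K1 Ω] [Algebra K1 F1] [Algebra Ω Fb]

/-- Chevalley: a valuation subring of `Fb` dominating the image of `W`. -/
theorem s18_exists_dominating (ι : F1 →+* Fb) (W : ValuationSubring F1) :
    ∃ V : ValuationSubring Fb, (∀ x ∈ W, ι x ∈ V) ∧ (∀ x ∈ W.nonunits, ι x ∈ V.nonunits) := by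
  obtain ⟨V, hle, hloc⟩ := (W.toLocalSubring.map ι).exists_le_valuationSubring
  have hmem : ∀ x ∈ W, ι x ∈ V := fun x hx => hle ⟨x, hx, rfl⟩
  refine ⟨V, hmem, fun x hx => ?_⟩
  have hx1 : W.valuation x < 1 := hx
  have hxW : x ∈ W := (W.valuation_le_one_iff x).mp hx1.le
  have hna : ¬ IsUnit (⟨ι x, x, hxW, rfl⟩ : (W.toLocalSubring.map ι).toSubring) := by
    intro hu
    obtain ⟨b, hb⟩ := hu.exists_right_inv
    obtain ⟨y, hyW, hy⟩ := b.2
    have h1 : ι (x * y) = 1 := by
      rw [map_mul, hy]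
      exact congrArg Subtype.val hb
    have h2 : x * y = 1 := ι.injective (by rw [h1, map_one])
    have hunit : IsUnit (⟨x, hxW⟩ : W) :=
      IsUnit.of_mul_eq_one (⟨y, hyW⟩ : W) (Subtype.ext h2)
    have := (W.valuation_eq_one_iff ⟨x, hxW⟩).mp hunit
    exact absurd this (ne_of_lt hx1)
  have hnV : ¬ IsUnit (Subring.inclusion hle ⟨ι x, x, hxW, rfl⟩) :=
    fun hu => hna (hloc.map_nonunit _ hu)
  rw [ValuationSubring.mem_nonunits_iff_exists_mem_maximalIdeal]
  exact ⟨hmem x hxW, hnV⟩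

/-- Constants algebraic over `K1 ⊆ V` lie in `V`. -/
theorem s18_algebraMap_mem_of_isAlgebraic [Algebra.IsAlgebraic K1 Ω] (ι : F1 →+* Fb)
    (hι : ∀ c : K1, ι (algebraMap K1 F1 c) = algebraMap Ω Fb (algebraMap K1 Ω c))
    (V : ValuationSubring Fb) (hV : ∀ c : K1, ι (algebraMap K1 F1 c) ∈ V) (c : Ω) :
    algebraMap Ω Fb c ∈ V := by
  have hint : IsIntegral K1 c := (Algebra.IsAlgebraic.isAlgebraic c).isIntegral
  obtain ⟨p, hp, h0⟩ := hint
  let ψ : K1 →+* V := ((algebraMap Ω Fb).comp (algebraMap K1 Ω)).codRestrict V.toSubring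
    (fun c => by rw [RingHom.comp_apply, ← hι]; exact hV c)
  have hintV : IsIntegral V (algebraMap Ω Fb c) := by
    refine ⟨p.map ψ, hp.map ψ, ?_⟩
    rw [eval₂_map]
    have : (algebraMap V Fb).comp ψ = (algebraMap Ω Fb).comp (algebraMap K1 Ω) := by
      ext; rfl
    rw [this, ← hom_eval₂, h0, map_zero]
  obtain ⟨y, hy⟩ := (IsIntegrallyClosed.isIntegral_iff (R := V) (K := Fb)).mp hintV
  rw [← hy]
  exact y.2

/-- Primitive element: finitely many constants are polynomials in a single one. -/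
theorem s18_exists_primitive [CharZero K1] [Algebra.IsAlgebraic K1 Ω] (s : Finset Ω) :
    ∃ θ : Ω, ∀ c ∈ s, ∃ r : K1[X], aeval θ r = c := by
  classical
  set E : IntermediateField K1 Ω := IntermediateField.adjoin K1 (s : Set Ω) with hE
  have : FiniteDimensional K1 E :=
    IntermediateField.finiteDimensional_adjoin
      (fun x _ => (Algebra.IsAlgebraic.isAlgebraic x).isIntegral)
  obtain ⟨α, hα⟩ := Field.exists_primitive_element K1 E
  refine ⟨(α : Ω), fun c hc => ?_⟩
  have hcE : c ∈ E := IntermediateField.subset_adjoin K1 _ hc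
  have hαint : IsIntegral K1 α := IsIntegral.of_finite K1 α
  have h2 : (⟨c, hcE⟩ : E) ∈ (K1⟮α⟯).toSubalgebra := by
    show (⟨c, hcE⟩ : E) ∈ K1⟮α⟯
    rw [hα]
    trivial
  rw [IntermediateField.adjoin_simple_toSubalgebra_of_isAlgebraic hαint.isAlgebraic,
    Algebra.adjoin_singleton_eq_range_aeval] at h2
  obtain ⟨r, hr⟩ := h2
  refine ⟨r, ?_⟩
  have hr' : aeval α r = (⟨c, hcE⟩ : E) := hr
  have h3 := congrArg (E.val) hr'
  rw [← aeval_algHom_apply] at h3
  exact h3

/-- In a DVR `W ⊆ F1` with uniformizer `w`, some power of `w` moves a given element into `W`. -/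
theorem s18_exists_pow_mul_mem (W : ValuationSubring F1) [IsDiscreteValuationRing W] (w : W)
    (hw : Irreducible w) (x : F1) : ∃ a : ℕ, (w : F1) ^ a * x ∈ W := by
  by_cases hx : x ∈ W
  · exact ⟨0, by simpa using hx⟩
  have hxi : x⁻¹ ∈ W := (W.mem_or_inv_mem x).resolve_left hx
  have hx0 : x ≠ 0 := fun h => hx (h ▸ W.zero_mem)
  have hne : (⟨x⁻¹, hxi⟩ : W) ≠ 0 := by
    intro h
    exact inv_ne_zero hx0 (congrArg Subtype.val h)
  obtain ⟨n, u, hu⟩ := IsDiscreteValuationRing.eq_unit_mul_pow_irreducible hne hw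
  refine ⟨n, ?_⟩
  have h1 : x⁻¹ = ((u : W) : F1) * (w : F1) ^ n := by
    have := congrArg Subtype.val hu
    simpa using this
  have h2 : (w : F1) ^ n * x = ((u⁻¹ : Wˣ) : W) := by
    have hu1 : (((u⁻¹ : Wˣ) : W) : F1) * ((u : W) : F1) = 1 := by
      have h := congrArg Subtype.val (Units.inv_mul u)
      exact h
    have hx1 : x = (((u : W) : F1) * (w : F1) ^ n)⁻¹ := by rw [← h1, inv_inv]
    have hwn : (w : F1) ^ n ≠ 0 := by
      intro h0
      rw [h0, mul_zero] at h1
      exact inv_ne_zero hx0 h1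
    have hu0 : ((u : W) : F1) ≠ 0 := right_ne_zero_of_mul_eq_one hu1
    rw [hx1, mul_inv, mul_comm (((u : W) : F1))⁻¹, ← mul_assoc, mul_inv_cancel₀ hwn, one_mul]
    exact inv_eq_of_mul_eq_one_left hu1
  rw [h2]
  exact (((u⁻¹ : Wˣ) : W)).2

/-- Clearing denominators of a polynomial over `F1` by a power of the uniformizer. -/
theorem s18_exists_pow_mul_lift (W : ValuationSubring F1) [IsDiscreteValuationRing W] (w : W)
    (hw : Irreducible w) (P : F1[X]) :
    ∃ (a : ℕ) (PW : W[X]), PW.map W.subtype = C ((w : F1) ^ a) * P := by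
  induction P using Polynomial.induction_on' with
  | add p q hp hq =>
    obtain ⟨a, PW, hPW⟩ := hp
    obtain ⟨b, QW, hQW⟩ := hq
    refine ⟨a + b, C (w ^ b) * PW + C (w ^ a) * QW, ?_⟩
    rw [Polynomial.map_add, Polynomial.map_mul, Polynomial.map_mul, hPW, hQW, map_C, map_C]
    simp only [map_pow, ValuationSubring.subtype_apply, pow_add, C_mul]
    ring
  | monomial n x =>
    obtain ⟨a, ha⟩ := s18_exists_pow_mul_mem W w hw x
    refine ⟨a, monomial n ⟨(w : F1) ^ a * x, ha⟩, ?_⟩
    rw [map_monomial, C_mul_monomial]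
    rfl

/-- Core of the unramifiedness argument: the order of the image of a uniformizer `w` of `W`
divides the order of every nonzero value `Q(θ)`, `Q ∈ W[X]`, `θ` a constant. -/
theorem s18_unram_core [CharZero K1] [Algebra.IsAlgebraic K1 Ω]
    (ι : F1 →+* Fb) (hι : ∀ c : K1, ι (algebraMap K1 F1 c) = algebraMap Ω Fb (algebraMap K1 Ω c))
    (W : ValuationSubring F1) [IsDiscreteValuationRing W] (hK : ∀ c : K1, algebraMap K1 F1 c ∈ W)
    (P : Place Ω Fb) (hWV : ∀ x ∈ W, ι x ∈ P.toValuationSubring)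
    (hnon : ∀ x ∈ W.nonunits, ι x ∈ P.toValuationSubring.nonunits)
    (w : W) (hw : Irreducible w) (θ : Ω) (Q : W[X])
    (hQ : eval₂ (ι.comp W.subtype) (algebraMap Ω Fb θ) Q ≠ 0) :
    P.ord (ι w) ∣ P.ord (eval₂ (ι.comp W.subtype) (algebraMap Ω Fb θ) Q) := by
  classical
  set V := P.toValuationSubring with hVdef
  -- the local ring hom `W → V`
  let f : W →+* V := (ι.comp W.subtype).codRestrict V.toSubring (fun x => hWV x x.2)
  have hloc : IsLocalHom f := ⟨fun a ha => by
    by_contra hna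
    have h1 : (a : F1) ∈ W.nonunits := by
      rw [ValuationSubring.mem_nonunits_iff_exists_mem_maximalIdeal]
      exact ⟨a.2, hna⟩
    have h2 := hnon _ h1
    rw [ValuationSubring.mem_nonunits_iff_exists_mem_maximalIdeal] at h2
    obtain ⟨hm, hm2⟩ := h2
    exact hm2 ha⟩
  let θV : V := ⟨algebraMap Ω Fb θ, P.algebraMap_mem' θ⟩
  let ev : W[X] →+* V := eval₂RingHom f θV
  have hev : ∀ R : W[X], ((ev R : V) : Fb) =
      eval₂ (ι.comp W.subtype) (algebraMap Ω Fb θ) R := by
    intro R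
    exact hom_eval₂ R f V.subtype θV
  -- residue fields
  let res := IsLocalRing.residue W
  let φ : IsLocalRing.ResidueField W →+* IsLocalRing.ResidueField V :=
    IsLocalRing.ResidueField.map f
  let θr : IsLocalRing.ResidueField V := IsLocalRing.residue V θV
  have hres : ∀ R : W[X], IsLocalRing.residue V (ev R) = eval₂ φ θr (R.map res) := by
    intro R
    rw [eval₂_map]
    have h1 : φ.comp res = (IsLocalRing.residue V).comp f :=
      IsLocalRing.ResidueField.map_comp_residue f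
    rw [h1]
    exact hom_eval₂ R f (IsLocalRing.residue V) θV
  -- the minimal polynomial of `θ` over `K1`, pushed to `W`
  let kW : K1 →+* W := (algebraMap K1 F1).codRestrict W.toSubring hK
  have hθint : IsIntegral K1 θ := (Algebra.IsAlgebraic.isAlgebraic θ).isIntegral
  set g := minpoly K1 θ with hg
  have hgsep : g.Separable := (minpoly.irreducible hθint).separable
  have hgmonic : g.Monic := minpoly.monic hθint
  have hevg : ev (g.map kW) = 0 := by
    apply Subtype.ext
    rw [hev, eval₂_map]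
    have h1 : (ι.comp W.subtype).comp kW = (algebraMap Ω Fb).comp (algebraMap K1 Ω) := by
      ext c
      exact hι c
    rw [h1, ← hom_eval₂]
    have h2 : eval₂ (algebraMap K1 Ω) θ g = 0 := minpoly.aeval K1 θ
    rw [h2, map_zero]
    rfl
  set gbar : (IsLocalRing.ResidueField W)[X] := (g.map kW).map res with hgbar
  have hgbar_sep : gbar.Separable := by
    rw [hgbar, Polynomial.map_map]
    exact hgsep.map
  have hgbar_monic : gbar.Monic := (hgmonic.map kW).map res
  have hgbar_root : eval₂ φ θr gbar = 0 := by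
    rw [hgbar, ← hres, hevg, map_zero]
  let _ : Algebra (IsLocalRing.ResidueField W) (IsLocalRing.ResidueField V) := φ.toAlgebra
  have haeval : ∀ q : (IsLocalRing.ResidueField W)[X], aeval θr q = eval₂ φ θr q := fun q => rfl
  have hθr_int : IsIntegral (IsLocalRing.ResidueField W) θr := ⟨gbar, hgbar_monic, hgbar_root⟩
  set h := minpoly (IsLocalRing.ResidueField W) θr with hh
  obtain ⟨h', hh'⟩ : h ∣ gbar := minpoly.dvd _ _ (by rw [haeval]; exact hgbar_root)
  have hcop : IsCoprime h h' := by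
    rw [hh'] at hgbar_sep
    exact hgbar_sep.isCoprime
  obtain ⟨a, b, hab⟩ := hcop
  have hsurj := Polynomial.map_surjective res IsLocalRing.residue_surjective
  obtain ⟨H, hH⟩ := hsurj h
  obtain ⟨H', hH'⟩ := hsurj h'
  -- division by `w`
  have hdivw : ∀ R : W[X], R.map res = 0 → ∃ D : W[X], R = C w * D := by
    intro R hR
    have hdvd : C w ∣ R := by
      rw [C_dvd_iff_dvd_coeff]
      intro i
      have hc : res (R.coeff i) = 0 := by
        rw [← coeff_map, hR, coeff_zero]
      rw [IsLocalRing.residue_eq_zero_iff, hw.maximalIdeal_eq, Ideal.mem_span_singleton] at hc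
      exact hc
    exact hdvd
  obtain ⟨D, hD⟩ := hdivw (H * H' - g.map kW) (by
    rw [Polynomial.map_sub, Polynomial.map_mul, hH, hH', ← hh', sub_self])
  have hC : ev (C w) = f w := eval₂_C f θV
  have hHH' : ev H * ev H' = f w * ev D := by
    have h1 := congrArg ev hD
    rw [map_sub, map_mul, hevg, sub_zero, map_mul, hC] at h1
    exact h1
  have hunitH' : IsUnit (ev H') := by
    rw [← IsLocalRing.residue_ne_zero_iff_isUnit, hres, hH']
    intro h0
    have h1 := congrArg (eval₂ φ θr) hab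
    rw [eval₂_add, eval₂_mul, eval₂_mul, h0, mul_zero, add_zero, ← haeval h, minpoly.aeval,
      mul_zero, eval₂_one] at h1
    exact zero_ne_one h1
  -- the division step
  have hDIV : ∀ R : W[X], ¬ IsUnit (ev R) → ∃ R2 : W[X], ev R * ev H' = f w * ev R2 := by
    intro R hR
    have h0 : eval₂ φ θr (R.map res) = 0 := by
      rw [← hres]
      by_contra hne
      exact hR ((IsLocalRing.residue_ne_zero_iff_isUnit _).mp hne)
    obtain ⟨qbar, hq⟩ : h ∣ R.map res := minpoly.dvd _ _ (by rw [haeval]; exact h0)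
    obtain ⟨Q1, hQ1⟩ := hsurj qbar
    obtain ⟨P1, hP1⟩ := hdivw (R - H * Q1) (by
      rw [Polynomial.map_sub, Polynomial.map_mul, hH, hQ1, hq, sub_self])
    refine ⟨D * Q1 + P1 * H', ?_⟩
    have hR' : R = H * Q1 + C w * P1 := by rw [← hP1]; ring
    calc ev R * ev H' = (ev H * ev H') * ev Q1 + f w * ev P1 * ev H' := by
          rw [hR', map_add, map_mul, map_mul, hC]; ring
      _ = f w * ev (D * Q1 + P1 * H') := by
          rw [hHH', map_add, map_mul, map_mul]; ring
  -- the order of `w`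
  have hw0 : (w : F1) ≠ 0 := fun h0 => hw.ne_zero (Subtype.ext h0)
  have hιw0 : ι w ≠ 0 := (map_ne_zero ι).mpr hw0
  have he_pos : 0 < P.ord (ι w) := by
    rw [← Fermat.Agent.S24.mem_nonunits_iff_ord_pos P hιw0]
    apply hnon
    rw [ValuationSubring.mem_nonunits_iff_exists_mem_maximalIdeal]
    exact ⟨w.2, hw.not_isUnit⟩
  have hfw : ((f w : V) : Fb) = ι w := rfl
  have key : ∀ n : ℕ, ∀ R : W[X], ev R ≠ 0 → P.ord ((ev R : V) : Fb) = n →
      P.ord (ι w) ∣ (n : ℤ) := by
    intro n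
    induction n using Nat.strong_induction_on with
    | _ n ih =>
      intro R hR0 hn
      by_cases hu : IsUnit (ev R)
      · have h0 : P.ord ((ev R : V) : Fb) = 0 := P.ord_coe_unit hu.unit
        rw [h0] at hn
        rw [← hn]
        exact dvd_zero _
      · obtain ⟨R2, hR2⟩ := hDIV R hu
        have hH'0 : ev H' ≠ 0 := hunitH'.ne_zero
        have hR20 : ev R2 ≠ 0 := by
          intro h0
          rw [h0, mul_zero] at hR2
          exact (mul_ne_zero hR0 hH'0) hR2
        have hcoe : ((ev R : V) : Fb) * ((ev H' : V) : Fb) = ι w * ((ev R2 : V) : Fb) := by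
          have := congrArg (Subtype.val) hR2
          exact this
        have hR0F : ((ev R : V) : Fb) ≠ 0 := fun h0 => hR0 (Subtype.ext h0)
        have hH'0F : ((ev H' : V) : Fb) ≠ 0 := fun h0 => hH'0 (Subtype.ext h0)
        have hR20F : ((ev R2 : V) : Fb) ≠ 0 := fun h0 => hR20 (Subtype.ext h0)
        have hord := congrArg P.ord hcoe
        rw [P.ord_mul hR0F hH'0F, P.ord_mul hιw0 hR20F] at hord
        have hH'ord : P.ord ((ev H' : V) : Fb) = 0 := P.ord_coe_unit hunitH'.unit
        have hnonneg : 0 ≤ P.ord ((ev R2 : V) : Fb) :=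
          (Fermat.Agent.S24.mem_iff_ord_nonneg P _).mp (ev R2).2
        obtain ⟨n2, hn2⟩ := Int.eq_ofNat_of_zero_le hnonneg
        have hlt : n2 < n := by omega
        have hdvd := ih n2 hlt R2 hR20 hn2
        have hnn : (n : ℤ) = n2 + P.ord (ι w) := by omega
        rw [hnn]
        exact dvd_add hdvd dvd_rfl
  have hQ0 : ev Q ≠ 0 := by
    intro h0
    apply hQ
    rw [← hev, h0]
    rfl
  have hnonneg : 0 ≤ P.ord ((ev Q : V) : Fb) :=
    (Fermat.Agent.S24.mem_iff_ord_nonneg P _).mp (ev Q).2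
  obtain ⟨n, hn⟩ := Int.eq_ofNat_of_zero_le hnonneg
  rw [← hev, hn]
  exact key n Q hQ0 hn

/-- The order of the image of a uniformizer divides the order of every nonzero `Ω`-linear
combination of elements of `ι F1`. -/
theorem s18_unram_span [CharZero K1] [Algebra.IsAlgebraic K1 Ω]
    (ι : F1 →+* Fb) (hι : ∀ c : K1, ι (algebraMap K1 F1 c) = algebraMap Ω Fb (algebraMap K1 Ω c))
    (W : ValuationSubring F1) [IsDiscreteValuationRing W] (hK : ∀ c : K1, algebraMap K1 F1 c ∈ W)
    (P : Place Ω Fb) (hWV : ∀ x ∈ W, ι x ∈ P.toValuationSubring)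
    (hnon : ∀ x ∈ W.nonunits, ι x ∈ P.toValuationSubring.nonunits)
    (w : W) (hw : Irreducible w) (y : Fb) (hy : y ∈ Submodule.span Ω (Set.range ι))
    (hy0 : y ≠ 0) : P.ord (ι w) ∣ P.ord y := by
  classical
  obtain ⟨c, hc⟩ := Finsupp.mem_span_range_iff_exists_finsupp.mp hy
  obtain ⟨θ, hθ⟩ := s18_exists_primitive (K1 := K1) (c.support.image c)
  choose! r hr using hθ
  set θ' : Fb := algebraMap Ω Fb θ with hθ'
  set PF : F1[X] := ∑ x ∈ c.support, C x * (r (c x)).map (algebraMap K1 F1) with hPF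
  have hPFev : eval₂ ι θ' PF = y := by
    rw [hPF, eval₂_finsetSum, ← hc, Finsupp.sum]
    refine Finset.sum_congr rfl fun x hx => ?_
    rw [eval₂_mul, eval₂_C, eval₂_map, Algebra.smul_def, mul_comm]
    congr 1
    have h1 : ι.comp (algebraMap K1 F1) = (algebraMap Ω Fb).comp (algebraMap K1 Ω) := by
      ext a
      exact hι a
    rw [h1, ← hom_eval₂]
    have h2 : eval₂ (algebraMap K1 Ω) θ (r (c x)) = c x :=
      hr (c x) (Finset.mem_image_of_mem c hx)
    rw [h2]
  obtain ⟨n, PW, hPW⟩ := s18_exists_pow_mul_lift W w hw PF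
  have hw0 : (w : F1) ≠ 0 := fun h0 => hw.ne_zero (Subtype.ext h0)
  have hιw0 : ι w ≠ 0 := (map_ne_zero ι).mpr hw0
  have hev : eval₂ (ι.comp W.subtype) θ' PW = ι w ^ n * y := by
    rw [← eval₂_map, hPW, eval₂_mul, eval₂_C, hPFev, map_pow]
  have hne : eval₂ (ι.comp W.subtype) θ' PW ≠ 0 := by
    rw [hev]
    exact mul_ne_zero (pow_ne_zero _ hιw0) hy0
  have hdvd := s18_unram_core ι hι W hK P hWV hnon w hw θ PW hne
  rw [hev, P.ord_mul (pow_ne_zero _ hιw0) hy0, Fermat.Agent.S24.ord_pow] at hdvd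
  exact (Int.dvd_add_right (Dvd.intro_left _ rfl)).mp hdvd

/-- **Constant field extensions are unramified.**  `K1 ⊆ Ω` algebraic in characteristic zero, `Ω`
algebraically closed, `Fb` generated by `Ω` and `ι F1` and finite over `Ω(j)`.  Every discrete
valuation subring `W` of `F1` containing `K1` is dominated by a place `P` of `Fb / Ω` such that
uniformizers of `W` are uniformizers at `P`. -/
theorem s18_unram_const_ext [CharZero K1] [Algebra.IsAlgebraic K1 Ω] [IsAlgClosed Ω]
    (ι : F1 →+* Fb) (hι : ∀ c : K1, ι (algebraMap K1 F1 c) = algebraMap Ω Fb (algebraMap K1 Ω c))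
    (hgen : ∀ y : Fb, ∃ a b : Fb, a ∈ Submodule.span Ω (Set.range ι) ∧
      b ∈ Submodule.span Ω (Set.range ι) ∧ b ≠ 0 ∧ y = a / b)
    (j : Fb) [FiniteDimensional Ω⟮j⟯ Fb]
    (W : ValuationSubring F1) [IsDiscreteValuationRing W] (hK : ∀ c : K1, algebraMap K1 F1 c ∈ W) :
    ∃ P : Place Ω Fb, (∀ x ∈ W, ι x ∈ P.toValuationSubring) ∧
      (∀ x ∈ W.nonunits, ι x ∈ P.toValuationSubring.nonunits) ∧
      ∀ w : W, Irreducible w → P.ord (ι w) = 1 := by
  obtain ⟨V, hWV, hnon⟩ := s18_exists_dominating ι W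
  have hΩ : ∀ c : Ω, algebraMap Ω Fb c ∈ V :=
    s18_algebraMap_mem_of_isAlgebraic ι hι V (fun c => hWV _ (hK c))
  obtain ⟨w0, hw0⟩ := IsDiscreteValuationRing.exists_irreducible W
  have hw0F : (w0 : F1) ≠ 0 := fun h0 => hw0.ne_zero (Subtype.ext h0)
  have hw0non : (w0 : F1) ∈ W.nonunits := by
    rw [ValuationSubring.mem_nonunits_iff_exists_mem_maximalIdeal]
    exact ⟨w0.2, hw0.not_isUnit⟩
  have hVtop : V ≠ ⊤ := by
    intro htop
    have h1 : V.valuation (ι w0) < 1 := hnon _ hw0non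
    have hinv : (ι w0)⁻¹ ∈ V := by rw [htop]; trivial
    have h2 : V.valuation (ι w0)⁻¹ ≤ 1 := (V.valuation_le_one_iff _).mpr hinv
    have h3 : V.valuation (ι w0) * V.valuation (ι w0)⁻¹ = 1 := by
      rw [← map_mul, mul_inv_cancel₀ ((map_ne_zero ι).mpr hw0F), map_one]
    have : V.valuation (ι w0) * V.valuation (ι w0)⁻¹ < 1 := by
      calc V.valuation (ι w0) * V.valuation (ι w0)⁻¹ ≤ V.valuation (ι w0) * 1 :=
            mul_le_mul_right h2 _
        _ = V.valuation (ι w0) := mul_one _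
        _ < 1 := h1
    exact absurd h3 (ne_of_lt this)
  obtain ⟨P, hP⟩ := s18_exists_place_of_valuationSubring j V hΩ hVtop
  subst hP
  refine ⟨P, hWV, hnon, fun w hw => ?_⟩
  have hwF : (w : F1) ≠ 0 := fun h0 => hw.ne_zero (Subtype.ext h0)
  have hιw0 : ι w ≠ 0 := (map_ne_zero ι).mpr hwF
  have he_pos : 0 < P.ord (ι w) := by
    rw [← Fermat.Agent.S24.mem_nonunits_iff_ord_pos P hιw0]
    apply hnon
    rw [ValuationSubring.mem_nonunits_iff_exists_mem_maximalIdeal]
    exact ⟨w.2, hw.not_isUnit⟩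
  -- the order of `ι w` divides all orders
  have hall : ∀ y : Fb, y ≠ 0 → P.ord (ι w) ∣ P.ord y := by
    intro y hy0
    obtain ⟨a, b, ha, hb, hb0, hyab⟩ := hgen y
    have ha0 : a ≠ 0 := by
      intro h0
      rw [h0, zero_div] at hyab
      exact hy0 hyab
    have h1 := s18_unram_span ι hι W hK P hWV hnon w hw a ha ha0
    have h2 := s18_unram_span ι hι W hK P hWV hnon w hw b hb hb0
    rw [hyab, div_eq_mul_inv, P.ord_mul ha0 (inv_ne_zero hb0), P.ord_inv]
    exact dvd_add h1 (dvd_neg.mpr h2)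
  obtain ⟨s, hs⟩ := IsDiscreteValuationRing.exists_irreducible P.toValuationSubring
  have hs0 : (s : Fb) ≠ 0 := fun h0 => hs.ne_zero (Subtype.ext h0)
  have h1 := hall (s : Fb) hs0
  rw [P.ord_coe_irreducible hs] at h1
  exact Int.eq_one_of_dvd_one he_pos.le h1

/-- Consequence in the shape needed by the two-chart theorem: a function on `F1` all of whose
orders at the places of `Fb` are divisible by `m` is, at every discrete valuation subring `W` of
`F1` containing the constants, a unit times an `m`-th power. -/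
theorem s18_unram_hdiv [CharZero K1] [Algebra.IsAlgebraic K1 Ω] [IsAlgClosed Ω]
    (ι : F1 →+* Fb) (hι : ∀ c : K1, ι (algebraMap K1 F1 c) = algebraMap Ω Fb (algebraMap K1 Ω c))
    (hgen : ∀ y : Fb, ∃ a b : Fb, a ∈ Submodule.span Ω (Set.range ι) ∧
      b ∈ Submodule.span Ω (Set.range ι) ∧ b ≠ 0 ∧ y = a / b)
    (j : Fb) [FiniteDimensional Ω⟮j⟯ Fb] (m : ℕ) (h : F1) (hh : h ≠ 0)
    (hdvd : ∀ P : Place Ω Fb, (m : ℤ) ∣ P.ord (ι h))
    (W : ValuationSubring F1) (hW : IsDiscreteValuationRing W)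
    (hK : ∀ c : K1, algebraMap K1 F1 c ∈ W) :
    ∃ g u : F1, u ∈ W ∧ u⁻¹ ∈ W ∧ h = u * g ^ m := by
  obtain ⟨P, hWV, hnon, hP⟩ := s18_unram_const_ext ι hι hgen j W hK
  obtain ⟨w, hw⟩ := IsDiscreteValuationRing.exists_irreducible W
  have hwF : (w : F1) ≠ 0 := fun h0 => hw.ne_zero (Subtype.ext h0)
  obtain ⟨n, u, hu⟩ :=
    IsDiscreteValuationRing.exists_units_eq_smul_zpow_of_irreducible (K := F1) hw hh
  rw [Units.smul_def, Algebra.smul_def] at hu
  have hu' : h = ((u : W) : F1) * (w : F1) ^ n := hu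
  have hunit : (((u⁻¹ : Wˣ) : W) : F1) = (((u : W) : F1))⁻¹ := by
    have h1 : (((u⁻¹ : Wˣ) : W) : F1) * ((u : W) : F1) = 1 := congrArg Subtype.val (Units.inv_mul u)
    exact eq_inv_of_mul_eq_one_left h1
  have huF : ((u : W) : F1) ≠ 0 := by
    intro h0
    rw [h0, zero_mul] at hu'
    exact hh hu'
  -- the order at `P`
  have hordu : P.ord (ι ((u : W) : F1)) = 0 := by
    refine Fermat.Agent.S24.ord_unit_eq_zero P (hWV _ (u : W).2) ?_
    rw [← map_inv₀, ← hunit]
    exact hWV _ ((u⁻¹ : Wˣ) : W).2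
  have hord : P.ord (ι h) = n := by
    rw [hu', map_mul, map_zpow₀, P.ord_mul ((map_ne_zero ι).mpr huF)
      (zpow_ne_zero _ ((map_ne_zero ι).mpr hwF)), hordu, zero_add, P.ord_zpow, hP w hw, mul_one]
  obtain ⟨q, hq⟩ := hord ▸ hdvd P
  refine ⟨(w : F1) ^ q, ((u : W) : F1), (u : W).2, ?_, ?_⟩
  · rw [← hunit]
    exact ((u⁻¹ : Wˣ) : W).2
  · rw [hu', hq, ← zpow_natCast, ← zpow_mul, mul_comm q]

end Unram

end Fermat.Agent.S18
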