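import Fermat.Agent.S18.WrapFinal

/-!
# S18 wrapper, general place map

`s18_w_general_along` / `s18_w_general`: the wrapper of `Wrapper.lean` / `WrapFinal.lean` for an
ARBITRARY place reduction map `r` (not only the one chosen by `ReductionInputsAlong`): if
`m • D` is principal and `r_* D` is principal then `D` is principal.
-/

set_option autoImplicit false
set_option synthInstance.maxHeartbeats 400000
set_option linter.unusedSectionVars false
set_option linter.style.haveILetI false

open ModularCurve AlgebraicCurve HahnSeries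

noncomputable section

namespace Fermat.Agent.S18

open Fermat.Agent.S24

section Main

variable {L : Type*} [Field L] [Algebra ℚ L] (A : ValuationSubring L)
variable {k : Type*} [Field k] (π : A →+* k) (N : ℕ)

/-- The wrapper for an arbitrary place map `r`: `(INJ)` + `(D4)` imply that a divisor `D` with
`m • D` principal and `r_* D` principal is principal. -/
theorem s18_w_general_along (hπ : Function.Surjective π)
    (hconst : ∀ f : modularFunctionFieldFullC k N,
      (∀ Q : Place k (modularFunctionFieldFullC k N), Q.ord f = 0) →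
        ∃ c : k, f = algebraMap k (modularFunctionFieldFullC k N) c)
    (m : ℕ) (hm0 : 0 < m)
    (hinj : ∀ (y₁ y₂ : LaurentSeries A)
      (h₁ : coeffMap A.subtype y₁ ∈ laurentBaseChange L (modularFunctionFieldFull N))
      (h₂ : coeffMap A.subtype y₂ ∈ laurentBaseChange L (modularFunctionFieldFull N)),
      coeffMap π y₁ = coeffMap π y₂ → coeffMap π y₂ ≠ 0 →
      (∀ P : Place L (laurentBaseChange L (modularFunctionFieldFull N)),
        (m : ℤ) ∣ P.ord ((⟨coeffMap A.subtype y₁, h₁⟩ :
          laurentBaseChange L (modularFunctionFieldFull N)) / ⟨coeffMap A.subtype y₂, h₂⟩)) →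
      ∃ x : laurentBaseChange L (modularFunctionFieldFull N),
        x ^ m = (⟨coeffMap A.subtype y₁, h₁⟩ :
          laurentBaseChange L (modularFunctionFieldFull N)) / ⟨coeffMap A.subtype y₂, h₂⟩)
    (r : Place L (laurentBaseChange L (modularFunctionFieldFull N)) →
      Place k (modularFunctionFieldFullC k N))
    (hr : IsPlaceReductionAlong A π N r) (hgen : PrincipalGeneratedByIntegral A π N)
    (D : Divisor L (laurentBaseChange L (modularFunctionFieldFull N)))
    (hmD : m • D ∈
      Divisor.principal (K := L) (F := laurentBaseChange L (modularFunctionFieldFull N)))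
    (hrD : Finsupp.mapDomain r D ∈
      Divisor.principal (K := k) (F := modularFunctionFieldFullC k N)) :
    D ∈ Divisor.principal (K := L) (F := laurentBaseChange L (modularFunctionFieldFull N)) := by
  obtain ⟨u, ub, hub, hured, hu1, hu2⟩ := s18_w_good_of_principal hr hgen hmD
  have hu0 : u ≠ 0 := hured.ne_zero hub
  obtain ⟨gb, hgb0, hgb⟩ := hrD
  -- `ub / gb ^ m` has zero divisor, hence is a constant
  have hzero : ∀ Q : Place k (modularFunctionFieldFullC k N), Q.ord (ub / gb ^ m) = 0 := by
    intro Q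
    rw [div_eq_mul_inv, Q.ord_mul hub (inv_ne_zero (pow_ne_zero m hgb0)), Q.ord_inv, ord_pow,
      ← hu2 Q, Finsupp.mapDomain_smul, Finsupp.smul_apply, hgb Q, nsmul_eq_mul]
    ring
  obtain ⟨c, hc⟩ := hconst _ hzero
  have hc0 : c ≠ 0 := by
    intro h0
    rw [h0, map_zero, div_eq_zero_iff] at hc
    rcases hc with hc | hc
    · exact hub hc
    · exact pow_ne_zero m hgb0 hc
  obtain ⟨a, rfl⟩ := hπ c
  have ha0 : (a : L) ≠ 0 := by
    intro h0
    apply hc0
    have : a = 0 := Subtype.ext h0
    rw [this, map_zero]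
  -- lift `gb`
  obtain ⟨g, hgred⟩ := s18_w_exists_lift A π N hπ gb
  have hg0 : g ≠ 0 := hgred.ne_zero hgb0
  have haF : algebraMap L (laurentBaseChange L (modularFunctionFieldFull N)) (a : L) ≠ 0 :=
    (_root_.map_ne_zero _).mpr ha0
  have hcF : algebraMap k (modularFunctionFieldFullC k N) (π a) ≠ 0 :=
    (_root_.map_ne_zero _).mpr hc0
  -- the function `hh = u / (a * g ^ m)` has reduction `1`
  have hhred : s18_w_Red A π N
      (u / (algebraMap L (laurentBaseChange L (modularFunctionFieldFull N)) (a : L) * g ^ m))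
      1 := by
    have h1 := hured.div ((s18_w_Red.const (π := π) (N := N) a).mul (hgred.pow m))
      (mul_ne_zero hcF (pow_ne_zero m hgb0))
    have h2 : ub / (algebraMap k (modularFunctionFieldFullC k N) (π a) * gb ^ m) = 1 := by
      rw [← hc]
      field_simp
    rw [h2] at h1
    exact h1
  obtain ⟨y₁, y₂, h₁, h₂, hred, hne, hheq⟩ := hhred.exists_equal
  have hord : ∀ P : Place L (laurentBaseChange L (modularFunctionFieldFull N)),
      P.ord (u / (algebraMap L (laurentBaseChange L (modularFunctionFieldFull N)) (a : L)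
        * g ^ m)) = m * (D P - P.ord g) := by
    intro P
    rw [div_eq_mul_inv, P.ord_mul hu0 (inv_ne_zero (mul_ne_zero haF (pow_ne_zero m hg0))),
      P.ord_inv, P.ord_mul haF (pow_ne_zero m hg0), ord_algebraMap, ord_pow, ← hu1 P,
      Finsupp.smul_apply, nsmul_eq_mul]
    ring
  obtain ⟨x, hx⟩ := hinj y₁ y₂ h₁ h₂ hred hne (fun P => by
    rw [← hheq, hord P]
    exact dvd_mul_right _ _)
  rw [← hheq] at hx
  have hx0 : x ≠ 0 := by
    intro h0
    rw [h0, zero_pow hm0.ne'] at hx
    exact div_ne_zero hu0 (mul_ne_zero haF (pow_ne_zero m hg0)) hx.symm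
  -- `D` is the divisor of `x * g`
  refine ⟨x * g, mul_ne_zero hx0 hg0, fun P => ?_⟩
  have h1 := congrArg P.ord hx
  rw [ord_pow, hord P] at h1
  have hm' : (m : ℤ) ≠ 0 := Nat.cast_ne_zero.mpr hm0.ne'
  have h2 := mul_left_cancel₀ hm' h1
  rw [P.ord_mul hx0 hg0, h2]
  ring

end Main

/-- S18 for an arbitrary place reduction map `r`, from `(INJ)`: if `m • D` is principal
(`ℓ ∤ m`) and `r_* D` is principal, then `D` is principal. -/
theorem s18_w_general (N : ℕ) [NeZero N] {ℓ : ℕ} [Fact ℓ.Prime] (hℓN : ¬ ℓ ∣ N)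
    (A : ValuationSubring (AlgebraicClosure ℚ)) (hA : A.LiesOverPrime ℓ)
    (hinj : ∀ (m : ℕ), 0 < m → ¬ ℓ ∣ m → ∀ (y₁ y₂ : LaurentSeries A)
      (h₁ : coeffMap A.subtype y₁ ∈ modularFunctionFieldBar N)
      (h₂ : coeffMap A.subtype y₂ ∈ modularFunctionFieldBar N),
      coeffMap (IsLocalRing.residue A) y₁ = coeffMap (IsLocalRing.residue A) y₂ →
      coeffMap (IsLocalRing.residue A) y₂ ≠ 0 →
      (∀ P : Place (AlgebraicClosure ℚ) (modularFunctionFieldBar N),
        (m : ℤ) ∣ P.ord ((⟨coeffMap A.subtype y₁, h₁⟩ : modularFunctionFieldBar N) /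
          ⟨coeffMap A.subtype y₂, h₂⟩)) →
      ∃ x : modularFunctionFieldBar N,
        x ^ m = (⟨coeffMap A.subtype y₁, h₁⟩ : modularFunctionFieldBar N) /
          ⟨coeffMap A.subtype y₂, h₂⟩)
    (r : Place (AlgebraicClosure ℚ) (modularFunctionFieldBar N) →
      Place (IsLocalRing.ResidueField A)
        (modularFunctionFieldFullC (IsLocalRing.ResidueField A) N))
    (hr : ModularCurve.IsPlaceReductionModL A N r)
    (hgen : ModularCurve.PrincipalGeneratedByIntegral A (IsLocalRing.residue A) N)
    (m : ℕ) (hm : ¬ ℓ ∣ m)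
    (D : Divisor (AlgebraicClosure ℚ) (modularFunctionFieldBar N))
    (hmD : m • D ∈
      Divisor.principal (K := AlgebraicClosure ℚ) (F := modularFunctionFieldBar N))
    (hrD : Finsupp.mapDomain r D ∈
      Divisor.principal (K := IsLocalRing.ResidueField A)
        (F := modularFunctionFieldFullC (IsLocalRing.ResidueField A) N)) :
    D ∈ Divisor.principal (K := AlgebraicClosure ℚ) (F := modularFunctionFieldBar N) := by
  have hm0 : 0 < m := Nat.pos_of_ne_zero (fun h0 => hm (h0 ▸ dvd_zero ℓ))
  haveI := s18_w_charP A ℓ hA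
  haveI := s18_w_isAlgClosed A
  exact s18_w_general_along A (IsLocalRing.residue A) N IsLocalRing.residue_surjective
    (fun f hf => s18_const_of_ord_eq_zero (IsLocalRing.ResidueField A) N ℓ hℓN f hf) m hm0
    (hinj m hm0 hm) r hr hgen D hmD hrD

end Fermat.Agent.S18
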