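import Mathlib
import Fermat.Prelude.Def_ModularCurve_ReductionModL

/-!
# S18 wrapper, part 2: functions with a reduction

`s18_w_Red A π N f f̄` : the function `f` of the characteristic-zero function field is a quotient
`y₁ / y₂` of `A`-integral series whose reductions have quotient `f̄` (with `ȳ₂ ≠ 0`).
The relation is multiplicative, every `f̄` has a lift, and `Red f 1` is exactly the input shape of
the injectivity statement `(INJ)`.
-/

set_option autoImplicit false
set_option synthInstance.maxHeartbeats 400000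
set_option linter.unusedSectionVars false
set_option linter.style.haveILetI false

open ModularCurve AlgebraicCurve HahnSeries

noncomputable section

namespace Fermat.Agent.S18

section Red

variable {L : Type*} [Field L] [Algebra ℚ L] (A : ValuationSubring L)
variable {k : Type*} [Field k] (π : A →+* k) (N : ℕ)

/-- `f` has reduction `f̄`. -/
def s18_w_Red (f : laurentBaseChange L (modularFunctionFieldFull N))
    (fb : modularFunctionFieldFullC k N) : Prop :=
  ∃ y₁ y₂ : LaurentSeries A, coeffMap π y₂ ≠ 0 ∧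
    coeffMap A.subtype y₂ ∈ laurentBaseChange L (modularFunctionFieldFull N) ∧
    (f : LaurentSeries L) * coeffMap A.subtype y₂ = coeffMap A.subtype y₁ ∧
    (fb : LaurentSeries k) * coeffMap π y₂ = coeffMap π y₁

theorem s18_w_coeffMap_subtype_injective :
    Function.Injective (coeffMap A.subtype : LaurentSeries A → LaurentSeries L) := by
  intro x y hxy
  ext n
  exact congrArg (fun z => z.coeff n) hxy

variable {A π N}

theorem s18_w_Red.of_integral (y : LaurentSeries A)
    (hy : coeffMap A.subtype y ∈ laurentBaseChange L (modularFunctionFieldFull N))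
    (hyk : coeffMap π y ∈ modularFunctionFieldFullC k N) :
    s18_w_Red A π N ⟨coeffMap A.subtype y, hy⟩ ⟨coeffMap π y, hyk⟩ :=
  ⟨y, 1, by rw [map_one]; exact one_ne_zero, by rw [map_one]; exact one_mem _,
    by rw [map_one, mul_one], by rw [map_one, mul_one]⟩

theorem s18_w_Red.one : s18_w_Red A π N 1 1 :=
  ⟨1, 1, by rw [map_one]; exact one_ne_zero, by rw [map_one]; exact one_mem _,
    by rw [map_one]; simp, by rw [map_one]; simp⟩

theorem s18_w_Red.zero : s18_w_Red A π N 0 0 :=
  ⟨0, 1, by rw [map_one]; exact one_ne_zero, by rw [map_one]; exact one_mem _,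
    by rw [map_zero]; simp, by rw [map_zero]; simp⟩

theorem s18_w_Red.mul {f g : laurentBaseChange L (modularFunctionFieldFull N)}
    {fb gb : modularFunctionFieldFullC k N} (hf : s18_w_Red A π N f fb)
    (hg : s18_w_Red A π N g gb) : s18_w_Red A π N (f * g) (fb * gb) := by
  obtain ⟨y₁, y₂, hy, hmem, h1, h2⟩ := hf
  obtain ⟨z₁, z₂, hz, hmem', h1', h2'⟩ := hg
  refine ⟨y₁ * z₁, y₂ * z₂, ?_, ?_, ?_, ?_⟩
  · rw [map_mul]; exact mul_ne_zero hy hz
  · rw [map_mul]; exact mul_mem hmem hmem'
  · rw [map_mul, map_mul, ← h1, ← h1']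
    push_cast
    ring
  · rw [map_mul, map_mul, ← h2, ← h2']
    push_cast
    ring

theorem s18_w_Red.ne_zero {f : laurentBaseChange L (modularFunctionFieldFull N)}
    {fb : modularFunctionFieldFullC k N} (hf : s18_w_Red A π N f fb) (hfb : fb ≠ 0) : f ≠ 0 := by
  obtain ⟨y₁, y₂, hy, hmem, h1, h2⟩ := hf
  intro h0
  rw [h0] at h1
  have h3 : coeffMap A.subtype y₁ = 0 := by rw [← h1]; simp
  have h4 : y₁ = 0 := s18_w_coeffMap_subtype_injective A (by rw [h3, map_zero])
  rw [h4, map_zero] at h2
  rcases mul_eq_zero.mp h2 with h5 | h5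
  · exact hfb (Subtype.ext h5)
  · exact hy h5

theorem s18_w_Red.inv {f : laurentBaseChange L (modularFunctionFieldFull N)}
    {fb : modularFunctionFieldFullC k N} (hf : s18_w_Red A π N f fb) (hfb : fb ≠ 0) :
    s18_w_Red A π N f⁻¹ fb⁻¹ := by
  have hf0 : f ≠ 0 := hf.ne_zero hfb
  obtain ⟨y₁, y₂, hy, hmem, h1, h2⟩ := hf
  have hfb' : (fb : LaurentSeries k) ≠ 0 := fun h => hfb (Subtype.ext h)
  have hf' : (f : LaurentSeries L) ≠ 0 := fun h => hf0 (Subtype.ext h)
  refine ⟨y₂, y₁, ?_, ?_, ?_, ?_⟩
  · rw [← h2]; exact mul_ne_zero hfb' hy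
  · rw [← h1]; exact mul_mem f.2 hmem
  · rw [← h1]
    push_cast
    field_simp
  · rw [← h2]
    push_cast
    field_simp

theorem s18_w_Red.div {f g : laurentBaseChange L (modularFunctionFieldFull N)}
    {fb gb : modularFunctionFieldFullC k N} (hf : s18_w_Red A π N f fb)
    (hg : s18_w_Red A π N g gb) (hgb : gb ≠ 0) : s18_w_Red A π N (f / g) (fb / gb) := by
  rw [div_eq_mul_inv, div_eq_mul_inv]
  exact hf.mul (hg.inv hgb)

theorem s18_w_Red.pow {f : laurentBaseChange L (modularFunctionFieldFull N)}
    {fb : modularFunctionFieldFullC k N} (hf : s18_w_Red A π N f fb) (n : ℕ) :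
    s18_w_Red A π N (f ^ n) (fb ^ n) := by
  induction n with
  | zero => rw [pow_zero, pow_zero]; exact s18_w_Red.one
  | succ n ih => rw [pow_succ, pow_succ]; exact ih.mul hf

theorem s18_w_Red.const (a : A) :
    s18_w_Red A π N (algebraMap L (laurentBaseChange L (modularFunctionFieldFull N)) (a : L))
      (algebraMap k (modularFunctionFieldFullC k N) (π a)) := by
  refine ⟨HahnSeries.single 0 a, 1, by rw [map_one]; exact one_ne_zero,
    by rw [map_one]; exact one_mem _, ?_, ?_⟩
  · rw [map_one, mul_one, coeffMap_single]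
    show algebraMap L (LaurentSeries L) (a : L) = _
    rw [algebraMap_laurentSeries_eq_single]
    rfl
  · rw [map_one, mul_one, coeffMap_single]
    show algebraMap k (LaurentSeries k) (π a) = _
    rw [algebraMap_laurentSeries_eq_single]

/-- `Red f 1` gives the input shape of `(INJ)`. -/
theorem s18_w_Red.exists_equal {f : laurentBaseChange L (modularFunctionFieldFull N)}
    (hf : s18_w_Red A π N f 1) :
    ∃ (y₁ y₂ : LaurentSeries A)
      (h₁ : coeffMap A.subtype y₁ ∈ laurentBaseChange L (modularFunctionFieldFull N))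
      (h₂ : coeffMap A.subtype y₂ ∈ laurentBaseChange L (modularFunctionFieldFull N)),
      coeffMap π y₁ = coeffMap π y₂ ∧ coeffMap π y₂ ≠ 0 ∧
      f = (⟨coeffMap A.subtype y₁, h₁⟩ : laurentBaseChange L (modularFunctionFieldFull N)) /
        ⟨coeffMap A.subtype y₂, h₂⟩ := by
  obtain ⟨y₁, y₂, hy, hmem, h1, h2⟩ := hf
  have hmem₁ : coeffMap A.subtype y₁ ∈ laurentBaseChange L (modularFunctionFieldFull N) := by
    rw [← h1]; exact mul_mem f.2 hmem
  refine ⟨y₁, y₂, hmem₁, hmem, ?_, hy, ?_⟩
  · rw [← h2]; simp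
  · have hy2 : (⟨coeffMap A.subtype y₂, hmem⟩ :
        laurentBaseChange L (modularFunctionFieldFull N)) ≠ 0 := by
      intro h0
      have h3 : coeffMap A.subtype y₂ = 0 := congrArg Subtype.val h0
      have h4 : y₂ = 0 := s18_w_coeffMap_subtype_injective A (by rw [h3, map_zero])
      exact hy (by rw [h4, map_zero])
    rw [eq_div_iff hy2]
    exact Subtype.ext h1

end Red

section Lift

variable {L : Type*} [Field L] [Algebra ℚ L] (A : ValuationSubring L)
variable {k : Type*} [Field k] (π : A →+* k) (N : ℕ)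

/-- Elements of the `k`-algebra generated by the `j̄(q^d)` lift to `A`-integral series of the
function field. -/
theorem s18_w_lift_adjoin (hπ : Function.Surjective π) (x : LaurentSeries k)
    (hx : x ∈ Algebra.adjoin k (divisorExpansionsC k N)) :
    ∃ p : LaurentSeries A,
      coeffMap A.subtype p ∈ laurentBaseChange L (modularFunctionFieldFull N) ∧
      coeffMap π p = x := by
  induction hx using Algebra.adjoin_induction with
  | mem x hx =>
      obtain ⟨d, hd0, hd, rfl⟩ := hx
      haveI := hd0
      refine ⟨qExpand A d (jqModC A), ?_, ?_⟩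
      · rw [coeffMap_qExpand, coeffMap_jqModC]
        have h1 : qExpand L d (jqModC L) = coeffEmb L (qExpand ℚ d jq) := by
          rw [coeffEmb, coeffMap_qExpand, ← jqModC_rat, coeffMap_jqModC]
        rw [h1]
        exact coeffEmb_mem_laurentBaseChange L (jqd_mem_full N hd)
      · rw [coeffMap_qExpand, coeffMap_jqModC]
  | algebraMap c =>
      obtain ⟨a, rfl⟩ := hπ c
      refine ⟨HahnSeries.single 0 a, ?_, ?_⟩
      · rw [coeffMap_single]
        show HahnSeries.single 0 (a : L) ∈ _
        rw [← algebraMap_laurentSeries_eq_single]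
        exact (laurentBaseChange L (modularFunctionFieldFull N)).algebraMap_mem _
      · rw [coeffMap_single, algebraMap_laurentSeries_eq_single]
  | add x y _ _ hx hy =>
      obtain ⟨p, hp, rfl⟩ := hx
      obtain ⟨q, hq, rfl⟩ := hy
      exact ⟨p + q, by rw [map_add]; exact add_mem hp hq, map_add _ _ _⟩
  | mul x y _ _ hx hy =>
      obtain ⟨p, hp, rfl⟩ := hx
      obtain ⟨q, hq, rfl⟩ := hy
      exact ⟨p * q, by rw [map_mul]; exact mul_mem hp hq, map_mul _ _ _⟩

/-- Every function of the characteristic-`ℓ` function field is the reduction of a function of the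
characteristic-zero function field. -/
theorem s18_w_exists_lift (hπ : Function.Surjective π) (gb : modularFunctionFieldFullC k N) :
    ∃ g : laurentBaseChange L (modularFunctionFieldFull N), s18_w_Red A π N g gb := by
  by_cases h0 : gb = 0
  · exact ⟨0, h0 ▸ s18_w_Red.zero⟩
  obtain ⟨r, hr, s, hs, hrs⟩ := IntermediateField.mem_adjoin_iff_div.mp gb.2
  obtain ⟨p, hp, rfl⟩ := s18_w_lift_adjoin A π N hπ r hr
  obtain ⟨q, hq, rfl⟩ := s18_w_lift_adjoin A π N hπ s hs
  have hs0 : coeffMap π q ≠ 0 := by
    intro h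
    rw [h, div_zero] at hrs
    exact h0 (Subtype.ext hrs)
  have hQ0 : coeffMap A.subtype q ≠ 0 := by
    intro h3
    have h4 : q = 0 := s18_w_coeffMap_subtype_injective A (by rw [h3, map_zero])
    exact hs0 (by rw [h4, map_zero])
  refine ⟨(⟨coeffMap A.subtype p, hp⟩ : laurentBaseChange L (modularFunctionFieldFull N)) /
    ⟨coeffMap A.subtype q, hq⟩, p, q, hs0, hq, ?_, ?_⟩
  · push_cast
    field_simp
  · rw [hrs]
    field_simp

end Lift

end Fermat.Agent.S18
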