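import Mathlib
import Fermat.Prelude.Def_FLTPrelim_Ramification

/-!
# S18 wrapper, part 1: the residue field of a valuation ring of an algebraically closed field
-/

set_option autoImplicit false

namespace Fermat.Agent.S18

open Polynomial

/-- The residue field of a valuation ring lying over `ℓ` has characteristic `ℓ`. -/
theorem s18_w_charP {L : Type*} [Field L] (A : ValuationSubring L) (ℓ : ℕ) [Fact ℓ.Prime]
    (hA : A.LiesOverPrime ℓ) : CharP (IsLocalRing.ResidueField A) ℓ := by
  refine (CharP.charP_iff_prime_eq_zero (Fact.out : ℓ.Prime)).mpr ?_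
  obtain ⟨hmem, hmax⟩ := ValuationSubring.mem_nonunits_iff_exists_mem_maximalIdeal.mp hA
  have h2 : IsLocalRing.residue A ⟨(ℓ : L), hmem⟩ = 0 :=
    (IsLocalRing.residue_eq_zero_iff _).mpr hmax
  have h3 : (⟨(ℓ : L), hmem⟩ : A) = ((ℓ : ℕ) : A) := Subtype.ext (by simp)
  rw [h3, map_natCast] at h2
  exact h2

/-- The residue field of a valuation ring of an algebraically closed field is algebraically
closed. -/
theorem s18_w_isAlgClosed {L : Type*} [Field L] [IsAlgClosed L] (A : ValuationSubring L) :
    IsAlgClosed (IsLocalRing.ResidueField A) := by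
  apply IsAlgClosed.of_exists_root
  intro p hp hirr
  obtain ⟨q, hq, hdeg, hqm⟩ := lifts_and_degree_eq_and_monic
    ((lifts_iff_coeff_lifts p).mpr fun n => IsLocalRing.residue_surjective (p.coeff n)) hp
  have hdeg' : (q.map (algebraMap A L)).degree ≠ 0 := by
    rw [hqm.degree_map, hdeg]
    exact (degree_pos_of_irreducible hirr).ne'
  obtain ⟨x, hx⟩ := IsAlgClosed.exists_root (q.map (algebraMap A L)) hdeg'
  have hint : IsIntegral A x := ⟨q, hqm, by rw [← eval_map]; exact hx⟩
  obtain ⟨y, hy⟩ := (IsIntegrallyClosed.isIntegral_iff (R := A) (K := L)).mp hint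
  refine ⟨IsLocalRing.residue A y, ?_⟩
  have h0 : q.eval y = 0 := by
    have h1 := hx
    rw [IsRoot.def, ← hy, eval_map_apply] at h1
    exact Subtype.ext h1
  rw [← hq, eval_map, eval₂_at_apply, h0, map_zero]

end Fermat.Agent.S18
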